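/-
MAZUR project, node **[MZ-J]** (S12 from S15).  Owner helper21.  Prefix `mzj_`.

THE SEAMS OF THE NODE: every cell of [MZ-J] proves one closed `theorem mzj_xx_main : mzj_XX_stmt`
(or, for cells already landed in another shape, a theorem that visibly implies it).  Everything is
stated for an arbitrary integral Weierstrass model `W : WeierstrassCurve ℤ` with the `ℚ̄`-points
`s58_E W` (Mathlib's Galois action); the Frey curve enters only in `MZ/J/Top.lean`.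

Chain of the proof (ruling #3072): `W₀ = W ⊇ N` cofixed line; `W_(n+1) = W_n / M_n` (Vélu),
`Q_(n+1)` = rational point of order `p` = image of `W_n[p]`; S15 + [J-UN] ⟹ `W_(n+1)[p]` unramified
outside `p`; S14 ⟹ complement `M_(n+1)`; Minkowski ⟹ `ψ_n(W[p^n])` pointwise rational;
a Frobenius count on `W` ⟹ `p^n ≤ 2 ℓ₀ + 1` for all `n`.
-/
import Mathlib
import Fermat.Agent.S58.Seams
import Fermat.Agent.S05.NoTorsion
import Fermat.Prelude.Def_EllipticCurve_ZeroComponentAt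
import Fermat.Prelude.Def_ExtCitation_AdmissibleExtension_v2

set_option autoImplicit false

namespace Fermat.Agent.MZ

open WeierstrassCurve WeierstrassCurve.Affine Fermat.Agent.S58

/-- `W` is semistable at `ℓ` AS A MODEL: good or multiplicative reduction. -/
def mzj_SS (W : WeierstrassCurve ℤ) (ℓ : ℕ) : Prop := ¬ (ℓ : ℤ) ∣ W.Δ ∨ ¬ (ℓ : ℤ) ∣ W.c₄

/-- a Galois-stable subgroup of `W(ℚ̄)` -/
def mzj_Stable {W : WeierstrassCurve ℤ} (N : AddSubgroup (s58_E W)) : Prop :=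
  ∀ σ : s58_G, ∀ x ∈ N, σ • x ∈ N

/-- all the `2`-torsion of `W` is rational -/
def mzj_TwoRat (W : WeierstrassCurve ℤ) : Prop :=
  ∀ T : s58_E W, 2 • T = 0 → ∀ σ : s58_G, σ • T = T

/-- **the frozen statement S15**, as a proposition (hypothesis of the whole node). -/
def mzj_S15_stmt : Prop :=
  ∀ {p : ℕ} (_ : p.Prime) (_ : p ∉ ({2, 3, 5, 7, 13} : Finset ℕ))
    (W : WeierstrassCurve ℤ) (_ : W.Δ ≠ 0)
    (Q : ((W.map (Int.castRingHom ℚ))⁄(AlgebraicClosure ℚ)).Point)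
    (_ : ∀ σ : AlgebraicClosure ℚ ≃ₐ[ℚ] AlgebraicClosure ℚ, σ • Q = Q)
    (_ : addOrderOf Q = p)
    (_ : (2 : ℤ) ∣ W.Δ) (_ : ¬ (2 : ℤ) ∣ W.c₄)
    (_ : ∀ A : ValuationSubring (AlgebraicClosure ℚ), A.LiesOverPrime 2 →
      ¬ W.InZeroComponentAt A Q)
    (_ : (3 : ℤ) ∣ W.Δ) (_ : ¬ (3 : ℤ) ∣ W.c₄)
    (_ : ∀ A : ValuationSubring (AlgebraicClosure ℚ), A.LiesOverPrime 3 →
      ¬ W.InZeroComponentAt A Q)
    {ℓ : ℕ} (_ : ℓ.Prime) (_ : ℓ ≠ p) (_ : (ℓ : ℤ) ∣ W.Δ) (_ : ¬ (ℓ : ℤ) ∣ W.c₄)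
    (A : ValuationSubring (AlgebraicClosure ℚ)) (_ : A.LiesOverPrime ℓ),
    ¬ W.InZeroComponentAt A Q

/-- **[J-QUOT] + [J-SS]**: the quotient of `W` by a Galois-stable subgroup of prime order `p ≥ 5`
exists as an INTEGRAL model, and semistability of the model at every prime `ℓ ≠ p` is inherited
(`ℓ = 2`: `c₄` stays odd; `ℓ` odd: the `2`-power-torsion / cusp argument of ruling #3072 (R3)). -/
def mzj_Quot_stmt : Prop :=
  ∀ (W : WeierstrassCurve ℤ), W.Δ ≠ 0 → ∀ {p : ℕ}, p.Prime → 5 ≤ p →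
    ∀ N : AddSubgroup (s58_E W), Nat.card N = p → mzj_Stable N →
      ∃ (W' : WeierstrassCurve ℤ) (φ : s58_E W →+ s58_E W'),
        W'.Δ ≠ 0 ∧ Function.Surjective φ ∧ φ.ker = N ∧ (∀ (σ : s58_G) x, φ (σ • x) = σ • φ x) ∧
        (¬ (2 : ℤ) ∣ W.c₄ → ¬ (2 : ℤ) ∣ W'.c₄) ∧
        ∀ ℓ : ℕ, ℓ.Prime → ℓ ≠ 2 → ℓ ≠ p → mzj_SS W ℓ → mzj_SS W' ℓ

/-- **[J-SZ]** (helper19 (G3)): a rational point of prime order `p ≠ s` in the zero component at
`A ∣ s` forces `p ≤ 2 s + 1`. -/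
def mzj_Size_stmt : Prop :=
  ∀ (W : WeierstrassCurve ℤ), W.Δ ≠ 0 → ∀ {p s : ℕ}, p.Prime → s.Prime → p ≠ s →
    ∀ A : ValuationSubring s58_Qb, A.LiesOverPrime s →
      ∀ Q : s58_E W, (∀ σ : s58_G, σ • Q = Q) → addOrderOf Q = p →
        W.InZeroComponentAt A Q → p ≤ 2 * s + 1

/-- **[J-TW]** (S13's component map `twC` / `tw_sigma_sub_mem_E0`, instantiated): at a
multiplicative prime of a model with full rational `2`-torsion, `σ P - P ∈ E⁰` for inertia. -/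
def mzj_Tw_stmt : Prop :=
  ∀ (W : WeierstrassCurve ℤ), W.Δ ≠ 0 → mzj_TwoRat W →
    ∀ {ℓ : ℕ}, ℓ.Prime → (ℓ : ℤ) ∣ W.Δ → ¬ (ℓ : ℤ) ∣ W.c₄ →
      ∀ A : ValuationSubring s58_Qb, A.LiesOverPrime ℓ →
        ∀ σ ∈ A.inertiaSubgroupIn ℚ, ∀ P : s58_E W, W.InZeroComponentAt A (σ • P - P)

/-- **[J-CY]** (helper19 (G1)): on a cofixed line the Galois group acts through the mod `p`
cyclotomic character (no Weil pairing: Frobenius seam + weak Chebotarev + two subgroups). -/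
def mzj_Cyclo_stmt : Prop :=
  ∀ (W : WeierstrassCurve ℤ), W.Δ ≠ 0 → (2 : ℤ) ∣ W.Δ → ¬ (2 : ℤ) ∣ W.c₄ →
    ∀ (p : ℕ) [Fact p.Prime], 11 ≤ p →
      ∀ N : AddSubgroup (s58_E W), Nat.card N = p → mzj_Stable N →
        (∀ (σ : s58_G) (x : s58_E W), p • x = 0 → σ • x - x ∈ N) →
          ∀ (σ : s58_G), ∀ x ∈ N, σ • x = ExtCitation.cycloExp p σ • x

/-- **[J-ATP]** (helper19 (G4)): the kernel of reduction at `A ∣ p` inside `W[p^n]`, for a model
semistable at `p` with a cofixed line `N` carrying the cyclotomic character. -/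
def mzj_AtP_stmt : Prop :=
  ∀ (W : WeierstrassCurve ℤ), W.Δ ≠ 0 → mzj_TwoRat W →
    ∀ (p : ℕ) [Fact p.Prime], 5 ≤ p → mzj_SS W p →
      ∀ N : AddSubgroup (s58_E W), Nat.card N = p → mzj_Stable N →
        (∀ (σ : s58_G) (x : s58_E W), p • x = 0 → σ • x - x ∈ N) →
        (∀ (σ : s58_G), ∀ x ∈ N, σ • x = ExtCitation.cycloExp p σ • x) →
          ∀ A : ValuationSubring s58_Qb, A.LiesOverPrime p → ∀ n : ℕ,
            ∃ Z : AddSubgroup (s58_E W),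
              (∀ x, x ∈ Z ↔ p ^ n • x = 0 ∧ Fermat.Agent.S05.InKerRed A x) ∧
              Nat.card Z = p ^ n ∧
              (∀ σ ∈ A.decompositionSubgroup ℚ, ∀ x ∈ Z, σ • x ∈ Z) ∧
              (∀ x ∈ Z, p • x = 0 → x ∈ N) ∧
              (∀ σ ∈ A.inertiaSubgroupIn ℚ, ∀ x : s58_E W, p ^ n • x = 0 → σ • x - x ∈ Z)

/-- **[J-CHI]**: the mod `p` cyclotomic character is ramified at `p`: for every place `A ∣ p`
some element of the inertia group of `A` has `χ ≠ 1` (else `χ` is unramified everywhere, hence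
trivial by Minkowski `g1_char_eq_one'`, but `ζ_p ∉ ℚ`). -/
def mzj_ChiRam_stmt : Prop :=
  ∀ (p : ℕ) [Fact p.Prime], 3 ≤ p →
    ∀ A : ValuationSubring s58_Qb, A.LiesOverPrime p →
      ∃ σ ∈ A.inertiaSubgroupIn ℚ, ((ExtCitation.cycloExp p σ : ℕ) : ZMod p) ≠ 1

/-- **[J-END]**: the Frobenius count.  If for every `n` the Galois group acts trivially on
`W[p^n]` modulo a subgroup with at most `p^n` elements, contradiction (one good prime `ℓ₀` of `W`,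
a Frobenius `σ` there: `≥ p^n` fixed points in `W[p^n]` inject into `W̃(𝔽_ℓ₀)`, `≤ 2ℓ₀ + 1`). -/
def mzj_End_stmt : Prop :=
  ∀ (W : WeierstrassCurve ℤ), W.Δ ≠ 0 → ∀ {p : ℕ}, p.Prime → p ≠ 2 →
    (∀ n : ℕ, ∃ K : AddSubgroup (s58_E W), Nat.card K = p ^ n ∧
      ∀ (σ : s58_G) (x : s58_E W), p ^ n • x = 0 → σ • x - x ∈ K) → False

end Fermat.Agent.MZ
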