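/-
MAZUR project, node [MZ-J], cell [J-CHI] (helper24).  Prefix `mzj_ch_`.

**The mod `p` cyclotomic character is ramified at `p`** (`p ≥ 3`): for every place `A ∣ p` of `ℚ̄`
some element of the inertia group of `A` has `χ_p ≠ 1`.

Proof: otherwise `χ_p` is trivial on the inertia group of `A ∣ p`; it is trivial on the inertia
groups above every `ℓ ≠ p` (`tl_cycloChar_eq_one_of_mem_inertia`, S55) and has open kernel
(`tl_cycloChar_smooth`), so it is trivial by Minkowski (`g1_char_eq_one'`, S13); then a primitive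
`p`-th root of unity is fixed by `G_ℚ`, hence rational, hence `±1`: absurd for `p ≥ 3`.

`mzj_ch_main : mzj_ChiRam_stmt` (the seam of `MZ/J/Seams.lean`).
-/
import Mathlib
import Fermat.Agent.MZ.J.Seams
import Fermat.Agent.S13.Global.UnramifiedOne
import Fermat.Agent.S55.CycloUnram
import Fermat.Agent.S55.DualTwistHyp

set_option autoImplicit false
set_option linter.style.haveILetI false

namespace Fermat.Agent.MZ

open ExtCitation Fermat.Agent.S13 Fermat.Agent.S55 Fermat.Agent.S58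

local notation "GQ" => (AlgebraicClosure ℚ ≃ₐ[ℚ] AlgebraicClosure ℚ)

/-- a rational number which is a root of unity of odd order is `1`. -/
theorem mzj_ch_rat_pow_eq_one {x : ℚ} {n : ℕ} (hn : Odd n) (hx : x ^ n = 1) : x = 1 := by
  have h1 : (1 : ℚ) ^ n = 1 := one_pow n
  exact hn.strictMono_pow.injective (by rw [hx, h1])

/-- the kernel of the mod `p` cyclotomic character is open. -/
theorem mzj_ch_isOpen_ker (p : ℕ) [Fact p.Prime] :
    IsOpen ((cycloChar p).ker : Set GQ) := by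
  obtain ⟨F, hF, hker⟩ := tl_cycloChar_smooth p
  haveI := hF
  have hle : F.fixingSubgroup ≤ (cycloChar p).ker := fun s hs =>
    MonoidHom.mem_ker.mpr (hker s hs)
  exact Subgroup.isOpen_mono hle (IntermediateField.fixingSubgroup_isOpen F)

/-- `χ_p` is not the trivial character, `p ≥ 3`. -/
theorem mzj_ch_exists_ne_one (p : ℕ) [Fact p.Prime] (h3 : 3 ≤ p) :
    ∃ σ : GQ, cycloChar p σ ≠ 1 := by
  have hp : p.Prime := Fact.out
  haveI : NeZero p := ⟨hp.ne_zero⟩
  by_contra hall
  push Not at hall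
  obtain ⟨ζ, hζ⟩ := HasEnoughRootsOfUnity.exists_primitiveRoot (AlgebraicClosure ℚ) p
  -- `ζ` is fixed by `G_ℚ`
  have hfix : ∀ σ : GQ, σ ζ = ζ := by
    intro σ
    refine (Fermat.Agent.S14.Reduction.chi_eq_one_iff p σ hζ).1 ?_
    show ((cycloExp p σ : ℕ) : ZMod p) = 1
    rw [← coe_cycloChar, hall σ, Units.val_one]
  -- hence rational
  have _ : IsAlgClosure ℚ (AlgebraicClosure ℚ) := ⟨inferInstance, AlgebraicClosure.isAlgebraic ℚ⟩
  have _ : IsGalois ℚ (AlgebraicClosure ℚ) := inferInstance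
  have hmem : ζ ∈ Set.range (algebraMap ℚ (AlgebraicClosure ℚ)) :=
    (InfiniteGalois.mem_range_algebraMap_iff_fixed ζ).mpr hfix
  obtain ⟨x, hx⟩ := hmem
  have hxp : x ^ p = 1 := by
    apply (algebraMap ℚ (AlgebraicClosure ℚ)).injective
    rw [map_pow, hx, hζ.pow_eq_one, map_one]
  have hodd : Odd p := hp.odd_of_ne_two (by omega)
  have hx1 : x = 1 := mzj_ch_rat_pow_eq_one hodd hxp
  have hζ1 : ζ = 1 := by rw [← hx, hx1, map_one]
  have := hζ.unique (hζ1 ▸ IsPrimitiveRoot.one)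
  omega

/-- **[J-CHI]**: the mod `p` cyclotomic character is ramified at `p`. -/
theorem mzj_ch_main : mzj_ChiRam_stmt := by
  intro p _ h3 A hA
  have hp : p.Prime := Fact.out
  by_contra hno
  push Not at hno
  -- `χ_p` is trivial on the inertia group of `A`
  have hA1 : ∀ σ ∈ A.inertiaSubgroupIn ℚ, cycloChar p σ = 1 := by
    intro σ hσ
    apply Units.ext
    rw [coe_cycloChar, Units.val_one]
    exact hno σ hσ
  obtain ⟨σ, hσ⟩ := mzj_ch_exists_ne_one p h3
  refine hσ (g1_char_eq_one' (cycloChar p) (mzj_ch_isOpen_ker p) (fun ℓ hℓ => ?_) σ)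
  by_cases hℓp : ℓ = p
  · subst hℓp
    exact ⟨A, hA, hA1⟩
  · obtain ⟨A', hA'⟩ := g1_exists_liesOver ℓ hℓ
    exact ⟨A', hA', fun τ hτ => tl_cycloChar_eq_one_of_mem_inertia p hℓ hℓp A' hA' hτ⟩

end Fermat.Agent.MZ
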