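/-
MAZUR project, node **[MZ-J]** (S12 from S15), cell [J-UNR] (helper19).  Prefix `mzj_un_`.

`E[p]` IS UNRAMIFIED AT `l ≠ p` AS SOON AS THE RATIONAL POINT `Q` OF ORDER `p` MISSES THE ZERO
COMPONENT AT `l` — no Tate curve, no `p ∣ ord_l Δ`:

* `mzj_un_exists_E0_torsion`: at a multiplicative prime `q` (`q ∣ Δ`, `q ∤ c₄`) the zero component
  contains a nonzero point of order `lam`, for every prime `lam ≠ q` (nodal reduction + torsion
  lifting, S58/Mult);
* `mzj_un_span`: in an abelian group whose `p`-torsion has `p²` elements, a nonzero `p`-torsion point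
  `P` of a subgroup `H` and a `p`-torsion point `Q ∉ H` generate the `p`-torsion;
* `mzj_un_mult`: `l ∣ Δ`, `l ∤ c₄`, `Q` of order `p` fixed by the inertia group of `A ∣ l`,
  `Q ∉ E⁰(A)`  ⟹  the inertia group of `A` fixes `E[p]` pointwise;
* `mzj_un_good`: the same at a prime of good reduction of the model (no hypothesis on `Q`).
-/
import Mathlib
import Fermat.Agent.S58.Mult.ZeroComp

set_option autoImplicit false

namespace Fermat.Agent.MZ

open WeierstrassCurve WeierstrassCurve.Affine WeierstrassCurve.Affine.Point IsLocalRing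
  Fermat.Agent.S58 Fermat.Agent.S13 Fermat.Agent.S05

/-- At a multiplicative prime `q` the zero component contains a nonzero point of order `lam`
(`lam ≠ q` prime). -/
theorem mzj_un_exists_E0_torsion (W : WeierstrassCurve ℤ) (hΔ0 : W.Δ ≠ 0) {lam q : ℕ}
    (hlam : lam.Prime) (hq : q.Prime) (hql : q ≠ lam) (hbad : (q : ℤ) ∣ W.Δ)
    (hc4 : ¬ (q : ℤ) ∣ W.c₄) (A : ValuationSubring s58_Qb) (hA : A.LiesOverPrime q) :
    ∃ P : s58_E W, W.InZeroComponentAt A P ∧ lam • P = 0 ∧ P ≠ 0 := by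
  classical
  have : IsAlgClosed (ResidueField A) := s58m_residue_isAlgClosed A
  have hM := s58m_model W A
  have hΔ : ((s58_WQ W)⁄s58_Qb).Δ ≠ 0 := by
    rw [s58m_curve_Δ]
    exact_mod_cast hΔ0
  have hqlam : ¬ (q : ℤ) ∣ ((lam ^ (0 + 1) : ℕ) : ℤ) := by
    intro h
    have h1 : q ∣ lam ^ (0 + 1) := by exact_mod_cast h
    have h2 : q ∣ lam := hq.dvd_of_dvd_pow h1
    exact hql ((Nat.prime_dvd_prime_iff_eq hq hlam).mp h2)
  have hunit : A.valuation (((lam ^ (0 + 1) : ℕ)) : s58_Qb) = 1 := by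
    have := (intVal_eq_one_iff A hA hq ((lam ^ (0 + 1) : ℕ) : ℤ)).mpr hqlam
    rwa [Int.cast_natCast] at this
  have hΔk : (s58m_Wk W A).Δ = 0 := by
    rw [s58m_Wk_Δ]
    exact (s58m_residue_intCast_eq_zero_iff hA hq _).mpr hbad
  have hc4k : (s58m_Wk W A).c₄ ≠ 0 := by
    rw [s58m_Wk_c₄]
    exact fun h => hc4 ((s58m_residue_intCast_eq_zero_iff hA hq _).mp h)
  have hlk : ((lam : ℕ) : ResidueField A) ≠ 0 := by
    intro h
    have h1 : residue A (((lam : ℕ) : ℤ) : A) = 0 := by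
      rw [Int.cast_natCast, map_natCast]; exact h
    have h2 : (q : ℤ) ∣ ((lam : ℕ) : ℤ) := (s58m_residue_intCast_eq_zero_iff hA hq _).mp h1
    have h3 : q ∣ lam := by exact_mod_cast h2
    exact hql ((Nat.prime_dvd_prime_iff_eq hq hlam).mp h3)
  obtain ⟨R, hR1, hR2⟩ := s58m_exists_prime_pow_order (s58m_Wk W A) hΔk hc4k lam hlam hlk 0
  obtain ⟨P, hP1, hP2⟩ := s58m_exists_torsion_lift hM hΔ hunit hR1
  refine ⟨P, (s58m_inZeroComponentAt_iff (P : s58_E W)).mpr P.2, ?_, ?_⟩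
  · simpa using hP1
  · intro h0
    apply hR2
    have h1 : P = 0 := Subtype.ext h0
    rw [pow_zero, one_smul, ← hP2, h1, _root_.map_zero]

/-- Two independent `p`-torsion points generate the `p`-torsion when it has `p²` elements. -/
theorem mzj_un_span {G : Type*} [AddCommGroup G] {p : ℕ} (hp : p.Prime)
    (hcard : Nat.card {T : G // p • T = 0} = p ^ 2) (H : AddSubgroup G) {P Q : G}
    (hP : p • P = 0) (hQ : p • Q = 0) (hP0 : P ≠ 0) (hPH : P ∈ H) (hQH : Q ∉ H)
    (x : G) (hx : p • x = 0) : ∃ a b : ℕ, x = a • P + b • Q := by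
  classical
  have hpos : 0 < p := hp.pos
  have : Finite {T : G // p • T = 0} := by
    apply Nat.finite_of_card_ne_zero
    rw [hcard]; positivity
  -- multiples of `Q` outside `H`
  have hQmul : ∀ k : ℤ, k • Q ∈ H → (p : ℤ) ∣ k := by
    intro k hk
    by_contra hnd
    have hcop : IsCoprime k (p : ℤ) :=
      ((Nat.prime_iff_prime_int.mp hp).irreducible.coprime_iff_not_dvd.mpr hnd).symm
    obtain ⟨u, v, huv⟩ := hcop
    apply hQH
    have h1 : Q = u • (k • Q) + v • ((p : ℤ) • Q) := by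
      rw [← mul_smul, ← mul_smul, ← add_smul, huv, one_smul]
    rw [h1, natCast_zsmul, hQ, smul_zero, add_zero]
    exact H.zsmul_mem hk u
  have hPmul : ∀ k : ℤ, k • P = 0 → (p : ℤ) ∣ k := by
    intro k hk
    by_contra hnd
    have hcop : IsCoprime k (p : ℤ) :=
      ((Nat.prime_iff_prime_int.mp hp).irreducible.coprime_iff_not_dvd.mpr hnd).symm
    obtain ⟨u, v, huv⟩ := hcop
    apply hP0
    have h1 : P = u • (k • P) + v • ((p : ℤ) • P) := by
      rw [← mul_smul, ← mul_smul, ← add_smul, huv, one_smul]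
    rw [h1, natCast_zsmul, hP, hk, smul_zero, smul_zero, add_zero]
  let f : Fin p × Fin p → {T : G // p • T = 0} := fun ab =>
    ⟨(ab.1 : ℕ) • P + (ab.2 : ℕ) • Q, by
      rw [smul_add, smul_comm, hP, smul_comm p, hQ, smul_zero, smul_zero, add_zero]⟩
  have hinj : Function.Injective f := by
    rintro ⟨a, b⟩ ⟨a', b'⟩ h
    have h' : (a : ℕ) • P + (b : ℕ) • Q = (a' : ℕ) • P + (b' : ℕ) • Q := congrArg Subtype.val h
    have h1 : (((b : ℕ) : ℤ) - ((b' : ℕ) : ℤ)) • Q = (((a' : ℕ) : ℤ) - ((a : ℕ) : ℤ)) • P := by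
      rw [sub_smul, sub_smul, natCast_zsmul, natCast_zsmul, natCast_zsmul, natCast_zsmul]
      rw [sub_eq_sub_iff_add_eq_add, add_comm ((b : ℕ) • Q)]
      exact h'
    have hb : (p : ℤ) ∣ ((b : ℕ) : ℤ) - ((b' : ℕ) : ℤ) := by
      apply hQmul
      rw [h1]
      exact H.zsmul_mem hPH _
    have hbb : b = b' := by
      have h1 := b.2
      have h2 := b'.2
      obtain ⟨c, hc⟩ := hb
      apply Fin.ext
      have : c = 0 := by
        by_contra hc0
        have : 1 ≤ |c| := Int.one_le_abs hc0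
        have h3 : |((b : ℕ) : ℤ) - ((b' : ℕ) : ℤ)| < p := by
          rw [abs_lt]; constructor <;> omega
        rw [hc, abs_mul] at h3
        have h4 : |(p : ℤ)| = p := abs_of_nonneg (by positivity)
        rw [h4] at h3
        nlinarith
      rw [this, mul_zero] at hc
      omega
    subst hbb
    rw [sub_self, zero_smul] at h1
    have ha : (p : ℤ) ∣ ((a' : ℕ) : ℤ) - ((a : ℕ) : ℤ) := hPmul _ h1.symm
    have haa : a = a' := by
      have h1 := a.2
      have h2 := a'.2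
      obtain ⟨c, hc⟩ := ha
      apply Fin.ext
      have : c = 0 := by
        by_contra hc0
        have : 1 ≤ |c| := Int.one_le_abs hc0
        have h3 : |((a' : ℕ) : ℤ) - ((a : ℕ) : ℤ)| < p := by
          rw [abs_lt]; constructor <;> omega
        rw [hc, abs_mul] at h3
        have h4 : |(p : ℤ)| = p := abs_of_nonneg (by positivity)
        rw [h4] at h3
        nlinarith
      rw [this, mul_zero] at hc
      omega
    rw [haa]
  have hcard' : Nat.card (Fin p × Fin p) = Nat.card {T : G // p • T = 0} := by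
    rw [hcard, Nat.card_prod, Nat.card_eq_fintype_card, Fintype.card_fin, sq]
  have hbij : Function.Bijective f :=
    (Nat.bijective_iff_injective_and_card f).mpr ⟨hinj, hcard'⟩
  obtain ⟨⟨a, b⟩, hab⟩ := hbij.2 ⟨x, hx⟩
  exact ⟨a, b, (congrArg Subtype.val hab).symm⟩

/-- **[J-UNR], multiplicative prime**: if `Q` of order `p` is fixed by the inertia group of `A ∣ l`
and misses the zero component at `A`, the inertia group of `A` fixes `E[p]` pointwise. -/
theorem mzj_un_mult (W : WeierstrassCurve ℤ) (hΔ0 : W.Δ ≠ 0) {p l : ℕ} (hp : p.Prime)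
    (hp2 : p ≠ 2) (hl : l.Prime) (hlp : l ≠ p) (hbad : (l : ℤ) ∣ W.Δ) (hc4 : ¬ (l : ℤ) ∣ W.c₄)
    (A : ValuationSubring s58_Qb) (hA : A.LiesOverPrime l) (Q : s58_E W) (hQ : p • Q = 0)
    (hQfix : ∀ σ ∈ A.inertiaSubgroupIn ℚ, σ • Q = Q) (hQ0 : ¬ W.InZeroComponentAt A Q) :
    ∀ σ ∈ A.inertiaSubgroupIn ℚ, ∀ x : s58_E W, p • x = 0 → σ • x = x := by
  classical
  intro σ hσ x hx
  obtain ⟨P, hP0, hP1, hP2⟩ := mzj_un_exists_E0_torsion W hΔ0 hp hl hlp hbad hc4 A hA
  have hΔ : ((s58_WQ W)⁄s58_Qb).Δ ≠ 0 := by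
    rw [s58m_curve_Δ]
    exact_mod_cast hΔ0
  have hcard := ld_card_torsion ((s58_WQ W)⁄s58_Qb) hΔ (hp.odd_of_ne_two hp2)
  let H : AddSubgroup (s58_E W) :=
    { carrier := {R | W.InZeroComponentAt A R}
      add_mem' := fun {a b} ha hb => s58m_inZeroComponentAt_add ha hb
      zero_mem' := Or.inl rfl
      neg_mem' := fun {a} ha => s58m_inZeroComponentAt_neg ha }
  obtain ⟨a, b, rfl⟩ := mzj_un_span hp hcard H hP1 hQ hP2 (show P ∈ H from hP0)
    (show Q ∉ H from hQ0) x hx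
  have hPfix : σ • P = P :=
    s58m_inZeroComponentAt_inertia_fixed hA hl hσ
      (fun h => hlp ((Nat.prime_dvd_prime_iff_eq hl hp).mp h)) hP0 hP1
  rw [ga_smul_add, ga_smul_nsmul, ga_smul_nsmul, hPfix, hQfix σ hσ]

/-- **[J-UNR], good prime of the model**: if `l ∤ Δ` and `l ≠ p`, the inertia group of `A ∣ l`
fixes `E[p]` pointwise. -/
theorem mzj_un_good (W : WeierstrassCurve ℤ) {p l : ℕ} (hp : p.Prime) (hl : l.Prime)
    (hlp : l ≠ p) (hgood : ¬ (l : ℤ) ∣ W.Δ) (A : ValuationSubring s58_Qb)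
    (hA : A.LiesOverPrime l) :
    ∀ σ ∈ A.inertiaSubgroupIn ℚ, ∀ x : s58_E W, p • x = 0 → σ • x = x := by
  classical
  intro σ hσ x hx
  exact s58m_inZeroComponentAt_inertia_fixed hA hl hσ
    (fun h => hlp ((Nat.prime_dvd_prime_iff_eq hl hp).mp h))
    (s58m_inZeroComponentAt_of_good hA hl hgood x) hx

end Fermat.Agent.MZ
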