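/-
MAZUR project, node **[MZ-J]** (S12 from S15), cell [J-ATP](P3), the SUPPLIER half (helper23).
Prefix `mzj_eu_`.

THE LADDER DENOMINATOR `Bₙ = ldB (ldPoly W) n` (`= ψₙ²`, the denominator of `x(n • P)`) HAS A UNIT
COEFFICIENT as soon as `[n]` does not kill the nonsingular locus of the reduced curve.  In residue
characteristic `p` and for `n = p` this is what makes the kernel of reduction `p`-divisible (the
abstract half: `Aₚ - x₀ Bₚ` is monic of degree `p²` with a non-integral coefficient, so it has a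
non-integral root).

* `mzj_eu_unit_coeff_of_point` : (any field `F`, `A : ValuationSubring F`, model `W / Wk`) if some
  nonsingular point `S` of the reduced curve has `n • S ≠ 0` then a coefficient of `Bₙ(W)` is a unit
  of `A` [the ladder theorem `ld_nsmul_eq_zero_iff` holds on the nonsingular locus of ANY
  Weierstrass cubic over a field; `Bₙ` commutes with base change].
* `mzj_eu_unit_coeff_of_torsion` : the same from a point `T ∈ E⁰(A)` of order prime to `n`, prime to
  the residue characteristic.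
* `mzj_eu_exists_E0_torsion` : for `W / ℤ`, `A ∣ p`, not additive at `p`: `E⁰(A)` contains a nonzero
  point of order `q`, any odd prime `q ≠ p`.
* **`mzj_eu_main`** : `W / ℤ`, `Δ ≠ 0`, `A ∣ p`, `¬ (p ∣ c₄ ∧ p ∣ Δ)` ⟹ some coefficient of
  `ldB (ldPoly (W_ℚ̄)) p` has `A`-valuation `1`.
-/
import Mathlib
import Fermat.Agent.MZ.J.Unram
import Fermat.Agent.S13.Ladder.Torsion

set_option autoImplicit false
set_option linter.unusedSectionVars false

namespace Fermat.Agent.MZ

open WeierstrassCurve WeierstrassCurve.Affine WeierstrassCurve.Affine.Point IsLocalRing Polynomial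
  Fermat.Agent.S58 Fermat.Agent.S13 Fermat.Agent.S05

section Abstract

variable {F : Type*} [Field F] [DecidableEq F] {A : ValuationSubring F}
  [DecidableEq (ResidueField A)] {W : Affine F} {Wk : Affine (ResidueField A)}

/-- **a point of the reduced curve not killed by `n` gives a unit coefficient of `Bₙ`.** -/
theorem mzj_eu_unit_coeff_of_point (hM : s58r_Model A W Wk) (n : ℕ) (S : Wk.Point)
    (hS : n • S ≠ 0) : ∃ i : ℕ, A.valuation ((ldB (ldPoly W) n).coeff i) = 1 := by
  rcases S with _ | ⟨x, y, h⟩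
  · exact absurd (nsmul_zero n) hS
  · have h1 : ldB (ldParOf Wk x) n ≠ 0 := fun h0 => hS ((ld_nsmul_eq_zero_iff h n).mpr h0)
    rw [← ldB_eval] at h1
    have h2 : ldB (ldPoly Wk) n ≠ 0 := by
      intro h0
      rw [h0, eval_zero] at h1
      exact h1 rfl
    obtain ⟨WA, rfl, rfl⟩ := hM
    rw [← ldB_ldPoly_map] at h2
    obtain ⟨i, hi⟩ : ∃ i, ((ldB (ldPoly WA) n).map (residue A)).coeff i ≠ 0 := by
      by_contra hcon
      push Not at hcon
      exact h2 (Polynomial.ext fun i => by rw [hcon i, coeff_zero])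
    refine ⟨i, ?_⟩
    rw [← ldB_ldPoly_map, coeff_map]
    rw [coeff_map] at hi
    have hu : IsUnit ((ldB (ldPoly WA) n).coeff i) := by
      by_contra hnu
      exact hi ((residue_eq_zero_iff _).mpr ((mem_maximalIdeal _).mpr hnu))
    exact (A.valuation_eq_one_iff _).mp hu

/-- the same from a torsion point of `E⁰` of order `m` prime to `n`, `m` a unit of `A`. -/
theorem mzj_eu_unit_coeff_of_torsion (hM : s58r_Model A W Wk) {n m : ℕ} (hnm : Nat.Coprime n m)
    (hm : A.valuation (m : F) = 1) (T : s58r_E0 hM) (hT : m • (T : W.Point) = 0) (hT0 : T ≠ 0) :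
    ∃ i : ℕ, A.valuation ((ldB (ldPoly W) n).coeff i) = 1 := by
  refine mzj_eu_unit_coeff_of_point hM n (s58r_red hM T) fun hn => ?_
  have h0 : s58r_red hM T ≠ 0 := fun h => hT0 (s58r_red_injective_on_torsion hM hm hT h)
  have hmS : m • s58r_red hM T = 0 := by
    rw [← map_nsmul]
    have : m • T = 0 := Subtype.ext (by simpa using hT)
    rw [this, _root_.map_zero]
  have h1 : addOrderOf (s58r_red hM T) ∣ n := addOrderOf_dvd_of_nsmul_eq_zero hn
  have h2 : addOrderOf (s58r_red hM T) ∣ m := addOrderOf_dvd_of_nsmul_eq_zero hmS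
  have h3 : addOrderOf (s58r_red hM T) = 1 := Nat.eq_one_of_dvd_coprimes hnm h1 h2
  exact h0 (AddMonoid.addOrderOf_eq_one_iff.mp h3)

end Abstract

section Int

variable (W : WeierstrassCurve ℤ)

/-- not additive at `p`: the zero component contains a nonzero point of order `q`, for every odd
prime `q ≠ p`. -/
theorem mzj_eu_exists_E0_torsion (hΔ0 : W.Δ ≠ 0) {p q : ℕ} (hp : p.Prime) (hq : q.Prime)
    (hq2 : q ≠ 2) (hpq : p ≠ q) (hss : ¬ ((p : ℤ) ∣ W.c₄ ∧ (p : ℤ) ∣ W.Δ))
    (A : ValuationSubring s58_Qb) (hA : A.LiesOverPrime p) :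
    ∃ P : s58_E W, W.InZeroComponentAt A P ∧ q • P = 0 ∧ P ≠ 0 := by
  classical
  by_cases hbad : (p : ℤ) ∣ W.Δ
  · exact mzj_un_exists_E0_torsion W hΔ0 hq hp hpq hbad (fun h => hss ⟨h, hbad⟩) A hA
  · have hΔ : ((s58_WQ W)⁄s58_Qb).Δ ≠ 0 := by
      rw [s58m_curve_Δ]
      exact_mod_cast hΔ0
    have : Fact q.Prime := ⟨hq⟩
    have hnt : Nontrivial (Submodule.torsionBy ℤ ((s58_WQ W)⁄s58_Qb).Point q) :=
      ld_nontrivial_torsionBy (s58_WQ W) hΔ hq2
    obtain ⟨⟨P, hP⟩, hP0⟩ :=
      exists_ne (0 : Submodule.torsionBy ℤ ((s58_WQ W)⁄s58_Qb).Point q)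
    refine ⟨P, s58m_inZeroComponentAt_of_good hA hp hbad P, ?_, fun h => hP0 (Subtype.ext h)⟩
    rw [Submodule.mem_torsionBy_iff, natCast_zsmul] at hP
    exact hP

/-- **[E1-DIV-p], supplier**: at a place `A ∣ p` where the integral model `W` is not additive, the
ladder denominator `Bₚ` has a coefficient which is a unit of `A`. -/
theorem mzj_eu_main (hΔ0 : W.Δ ≠ 0) {p : ℕ} (hp : p.Prime)
    (hss : ¬ ((p : ℤ) ∣ W.c₄ ∧ (p : ℤ) ∣ W.Δ))
    (A : ValuationSubring s58_Qb) (hA : A.LiesOverPrime p) :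
    ∃ i : ℕ, A.valuation ((ldB (ldPoly ((s58_WQ W)⁄s58_Qb)) p).coeff i) = 1 := by
  classical
  -- an odd prime `q ≠ p`
  obtain ⟨q, hq, hq2, hpq⟩ : ∃ q : ℕ, q.Prime ∧ q ≠ 2 ∧ p ≠ q := by
    by_cases h3 : p = 3
    · exact ⟨5, by norm_num, by norm_num, by omega⟩
    · exact ⟨3, by norm_num, by norm_num, h3⟩
  obtain ⟨P, hP, hqP, hP0⟩ := mzj_eu_exists_E0_torsion W hΔ0 hp hq hq2 hpq hss A hA
  have hM := s58m_model W A
  have hunit : A.valuation ((q : ℕ) : s58_Qb) = 1 := by
    have := (intVal_eq_one_iff A hA hp ((q : ℕ) : ℤ)).mpr (fun h => by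
      have h1 : p ∣ q := by exact_mod_cast h
      exact hpq ((Nat.prime_dvd_prime_iff_eq hp hq).mp h1))
    rwa [Int.cast_natCast] at this
  have hcop : Nat.Coprime p q := (Nat.coprime_primes hp hq).mpr hpq
  exact mzj_eu_unit_coeff_of_torsion hM hcop hunit
    ⟨P, (s58m_inZeroComponentAt_iff P).mp hP⟩ hqP (fun h => hP0 (congrArg Subtype.val h))

end Int

end Fermat.Agent.MZ
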