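/-
MAZUR project, node [MZ-J], cell **[J-SS]** (`mzj_Velu_stmt → mzj_Quot_stmt`): THE SUB-SEAMS
(owner of [J-SS]: helper25; prefix `mzj_ss_`).

Ruling #3072 (R3) / #3115 (B).  `W : WeierstrassCurve ℤ`, `N ⊆ W(ℚ̄)` Galois-stable of prime order
`p ≥ 5`.  Vélu gives `E'/ℚ`, `φ`, `S`.  Then:

* (SS-I)  every `ξ ∈ S` is `A`-integral for `A ∣ ℓ ≠ p`, so `a₄', a₆' ∈ ℤ[1/p]`;
* (SS-R)  `mzj_ss_Rescale_stmt`: a curve over `ℚ` with coefficients in `ℤ[1/p]` has an integral model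
  `W'` obtained by `x ↦ p^(2j) x`, `y ↦ p^(3j) y`, with an equivariant group isomorphism on `ℚ̄`-points;
* (SS-2)  `c₄' = c₄ + 240 ∑_S t` is odd when `c₄` is;
* (SS-A)  `mzj_ss_Cusp_stmt`: at an ODD prime of ADDITIVE reduction of an integral model every point
  of `2`-power order has `x ≡ x₀` (the cusp);
* (SS-B)  `MZ/J/QuotPoly.lean` (`mzj_qp_card_le`): at most `2|S| + 1` residues `x̄_P` with `X(φP) ≡ c`;
* (SS-C)  `mzj_ss_Many_stmt`: at an odd prime where the model is SEMISTABLE there are arbitrarily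
  many points of `2`-power order with pairwise incongruent integral `x`-coordinates.

(SS-A) + (SS-B) + (SS-C) ⟹ semistability at odd `ℓ ≠ p` is inherited by `W'`.
-/
import Mathlib
import Fermat.Agent.MZ.J.Seams

set_option autoImplicit false

namespace Fermat.Agent.MZ

open WeierstrassCurve WeierstrassCurve.Affine Fermat.Agent.S58

/-- **(SS-A) [CUSP]**: at an odd prime `ℓ` with `ℓ ∣ Δ` and `ℓ ∣ c₄` (additive, i.e. cuspidal,
reduction of the model), every point of `2`-power order reduces to the cusp: its `x`-coordinate is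
congruent to one fixed `x₀ ∈ A` modulo the maximal ideal of `A`.
[`2`-power torsion is not in `E₁(A)`, so `x ∈ A`; after the shift `x ↦ x - x₀` all of
`b₂, b₄, b₆, b₈` are in `𝔪`; `k = 1`: `4X³ + b₂X² + 2b₄X + b₆ = 0 ⟹ X ∈ 𝔪`; step: duplication
`(x(2P) - x₀)(4X³ + b₂X² + 2b₄X + b₆) = X⁴ - b₄X² - 2b₆X - b₈ ⟹ X⁴ ∈ 𝔪`.] -/
def mzj_ss_Cusp_stmt : Prop :=
  ∀ (W : WeierstrassCurve ℤ), W.Δ ≠ 0 → ∀ {ℓ : ℕ}, ℓ.Prime → ℓ ≠ 2 →
    (ℓ : ℤ) ∣ W.Δ → (ℓ : ℤ) ∣ W.c₄ →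
    ∀ A : ValuationSubring s58_Qb, A.LiesOverPrime ℓ →
      ∃ x₀ : s58_Qb, x₀ ∈ A ∧
        ∀ (k : ℕ) (x y : s58_Qb) (h : ((s58_WQ W)⁄s58_Qb).Nonsingular x y),
          2 ^ k • (Point.some x y h : s58_E W) = 0 → A.valuation (x - x₀) < 1

/-- **(SS-C) [MANY]**: at an odd prime `ℓ` where the model is semistable, for every `M` there are
`M` points of `2`-power order whose `x`-coordinates are `A`-integral and pairwise incongruent modulo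
the maximal ideal.
[good: `P ∈ W(ℚ̄)` of exact order `2^k`, all its multiples are in `E⁰`; multiplicative:
`s58m_exists_exact_order` on the nodal reduction + `s58m_exists_torsion_lift`; in both cases the
multiples `mP`, `1 ≤ m < 2^(k-1)`, are in `E⁰`, and `x̄(mP) = x̄(m'P) ⟹ red(mP) = ± red(m'P) ⟹
mP = ± m'P` by `s58r_red_injective_on_torsion`.] -/
def mzj_ss_Many_stmt : Prop :=
  ∀ (W : WeierstrassCurve ℤ), W.Δ ≠ 0 → ∀ {ℓ : ℕ}, ℓ.Prime → ℓ ≠ 2 → mzj_SS W ℓ →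
    ∀ A : ValuationSubring s58_Qb, A.LiesOverPrime ℓ → ∀ M : ℕ,
      ∃ T : Finset s58_Qb, M ≤ T.card ∧ (∀ x ∈ T, x ∈ A) ∧
        (∀ x ∈ T, ∃ (k : ℕ) (y : s58_Qb) (h : ((s58_WQ W)⁄s58_Qb).Nonsingular x y),
          2 ^ k • (Point.some x y h : s58_E W) = 0) ∧
        ∀ x ∈ T, ∀ x' ∈ T, x ≠ x' → A.valuation (x - x') = 1

/-- **(SS-R) [RESCALE]**: a Weierstrass curve over `ℚ` all of whose coefficients have a power of `p`
as denominator has an integral model `W'` (`aᵢ ↦ p^(i j) aᵢ`), with a Galois-equivariant group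
isomorphism on `ℚ̄`-points multiplying `x` by `p^(2j)`, and `c₄`, `Δ` multiplied by `p^(4j)`, `p^(12j)`.
[`C := ⟨p^(-j), 0, 0, 0⟩ : VariableChange ℚ`, `lrvc_homQ` / `lrvc_mapQ_bijective` / `lrvc_mapQ_smul` of
`LR/NonEis/VarChange.lean`.] -/
def mzj_ss_Rescale_stmt : Prop :=
  ∀ (E' : WeierstrassCurve ℚ), E'.Δ ≠ 0 → ∀ {p : ℕ}, p.Prime → ∀ k : ℕ,
    (∃ n : ℤ, E'.a₁ * (p : ℚ) ^ k = n) → (∃ n : ℤ, E'.a₂ * (p : ℚ) ^ k = n) →
    (∃ n : ℤ, E'.a₃ * (p : ℚ) ^ k = n) → (∃ n : ℤ, E'.a₄ * (p : ℚ) ^ k = n) →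
    (∃ n : ℤ, E'.a₆ * (p : ℚ) ^ k = n) →
    ∃ (W' : WeierstrassCurve ℤ) (j : ℕ) (ψ : (E'⁄s58_Qb).Point ≃+ s58_E W'),
      W'.Δ ≠ 0 ∧
      ((W'.c₄ : ℤ) : ℚ) = (p : ℚ) ^ (4 * j) * E'.c₄ ∧
      ((W'.Δ : ℤ) : ℚ) = (p : ℚ) ^ (12 * j) * E'.Δ ∧
      (∀ (σ : s58_G) (P : (E'⁄s58_Qb).Point), ψ (σ • P) = σ • ψ P) ∧
      ∀ (x y : s58_Qb) (h : (E'⁄s58_Qb).Nonsingular x y),
        ∃ (Y : s58_Qb) (h' : ((s58_WQ W')⁄s58_Qb).Nonsingular ((p : s58_Qb) ^ (2 * j) * x) Y),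
          ψ (Point.some x y h) = Point.some _ Y h'

end Fermat.Agent.MZ
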