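/-
MAZUR project, node [MZ-J], cell [J-SS], sub-cell **(SS-C) [MANY]** = `mzj_ss_Many_stmt`
(MZ/J/SSSeams.lean).  Prefix `mzj_sm_`.

At an odd prime `ℓ` where the integral model `W` is semistable, for every `M` there are `M` points of
`2`-power order with `A`-integral, pairwise incongruent `x`-coordinates.

* `mzj_sm_core` (abstract: any field `F`, `A : ValuationSubring F`, `hM : s58r_Model A W Wk`, `2` a unit
  of `A`): a point `P ∈ E⁰` of exact order `2^k` gives the `2^(k-1) - 1` pairwise incongruent integral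
  `x`-coordinates `x(mP)`, `1 ≤ m < 2^(k-1)`  [`x̄(mP) = x̄(m'P) ⟹ red(mP) = ± red(m'P) ⟹ (m ∓ m')P = 0`
  by `s58r_red_injective_on_torsion`];
* `mzj_sm_exists_good` / `mzj_sm_exists_mult`: a point of `E⁰` of exact order `2^k` (good: a point of
  order `2` and divisibility of `W(ℚ̄)`; multiplicative: `s58m_exists_exact_order` on the nodal
  reduction and `s58m_exists_torsion_lift`);
* `mzj_sm_main : mzj_ss_Many_stmt`.
-/
import Mathlib
import Fermat.Agent.MZ.J.SSSeams
import Fermat.Agent.MZ.J.AtPAsm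
import Fermat.Agent.S58.Mult.NodeExists
import Fermat.Agent.S58.Mult.Lift
import Fermat.Agent.S58.Mult.Fix
import Fermat.Agent.S05.IntVal

set_option autoImplicit false
set_option linter.unusedSectionVars false
set_option linter.unusedVariables false
set_option linter.style.haveILetI false

namespace Fermat.Agent.MZ

open WeierstrassCurve WeierstrassCurve.Affine Fermat.Agent.S58 Fermat.Agent.S05 IsLocalRing

/-! ### The abstract core -/

section core

variable {F : Type*} [Field F] [DecidableEq F] {A : ValuationSubring F}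
  [DecidableEq (ResidueField A)] {W : Affine F} {Wk : Affine (ResidueField A)}

/-- the `x`-coordinate of a point (`0` at the origin) -/
def mzj_sm_x : W.Point → F
  | .zero => 0
  | .some x _ _ => x

/-- a point of `E⁰` with nonzero reduction has integral coordinates, and its reduction is the point
with the residues as coordinates -/
theorem mzj_sm_coords (hM : s58r_Model A W Wk) (Q : s58r_E0 hM) (hQ : s58r_red hM Q ≠ 0) :
    ∃ (a b : A) (h : W.Nonsingular (a : F) (b : F))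
      (h' : Wk.Nonsingular (residue A a) (residue A b)),
      (Q : W.Point) = Point.some _ _ h ∧ s58r_red hM Q = Point.some _ _ h' := by
  have hs := s58r_red_spec hM Q
  generalize hR : s58r_red hM Q = R at hs hQ
  generalize hP : (Q : W.Point) = P at hs
  cases hs with
  | zero => exact absurd rfl hQ
  | inf h₁ hx₁ => exact absurd rfl hQ
  | aff a b h₁ h₁' => exact ⟨a, b, h₁, h₁', rfl, rfl⟩

variable (hM : s58r_Model A W Wk) (h2 : A.valuation (2 : F) = 1)
include h2

omit [DecidableEq F] [DecidableEq (ResidueField A)] in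
theorem mzj_sm_val_two_pow (k : ℕ) : A.valuation (((2 ^ k : ℕ) : ℕ) : F) = 1 := by
  push_cast
  rw [map_pow, h2, one_pow]

variable {k : ℕ} (hk : 1 ≤ k) (P : s58r_E0 hM) (hP : 2 ^ k • (P : W.Point) = 0)
  (hP' : 2 ^ (k - 1) • (P : W.Point) ≠ 0)
include hk hP hP'

theorem mzj_sm_order : addOrderOf (P : W.Point) = 2 ^ k := by
  have h := addOrderOf_eq_prime_pow (p := 2) (n := k - 1) (x := (P : W.Point)) hP'
    (by rwa [Nat.sub_add_cancel hk])
  rwa [Nat.sub_add_cancel hk] at h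

/-- the multiples `m • P`, `2^k ∤ m`, have nonzero reduction -/
theorem mzj_sm_red_ne_zero {m : ℕ} (hm : ¬ 2 ^ k ∣ m) : s58r_red hM (m • P) ≠ 0 := by
  intro h0
  have htors : 2 ^ k • ((m • P : s58r_E0 hM) : W.Point) = 0 := by
    rw [AddSubgroup.coe_nsmul, smul_comm, hP, smul_zero]
  have h1 := s58r_red_injective_on_torsion hM (mzj_sm_val_two_pow h2 k) htors h0
  have h3 : m • (P : W.Point) = 0 := by
    have := congrArg (fun Q : s58r_E0 hM => (Q : W.Point)) h1
    simpa using this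
  apply hm
  rw [← mzj_sm_order hM h2 hk P hP hP']
  exact addOrderOf_dvd_of_nsmul_eq_zero h3

/-- **the key step**: congruent `x`-coordinates of two small multiples force equality -/
theorem mzj_sm_key {m m' : ℕ} (hm : m ∈ Finset.Ico 1 (2 ^ (k - 1)))
    (hm' : m' ∈ Finset.Ico 1 (2 ^ (k - 1)))
    (hv : A.valuation (mzj_sm_x ((m • P : s58r_E0 hM) : W.Point) -
      mzj_sm_x ((m' • P : s58r_E0 hM) : W.Point)) < 1) : m = m' := by
  rw [Finset.mem_Ico] at hm hm'
  have hpow : 2 ^ k = 2 * 2 ^ (k - 1) := by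
    rw [← pow_succ', Nat.sub_add_cancel hk]
  have hpos : 0 < 2 ^ (k - 1) := by positivity
  have hnd : ∀ n : ℕ, 0 < n → n < 2 ^ k → ¬ 2 ^ k ∣ n := fun n hn0 hn hd =>
    absurd (Nat.le_of_dvd hn0 hd) (not_le.mpr hn)
  have hord := mzj_sm_order hM h2 hk P hP hP'
  obtain ⟨a, b, h, h', hQ, hR⟩ := mzj_sm_coords hM (m • P)
    (mzj_sm_red_ne_zero hM h2 hk P hP hP' (hnd m (by omega) (by omega)))
  obtain ⟨a', b', g, g', hQ', hR'⟩ := mzj_sm_coords hM (m' • P)
    (mzj_sm_red_ne_zero hM h2 hk P hP hP' (hnd m' (by omega) (by omega)))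
  rw [hQ, hQ'] at hv
  simp only [mzj_sm_x] at hv
  have hres : residue A a = residue A a' := by
    rw [← sub_eq_zero, ← map_sub, residue_eq_zero_iff, A.valuation_lt_one_iff]
    exact hv
  -- the two reductions have the same `x`-coordinate
  rcases Y_eq_of_X_eq h'.1 g'.1 hres with hy | hy
  · -- equal reductions
    have hRR : s58r_red hM (m • P) = s58r_red hM (m' • P) := by
      rw [hR, hR']
      congr 1
    -- `(m • P - m' • P)` has zero reduction
    have h0 : s58r_red hM (m • P - m' • P) = 0 := by rw [map_sub, hRR, sub_self]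
    have htors : 2 ^ k • ((m • P - m' • P : s58r_E0 hM) : W.Point) = 0 := by
      rw [AddSubgroup.coe_sub, AddSubgroup.coe_nsmul, AddSubgroup.coe_nsmul, smul_sub,
        smul_comm, hP, smul_zero, smul_comm, hP, smul_zero, sub_zero]
    have h1 := s58r_red_injective_on_torsion hM (mzj_sm_val_two_pow h2 k) htors h0
    have h3 : m • (P : W.Point) = m' • (P : W.Point) := by
      have := congrArg (fun Q : s58r_E0 hM => (Q : W.Point)) h1
      simp only [AddSubgroup.coe_sub, AddSubgroup.coe_nsmul, AddSubgroup.coe_zero] at this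
      exact sub_eq_zero.mp this
    have h4 := (nsmul_eq_nsmul_iff_modEq).mp h3
    rw [hord] at h4
    have h5 : m % 2 ^ k = m' % 2 ^ k := h4
    rwa [Nat.mod_eq_of_lt (by omega), Nat.mod_eq_of_lt (by omega)] at h5
  · -- opposite reductions
    exfalso
    have hRR : s58r_red hM (m • P) = -s58r_red hM (m' • P) := by
      rw [hR, hR', Point.neg_some]
      congr 1
    have h0 : s58r_red hM (m • P + m' • P) = 0 := by rw [map_add, hRR, neg_add_cancel]
    have htors : 2 ^ k • ((m • P + m' • P : s58r_E0 hM) : W.Point) = 0 := by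
      rw [AddSubgroup.coe_add, AddSubgroup.coe_nsmul, AddSubgroup.coe_nsmul, smul_add,
        smul_comm, hP, smul_zero, smul_comm, hP, smul_zero, add_zero]
    have h1 := s58r_red_injective_on_torsion hM (mzj_sm_val_two_pow h2 k) htors h0
    have h3 : (m + m') • (P : W.Point) = 0 := by
      have := congrArg (fun Q : s58r_E0 hM => (Q : W.Point)) h1
      simp only [AddSubgroup.coe_add, AddSubgroup.coe_nsmul, AddSubgroup.coe_zero] at this
      rw [add_nsmul]
      exact this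
    have h4 := addOrderOf_dvd_of_nsmul_eq_zero h3
    rw [hord] at h4
    exact hnd (m + m') (by omega) (by omega) h4

/-- **(SS-C), abstract form.** -/
theorem mzj_sm_core :
    ∃ T : Finset F, 2 ^ (k - 1) - 1 ≤ T.card ∧ (∀ x ∈ T, x ∈ A) ∧
      (∀ x ∈ T, ∃ (y : F) (h : W.Nonsingular x y), 2 ^ k • (Point.some x y h : W.Point) = 0) ∧
      ∀ x ∈ T, ∀ x' ∈ T, x ≠ x' → A.valuation (x - x') = 1 := by
  classical
  set f : ℕ → F := fun m => mzj_sm_x ((m • P : s58r_E0 hM) : W.Point) with hf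
  have hpow : 2 ^ k = 2 * 2 ^ (k - 1) := by
    rw [← pow_succ', Nat.sub_add_cancel hk]
  have hpos : 0 < 2 ^ (k - 1) := by positivity
  have hnd : ∀ n : ℕ, 0 < n → n < 2 ^ k → ¬ 2 ^ k ∣ n := fun n hn0 hn hd =>
    absurd (Nat.le_of_dvd hn0 hd) (not_le.mpr hn)
  have hinj : Set.InjOn f (Finset.Ico 1 (2 ^ (k - 1)) : Set ℕ) := by
    intro m hm m' hm' hmm
    refine mzj_sm_key hM h2 hk P hP hP' (Finset.mem_coe.mp hm) (Finset.mem_coe.mp hm') ?_
    have : f m - f m' = 0 := sub_eq_zero.mpr hmm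
    rw [hf] at this
    simp only at this
    rw [this, map_zero]
    exact zero_lt_one
  have hcoord : ∀ m ∈ Finset.Ico 1 (2 ^ (k - 1)), ∃ (a b : A) (h : W.Nonsingular (a : F) (b : F)),
      ((m • P : s58r_E0 hM) : W.Point) = Point.some _ _ h ∧ f m = (a : F) := by
    intro m hm
    rw [Finset.mem_Ico] at hm
    obtain ⟨a, b, h, h', hQ, -⟩ := mzj_sm_coords hM (m • P)
      (mzj_sm_red_ne_zero hM h2 hk P hP hP' (hnd m (by omega) (by omega)))
    refine ⟨a, b, h, hQ, ?_⟩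
    rw [hf]
    simp only
    rw [hQ]
    rfl
  refine ⟨(Finset.Ico 1 (2 ^ (k - 1))).image f, ?_, ?_, ?_, ?_⟩
  · rw [Finset.card_image_of_injOn hinj, Nat.card_Ico]
  · intro x hx
    obtain ⟨m, hm, rfl⟩ := Finset.mem_image.mp hx
    obtain ⟨a, b, h, -, hfa⟩ := hcoord m hm
    rw [hfa]
    exact a.2
  · intro x hx
    obtain ⟨m, hm, rfl⟩ := Finset.mem_image.mp hx
    obtain ⟨a, b, h, hQ, hfa⟩ := hcoord m hm
    refine ⟨(b : F), by rw [hfa]; exact h, ?_⟩
    have e : (Point.some (f m) (b : F) (by rw [hfa]; exact h) : W.Point) =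
        ((m • P : s58r_E0 hM) : W.Point) := by
      rw [hQ]
      congr 1
    rw [e, AddSubgroup.coe_nsmul, smul_comm, hP, smul_zero]
  · intro x hx x' hx' hne
    obtain ⟨m, hm, rfl⟩ := Finset.mem_image.mp hx
    obtain ⟨m', hm', rfl⟩ := Finset.mem_image.mp hx'
    obtain ⟨a, b, h, -, hfa⟩ := hcoord m hm
    obtain ⟨a', b', g, -, hfa'⟩ := hcoord m' hm'
    have hle : A.valuation (f m - f m') ≤ 1 := by
      rw [hfa, hfa']
      exact (A.valuation_le_one_iff _).mpr (sub_mem a.2 a'.2)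
    refine le_antisymm hle (not_lt.mp fun hlt => hne ?_)
    rw [mzj_sm_key hM h2 hk P hP hP' hm hm' hlt]

end core

/-! ### Points of exact order `2^k` in `E⁰` -/

section inst

variable (W : WeierstrassCurve ℤ)

/-- a point of order `2` on an elliptic curve over an algebraically closed field of
characteristic `≠ 2` -/
theorem mzj_sm_exists_two_gen {K : Type*} [Field K] [DecidableEq K] [IsAlgClosed K]
    (h2 : (2 : K) ≠ 0) (E : Affine K) (hΔ' : E.Δ ≠ 0) : ∃ T : E.Point, T ≠ 0 ∧ 2 • T = 0 := by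
  -- a root of the `2`-division polynomial
  let q : Polynomial K := Polynomial.C 4 * Polynomial.X ^ 3 +
    Polynomial.C E.b₂ * Polynomial.X ^ 2 + Polynomial.C (2 * E.b₄) * Polynomial.X +
    Polynomial.C E.b₆
  have h4 : (4 : K) ≠ 0 := by
    have : (4 : K) = 2 * 2 := by norm_num
    rw [this]
    exact mul_ne_zero h2 h2
  have hdeg : q.degree = 3 := Polynomial.degree_cubic h4
  obtain ⟨e, he⟩ := IsAlgClosed.exists_root q (by rw [hdeg]; norm_num)
  have he' : 4 * e ^ 3 + E.b₂ * e ^ 2 + 2 * E.b₄ * e + E.b₆ = 0 := by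
    have := he
    simp only [q, Polynomial.IsRoot.def, Polynomial.eval_add, Polynomial.eval_mul,
      Polynomial.eval_C, Polynomial.eval_pow, Polynomial.eval_X] at this
    exact this
  set y : K := -(E.a₁ * e + E.a₃) / 2 with hy
  have hy2 : 2 * y + E.a₁ * e + E.a₃ = 0 := by
    rw [hy]; field_simp; ring
  have heq : E.Equation e y := by
    rw [Affine.equation_iff]
    simp only [WeierstrassCurve.b₂, WeierstrassCurve.b₄, WeierstrassCurve.b₆] at he'
    have h4eq : (4 : K) * (y ^ 2 + E.a₁ * e * y + E.a₃ * y -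
        (e ^ 3 + E.a₂ * e ^ 2 + E.a₄ * e + E.a₆)) = 0 := by
      linear_combination (2 * y + E.a₁ * e + E.a₃) * hy2 - he'
    have := (mul_eq_zero.mp h4eq).resolve_left h4
    exact sub_eq_zero.mp this
  have hns : E.Nonsingular e y := (equation_iff_nonsingular_of_Δ_ne_zero hΔ').mp heq
  refine ⟨Point.some e y hns, Point.some_ne_zero hns, ?_⟩
  rw [two_nsmul]
  refine Point.add_self_of_Y_eq ?_
  rw [Affine.negY]
  linear_combination hy2

/-- a point of order `2` on `W(ℚ̄)` -/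
theorem mzj_sm_exists_two (hΔ : W.Δ ≠ 0) : ∃ T : s58_E W, T ≠ 0 ∧ 2 • T = 0 := by
  classical
  exact mzj_sm_exists_two_gen (by norm_num) ((s58_WQ W)⁄s58_Qb) (mzj_e1_Δ_ne_s58 W hΔ)

variable {W}
variable {ℓ : ℕ} (hℓ : ℓ.Prime) (hℓ2 : ℓ ≠ 2) {A : ValuationSubring s58_Qb}
  (hA : A.LiesOverPrime ℓ)
include hℓ hℓ2 hA

theorem mzj_sm_val_two : A.valuation (2 : s58_Qb) = 1 := by
  have h := intVal_eq_one_of_not_dvd A hA hℓ (n := 2) (by
    intro hd
    have h1 : ℓ ∣ 2 := by exact_mod_cast hd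
    exact hℓ2 ((Nat.prime_dvd_prime_iff_eq hℓ Nat.prime_two).mp h1))
  simpa using h

/-- good reduction: a point of `E⁰` of exact order `2^k` -/
theorem mzj_sm_exists_good [DecidableEq (ResidueField A)] (hΔ : W.Δ ≠ 0)
    (hgood : ¬ (ℓ : ℤ) ∣ W.Δ) (k : ℕ) (hk : 1 ≤ k) :
    ∃ P : s58r_E0 (s58m_model W A), 2 ^ k • (P : s58_E W) = 0 ∧ 2 ^ (k - 1) • (P : s58_E W) ≠ 0 := by
  obtain ⟨T, hT0, hT2⟩ := mzj_sm_exists_two W hΔ
  obtain ⟨w, hw⟩ := mzj_aa_exists_nsmul W hΔ (Nat.one_le_two_pow (n := k - 1)) T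
  have hΔk : (s58m_Wk W A).Δ ≠ 0 := by
    rw [s58m_Wk_Δ, ne_eq, s58m_residue_intCast_eq_zero_iff hA hℓ]
    exact hgood
  refine ⟨⟨w, s58r_mem_E0_of_good (s58m_model W A) hΔk w⟩, ?_, ?_⟩
  · show 2 ^ k • w = 0
    have : 2 ^ k = 2 * 2 ^ (k - 1) := by rw [← pow_succ', Nat.sub_add_cancel hk]
    rw [this, mul_nsmul', hw, hT2]
  · show 2 ^ (k - 1) • w ≠ 0
    rw [hw]
    exact hT0

/-- multiplicative reduction: a point of `E⁰` of exact order `2^k` -/
theorem mzj_sm_exists_mult [DecidableEq (ResidueField A)] (hΔ : W.Δ ≠ 0)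
    (hbad : (ℓ : ℤ) ∣ W.Δ) (hc4 : ¬ (ℓ : ℤ) ∣ W.c₄) (k : ℕ) (hk : 1 ≤ k) :
    ∃ P : s58r_E0 (s58m_model W A), 2 ^ k • (P : s58_E W) = 0 ∧ 2 ^ (k - 1) • (P : s58_E W) ≠ 0 := by
  haveI : IsAlgClosed (ResidueField A) := s58m_residue_isAlgClosed A
  have hM := s58m_model W A
  have hΔ' : ((s58_WQ W)⁄s58_Qb).Δ ≠ 0 := mzj_e1_Δ_ne_s58 W hΔ
  have hΔk : (s58m_Wk W A).Δ = 0 := by
    rw [s58m_Wk_Δ, s58m_residue_intCast_eq_zero_iff hA hℓ]
    exact hbad
  have hc4k : (s58m_Wk W A).c₄ ≠ 0 := by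
    rw [s58m_Wk_c₄, ne_eq, s58m_residue_intCast_eq_zero_iff hA hℓ]
    exact hc4
  have hv2 := mzj_sm_val_two hℓ hℓ2 hA
  have hvk : A.valuation (((2 ^ k : ℕ) : ℕ) : s58_Qb) = 1 := mzj_sm_val_two_pow hv2 k
  -- `2^k ≠ 0` in the residue field
  have hNk : (((2 ^ k : ℕ) : ℕ) : ResidueField A) ≠ 0 := by
    intro h0
    have h1 : residue A (((2 ^ k : ℕ) : ℕ) : A) = 0 := by
      rw [map_natCast]; exact h0
    rw [residue_eq_zero_iff, A.valuation_lt_one_iff] at h1
    have h2 : ((((2 ^ k : ℕ) : ℕ) : A) : s58_Qb) = (((2 ^ k : ℕ) : ℕ) : s58_Qb) := by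
      push_cast; rfl
    rw [h2, hvk] at h1
    exact lt_irrefl _ h1
  obtain ⟨Q, hQ, hQ'⟩ := s58m_exists_exact_order (s58m_Wk W A) hΔk hc4k (2 ^ k) hNk
  obtain ⟨P, hP, hPQ⟩ := s58m_exists_torsion_lift hM hΔ' hvk hQ
  refine ⟨P, hP, ?_⟩
  intro h0
  have h1 : s58r_red hM (2 ^ (k - 1) • P) = 0 := by
    have : (2 ^ (k - 1) • P : s58r_E0 hM) = 0 := Subtype.ext (by
      rw [AddSubgroup.coe_nsmul]; exact h0)
    rw [this, map_zero]
  rw [map_nsmul, hPQ] at h1
  refine hQ' (2 ^ (k - 1)) (pow_dvd_pow 2 (Nat.sub_le k 1)) ?_ h1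
  intro h
  have := Nat.pow_right_injective (le_refl 2) h
  omega

end inst

/-- **(SS-C) [MANY]**. -/
theorem mzj_sm_main : mzj_ss_Many_stmt := by
  intro W hΔ ℓ hℓ hℓ2 hss A hA M
  classical
  let _ : DecidableEq (ResidueField A) := Classical.decEq _
  have hv2 := mzj_sm_val_two hℓ hℓ2 hA
  set k : ℕ := M + 2 with hk
  have hk1 : 1 ≤ k := by omega
  have hex : ∃ P : s58r_E0 (s58m_model W A),
      2 ^ k • (P : s58_E W) = 0 ∧ 2 ^ (k - 1) • (P : s58_E W) ≠ 0 := by
    by_cases hgood : (ℓ : ℤ) ∣ W.Δ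
    · rcases hss with h | h
      · exact absurd hgood h
      · exact mzj_sm_exists_mult hℓ hℓ2 hA hΔ hgood h k hk1
    · exact mzj_sm_exists_good hℓ hℓ2 hA hΔ hgood k hk1
  obtain ⟨P, hP, hP'⟩ := hex
  obtain ⟨T, hcard, hTA, hTtors, hTv⟩ := mzj_sm_core (s58m_model W A) hv2 hk1 P hP hP'
  refine ⟨T, ?_, hTA, fun x hx => ?_, hTv⟩
  · have h1 : k - 1 = M + 1 := by omega
    rw [h1] at hcard
    have h2 : M + 1 < 2 ^ (M + 1) := Nat.lt_two_pow_self
    omega
  · obtain ⟨y, h, hy⟩ := hTtors x hx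
    exact ⟨k, y, h, hy⟩

end Fermat.Agent.MZ
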