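/-
MAZUR project, node **[MZ-J]**, cell **[J-ATP-NODE]** (helper23).  Prefix `mzj_an_`.

At a prime `p` of MULTIPLICATIVE reduction of the integral model `W`, a point `D ∈ E⁰(A)` (`A ∣ p`)
of `p`-power order lies in the kernel of reduction `E₁(A)`:

* `mzj_an_nodal_no_ptorsion` : a nodal Weierstrass cubic over a field of characteristic `p` has no
  nonzero nonsingular point of `p`-power order (its group is `kˣ` through helper19's
  parametrisation `s58m_phi`, and `t ^ (p ^ n) = 1` forces `(t - 1) ^ (p ^ n) = 0`);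
* `mzj_an_main` : the S15-vocabulary statement consumed by helper19's [J-ATP] assembly.
-/
import Mathlib
import Fermat.Agent.MZ.B.PmOne

set_option autoImplicit false

namespace Fermat.Agent.MZ

open WeierstrassCurve WeierstrassCurve.Affine WeierstrassCurve.Affine.Point IsLocalRing
  Fermat.Agent.S58 Fermat.Agent.S05

/-- **a nodal cubic in characteristic `p` has no `p`-power torsion** on its nonsingular locus. -/
theorem mzj_an_nodal_no_ptorsion {k : Type*} [Field k] [DecidableEq k] {p : ℕ} [Fact p.Prime]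
    [CharP k p] {W : Affine k} {x0 y0 α β : k} (H : s58m_Nodal W x0 y0 α β) (R : W.Point)
    (n : ℕ) (hR : p ^ n • R = 0) : R = 0 := by
  cases R with
  | zero => rfl
  | some x y h =>
    exfalso
    have hx_ne : x ≠ x0 := mzb_pm_ne_node _ H h
    obtain ⟨-, t, ht1, -, hpx, hpy⟩ := mzb_pm_param H h.1 hx_ne
    have hφ : s58m_phi H t = Point.some _ _ h := by
      rw [s58m_phi_of_ne H ht1]
      exact s58m_some_congr _ _ hpx hpy
    have htp : t ^ (p ^ n) = 1 := by
      rw [← s58m_phi_eq_zero_iff H, s58m_phi_pow, hφ]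
      exact hR
    have h1 : ((t : k) - 1) ^ (p ^ n) = 0 := by
      rw [sub_pow_char_pow, one_pow, ← Units.val_pow_eq_pow_val, htp, Units.val_one, sub_self]
    exact ht1 (sub_eq_zero.1 (pow_eq_zero_iff (pow_ne_zero n (Fact.out : p.Prime).ne_zero) |>.1 h1))

/-- **[J-ATP-NODE]**: at a multiplicative prime `p` of the model, a point of the zero component
at `A ∣ p` killed by a power of `p` lies in the kernel of reduction. -/
theorem mzj_an_main (W : WeierstrassCurve ℤ) {p : ℕ} (hp : p.Prime) (hbad : (p : ℤ) ∣ W.Δ)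
    (hc4 : ¬ (p : ℤ) ∣ W.c₄) (A : ValuationSubring s58_Qb) (hA : A.LiesOverPrime p)
    (D : s58_E W) (hD0 : W.InZeroComponentAt A D) (n : ℕ) (hD : p ^ n • D = 0) :
    Fermat.Agent.S05.InKerRed A D := by
  classical
  have hfact : Fact p.Prime := ⟨hp⟩
  have hchar : CharP (ResidueField A) p := mzb_pm_charP hA hp
  have halg : IsAlgClosed (ResidueField A) := s58m_residue_isAlgClosed A
  have hM := s58m_model W A
  have hΔk : (s58m_Wk W A).Δ = 0 := by
    rw [s58m_Wk_Δ]
    exact (s58m_residue_intCast_eq_zero_iff hA hp _).mpr hbad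
  have hc4k : (s58m_Wk W A).c₄ ≠ 0 := by
    rw [s58m_Wk_c₄]
    exact fun h => hc4 ((s58m_residue_intCast_eq_zero_iff hA hp _).mp h)
  obtain ⟨x0, y0, α, β, H⟩ := s58m_nodal_exists (s58m_Wk W A) hΔk hc4k
  have hmem : D ∈ s58r_E0 hM := (s58m_inZeroComponentAt_iff D).mp hD0
  have hpP : p ^ n • (⟨D, hmem⟩ : s58r_E0 hM) = 0 :=
    Subtype.ext (by rw [AddSubgroup.coe_nsmul]; exact hD)
  have hR : p ^ n • s58r_red hM ⟨D, hmem⟩ = 0 := by rw [← map_nsmul, hpP, _root_.map_zero]
  have h0 := mzj_an_nodal_no_ptorsion H _ n hR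
  exact (s58r_red_eq_zero_iff hM ⟨D, hmem⟩).mp h0

end Fermat.Agent.MZ
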