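/-
[MZ-J] / [J-ATP] (P3) = [E1-DIV-p], ABSTRACT HALF (helper28; split with helper23 who writes the
supplier `MZ/J/E1Unit.lean`).  Prefix `mzj_e1_`.

THE KERNEL OF REDUCTION IS `n`-DIVISIBLE AS SOON AS `[n]` DOES NOT VANISH ON THE REDUCTION.

`F` an algebraically closed field, `A : ValuationSubring F`, `W : Affine F` with `b`-invariants in
`A` and `Δ ≠ 0`, `n ≥ 1` a natural number such that the ladder denominator
`Bₙ = ldB (ldPoly W) n` (whose coefficients lie in `A`) has a coefficient which is a UNIT of `A`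
(i.e. `Bₙ mod 𝔪 ≠ 0`; for `n = p` the residue characteristic this is `[p] ≠ 0` on the reduced
curve, true as soon as the reduction is not additive).  Then every point `R` of the kernel of
reduction `E₁ = {0} ∪ {x ∉ A}` (`S05.InKerRed A R`) is `n • R'` with `R'` in `E₁`.

Proof: for `R = (x₀, y₀)`, `x₀ ∉ A`, the polynomial `G = Aₙ - x₀ Bₙ` is monic of degree `n²`
(`s58m_div_poly_monic`), and its coefficient at the index `i` of the unit coefficient of `Bₙ` is
`aᵢ - x₀ bᵢ ∉ A`; a monic polynomial over an algebraically closed field all of whose roots lie in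
`A` has all its coefficients in `A`, so `G` has a root `a ∉ A`; `ld_exists_preimage` turns `a`
into `R'` with `n • R' = R`, `x(R') = a`.

This generalises `s58m_E1_div` (S58/Mult/E1Div.lean, `n` a unit of `A`: there the unit
coefficient is the top one, `n²`).
-/
import Mathlib
import Fermat.Agent.S05.NoTorsion
import Fermat.Agent.S13.Ladder.Count
import Fermat.Agent.S13.Ladder.Integral
import Fermat.Agent.S58.Mult.E1Div
import Fermat.Agent.S58.Seams
import Fermat.Agent.S05.IntVal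

set_option autoImplicit false

namespace Fermat.Agent.MZ

open Polynomial WeierstrassCurve WeierstrassCurve.Affine Fermat.Agent.S13 Fermat.Agent.S05
  Fermat.Agent.S58

variable {F : Type*} [Field F]

/-- A monic polynomial over an algebraically closed field all of whose roots lie in the valuation
ring `A` has all its coefficients in `A`. -/
theorem mzj_e1_coeff_mem_of_roots_mem [IsAlgClosed F] (A : ValuationSubring F) {G : F[X]}
    (hG : G.Monic) (hroots : ∀ a, G.eval a = 0 → a ∈ A) (i : ℕ) : G.coeff i ∈ A := by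
  have hmem : G ∈ Polynomial.lifts A.subtype := by
    refine (IsAlgClosed.splits G).mem_lift_of_roots_mem_range hG A.subtype ?_
    intro a ha
    exact ⟨⟨a, hroots a ((mem_roots hG.ne_zero).mp ha)⟩, rfl⟩
  obtain ⟨c, hc⟩ := (Polynomial.lifts_iff_coeff_lifts G).mp hmem i
  rw [← hc]
  exact c.2

/-- General-coefficient version of `s58m_exists_root_not_mem`: a monic polynomial over an
algebraically closed field with SOME coefficient outside the valuation ring `A` has a root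
outside `A`. -/
theorem mzj_e1_exists_root_not_mem [IsAlgClosed F] (A : ValuationSubring F) {G : F[X]}
    (hG : G.Monic) {i : ℕ} (hi : G.coeff i ∉ A) : ∃ a, G.eval a = 0 ∧ a ∉ A := by
  by_contra hcon
  push Not at hcon
  exact hi (mzj_e1_coeff_mem_of_roots_mem A hG hcon i)

/-- `x ∉ A`, `a ∈ A`, `b` a unit of `A` ⟹ `a - x b ∉ A`. -/
theorem mzj_e1_sub_mul_not_mem (A : ValuationSubring F) {x a b : F} (hx : x ∉ A) (ha : a ∈ A)
    (hb : A.valuation b = 1) : a - x * b ∉ A := by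
  intro hmem
  have h1 : x * b ∈ A := by
    have := sub_mem ha hmem
    rwa [sub_sub_cancel] at this
  have h2 : A.valuation (x * b) = A.valuation x := by
    rw [map_mul, hb, mul_one]
  have h3 := (A.valuation_le_one_iff _).mpr h1
  rw [h2] at h3
  exact hx ((A.valuation_le_one_iff _).mp h3)

/-- **[E1-DIV-p], abstract half**: if the ladder denominator `Bₙ = ldB (ldPoly W) n` has a
coefficient which is a unit of `A`, the kernel of reduction `E₁(A)` is divisible by `n`. -/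
theorem mzj_e1_div [DecidableEq F] [IsAlgClosed F] {A : ValuationSubring F} {W : Affine F}
    (h₂ : W.b₂ ∈ A) (h₄ : W.b₄ ∈ A) (h₆ : W.b₆ ∈ A) (h₈ : W.b₈ ∈ A) (hΔ : W.Δ ≠ 0)
    {n : ℕ} (hn : 1 ≤ n) (hunit : ∃ i, A.valuation ((ldB (ldPoly W) n).coeff i) = 1)
    {R : W.Point} (hR : InKerRed A R) :
    ∃ R' : W.Point, InKerRed A R' ∧ n • R' = R := by
  rcases R with _ | ⟨x₀, y₀, h₀⟩
  · exact ⟨0, inKerRed_zero, smul_zero n⟩
  · have hx₀ : x₀ ∉ A := (inKerRed_some h₀).mp hR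
    obtain ⟨i, hi⟩ := hunit
    obtain ⟨hmon, -⟩ := s58m_div_poly_monic W x₀ hn
    have hnc : (ldA (ldPoly W) n - C x₀ * ldB (ldPoly W) n).coeff i ∉ A := by
      rw [coeff_sub, coeff_C_mul]
      exact mzj_e1_sub_mul_not_mem A hx₀ (ldA_coeff_mem A.toSubring W h₂ h₄ h₆ h₈ n i) hi
    obtain ⟨a, ha, haA⟩ := mzj_e1_exists_root_not_mem A hmon hnc
    obtain ⟨R', hR', hx⟩ := ld_exists_preimage hΔ n h₀ ha
    refine ⟨R', Or.inr ?_, hR'⟩
    rw [hx]
    exact haA

/-- Iterated form: under the hypothesis of `mzj_e1_div`, `E₁(A)` is divisible by every power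
of `n`. -/
theorem mzj_e1_div_pow [DecidableEq F] [IsAlgClosed F] {A : ValuationSubring F} {W : Affine F}
    (h₂ : W.b₂ ∈ A) (h₄ : W.b₄ ∈ A) (h₆ : W.b₆ ∈ A) (h₈ : W.b₈ ∈ A) (hΔ : W.Δ ≠ 0)
    {n : ℕ} (hn : 1 ≤ n) (hunit : ∃ i, A.valuation ((ldB (ldPoly W) n).coeff i) = 1)
    (m : ℕ) {R : W.Point} (hR : InKerRed A R) :
    ∃ R' : W.Point, InKerRed A R' ∧ (n ^ m) • R' = R := by
  induction m generalizing R with
  | zero => exact ⟨R, hR, by simp⟩
  | succ m ih =>
    obtain ⟨R₁, hR₁, h1⟩ := mzj_e1_div h₂ h₄ h₆ h₈ hΔ hn hunit hR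
    obtain ⟨R₂, hR₂, h2⟩ := ih hR₁
    refine ⟨R₂, hR₂, ?_⟩
    rw [pow_succ, mul_comm, mul_smul, h2, h1]

/-- Unit-coefficient criterion in integral form: if `W` comes from an integral model `W₀` over
`ℤ` (cast to `F` of characteristic zero through `ℤ → F`) and some coefficient of the INTEGER
polynomial `ldB (ldPoly W₀) n` is not divisible by the residue characteristic `p` of `A`
(`(p : F)` a non-unit of `A`, every integer prime to `p` a unit), then the hypothesis `hunit` of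
`mzj_e1_div` holds for `W₀.map (Int.castRingHom F)`. -/
theorem mzj_e1_unit_of_int (A : ValuationSubring F) (W₀ : WeierstrassCurve ℤ) {p n : ℕ}
    (hA : ∀ z : ℤ, ¬ (p : ℤ) ∣ z → A.valuation ((z : ℤ) : F) = 1)
    (hcoeff : ∃ i, ¬ (p : ℤ) ∣ (ldB (ldPoly W₀) n).coeff i) :
    ∃ i, A.valuation
      ((ldB (ldPoly ((W₀.map (Int.castRingHom F)).toAffine)) n).coeff i) = 1 := by
  obtain ⟨i, hi⟩ := hcoeff
  refine ⟨i, ?_⟩
  have h := ldB_ldPoly_map (Int.castRingHom F) W₀ n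
  have h' : (ldB (ldPoly ((W₀.map (Int.castRingHom F)).toAffine)) n).coeff i =
      (((ldB (ldPoly W₀) n).coeff i : ℤ) : F) := by
    rw [show (ldB (ldPoly ((W₀.map (Int.castRingHom F)).toAffine)) n) =
      (ldB (ldPoly W₀) n).map (Int.castRingHom F) from h.symm, coeff_map]
    rfl
  rw [h']
  exact hA _ hi

/-! ### S15 vocabulary: `s58_E W = ((W.map (Int.castRingHom ℚ))⁄ℚ̄).Point` for an integral model -/

/-- the ladder denominator of the curve over `ℚ̄` is the image of the integral one -/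
theorem mzj_e1_ldB_s58 (W : WeierstrassCurve ℤ) (n : ℕ) :
    ldB (ldPoly ((s58_WQ W)⁄s58_Qb)) n = (ldB (ldPoly W) n).map (Int.castRingHom s58_Qb) := by
  show ldB (ldPoly ((W.map (Int.castRingHom ℚ)).map (algebraMap ℚ s58_Qb))) n = _
  rw [← ldB_ldPoly_map, ← ldB_ldPoly_map, Polynomial.map_map]
  congr 1

/-- the `b`-invariants and the discriminant of the curve over `ℚ̄` are integers -/
theorem mzj_e1_b_mem_s58 (W : WeierstrassCurve ℤ) (A : ValuationSubring s58_Qb) :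
    ((s58_WQ W)⁄s58_Qb).b₂ ∈ A ∧ ((s58_WQ W)⁄s58_Qb).b₄ ∈ A ∧ ((s58_WQ W)⁄s58_Qb).b₆ ∈ A ∧
      ((s58_WQ W)⁄s58_Qb).b₈ ∈ A := by
  have key : ∀ z : ℤ, algebraMap ℚ s58_Qb ((Int.castRingHom ℚ) z) ∈ A := by
    intro z
    have : algebraMap ℚ s58_Qb ((Int.castRingHom ℚ) z) = ((z : ℤ) : s58_Qb) := by simp
    rw [this]
    exact intVal_intCast_mem A z
  refine ⟨?_, ?_, ?_, ?_⟩
  · show ((W.map (Int.castRingHom ℚ)).map (algebraMap ℚ s58_Qb)).b₂ ∈ A
    rw [WeierstrassCurve.map_b₂, WeierstrassCurve.map_b₂]; exact key _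
  · show ((W.map (Int.castRingHom ℚ)).map (algebraMap ℚ s58_Qb)).b₄ ∈ A
    rw [WeierstrassCurve.map_b₄, WeierstrassCurve.map_b₄]; exact key _
  · show ((W.map (Int.castRingHom ℚ)).map (algebraMap ℚ s58_Qb)).b₆ ∈ A
    rw [WeierstrassCurve.map_b₆, WeierstrassCurve.map_b₆]; exact key _
  · show ((W.map (Int.castRingHom ℚ)).map (algebraMap ℚ s58_Qb)).b₈ ∈ A
    rw [WeierstrassCurve.map_b₈, WeierstrassCurve.map_b₈]; exact key _

theorem mzj_e1_Δ_ne_s58 (W : WeierstrassCurve ℤ) (hΔ : W.Δ ≠ 0) :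
    ((s58_WQ W)⁄s58_Qb).Δ ≠ 0 := by
  show ((W.map (Int.castRingHom ℚ)).map (algebraMap ℚ s58_Qb)).Δ ≠ 0
  rw [WeierstrassCurve.map_Δ, WeierstrassCurve.map_Δ]
  simpa using hΔ

/-- **[E1-DIV-p] in the S15 vocabulary**: `W` an integral model with `Δ ≠ 0`, `A` a place of `ℚ̄`
over the prime `p`, `n ≥ 1` such that the INTEGER polynomial `Bₙ = ldB (ldPoly W) n` is not
divisible by `p` (`[n] ≠ 0` on `W mod p`; the supplier `MZ/J/E1Unit.lean` proves this for `n = p`
odd when the reduction is not additive).  Then `E₁(A)` is `n`-divisible. -/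
theorem mzj_e1_div_int (W : WeierstrassCurve ℤ) (hΔ : W.Δ ≠ 0) {p : ℕ} (hp : p.Prime)
    {A : ValuationSubring s58_Qb} (hA : A.LiesOverPrime p) {n : ℕ} (hn : 1 ≤ n)
    (hcoeff : ∃ i, ¬ (p : ℤ) ∣ (ldB (ldPoly W) n).coeff i) {R : s58_E W} (hR : InKerRed A R) :
    ∃ R' : s58_E W, InKerRed A R' ∧ n • R' = R := by
  obtain ⟨h₂, h₄, h₆, h₈⟩ := mzj_e1_b_mem_s58 W A
  refine mzj_e1_div h₂ h₄ h₆ h₈ (mzj_e1_Δ_ne_s58 W hΔ) hn ?_ hR
  obtain ⟨i, hi⟩ := hcoeff
  refine ⟨i, ?_⟩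
  rw [mzj_e1_ldB_s58, coeff_map]
  exact intVal_eq_one_of_not_dvd A hA hp hi

/-- the same for all powers of `n` -/
theorem mzj_e1_div_pow_int (W : WeierstrassCurve ℤ) (hΔ : W.Δ ≠ 0) {p : ℕ} (hp : p.Prime)
    {A : ValuationSubring s58_Qb} (hA : A.LiesOverPrime p) {n : ℕ} (hn : 1 ≤ n)
    (hcoeff : ∃ i, ¬ (p : ℤ) ∣ (ldB (ldPoly W) n).coeff i) (m : ℕ) {R : s58_E W}
    (hR : InKerRed A R) : ∃ R' : s58_E W, InKerRed A R' ∧ (n ^ m) • R' = R := by
  induction m generalizing R with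
  | zero => exact ⟨R, hR, by simp⟩
  | succ m ih =>
    obtain ⟨R₁, hR₁, h1⟩ := mzj_e1_div_int W hΔ hp hA hn hcoeff hR
    obtain ⟨R₂, hR₂, h2⟩ := ih hR₁
    refine ⟨R₂, hR₂, ?_⟩
    rw [pow_succ, mul_comm, mul_smul, h2, h1]

end Fermat.Agent.MZ
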