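/-
MAZUR project, node [MZ-J], cell **[J-ATP] ASSEMBLY** (helper28).  Prefix `mzj_aa_`.

`mzj_aa_main : mzj_Tw_stmt → mzj_ChiRam_stmt → mzj_AtP_stmt`  (statements of `MZ/J/Seams.lean`).

For an integral model `W` (`Δ ≠ 0`, semistable at `p`, rational `2`-torsion), a Galois-stable
cofixed line `N ⊆ W[p]` carrying the cyclotomic character, and a place `A ∣ p`:
`Z_n := W[p^n] ∩ E₁(A)` (kernel of reduction, `S05.InKerRed`) has `p^n` elements, is stable under the
decomposition group, has `Z_n[p] ⊆ N`, and `(σ - 1) W[p^n] ⊆ Z_n` for `σ` in the inertia group.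

Proof (helper19's plan #3107, for a generic integral model):
* (b) `σ x - x ∈ E₁` for `σ ∈ I_p(A)`, `p^n x = 0`: good `p`: every point is in `E⁰` and inertia
  commutes with the reduction map; multiplicative `p`: `σ x - x ∈ E⁰` by [J-TW], and a point of
  `p`-power order of `E⁰` reduces to `0` in the nodal group (helper23's `mzj_an_main`).
* `Z_1 = N`: `σ₀ ∈ I_p(A)` with `χ(σ₀) ≠ 1` ([J-CHI]); for `x ∈ N`, `(χ(σ₀) - 1) x = σ₀ x - x ∈ Z_1`,
  so `N ⊆ Z_1`; `Z_1 ≠ W[p]` by the Vieta argument `vt_generic`; count.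
* `|Z_n| ≥ p^n`: `z ∈ N ∖ 0`, `p^(n-1) w = z`, `u := σ₀ w - w ∈ Z_n` has order `p^n`.
* `|Z_n| ≤ p^n`: `p • : Z_(n+1) → Z_n` has kernel `⊆ Z_1 = N`.
-/
import Mathlib
import Fermat.Agent.MZ.J.Seams
import Fermat.Agent.S58.Mult.ZeroComp
import Fermat.Agent.S58.Frob.Residue
import Fermat.Agent.S13.Local.Vieta
import Fermat.Agent.S13.Ladder.Torsion
import Fermat.Agent.MZ.J.E1DivP
import Fermat.Agent.MZ.J.AtPNode
import Fermat.Agent.MZ.J.ChiRam

set_option autoImplicit false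

namespace Fermat.Agent.MZ

open WeierstrassCurve WeierstrassCurve.Affine Fermat.Agent.S58 Fermat.Agent.S05 Fermat.Agent.S13

/-! ### Abstract group theory -/

section abstract

variable {G : Type*} [AddCommGroup G]

/-- `x` is `p`-torsion, `(c : ZMod p) ≠ 1` and `c • x - x ∈ H` ⟹ `x ∈ H`. -/
theorem mzj_aa_mem_of_sub_mem {p : ℕ} (hp : p.Prime) (H : AddSubgroup G) {x : G}
    (hx : p • x = 0) {c : ℕ} (hc : (c : ZMod p) ≠ 1) (h : c • x - x ∈ H) : x ∈ H := by
  have hnd : ¬ (p : ℤ) ∣ ((c : ℤ) - 1) := by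
    intro hd
    apply hc
    have := (ZMod.intCast_zmod_eq_zero_iff_dvd ((c : ℤ) - 1) p).mpr hd
    push_cast at this
    exact sub_eq_zero.mp this
  obtain ⟨u, v, huv⟩ := ((Nat.prime_iff_prime_int.mp hp).coprime_iff_not_dvd).mpr hnd
  have h1 : ((c : ℤ) - 1) • x = c • x - x := by
    rw [sub_smul, one_smul, natCast_zsmul]
  have h2 : x = v • (c • x - x) := by
    have : (u * (p : ℤ) + v * ((c : ℤ) - 1)) • x = x := by rw [huv, one_smul]
    rw [add_smul, mul_smul, mul_smul, natCast_zsmul, hx, smul_zero, zero_add, h1] at this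
    exact this.symm
  rw [h2]
  exact H.zsmul_mem h v

/-- `x ≠ 0` is `p`-torsion and `(c : ZMod p) ≠ 1` ⟹ `c • x - x ≠ 0`. -/
theorem mzj_aa_sub_ne_zero {p : ℕ} (hp : p.Prime) {x : G} (hx : p • x = 0) (hx0 : x ≠ 0)
    {c : ℕ} (hc : (c : ZMod p) ≠ 1) : c • x - x ≠ 0 := by
  intro h
  apply hx0
  have := mzj_aa_mem_of_sub_mem hp (⊥ : AddSubgroup G) hx hc (by rw [h]; exact (⊥ : AddSubgroup G).zero_mem)
  exact (AddSubgroup.mem_bot).mp this

/-- A tower `Z 0 = 0`, `p • Z (n+1) ⊆ Z n`, `Z (n+1)[p] ⊆ N`, `|N| ≤ p` has `|Z n| ≤ p^n`. -/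
theorem mzj_aa_card_le {p : ℕ} (N : AddSubgroup G) [Finite N] (hN : Nat.card N ≤ p)
    (Z : ℕ → AddSubgroup G) (hfin : ∀ n, Finite (Z n)) (h0 : ∀ x ∈ Z 0, x = 0)
    (hstep : ∀ n, ∀ x ∈ Z (n + 1), p • x ∈ Z n)
    (hker : ∀ n, ∀ x ∈ Z (n + 1), p • x = 0 → x ∈ N) : ∀ n, Nat.card (Z n) ≤ p ^ n := by
  intro n
  induction n with
  | zero =>
    have : Subsingleton (Z 0) := ⟨fun a b => Subtype.ext ((h0 a a.2).trans (h0 b b.2).symm)⟩
    rw [pow_zero]
    have := hfin 0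
    exact Finite.card_le_one_iff_subsingleton.mpr ‹Subsingleton (Z 0)›
  | succ n ih =>
    have := hfin n
    have := hfin (n + 1)
    let f : Z (n + 1) →+ Z n :=
      { toFun := fun x => ⟨p • (x : G), hstep n x x.2⟩
        map_zero' := by ext; simp
        map_add' := fun a b => by ext; simp [smul_add] }
    have h1 : Nat.card f.ker * f.ker.index = Nat.card (Z (n + 1)) := f.ker.card_mul_index
    rw [AddSubgroup.index_ker] at h1
    have h2 : Nat.card f.range ≤ Nat.card (Z n) :=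
      Nat.card_le_card_of_injective _ (AddSubgroup.subtype_injective _)
    have h3 : Nat.card f.ker ≤ Nat.card N := by
      refine Nat.card_le_card_of_injective
        (fun x : f.ker => (⟨(x : Z (n + 1)), hker n _ (x : Z (n + 1)).2 ?_⟩ : N)) ?_
      · have := x.2
        rw [AddMonoidHom.mem_ker] at this
        exact congrArg Subtype.val this
      · intro a b hab
        have := congrArg Subtype.val hab
        exact Subtype.ext (Subtype.ext this)
    calc Nat.card (Z (n + 1)) = Nat.card f.ker * Nat.card f.range := h1.symm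
      _ ≤ p * p ^ n := Nat.mul_le_mul (h3.trans hN) (h2.trans ih)
      _ = p ^ (n + 1) := by rw [pow_succ, mul_comm]

/-- an element of order `p^n` in a finite subgroup forces `p^n ≤ |Z|` -/
theorem mzj_aa_card_ge {p : ℕ} (hp : p.Prime) (Z : AddSubgroup G) [Finite Z] {n : ℕ} {u : G}
    (hu : u ∈ Z) (h1 : p ^ (n + 1) • u = 0) (h2 : p ^ n • u ≠ 0) : p ^ (n + 1) ≤ Nat.card Z := by
  have hord : addOrderOf (⟨u, hu⟩ : Z) = p ^ (n + 1) := by
    have := Fact.mk hp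
    refine addOrderOf_eq_prime_pow ?_ ?_
    · intro h
      exact h2 (by simpa using congrArg Subtype.val h)
    · exact Subtype.ext (by simpa using h1)
  have := addOrderOf_dvd_natCard (⟨u, hu⟩ : Z)
  rw [hord] at this
  exact Nat.le_of_dvd Nat.card_pos this

end abstract

/-! ### The curve -/

section curve

variable (W : WeierstrassCurve ℤ) (A : ValuationSubring s58_Qb)

/-- the kernel of reduction is closed under addition (any residue characteristic) -/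
theorem mzj_aa_inKerRed_add {x y : s58_E W} (hx : InKerRed A x) (hy : InKerRed A y) :
    InKerRed A (x + y) := by
  classical
  have hM := s58m_model W A
  have h1 := s58m_red_of_inKerRed hM hx
  have h2 := s58m_red_of_inKerRed hM hy
  have h3 : s58r_red hM (⟨x, s58m_mem_E0_of_inKerRed hM hx⟩ + ⟨y, s58m_mem_E0_of_inKerRed hM hy⟩)
      = 0 := by rw [map_add, h1, h2, add_zero]
  exact (s58r_red_eq_zero_iff hM _).mp h3

/-- `Z_m = W[m] ∩ E₁(A)` -/
noncomputable def mzj_aa_Z (m : ℕ) : AddSubgroup (s58_E W) where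
  carrier := {x | m • x = 0 ∧ InKerRed A x}
  zero_mem' := ⟨nsmul_zero m, inKerRed_zero⟩
  add_mem' := fun {a b} ha hb => ⟨by rw [nsmul_add, ha.1, hb.1, add_zero],
    mzj_aa_inKerRed_add W A ha.2 hb.2⟩
  neg_mem' := fun {a} ha => ⟨by rw [neg_nsmul, ha.1, neg_zero], ha.2.neg⟩

theorem mzj_aa_mem_Z {m : ℕ} {x : s58_E W} :
    x ∈ mzj_aa_Z W A m ↔ m • x = 0 ∧ InKerRed A x := Iff.rfl

/-- the `m`-torsion subgroup -/
noncomputable def mzj_aa_T (m : ℕ) : AddSubgroup (s58_E W) where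
  carrier := {x | m • x = 0}
  zero_mem' := nsmul_zero m
  add_mem' := fun {a b} ha hb => by
    show m • (a + b) = 0
    rw [nsmul_add, ha, hb, add_zero]
  neg_mem' := fun {a} ha => by
    show m • (-a) = 0
    rw [neg_nsmul, ha, neg_zero]

theorem mzj_aa_mem_T {m : ℕ} {x : s58_E W} : x ∈ mzj_aa_T W m ↔ m • x = 0 := Iff.rfl

theorem mzj_aa_card_T (hΔ : W.Δ ≠ 0) {m : ℕ} (hm : Odd m) : Nat.card (mzj_aa_T W m) = m ^ 2 := by
  rw [← ld_natCard_torsionBy (K := s58_Qb) (s58_WQ W) (mzj_e1_Δ_ne_s58 W hΔ) hm]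
  refine Nat.card_congr (Equiv.subtypeEquivRight fun P => ?_)
  rw [Submodule.mem_torsionBy_iff, natCast_zsmul]
  exact mzj_aa_mem_T W

theorem mzj_aa_finite_T (hΔ : W.Δ ≠ 0) {m : ℕ} (hm : Odd m) : Finite (mzj_aa_T W m) := by
  apply Nat.finite_of_card_ne_zero
  rw [mzj_aa_card_T W hΔ hm]
  obtain ⟨k, rfl⟩ := hm
  positivity

theorem mzj_aa_Z_le_T (m : ℕ) : mzj_aa_Z W A m ≤ mzj_aa_T W m := fun _ hx => hx.1

theorem mzj_aa_finite_Z (hΔ : W.Δ ≠ 0) {m : ℕ} (hm : Odd m) : Finite (mzj_aa_Z W A m) := by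
  have := mzj_aa_finite_T W hΔ hm
  exact Finite.of_injective (AddSubgroup.inclusion (mzj_aa_Z_le_T W A m))
    (AddSubgroup.inclusion_injective _)

/-- `W(ℚ̄)` is divisible. -/
theorem mzj_aa_exists_nsmul (hΔ : W.Δ ≠ 0) {n : ℕ} (hn : 1 ≤ n) (z : s58_E W) :
    ∃ w : s58_E W, n • w = z := by
  rcases z with _ | ⟨x₀, y₀, h₀⟩
  · exact ⟨0, nsmul_zero n⟩
  · obtain ⟨-, hdeg⟩ := s58m_div_poly_monic ((s58_WQ W)⁄s58_Qb) x₀ hn
    have hne : (ldA (ldPoly ((s58_WQ W)⁄s58_Qb)) n -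
        Polynomial.C x₀ * ldB (ldPoly ((s58_WQ W)⁄s58_Qb)) n).degree ≠ 0 := by
      intro h0
      have := Polynomial.natDegree_eq_zero_iff_degree_le_zero.mpr h0.le
      rw [hdeg] at this
      have : 1 ≤ n ^ 2 := Nat.one_le_pow _ _ hn
      omega
    obtain ⟨a, ha⟩ := IsAlgClosed.exists_root _ hne
    obtain ⟨R, hR, -⟩ := ld_exists_preimage (mzj_e1_Δ_ne_s58 W hΔ) n h₀ ha
    exact ⟨R, hR⟩

variable {W A}

/-- the decomposition group preserves the kernel of reduction -/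
theorem mzj_aa_decomp_inKerRed {σ : s58_G} (hσ : σ ∈ A.decompositionSubgroup ℚ) {x : s58_E W}
    (hx : InKerRed A x) : InKerRed A (σ • x) := by
  rcases x with _ | ⟨x, y, h⟩
  · have : σ • (0 : s58_E W) = 0 := ga_smul_zero σ
    change InKerRed A (σ • (0 : s58_E W))
    rw [this]
    exact inKerRed_zero
  · rw [Fermat.Agent.S05.smul_some σ h]
    exact (inKerRed_some _).mpr (s58fa_not_mem_of_decomp hσ ((inKerRed_some h).mp hx))

/-- **(b)**: `σ x - x ∈ E₁(A)` for `σ` in the inertia group at `A ∣ p`, `x` of `p`-power order,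
the model being semistable at `p` with rational `2`-torsion. -/
theorem mzj_aa_inertia_sub (hTw : mzj_Tw_stmt) (hΔ : W.Δ ≠ 0) (h2 : mzj_TwoRat W) {p : ℕ}
    (hp : p.Prime) (hss : mzj_SS W p) (hA : A.LiesOverPrime p) {σ : s58_G}
    (hσ : σ ∈ A.inertiaSubgroupIn ℚ) {n : ℕ} {x : s58_E W} (hx : p ^ n • x = 0) :
    InKerRed A (σ • x - x) := by
  classical
  by_cases hbad : (p : ℤ) ∣ W.Δ
  · have hc4 : ¬ (p : ℤ) ∣ W.c₄ := by
      rcases hss with h | h
      · exact absurd hbad h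
      · exact h
    have h0 : W.InZeroComponentAt A (σ • x - x) := hTw W hΔ h2 hp hbad hc4 A hA σ hσ x
    exact mzj_an_main W hp hbad hc4 A hA _ h0 n (ga_nsmul_smul_sub σ hx)
  · have hx0 : W.InZeroComponentAt A x := s58m_inZeroComponentAt_of_good hA hp hbad x
    rw [s58m_inZeroComponentAt_iff] at hx0
    set hM := s58m_model W A
    set P : s58r_E0 hM := ⟨x, hx0⟩ with hP
    set D : s58r_E0 hM := ⟨_, s58m_smul_mem_E0 hM hσ P⟩ - P with hD
    have hD0 : s58r_red hM D = 0 := by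
      rw [hD, map_sub, s58m_red_smul hM hσ P, sub_self]
    exact (s58r_red_eq_zero_iff hM D).mp hD0

end curve

/-! ### The assembly -/

/-- **[J-ATP]** from [J-TW] and [J-CHI]. -/
theorem mzj_aa_of (hTw : mzj_Tw_stmt) (hChi : mzj_ChiRam_stmt) : mzj_AtP_stmt := by
  intro W hΔ h2 p _ hp5 hss N hNcard hNstab hcof hchar A hA n
  classical
  have hp : p.Prime := Fact.out
  have hp2 : p ≠ 2 := by omega
  have hodd : ∀ k, Odd (p ^ k) := fun k => (hp.odd_of_ne_two hp2).pow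
  have hfinZ : ∀ k, Finite (mzj_aa_Z W A (p ^ k)) := fun k => mzj_aa_finite_Z W A hΔ (hodd k)
  obtain ⟨σ₀, hσ₀, hχ⟩ := hChi p (by omega) A hA
  have hNfin : Finite N := Nat.finite_of_card_ne_zero (by rw [hNcard]; exact hp.ne_zero)
  have hNp : ∀ x ∈ N, p • x = 0 := by
    intro x hx
    have := card_nsmul_eq_zero' (G := N) (x := ⟨x, hx⟩)
    rw [hNcard] at this
    have h' := congrArg Subtype.val this
    simpa using h'
  -- (b)
  have hb : ∀ k, ∀ σ ∈ A.inertiaSubgroupIn ℚ, ∀ x : s58_E W, p ^ k • x = 0 →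
      σ • x - x ∈ mzj_aa_Z W A (p ^ k) := by
    intro k σ hσ x hx
    exact ⟨ga_nsmul_smul_sub σ hx, mzj_aa_inertia_sub hTw hΔ h2 hp hss hA hσ hx⟩
  -- `N ⊆ Z_1`
  have hNZ : N ≤ mzj_aa_Z W A (p ^ 1) := by
    intro x hx
    have hpx := hNp x hx
    have h1 := hb 1 σ₀ hσ₀ x (by rwa [pow_one])
    rw [hchar σ₀ x hx] at h1
    exact mzj_aa_mem_of_sub_mem hp _ hpx hχ h1
  -- `N ≠ 0`
  have hN0 : ∃ T ∈ N, T ≠ 0 := by
    by_contra hcon
    push Not at hcon
    have : Subsingleton N := ⟨fun a b => Subtype.ext ((hcon a a.2).trans (hcon b b.2).symm)⟩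
    have h1 : Nat.card N ≤ 1 := Finite.card_le_one_iff_subsingleton.mpr this
    rw [hNcard] at h1
    have := hp.two_le
    omega
  -- `N ≠ W[p]`
  have hTcard : Nat.card (mzj_aa_T W (p ^ 1)) = (p ^ 1) ^ 2 := mzj_aa_card_T W hΔ (hodd 1)
  have hTfin : Finite (mzj_aa_T W (p ^ 1)) := mzj_aa_finite_T W hΔ (hodd 1)
  have hNne : ∃ T : s58_E W, p • T = 0 ∧ T ∉ N := by
    by_contra hcon
    push Not at hcon
    have hle : mzj_aa_T W (p ^ 1) ≤ N := fun T hT => hcon T (by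
      have := (mzj_aa_mem_T W).mp hT
      rwa [pow_one] at this)
    have := AddSubgroup.card_le_of_le hle
    rw [hTcard, hNcard, pow_one] at this
    have h2' := hp.two_le
    nlinarith
  -- `Z_1 ≠ W[p]` (Vieta)
  obtain ⟨b2, b4, b6, b8⟩ := mzj_e1_b_mem_s58 W A
  obtain ⟨T₁, hT₁, -, hT₁k⟩ := vt_generic (s58_WQ W) (mzj_e1_Δ_ne_s58 W hΔ) A hA hp hp2 b2 b4 b6 b8
    (N : Set (s58_E W)) N.zero_mem hN0 hNp (fun T hT => N.neg_mem hT) hNstab hNne
  -- `Z_1 = N`
  have hZ1 : mzj_aa_Z W A (p ^ 1) = N := by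
    have hZfin := hfinZ 1
    have hd1 : Nat.card (mzj_aa_Z W A (p ^ 1)) ∣ p ^ 2 := by
      have h := AddSubgroup.card_dvd_of_le (mzj_aa_Z_le_T W A (p ^ 1))
      have e : (p ^ 1) ^ 2 = p ^ 2 := by rw [pow_one]
      rwa [hTcard, e] at h
    have hd2 : p ∣ Nat.card (mzj_aa_Z W A (p ^ 1)) := by
      have := AddSubgroup.card_dvd_of_le hNZ
      rwa [hNcard] at this
    obtain ⟨j, hj, hcj⟩ := (Nat.dvd_prime_pow hp).mp hd1
    have hj1 : j ≠ 0 := by
      rintro rfl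
      rw [hcj, pow_zero] at hd2
      exact hp.one_lt.ne' (Nat.dvd_one.mp hd2)
    have hj2 : j ≠ 2 := by
      rintro rfl
      have heq : mzj_aa_Z W A (p ^ 1) = mzj_aa_T W (p ^ 1) :=
        AddSubgroup.eq_of_le_of_card_ge (mzj_aa_Z_le_T W A (p ^ 1)) (by
          rw [hTcard, hcj, pow_one])
      have hmem : T₁ ∈ mzj_aa_T W (p ^ 1) := by
        rw [mzj_aa_mem_T, pow_one]; exact hT₁
      rw [← heq] at hmem
      exact hT₁k hmem.2
    have hj' : j = 1 := by omega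
    subst hj'
    exact (AddSubgroup.eq_of_le_of_card_ge hNZ (by rw [hcj, hNcard, pow_one])).symm
  -- the tower
  have h0 : ∀ x ∈ mzj_aa_Z W A (p ^ 0), x = 0 := by
    intro x hx
    have := hx.1
    rwa [pow_zero, one_nsmul] at this
  have hstep : ∀ k, ∀ x ∈ mzj_aa_Z W A (p ^ (k + 1)), p • x ∈ mzj_aa_Z W A (p ^ k) := by
    intro k x hx
    refine ⟨?_, ((mzj_aa_Z W A (p ^ (k + 1))).nsmul_mem hx p).2⟩
    rw [← mul_nsmul', ← pow_succ]
    exact hx.1
  have hker : ∀ k, ∀ x ∈ mzj_aa_Z W A (p ^ (k + 1)), p • x = 0 → x ∈ N := by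
    intro k x hx hpx
    rw [← hZ1]
    exact ⟨by rwa [pow_one], hx.2⟩
  have hupper := mzj_aa_card_le N hNcard.le (fun k => mzj_aa_Z W A (p ^ k)) hfinZ h0 hstep hker n
  have hlower : p ^ n ≤ Nat.card (mzj_aa_Z W A (p ^ n)) := by
    have := hfinZ n
    rcases n with _ | k
    · calc p ^ 0 = 1 := pow_zero p
        _ ≤ _ := Nat.card_pos
    · obtain ⟨z, hzN, hz0⟩ := hN0
      obtain ⟨w, hw⟩ := mzj_aa_exists_nsmul W hΔ (Nat.one_le_pow k p hp.pos) z
      have hw1 : p ^ (k + 1) • w = 0 := by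
        rw [pow_succ, mul_comm, mul_nsmul', hw]
        exact hNp z hzN
      have hu := hb (k + 1) σ₀ hσ₀ w hw1
      refine mzj_aa_card_ge hp _ hu (ga_nsmul_smul_sub σ₀ hw1) ?_
      rw [nsmul_sub, ← ga_smul_nsmul, hw, hchar σ₀ z hzN]
      exact mzj_aa_sub_ne_zero hp (hNp z hzN) hz0 hχ
  refine ⟨mzj_aa_Z W A (p ^ n), fun x => Iff.rfl, le_antisymm hupper hlower, ?_, ?_, ?_⟩
  · intro σ hσ x hx
    refine ⟨?_, mzj_aa_decomp_inKerRed hσ hx.2⟩
    rw [← ga_smul_nsmul, hx.1]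
    exact ga_smul_zero σ
  · intro x hx hpx
    rw [← hZ1]
    exact ⟨by rwa [pow_one], hx.2⟩
  · intro σ hσ x hx
    exact hb n σ hσ x hx

/-- **[J-ATP]** from [J-TW] alone ([J-CHI] = helper24's `mzj_ch_main`). -/
theorem mzj_aa_main (hTw : mzj_Tw_stmt) : mzj_AtP_stmt := mzj_aa_of hTw mzj_ch_main

end Fermat.Agent.MZ
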