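/-
MAZUR project, node **[MZ-J]**, cell **[J-ATP]**, piece "`Z₁ ≠ W[p]`" (helper23).  Prefix `mzj_vi_`.

For an integral model `W` with `Δ ≠ 0`, an odd prime `p`, a place `A ∣ p` of `ℚ̄` and a
Galois-stable subgroup `N ≤ W[p]` of order `p`, NOT every `p`-torsion point lies in the kernel of
reduction `E₁(A)`: this is the generic Vieta argument `vt_generic` of S13 (the product of the
`x`-coordinates of the points of `W[p] ∖ N` is a rational number which cannot be non-integral
everywhere), applied to `L := N`.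
-/
import Mathlib
import Fermat.Agent.MZ.J.Seams
import Fermat.Agent.MZ.J.E1DivP
import Fermat.Agent.S13.Local.Vieta

set_option autoImplicit false

namespace Fermat.Agent.MZ

open WeierstrassCurve WeierstrassCurve.Affine WeierstrassCurve.Affine.Point
  Fermat.Agent.S58 Fermat.Agent.S13 Fermat.Agent.S05

/-- **`W[p] ⊄ E₁(A)`** in the presence of a Galois-stable line `N`. -/
theorem mzj_vi_main (W : WeierstrassCurve ℤ) (hΔ : W.Δ ≠ 0) {p : ℕ} (hp : p.Prime) (hp2 : p ≠ 2)
    (A : ValuationSubring s58_Qb) (hA : A.LiesOverPrime p) (N : AddSubgroup (s58_E W))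
    (hNp : ∀ x ∈ N, p • x = 0) (hcN : Nat.card N = p) (hN : mzj_Stable N) :
    ∃ x : s58_E W, p • x = 0 ∧ x ≠ 0 ∧ ¬ InKerRed A x := by
  classical
  have hΔ' : ((s58_WQ W)⁄s58_Qb).Δ ≠ 0 := mzj_e1_Δ_ne_s58 W hΔ
  obtain ⟨hb₂, hb₄, hb₆, hb₈⟩ := mzj_e1_b_mem_s58 W A
  have hfinN : Finite N := Nat.finite_of_card_ne_zero (by rw [hcN]; exact hp.ne_zero)
  -- a nonzero element of `N`
  have hL0 : ∃ T ∈ (N : Set (s58_E W)), T ≠ 0 := by
    by_contra hcon
    push Not at hcon
    have hsub : Subsingleton N := ⟨fun a b => Subtype.ext ((hcon a a.2).trans (hcon b b.2).symm)⟩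
    have : Nat.card N = 1 := Nat.card_unique
    rw [hcN] at this
    exact hp.one_lt.ne' this
  -- `N` is not all of `W[p]`
  have hLne : ∃ T : s58_E W, p • T = 0 ∧ T ∉ (N : Set (s58_E W)) := by
    by_contra hcon
    push Not at hcon
    have hcard := ld_card_torsion ((s58_WQ W)⁄s58_Qb) hΔ' (hp.odd_of_ne_two hp2)
    have hle : Nat.card {T : s58_E W // p • T = 0} ≤ Nat.card N :=
      Nat.card_le_card_of_injective (fun T => (⟨T.1, hcon T.1 T.2⟩ : N))
        (fun a b h => Subtype.ext (by simpa using congrArg Subtype.val h))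
    rw [hcard, hcN] at hle
    nlinarith [hp.two_le]
  exact vt_generic (s58_WQ W) hΔ' A hA hp hp2 hb₂ hb₄ hb₆ hb₈ (N : Set (s58_E W)) N.zero_mem hL0
    hNp (fun T hT => N.neg_mem hT) hN hLne

end Fermat.Agent.MZ
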