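/-
MAZUR project, node **[MZ-J]** (S12 from S15), cell **[J-BASE]**.  Author helper24.  Prefix `mzj_bs_`.

The Frey-curve base facts consumed by `MZ/J/Top.lean` (and by Track B), all in the vocabulary of
`MZ/J/Seams.lean` (`s58_E W`, `s58_G`, `mzj_SS`, `mzj_Stable`, `mzj_TwoRat`), for the integral
model `W := P.freyCurveInt`:

* integer facts: `4 * a₂ = B - 1 - A`, `16 * a₄ = -A * B`, `b₂ = B - A`, `8 * b₄ = -A * B`, `b₆ = 0`,
  `c₄ = A² + A B + B²`, `256 * Δ = (A B C)²`  (`A = a ^ p`, `B = b ^ p`, `C = c ^ p`);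
* `mzj_bs_Δ_ne_zero`, `mzj_bs_two_dvd_Δ`, `mzj_bs_two_not_dvd_c₄`, `mzj_bs_SS` (semistable at every
  prime);
* `mzj_bs_map : P.freyCurveInt.map (Int.castRingHom ℚ) = P.freyCurve` (the bridge to the frozen
  statements);
* `mzj_bs_two_torsion_xy`, `mzj_bs_two_torsion_point`, `mzj_bs_TwoRat` (the `2`-torsion is
  `(0,0)`, `(A/4, -A/8)`, `(-B/4, B/8)`, all rational);
* `mzj_bs_unwrap` (generic `W`) / `mzj_bs_line` (Frey): the frozen hypothesis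
  `HasGaloisStableCofixedLine ℚ P.freyCurve P.p` gives `N : AddSubgroup (s58_E P.freyCurveInt)` with
  `Nat.card N = p`, `mzj_Stable N`, `p • N = 0` and `σ x - x ∈ N` on `W[p]`;
* `mzj_bs_card_torsion : Nat.card {x // p • x = 0} = p ^ 2`;
* `mzj_bs_TwoRat_of_isog(_card)`: `mzj_TwoRat` passes to the quotient by a subgroup of odd order.
-/
import Mathlib
import Fermat.Agent.MZ.J.Seams
import Fermat.Agent.S05.GaloisAction
import Fermat.Agent.S13.Ladder.Torsion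
import Fermat.Prelude.Def_FLTPrelim_CofixedLine

set_option autoImplicit false

namespace Fermat.Agent.MZ

open WeierstrassCurve WeierstrassCurve.Affine WeierstrassCurve.Affine.Point Fermat.Agent.S58

/-! ### integer facts on `A = a ^ p`, `B = b ^ p`, `C = c ^ p` -/

section ints

variable (P : FreyPackage)

lemma mzj_bs_two_dvd_b : (2 : ℤ) ∣ P.b := (ZMod.intCast_zmod_eq_zero_iff_dvd P.b 2).1 P.hb2

/-- `4 ∣ 1 + a ^ p`. -/
lemma mzj_bs_four_dvd_one_add : (4 : ℤ) ∣ 1 + P.a ^ P.p := by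
  have key : ((1 + P.a ^ P.p : ℤ) : ZMod 4) = 0 := by
    push_cast
    rw [P.ha4]
    have h3 : (3 : ZMod 4) = -1 := by decide
    rw [h3, P.hp_odd.neg_one_pow]
    ring
  exact_mod_cast (ZMod.intCast_zmod_eq_zero_iff_dvd _ 4).mp key

/-- `A = a ^ p` is odd. -/
lemma mzj_bs_A_odd : ¬ (2 : ℤ) ∣ P.a ^ P.p := by
  intro h2
  have h4 := mzj_bs_four_dvd_one_add P
  have h2' : (2 : ℤ) ∣ 1 + P.a ^ P.p := dvd_trans (by norm_num) h4
  have : (2 : ℤ) ∣ 1 := (dvd_add_left h2).mp h2'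
  omega

/-- `32 ∣ B = b ^ p`. -/
lemma mzj_bs_32_dvd_B : (32 : ℤ) ∣ P.b ^ P.p := by
  have h1 : (2 : ℤ) ^ P.p ∣ P.b ^ P.p := pow_dvd_pow_of_dvd (mzj_bs_two_dvd_b P) _
  refine dvd_trans ?_ h1
  have : (32 : ℤ) = 2 ^ 5 := by norm_num
  rw [this]
  exact pow_dvd_pow 2 P.hp5

/-- `4 ∣ B - 1 - A`. -/
lemma mzj_bs_four_dvd : (4 : ℤ) ∣ P.b ^ P.p - 1 - P.a ^ P.p := by
  have h1 : (4 : ℤ) ∣ P.b ^ P.p := dvd_trans (by norm_num) (mzj_bs_32_dvd_B P)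
  have h2 := mzj_bs_four_dvd_one_add P
  have : P.b ^ P.p - 1 - P.a ^ P.p = P.b ^ P.p - (1 + P.a ^ P.p) := by ring
  rw [this]
  exact dvd_sub h1 h2

/-- `16 ∣ -A * B`. -/
lemma mzj_bs_16_dvd : (16 : ℤ) ∣ -(P.a ^ P.p) * (P.b ^ P.p) :=
  Dvd.dvd.mul_left (dvd_trans (by norm_num) (mzj_bs_32_dvd_B P)) _

/-- `4 * a₂ = B - 1 - A`. -/
lemma mzj_bs_a₂ : 4 * P.freyCurveInt.a₂ = P.b ^ P.p - 1 - P.a ^ P.p :=
  Int.mul_ediv_cancel' (mzj_bs_four_dvd P)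

/-- `16 * a₄ = -A * B`. -/
lemma mzj_bs_a₄ : 16 * P.freyCurveInt.a₄ = -(P.a ^ P.p) * (P.b ^ P.p) :=
  Int.mul_ediv_cancel' (mzj_bs_16_dvd P)

lemma mzj_bs_a₁ : P.freyCurveInt.a₁ = 1 := rfl
lemma mzj_bs_a₃ : P.freyCurveInt.a₃ = 0 := rfl
lemma mzj_bs_a₆ : P.freyCurveInt.a₆ = 0 := rfl

/-- `a₄` is even. -/
lemma mzj_bs_two_dvd_a₄ : (2 : ℤ) ∣ P.freyCurveInt.a₄ := by
  obtain ⟨t, ht⟩ := mzj_bs_32_dvd_B P
  have h := mzj_bs_a₄ P
  rw [ht] at h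
  exact ⟨-(P.a ^ P.p) * t, by linarith⟩

/-- `b₂ = B - A`. -/
lemma mzj_bs_b₂ : P.freyCurveInt.b₂ = P.b ^ P.p - P.a ^ P.p := by
  rw [WeierstrassCurve.b₂, mzj_bs_a₁]
  linarith [mzj_bs_a₂ P]

/-- `8 * b₄ = - A * B`. -/
lemma mzj_bs_b₄ : 8 * P.freyCurveInt.b₄ = -(P.a ^ P.p) * (P.b ^ P.p) := by
  rw [WeierstrassCurve.b₄, mzj_bs_a₁, mzj_bs_a₃]
  linarith [mzj_bs_a₄ P]

lemma mzj_bs_b₄' : P.freyCurveInt.b₄ = 2 * P.freyCurveInt.a₄ := by
  rw [WeierstrassCurve.b₄, mzj_bs_a₁, mzj_bs_a₃]; ring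

lemma mzj_bs_b₆ : P.freyCurveInt.b₆ = 0 := by
  rw [WeierstrassCurve.b₆, mzj_bs_a₃, mzj_bs_a₆]; ring

lemma mzj_bs_b₈ : P.freyCurveInt.b₈ = -P.freyCurveInt.a₄ ^ 2 := by
  rw [WeierstrassCurve.b₈, mzj_bs_a₁, mzj_bs_a₃, mzj_bs_a₆]; ring

/-- `c₄ = A² + A B + B²`. -/
lemma mzj_bs_c₄ : P.freyCurveInt.c₄ =
    (P.a ^ P.p) ^ 2 + P.a ^ P.p * P.b ^ P.p + (P.b ^ P.p) ^ 2 := by
  rw [WeierstrassCurve.c₄, mzj_bs_b₂]
  linear_combination (-3 : ℤ) * mzj_bs_b₄ P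

/-- `256 * Δ = (A B C)²`. -/
lemma mzj_bs_Δ : 256 * P.freyCurveInt.Δ = (P.a ^ P.p * P.b ^ P.p * P.c ^ P.p) ^ 2 := by
  have h4 := mzj_bs_a₄ P
  have hC := P.hFLT
  rw [WeierstrassCurve.Δ, mzj_bs_b₂, mzj_bs_b₆, mzj_bs_b₈, mzj_bs_b₄']
  have e : 256 * (-(P.b ^ P.p - P.a ^ P.p) ^ 2 * -P.freyCurveInt.a₄ ^ 2 -
      8 * (2 * P.freyCurveInt.a₄) ^ 3 - 27 * 0 ^ 2 +
      9 * (P.b ^ P.p - P.a ^ P.p) * (2 * P.freyCurveInt.a₄) * 0) =
      (16 * P.freyCurveInt.a₄) ^ 2 * ((P.b ^ P.p - P.a ^ P.p) ^ 2 -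
        4 * (16 * P.freyCurveInt.a₄)) := by ring
  rw [e, h4, ← hC]
  ring

lemma mzj_bs_Δ_ne_zero : P.freyCurveInt.Δ ≠ 0 := by
  intro h
  have h1 := mzj_bs_Δ P
  rw [h, mul_zero] at h1
  have := pow_ne_zero 2 (mul_ne_zero (mul_ne_zero (pow_ne_zero P.p P.ha0) (pow_ne_zero P.p P.hb0))
    (pow_ne_zero P.p P.hc0))
  exact this h1.symm

/-- `Δ = a₄² * (A + B)²`, in particular `Δ` is even. -/
lemma mzj_bs_two_dvd_Δ : (2 : ℤ) ∣ P.freyCurveInt.Δ := by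
  have e : P.freyCurveInt.Δ = P.freyCurveInt.a₄ *
      (P.freyCurveInt.a₄ * ((P.b ^ P.p - P.a ^ P.p) ^ 2 - 64 * P.freyCurveInt.a₄)) := by
    rw [WeierstrassCurve.Δ, mzj_bs_b₂, mzj_bs_b₆, mzj_bs_b₈, mzj_bs_b₄']; ring
  rw [e]
  exact Dvd.dvd.mul_right (mzj_bs_two_dvd_a₄ P) _

lemma mzj_bs_two_not_dvd_c₄ : ¬ (2 : ℤ) ∣ P.freyCurveInt.c₄ := by
  intro h
  rw [mzj_bs_c₄] at h
  obtain ⟨t, ht⟩ := mzj_bs_32_dvd_B P
  have h2 : (2 : ℤ) ∣ P.a ^ P.p * P.b ^ P.p + (P.b ^ P.p) ^ 2 := by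
    rw [ht]; exact ⟨P.a ^ P.p * (16 * t) + 16 * t * (32 * t), by ring⟩
  have h3 : (2 : ℤ) ∣ (P.a ^ P.p) ^ 2 := by
    have := (Int.dvd_add_left h2).mp (by rwa [add_assoc] at h)
    exact this
  exact mzj_bs_A_odd P (Int.prime_two.dvd_of_dvd_pow h3)


lemma mzj_bs_not_both {ℓ : ℤ} (hℓ : Prime ℓ) {x y : ℤ} (h : gcd x y = 1) (hx : ℓ ∣ x)
    (hy : ℓ ∣ y) : False := by
  have h1 : ℓ ∣ gcd x y := dvd_gcd hx hy
  rw [h] at h1
  exact hℓ.not_dvd_one h1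

/-- the Frey model is semistable at every prime. -/
theorem mzj_bs_SS {ℓ : ℕ} (hℓ : ℓ.Prime) : mzj_SS P.freyCurveInt ℓ := by
  unfold mzj_SS
  by_contra hcon
  rw [not_or, not_not, not_not] at hcon
  obtain ⟨hΔ, hc4⟩ := hcon
  have hℓ' : Prime (ℓ : ℤ) := Nat.prime_iff_prime_int.mp hℓ
  have h1 : (ℓ : ℤ) ∣ (P.a ^ P.p * P.b ^ P.p * P.c ^ P.p) ^ 2 := by
    rw [← mzj_bs_Δ]; exact Dvd.dvd.mul_left hΔ _
  have h2 := hℓ'.dvd_of_dvd_pow h1
  rw [mzj_bs_c₄] at hc4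
  have hAB : ¬ ((ℓ : ℤ) ∣ P.a ^ P.p ∨ (ℓ : ℤ) ∣ P.b ^ P.p) := by
    rintro (hA | hB)
    · have hB2 : (ℓ : ℤ) ∣ (P.b ^ P.p) ^ 2 := by
        have e : (P.b ^ P.p) ^ 2 = ((P.a ^ P.p) ^ 2 + P.a ^ P.p * P.b ^ P.p + (P.b ^ P.p) ^ 2) -
            P.a ^ P.p * (P.a ^ P.p + P.b ^ P.p) := by ring
        rw [e]
        exact dvd_sub hc4 (Dvd.dvd.mul_right hA _)
      exact mzj_bs_not_both hℓ' P.hgcdab (hℓ'.dvd_of_dvd_pow hA)
        (hℓ'.dvd_of_dvd_pow (hℓ'.dvd_of_dvd_pow hB2))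
    · have hA2 : (ℓ : ℤ) ∣ (P.a ^ P.p) ^ 2 := by
        have e : (P.a ^ P.p) ^ 2 = ((P.a ^ P.p) ^ 2 + P.a ^ P.p * P.b ^ P.p + (P.b ^ P.p) ^ 2) -
            P.b ^ P.p * (P.a ^ P.p + P.b ^ P.p) := by ring
        rw [e]
        exact dvd_sub hc4 (Dvd.dvd.mul_right hB _)
      exact mzj_bs_not_both hℓ' P.hgcdab (hℓ'.dvd_of_dvd_pow (hℓ'.dvd_of_dvd_pow hA2))
        (hℓ'.dvd_of_dvd_pow hB)
  rcases hℓ'.dvd_or_dvd h2 with h3 | hC
  · exact hAB (hℓ'.dvd_or_dvd h3)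
  · apply hAB
    apply hℓ'.dvd_or_dvd
    have e : P.a ^ P.p * P.b ^ P.p = (P.c ^ P.p) ^ 2 -
        ((P.a ^ P.p) ^ 2 + P.a ^ P.p * P.b ^ P.p + (P.b ^ P.p) ^ 2) := by
      rw [← P.hFLT]; ring
    rw [e]
    exact dvd_sub (Dvd.dvd.mul_left hC _ |> fun h => by rwa [← sq] at h) hc4

/-- **the bridge**: the `ℤ`-model base-changes to the `ℚ`-model of the frozen statements. -/
theorem mzj_bs_map : P.freyCurveInt.map (Int.castRingHom ℚ) = P.freyCurve := by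
  have h2 : ((P.freyCurveInt.a₂ : ℤ) : ℚ) = ((P.b : ℚ) ^ P.p - 1 - (P.a : ℚ) ^ P.p) / 4 := by
    have : P.freyCurveInt.a₂ = (P.b ^ P.p - 1 - P.a ^ P.p) / 4 := rfl
    rw [this, Int.cast_div (mzj_bs_four_dvd P) (by norm_num)]
    push_cast; rfl
  have h4 : ((P.freyCurveInt.a₄ : ℤ) : ℚ) = -((P.a : ℚ) ^ P.p) * ((P.b : ℚ) ^ P.p) / 16 := by
    have : P.freyCurveInt.a₄ = -(P.a ^ P.p) * (P.b ^ P.p) / 16 := rfl
    rw [this, Int.cast_div (mzj_bs_16_dvd P) (by norm_num)]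
    push_cast; rfl
  ext
  · simp [FreyPackage.freyCurveInt, FreyPackage.freyCurve]
  · simpa [FreyPackage.freyCurve] using h2
  · simp [FreyPackage.freyCurveInt, FreyPackage.freyCurve]
  · simpa [FreyPackage.freyCurve] using h4
  · simp [FreyPackage.freyCurveInt, FreyPackage.freyCurve]

end ints

/-- the discriminant over `ℚ̄` -/
lemma mzj_bs_Δ_Qb (W : WeierstrassCurve ℤ) (hΔ : W.Δ ≠ 0) : ((s58_WQ W)⁄s58_Qb).Δ ≠ 0 := by
  simp only [WeierstrassCurve.baseChange, WeierstrassCurve.map_Δ]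
  rw [Ne, map_eq_zero_iff _ (algebraMap ℚ s58_Qb).injective]
  simpa using hΔ

/-- `|W[p]| = p²`, in subtype form. -/
lemma mzj_bs_card_torsion (W : WeierstrassCurve ℤ) (hΔ : W.Δ ≠ 0) {p : ℕ} (hp : Odd p) :
    Nat.card {x : s58_E W // p • x = 0} = p ^ 2 := by
  rw [← Fermat.Agent.S13.ld_natCard_torsionBy (K := s58_Qb) (s58_WQ W) (mzj_bs_Δ_Qb W hΔ) hp]
  refine Nat.card_congr (Equiv.subtypeEquivRight fun x => ?_)
  rw [Submodule.mem_torsionBy_iff, natCast_zsmul]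

/-- **unwrapping the frozen hypothesis**: a Galois-stable cofixed line of `E[p]` in the prelude's
`Submodule (ZMod p) (torsionBy …)` form gives a subgroup of `W(ℚ̄)` of order `p`, Galois stable,
killed by `p`, with `σ x - x ∈ N` on `W[p]`. -/
theorem mzj_bs_unwrap (W : WeierstrassCurve ℤ) (hΔ : W.Δ ≠ 0) {p : ℕ} (hp : p.Prime) (hp2 : p ≠ 2)
    (h : HasGaloisStableCofixedLine (K := AlgebraicClosure ℚ) ℚ (W.map (Int.castRingHom ℚ)) p) :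
    ∃ N : AddSubgroup (s58_E W), Nat.card N = p ∧ mzj_Stable N ∧ (∀ x ∈ N, p • x = 0) ∧
      ∀ (σ : s58_G) (x : s58_E W), p • x = 0 → σ • x - x ∈ N := by
  obtain ⟨N, hst, h0, h1, hco⟩ := h
  have := Fact.mk hp
  have hodd : Odd p := hp.odd_of_ne_two hp2
  have hfin : Finite (Submodule.torsionBy ℤ (s58_E W) p) :=
    Fermat.Agent.S13.ld_finite_torsionBy (K := s58_Qb) (s58_WQ W) (mzj_bs_Δ_Qb W hΔ) hodd
  have hrk := Fermat.Agent.S13.ld_finrank_submodule (K := s58_Qb) (s58_WQ W) (mzj_bs_Δ_Qb W hΔ) hp2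
    N h0 h1
  have hcN : Nat.card N = p := by
    have := Module.natCard_eq_pow_finrank (K := ZMod p) (V := N)
    rw [hrk, Nat.card_zmod, pow_one] at this
    exact this
  let ι : Submodule.torsionBy ℤ (s58_E W) p →+ s58_E W :=
    (Submodule.torsionBy ℤ (s58_E W) p).subtype.toAddMonoidHom
  have hι : Function.Injective ι := Subtype.coe_injective
  refine ⟨N.toAddSubgroup.map ι, ?_, ?_, ?_, ?_⟩
  · refine Eq.trans ?_ hcN
    exact Nat.card_congr (N.toAddSubgroup.equivMapOfInjective ι hι).toEquiv.symm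
  · rintro σ _ ⟨x, hx, rfl⟩
    exact ⟨σ • x, hst σ x hx, rfl⟩
  · rintro _ ⟨x, _, rfl⟩
    have := x.2
    rwa [Submodule.mem_torsionBy_iff, natCast_zsmul] at this
  · intro σ x hx
    have hxm : x ∈ Submodule.torsionBy ℤ (s58_E W) p := by
      rw [Submodule.mem_torsionBy_iff, natCast_zsmul]; exact hx
    exact ⟨σ • ⟨x, hxm⟩ - ⟨x, hxm⟩, hco σ ⟨x, hxm⟩, rfl⟩

section two

variable (P : FreyPackage)

/-- the `x`-coordinate of a nonzero `2`-torsion point of the Frey curve is `0`, `A/4` or `-B/4`,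
and `y = -x/2`. -/
theorem mzj_bs_two_torsion_xy {x y : s58_Qb}
    (h : ((s58_WQ P.freyCurveInt)⁄s58_Qb).Nonsingular x y)
    (hT : 2 • (Point.some x y h : s58_E P.freyCurveInt) = 0) :
    (x = algebraMap ℚ s58_Qb 0 ∨ x = algebraMap ℚ s58_Qb ((P.a : ℚ) ^ P.p / 4) ∨
      x = algebraMap ℚ s58_Qb (-(P.b : ℚ) ^ P.p / 4)) ∧ y = -x / 2 := by
  rw [two_nsmul, add_eq_zero_iff_eq_neg, Point.neg_some] at hT
  have hy : y = ((s58_WQ P.freyCurveInt)⁄s58_Qb).negY x y := by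
    injection hT
  rw [Affine.negY] at hy
  have heq := h.1
  rw [Affine.equation_iff] at heq
  simp only [WeierstrassCurve.baseChange, WeierstrassCurve.map_a₁, WeierstrassCurve.map_a₂,
    WeierstrassCurve.map_a₃, WeierstrassCurve.map_a₄, WeierstrassCurve.map_a₆, mzj_bs_a₁,
    mzj_bs_a₃, mzj_bs_a₆, _root_.map_one, _root_.map_zero] at hy heq
  set f : ℤ →+* s58_Qb := (algebraMap ℚ s58_Qb).comp (Int.castRingHom ℚ) with hf
  have h2 : 4 * f P.freyCurveInt.a₂ = f (P.b ^ P.p) - 1 - f (P.a ^ P.p) := by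
    have := congrArg f (mzj_bs_a₂ P)
    simpa using this
  have h4 : 16 * f P.freyCurveInt.a₄ = -(f (P.a ^ P.p)) * f (P.b ^ P.p) := by
    have := congrArg f (mzj_bs_a₄ P)
    simpa using this
  have hfa : f (P.a ^ P.p) = algebraMap ℚ s58_Qb ((P.a : ℚ) ^ P.p) := by
    simp [hf]
  have hfb : f (P.b ^ P.p) = algebraMap ℚ s58_Qb ((P.b : ℚ) ^ P.p) := by
    simp [hf]
  have e2 : (algebraMap ℚ s58_Qb) ((Int.castRingHom ℚ) P.freyCurveInt.a₂) = f P.freyCurveInt.a₂ :=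
    rfl
  have e4 : (algebraMap ℚ s58_Qb) ((Int.castRingHom ℚ) P.freyCurveInt.a₄) = f P.freyCurveInt.a₄ :=
    rfl
  rw [e2, e4] at heq
  have hy2 : 2 * y = -x := by linear_combination hy
  have h2ne : (2 : s58_Qb) ≠ 0 := two_ne_zero
  have h4ne : (4 : s58_Qb) ≠ 0 := by norm_num
  have hy' : y = -x / 2 := by
    field_simp
    linear_combination hy2
  refine ⟨?_, hy'⟩
  have key : x * ((4 * x - f (P.a ^ P.p)) * (4 * x + f (P.b ^ P.p))) = 0 := by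
    subst hy'
    linear_combination (-16 : s58_Qb) * heq + (-4 * x ^ 2) * h2 + (-x) * h4
  rcases mul_eq_zero.mp key with h0 | h0
  · left; rw [h0, _root_.map_zero]
  · rcases mul_eq_zero.mp h0 with h1 | h1
    · right; left
      rw [map_div₀, ← hfa, map_ofNat]
      field_simp
      linear_combination h1
    · right; right
      rw [map_div₀, map_neg, ← hfb, map_ofNat]
      field_simp
      linear_combination h1

/-- all the `2`-torsion of the Frey curve is rational. -/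
theorem mzj_bs_TwoRat : mzj_TwoRat P.freyCurveInt := by
  intro T hT σ
  rcases T with _ | ⟨x, y, h⟩
  · exact Fermat.Agent.S05.ga_smul_zero σ
  · obtain ⟨hx, hy⟩ := mzj_bs_two_torsion_xy P h hT
    have hxr : x ∈ Set.range (algebraMap ℚ s58_Qb) := by
      rcases hx with hx | hx | hx <;> exact ⟨_, hx.symm⟩
    have hyr : y ∈ Set.range (algebraMap ℚ s58_Qb) := by
      obtain ⟨r, hr⟩ := hxr
      exact ⟨-r / 2, by rw [hy, ← hr, map_div₀, map_neg, map_ofNat]⟩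
    exact Fermat.Agent.S05.ga_smul_some_of_mem_range σ h hxr hyr

/-- the three nonzero `2`-torsion points of the Frey curve. -/
theorem mzj_bs_two_torsion_point (r : ℚ)
    (hr : r = 0 ∨ r = (P.a : ℚ) ^ P.p / 4 ∨ r = -(P.b : ℚ) ^ P.p / 4) :
    ∃ h : ((s58_WQ P.freyCurveInt)⁄s58_Qb).Nonsingular (algebraMap ℚ s58_Qb r)
        (algebraMap ℚ s58_Qb (-r / 2)),
      2 • (Point.some _ _ h : s58_E P.freyCurveInt) = 0 := by
  have h2 : 4 * ((P.freyCurveInt.a₂ : ℤ) : ℚ) = (P.b : ℚ) ^ P.p - 1 - (P.a : ℚ) ^ P.p := by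
    exact_mod_cast congrArg (Int.cast : ℤ → ℚ) (mzj_bs_a₂ P)
  have h4 : 16 * ((P.freyCurveInt.a₄ : ℤ) : ℚ) = -((P.a : ℚ) ^ P.p) * (P.b : ℚ) ^ P.p := by
    exact_mod_cast congrArg (Int.cast : ℤ → ℚ) (mzj_bs_a₄ P)
  have key : r * ((4 * r - (P.a : ℚ) ^ P.p) * (4 * r + (P.b : ℚ) ^ P.p)) = 0 := by
    rcases hr with rfl | rfl | rfl <;> ring
  have heq : ((s58_WQ P.freyCurveInt)⁄s58_Qb).Equation (algebraMap ℚ s58_Qb r)
      (algebraMap ℚ s58_Qb (-r / 2)) := by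
    rw [Affine.equation_iff]
    simp only [WeierstrassCurve.baseChange, WeierstrassCurve.map_a₁, WeierstrassCurve.map_a₂,
      WeierstrassCurve.map_a₃, WeierstrassCurve.map_a₄, WeierstrassCurve.map_a₆, mzj_bs_a₁,
      mzj_bs_a₃, mzj_bs_a₆, _root_.map_one, _root_.map_zero, eq_intCast]
    rw [← _root_.map_one (algebraMap ℚ s58_Qb)]
    simp only [← _root_.map_mul, ← _root_.map_pow, ← _root_.map_add]
    rw [zero_mul, add_zero, add_zero]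
    congr 1
    linear_combination (-1 / 16 : ℚ) * key - (r ^ 2 / 4) * h2 - (r / 16) * h4
  have hns := (((s58_WQ P.freyCurveInt)⁄s58_Qb).equation_iff_nonsingular_of_Δ_ne_zero
    (mzj_bs_Δ_Qb P.freyCurveInt (mzj_bs_Δ_ne_zero P))).mp heq
  refine ⟨hns, ?_⟩
  rw [two_nsmul, add_eq_zero_iff_eq_neg, Point.neg_some]
  congr 1
  rw [Affine.negY]
  simp only [WeierstrassCurve.baseChange, WeierstrassCurve.map_a₁, WeierstrassCurve.map_a₃,
    mzj_bs_a₁, mzj_bs_a₃, _root_.map_one, _root_.map_zero]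
  rw [map_div₀, map_neg, map_ofNat]
  ring

end two

/-- **the frozen hypothesis of S12, unwrapped on the integral Frey model.** -/
theorem mzj_bs_line (P : FreyPackage)
    (h : HasGaloisStableCofixedLine (K := AlgebraicClosure ℚ) ℚ P.freyCurve P.p) :
    ∃ N : AddSubgroup (s58_E P.freyCurveInt), Nat.card N = P.p ∧ mzj_Stable N ∧
      (∀ x ∈ N, P.p • x = 0) ∧
      ∀ (σ : s58_G) (x : s58_E P.freyCurveInt), P.p • x = 0 → σ • x - x ∈ N := by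
  rw [← mzj_bs_map P] at h
  exact mzj_bs_unwrap P.freyCurveInt (mzj_bs_Δ_ne_zero P) P.pp (by have := P.hp5; omega) h

/-- rationality of the `2`-torsion passes along a surjective Galois-equivariant homomorphism whose
kernel is killed by an odd number. -/
theorem mzj_bs_TwoRat_of_isog {W W' : WeierstrassCurve ℤ} (φ : s58_E W →+ s58_E W')
    (hsurj : Function.Surjective φ) (hequiv : ∀ (σ : s58_G) (x : s58_E W), φ (σ • x) = σ • φ x)
    {p : ℕ} (hp : Odd p) (hker : ∀ x ∈ φ.ker, p • x = 0) (h : mzj_TwoRat W) : mzj_TwoRat W' := by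
  intro T' hT' σ
  obtain ⟨x, rfl⟩ := hsurj T'
  have h2x : 2 • x ∈ φ.ker := by
    rw [AddMonoidHom.mem_ker, map_nsmul]; exact hT'
  have hT : 2 • (p • x) = 0 := by
    rw [smul_comm]; exact hker _ h2x
  have hφ : φ (p • x) = φ x := by
    obtain ⟨k, rfl⟩ := hp
    rw [map_nsmul, add_smul, mul_comm, mul_smul, hT', nsmul_zero, zero_add, one_smul]
  rw [← hφ, ← hequiv, h _ hT σ]

/-- the same with the kernel of odd cardinality. -/
theorem mzj_bs_TwoRat_of_isog_card {W W' : WeierstrassCurve ℤ} (φ : s58_E W →+ s58_E W')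
    (hsurj : Function.Surjective φ) (hequiv : ∀ (σ : s58_G) (x : s58_E W), φ (σ • x) = σ • φ x)
    {p : ℕ} (hp : Odd p) (hker : Nat.card φ.ker = p) (h : mzj_TwoRat W) : mzj_TwoRat W' := by
  refine mzj_bs_TwoRat_of_isog φ hsurj hequiv hp (fun x hx => ?_) h
  have h1 : Nat.card φ.ker • (⟨x, hx⟩ : φ.ker) = 0 := card_nsmul_eq_zero'
  rw [hker] at h1
  exact congrArg Subtype.val h1

end Fermat.Agent.MZ
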