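/-
MAZUR project, node **[MZ-J]**, cell **[J-CY]**, piece **(CY-K)** (helper23).  Prefix `mzj_ck_`.

THE KILL of the second alternative of (G1): `G_ℚ` cannot act trivially on `W[p]` when `p ≥ 11` and
`2` is a multiplicative prime of the model: the zero component at `A ∣ 2` contains a nonzero point
`R` of order `p` (`mzj_un_exists_E0_torsion`), which would be `G_ℚ`-fixed, and then helper19's
[J-SIZE] `mzj_sz_main` gives `p ≤ 2 · 2 + 1`.
-/
import Mathlib
import Fermat.Agent.MZ.J.Size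
import Fermat.Agent.MZ.J.Unram
import Fermat.Agent.S13.Global.UnramifiedOne

set_option autoImplicit false

namespace Fermat.Agent.MZ

open WeierstrassCurve WeierstrassCurve.Affine Fermat.Agent.S58 Fermat.Agent.S13

/-- **(CY-K)**: `G_ℚ` does not act trivially on `W[p]`. -/
theorem mzj_ck_main (W : WeierstrassCurve ℤ) (hΔ : W.Δ ≠ 0) (h2Δ : (2 : ℤ) ∣ W.Δ)
    (h2c : ¬ (2 : ℤ) ∣ W.c₄) {p : ℕ} (hp : p.Prime) (hp11 : 11 ≤ p)
    (hall : ∀ (σ : s58_G) (x : s58_E W), p • x = 0 → σ • x = x) : False := by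
  obtain ⟨A, hA⟩ := g1_exists_liesOver 2 Nat.prime_two
  have h2p : (2 : ℕ) ≠ p := by omega
  obtain ⟨R, hR0, hRp, hRne⟩ := mzj_un_exists_E0_torsion W hΔ hp Nat.prime_two h2p
    (by exact_mod_cast h2Δ) (by exact_mod_cast h2c) A hA
  have hord : addOrderOf R = p := by
    have hdvd : addOrderOf R ∣ p := addOrderOf_dvd_of_nsmul_eq_zero hRp
    rcases (Nat.dvd_prime hp).mp hdvd with h1 | h1
    · exact absurd (AddMonoid.addOrderOf_eq_one_iff.mp h1) hRne
    · exact h1
  have hle := mzj_sz_main hp Nat.prime_two (Ne.symm h2p) W R (fun σ => hall σ R hRp) hord A hA hR0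
  omega

end Fermat.Agent.MZ
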