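/-
MAZUR project, node **[MZ-J]**, cell **[J-CY]**, THE ASSEMBLY (helper21).  Prefix `mzj_cya_`.

`mzj_Cyclo_stmt` from its three pieces (split #3197 / #3202):
* (CY-F) `mzj_cya_F_stmt`: a Frobenius at a good prime `ℓ ≠ p` acts on the cofixed line `N` by `ℓ`,
  or trivially on `W[p]`  (from the Frobenius seam `s58fa_frobSeam`);
* (CY-W) `mzj_cya_W_stmt`: weak Chebotarev (`wcz_main`) + "a group is not the union of two proper
  subgroups": (CY-F) for all Frobenii ⟹ `N` carries the cyclotomic character, or `G_ℚ` is trivial on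
  `W[p]`;
* (CY-K) `mzj_ck_main` (helper23, `MZ/J/CycloK.lean`): the second alternative is impossible.
-/
import Mathlib
import Fermat.Agent.MZ.J.Seams
import Fermat.Agent.MZ.J.CycloK
import Fermat.Prelude.Def_EllipticCurve_FrobeniusTrace

set_option autoImplicit false

namespace Fermat.Agent.MZ

open WeierstrassCurve WeierstrassCurve.Affine Fermat.Agent.S58

/-- **(CY-F)** as a proposition. -/
def mzj_cya_F_stmt : Prop :=
  ∀ (W : WeierstrassCurve ℤ), W.Δ ≠ 0 → ∀ (p : ℕ) [Fact p.Prime], p ≠ 2 →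
    ∀ N : AddSubgroup (s58_E W), Nat.card N = p → mzj_Stable N →
      (∀ (σ : s58_G) (x : s58_E W), p • x = 0 → σ • x - x ∈ N) →
      ∀ {ℓ : ℕ}, ℓ.Prime → ℓ ≠ p → ¬ (ℓ : ℤ) ∣ W.Δ →
        ∀ A : ValuationSubring s58_Qb, A.LiesOverPrime ℓ →
          ∀ φ : s58_G, A.IsFrobeniusAt φ ℓ →
            (∀ x ∈ N, φ • x = ℓ • x) ∨ (∀ x : s58_E W, p • x = 0 → φ • x = x)

/-- **(CY-W)** as a proposition. -/
def mzj_cya_W_stmt : Prop :=
  ∀ (W : WeierstrassCurve ℤ), W.Δ ≠ 0 → ∀ (p : ℕ) [Fact p.Prime], p ≠ 2 →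
    ∀ N : AddSubgroup (s58_E W), (∀ x ∈ N, p • x = 0) → mzj_Stable N →
      (∀ ℓ : ℕ, ℓ.Prime → ℓ ≠ p → ¬ (ℓ : ℤ) ∣ W.Δ →
        ∀ A : ValuationSubring s58_Qb, A.LiesOverPrime ℓ →
          ∀ φ : s58_G, A.IsFrobeniusAt φ ℓ →
            (∀ x ∈ N, φ • x = ℓ • x) ∨ (∀ x : s58_E W, p • x = 0 → φ • x = x)) →
      (∀ (σ : s58_G), ∀ x ∈ N, σ • x = ExtCitation.cycloExp p σ • x) ∨
        (∀ (σ : s58_G) (x : s58_E W), p • x = 0 → σ • x = x)

/-- a subgroup with `p` elements is killed by `p` -/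
theorem mzj_cya_killed {G : Type*} [AddCommGroup G] {p : ℕ} (N : AddSubgroup G)
    (hN : Nat.card N = p) : ∀ x ∈ N, p • x = 0 := by
  intro x hx
  have h := card_nsmul_eq_zero' (G := N) (x := ⟨x, hx⟩)
  rw [hN] at h
  simpa using congrArg Subtype.val h

/-- **[J-CY]** from (CY-F) and (CY-W) (and (CY-K), landed). -/
theorem mzj_cya_main (hF : mzj_cya_F_stmt) (hW : mzj_cya_W_stmt) : mzj_Cyclo_stmt := by
  intro W hΔ h2Δ h2c p _ hp11 N hNcard hNst hcof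
  have hp : p.Prime := Fact.out
  have hp2 : p ≠ 2 := by omega
  rcases hW W hΔ p hp2 N (mzj_cya_killed N hNcard) hNst
    (fun ℓ hℓ hℓp hgood A hA φ hφ =>
      hF W hΔ p hp2 N hNcard hNst hcof hℓ hℓp hgood A hA φ hφ) with h | h
  · exact h
  · exact (mzj_ck_main W hΔ h2Δ h2c hp hp11 h).elim

end Fermat.Agent.MZ
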