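/-
MAZUR project, node [MZ-J], cell [J-CY], half (CY-F) (helper29, prefix `mzj_cf_`).

`mzj_cf_main`: for a Frobenius element `φ` at a good prime `ℓ ≠ p` of `W`, and a Galois-stable line
`N ⊆ W[p]` with `G_ℚ` acting trivially on `W[p]/N`: either `φ` acts on `N` as multiplication by
`ℓ`, or `φ` fixes `W[p]` pointwise.  From the Eichler–Shimura relation `s58fa_frobSeam`
(`φ² - a_ℓ φ + ℓ = 0` on prime-to-`ℓ` torsion) by `2 × 2` linear algebra:
on `W[p]/N` it gives `a_ℓ ≡ 1 + ℓ`, on `N = ⟨g⟩`, `φ g = k g`, it gives `(k - 1)(k - ℓ) ≡ 0`; if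
`k ≡ 1 ≢ ℓ` then `(2 - a_ℓ)(φ x - x) = 0` for every `x ∈ W[p]` and `2 - a_ℓ ≡ 1 - ℓ` is a unit.
-/
import Mathlib
import Fermat.Agent.MZ.J.Seams
import Fermat.Agent.MZ.J.AtPAsm
import Fermat.Agent.S58.Frob.Seam

set_option autoImplicit false

namespace Fermat.Agent.MZ

open Fermat.Agent.S58

section abstract

variable {V : Type*} [AddCommGroup V]

/-- `c • z = 0`, `p • z = 0`, `p ∤ c` ⟹ `z = 0`. -/
theorem mzj_cf_eq_zero {p : ℕ} (hp : p.Prime) {c : ℤ} (hc : ¬ (p : ℤ) ∣ c) {z : V}
    (h1 : c • z = 0) (h2 : p • z = 0) : z = 0 := by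
  have hcop : IsCoprime c (p : ℤ) :=
    ((Nat.prime_iff_prime_int.mp hp).coprime_iff_not_dvd.mpr hc).symm
  obtain ⟨u, v, huv⟩ := hcop
  have : (u * c + v * (p : ℤ)) • z = 0 := by
    rw [add_smul, mul_smul, mul_smul, h1, natCast_zsmul, h2, smul_zero, smul_zero, add_zero]
  rwa [huv, one_smul] at this

/-- `c • e ∈ N`, `p • e = 0`, `p ∤ c` ⟹ `e ∈ N`. -/
theorem mzj_cf_mem {p : ℕ} (hp : p.Prime) {c : ℤ} (hc : ¬ (p : ℤ) ∣ c) (N : AddSubgroup V) {e : V}
    (h1 : c • e ∈ N) (h2 : p • e = 0) : e ∈ N := by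
  have hcop : IsCoprime c (p : ℤ) :=
    ((Nat.prime_iff_prime_int.mp hp).coprime_iff_not_dvd.mpr hc).symm
  obtain ⟨u, v, huv⟩ := hcop
  have : (u * c + v * (p : ℤ)) • e ∈ N := by
    rw [add_smul, mul_smul, mul_smul, natCast_zsmul, h2, smul_zero, add_zero]
    exact N.zsmul_mem h1 u
  rwa [huv, one_smul] at this

/-- The abstract `2 × 2` linear algebra behind (CY-F). -/
theorem mzj_cf_abs {p : ℕ} (hp : p.Prime) (f : V →+ V) (a l : ℤ) (N : AddSubgroup V)
    (hNcard : Nat.card N = p) (hfN : ∀ x ∈ N, f x ∈ N)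
    (hcof : ∀ x, p • x = 0 → f x - x ∈ N)
    (hseam : ∀ x, p • x = 0 → f (f x) - a • f x + l • x = 0)
    (e : V) (he : p • e = 0) (heN : e ∉ N) :
    (∀ x ∈ N, f x = l • x) ∨ (∀ x, p • x = 0 → f x = x) := by
  have hNfin : Finite N := Nat.finite_of_card_ne_zero (by rw [hNcard]; exact hp.ne_zero)
  have hNp : ∀ x ∈ N, p • x = 0 := by
    intro x hx
    have := card_nsmul_eq_zero' (G := N) (x := ⟨x, hx⟩)
    rw [hNcard] at this
    exact congrArg Subtype.val this
  -- a generator of `N`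
  obtain ⟨g, hgN, hg0⟩ : ∃ g ∈ N, g ≠ 0 := by
    have : Nontrivial N := by
      rw [← Finite.one_lt_card_iff_nontrivial, hNcard]; exact hp.one_lt
    obtain ⟨⟨g, hg⟩, hne⟩ := exists_ne (0 : N)
    exact ⟨g, hg, fun h => hne (Subtype.ext h)⟩
  have hgord : addOrderOf g = p := by
    have h1 : addOrderOf g ∣ p := addOrderOf_dvd_of_nsmul_eq_zero (hNp g hgN)
    rcases (Nat.dvd_prime hp).1 h1 with h0 | h0
    · exact absurd (AddMonoid.addOrderOf_eq_one_iff.1 h0) hg0
    · exact h0
  have hNz : AddSubgroup.zmultiples g = N := by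
    apply AddSubgroup.eq_of_le_of_card_ge
    · exact AddSubgroup.zmultiples_le_of_mem hgN
    · rw [hNcard, Nat.card_zmultiples, hgord]
  -- `f g = k • g`
  obtain ⟨k, hk⟩ : ∃ k : ℤ, k • g = f g := by
    have : f g ∈ AddSubgroup.zmultiples g := by rw [hNz]; exact hfN g hgN
    exact AddSubgroup.mem_zmultiples_iff.mp this
  have hfNk : ∀ x ∈ N, f x = k • x := by
    intro x hx
    rw [← hNz] at hx
    obtain ⟨j, rfl⟩ := AddSubgroup.mem_zmultiples_iff.mp hx
    rw [map_zsmul, ← hk, smul_comm]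
  -- `a ≡ 1 + l (mod p)` from the relation at `e`
  have ha : (p : ℤ) ∣ 1 - a + l := by
    by_contra hnd
    apply heN
    refine mzj_cf_mem hp hnd N ?_ he
    have hn : f e - e ∈ N := hcof e he
    have hs := hseam e he
    have hfe : f e = e + (f e - e) := by abel
    have hffe : f (f e) = f e + k • (f e - e) := by
      conv_lhs => rw [hfe, map_add, hfNk _ hn]
    have : (1 - a + l) • e = -((1 - a) • (f e - e) + k • (f e - e)) := by
      have h2 : f e + k • (f e - e) - a • f e + l • e = 0 := by rw [← hffe]; exact hs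
      have h3 : (1 - a + l) • e + ((1 - a) • (f e - e) + k • (f e - e)) =
          f e + k • (f e - e) - a • f e + l • e := by
        simp only [add_smul, sub_smul, one_smul, smul_sub]
        abel
      rw [eq_neg_iff_add_eq_zero, h3, h2]
    rw [this]
    exact N.neg_mem (N.add_mem (N.zsmul_mem hn _) (N.zsmul_mem hn _))
  -- `(k - 1)(k - l) ≡ 0` from the relation at `g`
  have hk2 : (p : ℤ) ∣ (k - 1) * (k - l) := by
    have hs := hseam g (hNp g hgN)
    rw [← hk, map_zsmul, ← hk] at hs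
    have h1 : (k * k - a * k + l) • g = 0 := by
      simp only [add_smul, sub_smul, mul_smul]
      exact hs
    have h2 : (p : ℤ) ∣ k * k - a * k + l := by
      by_contra hnd
      exact hg0 (mzj_cf_eq_zero hp hnd h1 (hNp g hgN))
    have h3 : (k - 1) * (k - l) = (k * k - a * k + l) - (1 - a + l) * k := by ring
    rw [h3]
    exact dvd_sub h2 (Dvd.dvd.mul_right ha k)
  have hpz : ∀ (c d : ℤ), (p : ℤ) ∣ c - d → ∀ x : V, p • x = 0 → c • x = d • x := by
    intro c d hcd x hx
    obtain ⟨m, hm⟩ := hcd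
    have : c = d + (p : ℤ) * m := by linarith
    rw [this, add_smul, mul_comm, mul_smul, natCast_zsmul, hx, smul_zero, add_zero]
  rcases (Nat.prime_iff_prime_int.mp hp).dvd_or_dvd hk2 with h1 | h1
  · -- `k ≡ 1`
    by_cases hl : (p : ℤ) ∣ 1 - l
    · left
      intro x hx
      rw [hfNk x hx]
      have : (p : ℤ) ∣ k - l := by
        have : k - l = (k - 1) + (1 - l) := by ring
        rw [this]; exact dvd_add h1 hl
      exact hpz k l this x (hNp x hx)
    · right
      intro x hx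
      have hy : f x - x ∈ N := hcof x hx
      have hfy : f (f x - x) = f x - x := by
        rw [hfNk _ hy]
        have := hpz k 1 h1 (f x - x) (hNp _ hy)
        rw [this, one_smul]
      have hs := hseam x hx
      have hfx : f x = x + (f x - x) := by abel
      have hffx : f (f x) = f x + (f x - x) := by
        conv_lhs => rw [hfx, map_add, hfy]
      have h0 : (1 - a + l) • x = 0 := by
        have := hpz (1 - a + l) 0 (by simpa using ha) x hx
        rw [this, zero_smul]
      have h2 : (2 - a) • (f x - x) = 0 := by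
        have h3 : (2 - a) • (f x - x) + (1 - a + l) • x =
            f x + (f x - x) - a • f x + l • x := by
          have : (2 : ℤ) - a = 1 + (1 - a) := by ring
          rw [this]
          simp only [add_smul, sub_smul, one_smul, smul_sub]
          abel
        have h4 : f x + (f x - x) - a • f x + l • x = 0 := by rw [← hffx]; exact hs
        rw [h0, add_zero] at h3
        rw [h3, h4]
      have hnd : ¬ (p : ℤ) ∣ 2 - a := by
        intro hd
        apply hl
        have : 1 - l = (2 - a) - (1 - a + l) := by ring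
        rw [this]
        exact dvd_sub hd ha
      have := mzj_cf_eq_zero hp hnd h2 (hNp _ hy)
      exact sub_eq_zero.mp this
  · -- `k ≡ l`
    left
    intro x hx
    rw [hfNk x hx]
    exact hpz k l h1 x (hNp x hx)

end abstract

/-- **(CY-F)**: a Frobenius at a good prime `ℓ ≠ p` acts on the cofixed line `N` as `ℓ`, or fixes
`W[p]` pointwise. -/
theorem mzj_cf_main (W : WeierstrassCurve ℤ) (hΔ : W.Δ ≠ 0) (p : ℕ) [hpf : Fact p.Prime]
    (hp2 : p ≠ 2) (N : AddSubgroup (s58_E W)) (hNcard : Nat.card N = p) (hNst : mzj_Stable N)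
    (hcof : ∀ (σ : s58_G) (x : s58_E W), p • x = 0 → σ • x - x ∈ N)
    {ℓ : ℕ} (hℓ : ℓ.Prime) (hℓp : ℓ ≠ p) (hgood : ¬ (ℓ : ℤ) ∣ W.Δ)
    (A : ValuationSubring s58_Qb) (hA : A.LiesOverPrime ℓ) (φ : s58_G)
    (hφ : A.IsFrobeniusAt φ ℓ) :
    (∀ x ∈ N, φ • x = ℓ • x) ∨ (∀ x : s58_E W, p • x = 0 → φ • x = x) := by
  have hp : p.Prime := hpf.out
  have hodd : Odd p := hp.odd_of_ne_two hp2
  have hNfin : Finite N := Nat.finite_of_card_ne_zero (by rw [hNcard]; exact hp.ne_zero)
  have hNp : ∀ x ∈ N, p • x = 0 := by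
    intro x hx
    have := card_nsmul_eq_zero' (G := N) (x := ⟨x, hx⟩)
    rw [hNcard] at this
    exact congrArg Subtype.val this
  -- a `p`-torsion point outside `N`
  obtain ⟨e, he, heN⟩ : ∃ e : s58_E W, p • e = 0 ∧ e ∉ N := by
    by_contra hcon
    push Not at hcon
    have hle : mzj_aa_T W p ≤ N := fun x hx => hcon x hx
    have hcard := mzj_aa_card_T W hΔ hodd
    have h1 : Nat.card (mzj_aa_T W p) ≤ Nat.card N := AddSubgroup.card_le_of_le hle
    rw [hcard, hNcard] at h1
    have := hp.one_lt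
    nlinarith
  have hcop : Nat.Coprime p ℓ := (Nat.coprime_primes hp hℓ).mpr (Ne.symm hℓp)
  have hseam := s58fa_frobSeam W ℓ hℓ hgood A hA φ hφ p
  have key := mzj_cf_abs hp (DistribSMul.toAddMonoidHom (s58_E W) φ) (W.apOfModel ℓ) (ℓ : ℤ) N
    hNcard (fun x hx => hNst φ x hx) (fun x hx => hcof φ x hx)
    (fun x hx => hseam x hcop hx) e he heN
  rcases key with h | h
  · left
    intro x hx
    have := h x hx
    rw [natCast_zsmul] at this
    exact this
  · right
    exact h

end Fermat.Agent.MZ
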