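/-
MAZUR project, node **[MZ-J]**, cell **[J-CY]**, piece **(CY-F)** (helper21, second copy; the
first claim is helper29's `CycloF.lean`, prefix `mzj_cf_`).  Prefix `mzj_cfb_`.

A Frobenius element `φ` at a good prime `ℓ ≠ p` acts on a cofixed line `N ⊆ W[p]` by `ℓ`, or acts
trivially on `W[p]`: from the Frobenius seam `φ² - a_ℓ φ + ℓ = 0` on `W[p]` (`s58fa_frobSeam`).
`mzj_cfb_main : mzj_cya_F_stmt`.
-/
import Mathlib
import Fermat.Agent.MZ.J.Seams
import Fermat.Agent.MZ.J.StepA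
import Fermat.Agent.MZ.J.CycloAsm
import Fermat.Agent.S58.Frob.Seam
import Fermat.Agent.S58.Tate

set_option autoImplicit false

namespace Fermat.Agent.MZ

open WeierstrassCurve WeierstrassCurve.Affine Fermat.Agent.S58

section abs

variable {E : Type*} [AddCommGroup E] {p : ℕ}

theorem mzj_cfb_zsmul_of_dvd {x : E} (hx : p • x = 0) {c : ℤ} (hc : (p : ℤ) ∣ c) : c • x = 0 := by
  obtain ⟨d, rfl⟩ := hc
  rw [mul_comm, mul_zsmul, natCast_zsmul, hx, smul_zero]

theorem mzj_cfb_dvd_of_zsmul (hp : p.Prime) {y : E} (hy0 : y ≠ 0) (hy : p • y = 0) {c : ℤ}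
    (hc : c • y = 0) : (p : ℤ) ∣ c := by
  have hord : addOrderOf y = p := by
    have h1 : addOrderOf y ∣ p := addOrderOf_dvd_of_nsmul_eq_zero hy
    rcases (Nat.dvd_prime hp).1 h1 with h0 | h0
    · exact absurd (AddMonoid.addOrderOf_eq_one_iff.1 h0) hy0
    · exact h0
  rw [← hord]
  exact addOrderOf_dvd_iff_zsmul_eq_zero.mpr hc

/-- the linear algebra of (CY-F) -/
theorem mzj_cfb_abs (hp : p.Prime) (f : E →+ E) (N : AddSubgroup E)
    (hNcard : Nat.card N = p) (hNst : ∀ x ∈ N, f x ∈ N)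
    (hcof : ∀ x, p • x = 0 → f x - x ∈ N)
    (e : E) (he : p • e = 0) (heN : e ∉ N) (a : ℤ) (ℓ : ℕ)
    (hfs : ∀ x : E, p • x = 0 → f (f x) - a • f x + (ℓ : ℤ) • x = 0) :
    (∀ x ∈ N, f x = ℓ • x) ∨ (∀ x, p • x = 0 → f x = x) := by
  classical
  have hN : ∀ x ∈ N, p • x = 0 := mzj_cya_killed N hNcard
  -- a generator
  have hNbot : N ≠ ⊥ := by
    intro h
    rw [h, AddSubgroup.card_bot] at hNcard
    exact hp.one_lt.ne hNcard
  obtain ⟨⟨g, hg⟩, hg0'⟩ := (AddSubgroup.ne_bot_iff_exists_ne_zero).mp hNbot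
  have hg0 : g ≠ 0 := fun h0 => hg0' (Subtype.ext h0)
  obtain ⟨k, hk⟩ := mzj_st_mem_multiple hp N hNcard hg hg0 (hNst g hg)
  have hkN : ∀ x ∈ N, f x = (k : ℤ) • x := by
    intro x hx
    obtain ⟨m, rfl⟩ := mzj_st_mem_multiple hp N hNcard hg hg0 hx
    rw [map_nsmul, hk, natCast_zsmul, ← mul_nsmul, ← mul_nsmul, mul_comm]
  -- `p ∣ 1 - a + ℓ`
  have h1 : (p : ℤ) ∣ 1 - a + ℓ := by
    by_contra hnd
    set n := f e - e with hn
    have hnN : n ∈ N := hcof e he
    have hfe : f e = e + n := by rw [hn]; abel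
    have hfn : f n = (k : ℤ) • n := hkN n hnN
    have h2 := hfs e he
    rw [hfe, map_add, hfe, hfn] at h2
    have h3 : (1 - a + ℓ : ℤ) • e = -(((1 : ℤ) + k - a) • n) := by
      have : (1 - a + ℓ : ℤ) • e + ((1 : ℤ) + k - a) • n
          = e + n + (k : ℤ) • n - a • (e + n) + (ℓ : ℤ) • e := by module
      rw [h2] at this
      exact eq_neg_of_add_eq_zero_left this
    have h4 : (1 - a + ℓ : ℤ) • e ∈ N := by
      rw [h3]
      exact N.neg_mem (N.zsmul_mem hnN _)
    have hcop : IsCoprime (1 - a + ℓ : ℤ) (p : ℤ) :=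
      ((Nat.prime_iff_prime_int.mp hp).coprime_iff_not_dvd.mpr hnd).symm
    obtain ⟨u, v, huv⟩ := hcop
    apply heN
    have h5 : e = u • ((1 - a + ℓ : ℤ) • e) + v • ((p : ℤ) • e) := by
      rw [← mul_zsmul, ← mul_zsmul, ← add_zsmul, huv, one_zsmul]
    rw [h5, natCast_zsmul, he, smul_zero, add_zero]
    exact N.zsmul_mem h4 _
  -- `p ∣ (k - 1) (k - ℓ)`
  have h2 : (p : ℤ) ∣ ((k : ℤ) - 1) * ((k : ℤ) - ℓ) := by
    have h3 := hfs g (hN g hg)
    rw [hkN g hg, map_zsmul, hkN g hg] at h3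
    have h4 : ((k : ℤ) * k - a * k + ℓ) • g = 0 := by
      rw [← h3]
      module
    have h5 := mzj_cfb_dvd_of_zsmul hp hg0 (hN g hg) h4
    have h6 : ((k : ℤ) - 1) * ((k : ℤ) - ℓ) = ((k : ℤ) * k - a * k + ℓ) - k * (1 - a + ℓ) := by
      ring
    rw [h6]
    exact dvd_sub h5 (Dvd.dvd.mul_left h1 _)
  rcases (Nat.prime_iff_prime_int.mp hp).dvd_or_dvd h2 with h3 | h3
  · by_cases h4 : (p : ℤ) ∣ (k : ℤ) - ℓ
    · left
      intro x hx
      rw [hkN x hx, ← natCast_zsmul x ℓ, ← sub_eq_zero, ← sub_smul]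
      exact mzj_cfb_zsmul_of_dvd (hN x hx) h4
    · right
      have h5 : ¬ (p : ℤ) ∣ (1 : ℤ) - ℓ := by
        intro h
        apply h4
        have : (k : ℤ) - ℓ = ((k : ℤ) - 1) + (1 - ℓ) := by ring
        rw [this]
        exact dvd_add h3 h
      intro x hx
      set y := f x - x with hy
      have hyN : y ∈ N := hcof x hx
      have hfx : f x = x + y := by rw [hy]; abel
      have hfy : f y = y := by
        rw [hkN y hyN]
        have : (k : ℤ) • y - y = ((k : ℤ) - 1) • y := by rw [sub_smul, one_smul]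
        rw [← sub_eq_zero, this]
        exact mzj_cfb_zsmul_of_dvd (hN y hyN) h3
      have h6 := hfs x hx
      rw [hfx, map_add, hfx, hfy] at h6
      have h7 : (1 - a + ℓ : ℤ) • x + ((2 : ℤ) - a) • y = 0 := by
        rw [← h6]
        module
      rw [mzj_cfb_zsmul_of_dvd hx h1, zero_add] at h7
      have h8 : ((1 : ℤ) - ℓ) • y = 0 := by
        have : ((1 : ℤ) - ℓ) • y = ((2 : ℤ) - a) • y - (1 - a + ℓ : ℤ) • y := by module
        rw [this, h7, mzj_cfb_zsmul_of_dvd (hN y hyN) h1, sub_zero]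
      have hy0 : y = 0 := by
        by_contra hne
        exact h5 (mzj_cfb_dvd_of_zsmul hp hne (hN y hyN) h8)
      rw [hfx, hy0, add_zero]
  · left
    intro x hx
    rw [hkN x hx, ← natCast_zsmul x ℓ, ← sub_eq_zero, ← sub_smul]
    exact mzj_cfb_zsmul_of_dvd (hN x hx) h3

end abs

/-- **(CY-F)** -/
theorem mzj_cfb_main : mzj_cya_F_stmt := by
  intro W hΔ p _ hp2 N hNcard hNst hcof ℓ hℓ hℓp hgood A hA φ hφ
  have hp : p.Prime := Fact.out
  have hcop : p.Coprime ℓ := (Nat.coprime_primes hp hℓ).mpr (Ne.symm hℓp)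
  -- a point of `W[p]` outside `N`
  have hcard := s58t_card W hΔ p hp2 1
  simp only [pow_one, mul_one] at hcard
  have hNfin : Finite N := Nat.finite_of_card_ne_zero (by rw [hNcard]; exact hp.ne_zero)
  obtain ⟨e, he, heN⟩ : ∃ e : s58_E W, p • e = 0 ∧ e ∉ N := by
    by_contra hcon
    push_neg at hcon
    have hle : Nat.card {x : s58_E W // p • x = 0} ≤ Nat.card N :=
      Nat.card_le_card_of_injective (fun x => (⟨x.1, hcon x.1 x.2⟩ : N))
        (fun x y hxy => Subtype.ext (by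
          have := congrArg (fun z : N => (z : s58_E W)) hxy
          exact this))
    rw [hcard, hNcard] at hle
    have : p * p ≤ p * 1 := by simpa [pow_two] using hle
    have := Nat.le_of_mul_le_mul_left this hp.pos
    exact absurd hp.one_lt (by omega)
  have h := mzj_cfb_abs hp (DistribMulAction.toAddMonoidHom (s58_E W) φ) N hNcard
    (fun x hx => hNst φ x hx) (fun x hx => hcof φ x hx) e he heN (W.apOfModel ℓ) ℓ
    (fun x hx => s58fa_frobSeam W ℓ hℓ hgood A hA φ hφ p x hcop hx)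
  exact h

end Fermat.Agent.MZ
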