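/-
MAZUR project, node [MZ-J], cell [J-CY]: the seam (CY-F) of `MZ/J/CycloAsm.lean` closed, and with
it the whole cell: `mzj_cf_cyclo : mzj_Cyclo_stmt` (helper29, prefix `mzj_cf_`).

`mzj_Cyclo_stmt` = `mzj_cya_main` (assembly, helper21, with helper23's `mzj_ck_main`) applied to
(CY-F) `mzj_cf_main` (`MZ/J/CycloF.lean`) and (CY-W) `mzj_cwb_main` (`MZ/J/CycloWB.lean`, helper21).
-/
import Fermat.Agent.MZ.J.CycloF
import Fermat.Agent.MZ.J.CycloAsm
import Fermat.Agent.MZ.J.CycloWB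

set_option autoImplicit false

namespace Fermat.Agent.MZ

/-- (CY-F) in the seam form of `MZ/J/CycloAsm.lean`. -/
theorem mzj_cf_stmt : mzj_cya_F_stmt :=
  fun W hΔ p _ hp2 N hNcard hNst hcof _ hℓ hℓp hgood A hA φ hφ =>
    mzj_cf_main W hΔ p hp2 N hNcard hNst hcof hℓ hℓp hgood A hA φ hφ

/-- **[J-CY]**: on a cofixed line the Galois group acts through the mod `p` cyclotomic character. -/
theorem mzj_cf_cyclo : mzj_Cyclo_stmt := mzj_cya_main mzj_cf_stmt mzj_cwb_main

end Fermat.Agent.MZ
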