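/-
MAZUR project, node **[MZ-J]**, cell **[J-CY]**, piece **(CY-W)** (helper21, second copy; the
first claim is helper15's `CycloW.lean`, prefix `mzj_cw_`).  Prefix `mzj_cwb_`.

Weak Chebotarev + "a group is not the union of two proper subgroups":
if every Frobenius element at a good prime `ℓ ≠ p` acts on the `p`-torsion line `N` by `ℓ` or acts
trivially on `W[p]`, then `G_ℚ` acts on `N` by the mod `p` cyclotomic character or acts trivially on
`W[p]`.  `mzj_cwb_main : mzj_cya_W_stmt`.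
-/
import Mathlib
import Fermat.Agent.MZ.J.Seams
import Fermat.Agent.MZ.J.CycloAsm
import Fermat.Agent.WC.Final
import Fermat.Agent.S58.Cmp
import Fermat.Agent.S58.Tate
import Fermat.Agent.S55.DualTwistHyp
import Fermat.Agent.DS.Pack.CycloMod

set_option autoImplicit false
set_option linter.style.haveILetI false

namespace Fermat.Agent.MZ

open WeierstrassCurve WeierstrassCurve.Affine Fermat.Agent.S58 ExtCitation

/-! ### the mod `p` cyclotomic exponent -/

section cyclo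

variable (p : ℕ) [Fact p.Prime]

/-- multiples of a `p`-torsion element only depend on the class modulo `p` -/
theorem mzj_cwb_nsmul_congr {G : Type*} [AddCommGroup G] {x : G} (hx : p • x = 0) {a b : ℕ}
    (hab : (a : ZMod p) = (b : ZMod p)) : a • x = b • x := by
  have h := (ZMod.natCast_eq_natCast_iff a b p).mp hab
  have h1 : ∀ c : ℕ, c • x = (c % p) • x := by
    intro c
    conv_lhs => rw [← Nat.mod_add_div c p]
    rw [add_nsmul, mul_nsmul, hx, nsmul_zero, add_zero]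
  rw [h1 a, h1 b, h]

theorem mzj_cwb_exp_mul (σ τ : s58_G) :
    ((cycloExp p (σ * τ) : ℕ) : ZMod p) = (cycloExp p σ : ZMod p) * (cycloExp p τ : ZMod p) := by
  rw [← coe_cycloChar, ← coe_cycloChar, ← coe_cycloChar, map_mul, Units.val_mul]

theorem mzj_cwb_exp_one : ((cycloExp p (1 : s58_G) : ℕ) : ZMod p) = 1 := by
  rw [← coe_cycloChar, map_one, Units.val_one]

theorem mzj_cwb_exp_inv (σ : s58_G) :
    (cycloExp p σ : ZMod p) * (cycloExp p σ⁻¹ : ZMod p) = 1 := by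
  rw [← mzj_cwb_exp_mul, mul_inv_cancel, mzj_cwb_exp_one]

/-- a Frobenius element at `ℓ ≠ p` has cyclotomic exponent `ℓ` -/
theorem mzj_cwb_exp_frob {ℓ : ℕ} (hℓ : ℓ.Prime) (hℓp : ℓ ≠ p)
    (A : ValuationSubring s58_Qb) (hA : A.LiesOverPrime ℓ) (φ : s58_G)
    (hφ : A.IsFrobeniusAt φ ℓ) : ((cycloExp p φ : ℕ) : ZMod p) = (ℓ : ZMod p) := by
  have hp : p.Prime := Fact.out
  haveI : NeZero p := ⟨hp.ne_zero⟩
  have hℓn : ¬ ℓ ∣ p := fun h => hℓp ((Nat.prime_dvd_prime_iff_eq hℓ hp).mp h)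
  rw [← coe_cycloChar]
  symm
  refine modularCyclotomicCharacter.unique s58_Qb (card_rootsOfUnity_eq_self p)
    (φ : s58_Qb ≃+* s58_Qb) (c := (ℓ : ZMod p)) fun t ht => ?_
  have ht' : (t : s58_Qb) ^ p = 1 := by
    have := (mem_rootsOfUnity _ _).1 ht
    rw [← Units.val_pow_eq_pow_val, this, Units.val_one]
  have h1 : φ (t : s58_Qb) = (t : s58_Qb) ^ ℓ :=
    Fermat.Agent.DS.dspk_cyc_frob_root p hℓ hℓn A hA φ hφ ht'
  rw [ZMod.val_natCast]
  show φ (t : s58_Qb) = (t : s58_Qb) ^ (ℓ % p)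
  rw [h1]
  exact pow_eq_pow_mod ℓ ht'

end cyclo

/-! ### finite level of `W[p]` -/

/-- `W[p]` is fixed pointwise by `Gal(ℚ̄/L)` for a finite `L / ℚ` -/
theorem mzj_cwb_level (W : WeierstrassCurve ℤ) (hΔ : W.Δ ≠ 0) (p : ℕ) [Fact p.Prime]
    (hp2 : p ≠ 2) :
    ∃ L : IntermediateField ℚ s58_Qb, FiniteDimensional ℚ L ∧
      ∀ σ : s58_G, (∀ y ∈ L, σ y = y) → ∀ x : s58_E W, p • x = 0 → σ • x = x := by
  have hp : p.Prime := Fact.out
  have hcard := s58t_card W hΔ p hp2 1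
  simp only [pow_one] at hcard
  haveI hfin : Finite {x : s58_E W // p • x = 0} :=
    Nat.finite_of_card_ne_zero (by rw [hcard]; exact pow_ne_zero _ hp.ne_zero)
  have h : ∀ x : {x : s58_E W // p • x = 0},
      ∃ L : IntermediateField ℚ s58_Qb, FiniteDimensional ℚ L ∧
        ∀ σ : s58_G, (∀ y ∈ L, σ y = y) → σ • x.1 = x.1 := fun x => s58t_fixed W x.1
  choose L hL hfix using h
  refine ⟨⨆ x, L x, ?_, fun σ hσ x hx => ?_⟩
  · haveI := hL
    exact IntermediateField.finiteDimensional_iSup_of_finite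
  · exact hfix ⟨x, hx⟩ σ (fun y hy => hσ y ((le_iSup L ⟨x, hx⟩ : L _ ≤ ⨆ x, L x) hy))

/-! ### the two subgroups -/

section main

variable {W : WeierstrassCurve ℤ} (p : ℕ) [Fact p.Prime] (N : AddSubgroup (s58_E W))

/-- `H₁`: the elements acting on `N` through the cyclotomic exponent -/
def mzj_cwb_H1 (hN : ∀ x ∈ N, p • x = 0) (hNst : mzj_Stable N) : Subgroup s58_G where
  carrier := {σ | ∀ x ∈ N, σ • x = cycloExp p σ • x}
  one_mem' := by
    intro x hx
    show (1 : s58_G) • x = cycloExp p 1 • x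
    rw [one_smul, mzj_cwb_nsmul_congr p (hN x hx) (b := 1) (by
      rw [mzj_cwb_exp_one, Nat.cast_one]), one_nsmul]
  mul_mem' := by
    intro σ τ hσ hτ x hx
    show (σ * τ) • x = cycloExp p (σ * τ) • x
    have hcomm : σ • (cycloExp p τ • x) = cycloExp p τ • (σ • x) :=
      map_nsmul (DistribMulAction.toAddMonoidHom (s58_E W) σ) _ x
    rw [mul_smul, hτ x hx, hcomm, hσ x hx, ← mul_nsmul]
    exact mzj_cwb_nsmul_congr p (hN x hx) (by
      rw [mzj_cwb_exp_mul, Nat.cast_mul])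
  inv_mem' := by
    intro σ hσ x hx
    show σ⁻¹ • x = cycloExp p σ⁻¹ • x
    have hy : σ⁻¹ • x ∈ N := hNst σ⁻¹ x hx
    have h1 : x = cycloExp p σ • (σ⁻¹ • x) := by
      have := hσ _ hy
      rwa [smul_inv_smul] at this
    have h2 : cycloExp p σ⁻¹ • x = (cycloExp p σ⁻¹ * cycloExp p σ) • (σ⁻¹ • x) := by
      conv_lhs => rw [h1]
      rw [← mul_nsmul]
      congr 1
      ring
    rw [h2, mzj_cwb_nsmul_congr p (hN _ hy) (b := 1) (by
      rw [Nat.cast_mul, mul_comm, mzj_cwb_exp_inv, Nat.cast_one]), one_nsmul]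

/-- `H₂`: the elements acting trivially on `W[p]` -/
def mzj_cwb_H2 (W : WeierstrassCurve ℤ) (p : ℕ) : Subgroup s58_G where
  carrier := {σ | ∀ x : s58_E W, p • x = 0 → σ • x = x}
  one_mem' := fun x _ => one_smul _ x
  mul_mem' := by
    intro σ τ hσ hτ x hx
    show (σ * τ) • x = x
    rw [mul_smul, hτ x hx, hσ x hx]
  inv_mem' := by
    intro σ hσ x hx
    show σ⁻¹ • x = x
    rw [inv_smul_eq_iff, hσ x hx]

end main

/-- **(CY-W)** -/
theorem mzj_cwb_main : mzj_cya_W_stmt := by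
  intro W hΔ p _ hp2 N hN hNst hfrob
  have hp : p.Prime := Fact.out
  classical
  set H1 := mzj_cwb_H1 p N hN hNst with hH1
  set H2 := mzj_cwb_H2 W p with hH2
  -- every element is in `H₁` or in `H₂`
  have hcover : ∀ σ : s58_G, σ ∈ H1 ∨ σ ∈ H2 := by
    intro σ
    obtain ⟨L₁, hL₁, h1⟩ := mzj_cwb_level W hΔ p hp2
    obtain ⟨L₂, hL₂, h2⟩ := Fermat.Agent.S55.tl_cycloChar_smooth p
    obtain ⟨L, hLfd, hLn, h1L, h2L⟩ := s58cm_exists_normal L₁ L₂ hL₁ hL₂
    haveI := hLfd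
    haveI := hLn
    obtain ⟨ℓ, A, φ, k, hℓ, hℓS, hA, hφ, hk⟩ :=
      Fermat.Agent.WC.wc_main L (insert p W.Δ.natAbs.primeFactors) σ
    have hℓp : ℓ ≠ p := fun h => hℓS (h ▸ Finset.mem_insert_self _ _)
    have hgood : ¬ (ℓ : ℤ) ∣ W.Δ := by
      intro hdvd
      apply hℓS
      refine Finset.mem_insert_of_mem ?_
      rw [Nat.mem_primeFactors]
      refine ⟨hℓ, ?_, by simpa using hΔ⟩
      exact Int.natCast_dvd.mp hdvd
    -- the error term
    have hδ : ∀ x ∈ L, (σ⁻¹ * φ ^ k) x = x := by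
      intro x hx
      rw [AlgEquiv.mul_apply, hk x hx]
      show (σ⁻¹ * σ) x = x
      rw [inv_mul_cancel]
      rfl
    have hδ2 : σ⁻¹ * φ ^ k ∈ H2 := fun x hx => h1 _ (fun y hy => hδ y (h1L hy)) x hx
    have hδχ : cycloChar p (σ⁻¹ * φ ^ k) = 1 :=
      h2 _ ((IntermediateField.mem_fixingSubgroup_iff _ _).2 fun y hy => hδ y (h2L hy))
    have hδ1 : σ⁻¹ * φ ^ k ∈ H1 := by
      intro x hx
      rw [hδ2 x (hN x hx)]
      have : ((cycloExp p (σ⁻¹ * φ ^ k) : ℕ) : ZMod p) = ((1 : ℕ) : ZMod p) := by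
        rw [← coe_cycloChar, hδχ, Units.val_one, Nat.cast_one]
      rw [mzj_cwb_nsmul_congr p (hN x hx) this, one_nsmul]
    have hσ : σ = φ ^ k * (σ⁻¹ * φ ^ k)⁻¹ := by group
    rcases hfrob ℓ hℓ hℓp hgood A hA φ hφ with h | h
    · left
      have hφ1 : φ ∈ H1 := by
        intro x hx
        rw [h x hx]
        exact mzj_cwb_nsmul_congr p (hN x hx) (mzj_cwb_exp_frob p hℓ hℓp A hA φ hφ).symm
      rw [hσ]
      exact H1.mul_mem (H1.pow_mem hφ1 k) (H1.inv_mem hδ1)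
    · right
      have hφ2 : φ ∈ H2 := h
      rw [hσ]
      exact H2.mul_mem (H2.pow_mem hφ2 k) (H2.inv_mem hδ2)
  -- a group is not the union of two proper subgroups
  by_contra hcon
  rw [not_or] at hcon
  obtain ⟨hn1, hn2⟩ := hcon
  have hn1' : ∃ σ : s58_G, σ ∉ H1 := by
    by_contra h
    rw [not_exists] at h
    exact hn1 fun σ x hx => (not_not.mp (h σ)) x hx
  have hn2' : ∃ σ : s58_G, σ ∉ H2 := by
    by_contra h
    rw [not_exists] at h
    exact hn2 fun σ x hx => (not_not.mp (h σ)) x hx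
  obtain ⟨σ₁, hσ₁⟩ := hn1'
  obtain ⟨σ₂, hσ₂⟩ := hn2'
  have h12 : σ₁ ∈ H2 := (hcover σ₁).resolve_left hσ₁
  have h21 : σ₂ ∈ H1 := (hcover σ₂).resolve_right hσ₂
  rcases hcover (σ₁ * σ₂) with h | h
  · exact hσ₁ ((Subgroup.mul_mem_cancel_right H1 h21).mp h)
  · exact hσ₂ ((Subgroup.mul_mem_cancel_left H2 h12).mp h)

end Fermat.Agent.MZ
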