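/-
MAZUR project, node **[MZ-J]**, cell **[J-CY]** CLOSED (helper21).  Prefix `mzj_cyf_`.

`mzj_cyf_main : mzj_Cyclo_stmt` = `mzj_cya_main` (assembly, `CycloAsm.lean`) applied to
`mzj_cfb_main` ((CY-F), `CycloFB.lean`) and `mzj_cwb_main` ((CY-W), `CycloWB.lean`); (CY-K) is
helper23's `mzj_ck_main` (`CycloK.lean`).
-/
import Mathlib
import Fermat.Agent.MZ.J.CycloAsm
import Fermat.Agent.MZ.J.CycloFB
import Fermat.Agent.MZ.J.CycloWB

set_option autoImplicit false

namespace Fermat.Agent.MZ

/-- **[J-CY]**: on a cofixed line the Galois group acts through the mod `p` cyclotomic character. -/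
theorem mzj_cyf_main : mzj_Cyclo_stmt := mzj_cya_main mzj_cfb_main mzj_cwb_main

end Fermat.Agent.MZ
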