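/-
MAZUR project, node **[MZ-J]** (S12 from S15), cell [J-FIX] (helper16).  Prefix `mzj_fx_`.

"`R` IS POINTWISE `G_ℚ`-FIXED", in abstract form, for the inductive step of the chain of quotients.

* `mzj_fx_abs`     : (groups) `R` a subgroup of `p`-power torsion, `E0` a subgroup such that
                     `R ∩ E0` has no element of order `p`, `f` an endomorphism-like map with
                     `f R ⊆ R` and `f T - T ∈ E0` on `R`  ⟹  `f T = T` on `R`;
* `mzj_fx_noP`     : the supplier of the hypothesis "no element of order `p` in `R ∩ E0`":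
                     `R[p] ⊆ ⟨Q⟩`, `p • Q = 0`, `Q ∉ E0`;
* `mzj_fx_E0`      : the zero component `E⁰(A)` as a subgroup of `E(ℚ̄)`;
* `mzj_fx_local`   : `W / ℤ`, `A` a valuation subring of `ℚ̄`, `R` a `σ`-stable subgroup of
                     `p`-power torsion with `R[p] ⊆ ⟨Q⟩`, `Q ∉ E⁰(A)`, and `σ T - T ∈ E⁰(A)` on `R`
                     ⟹  `σ` fixes `R` pointwise;
* `mzj_fx_global`  : a finite `G_ℚ`-stable set `X` of points fixed pointwise, for every prime `ℓ`,
                     by the inertia group of ONE `A ∣ ℓ`, is fixed pointwise by `G_ℚ`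
                     (`g1_eq_top'` of S13).
-/
import Mathlib
import Fermat.Agent.S58.Mult.ZeroComp
import Fermat.Agent.S13.Global.UnramifiedOne

set_option autoImplicit false

namespace Fermat.Agent.MZ

open WeierstrassCurve WeierstrassCurve.Affine WeierstrassCurve.Affine.Point IsLocalRing
  Fermat.Agent.S58 Fermat.Agent.S13 Fermat.Agent.S05

/-! ### groups -/

section Abs

variable {G : Type*} [AddCommGroup G]

/-- a `p`-power torsion element `D` of a subgroup `H` without element of order `p` is `0`. -/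
theorem mzj_fx_eq_zero {p : ℕ} (H : AddSubgroup G)
    (hH : ∀ T ∈ H, p • T = 0 → T = 0) {D : G} (hD : D ∈ H) (n : ℕ) (hn : p ^ n • D = 0) :
    D = 0 := by
  induction n with
  | zero => simpa using hn
  | succ n ih =>
    apply ih
    apply hH _ (H.nsmul_mem hD _)
    rw [← mul_smul, ← pow_succ']
    exact hn

/-- **the abstract fixed-point lemma.** -/
theorem mzj_fx_abs {p : ℕ} (R E0 : AddSubgroup G)
    (hR : ∀ T ∈ R, ∃ n : ℕ, p ^ n • T = 0)
    (hRE : ∀ T ∈ R, T ∈ E0 → p • T = 0 → T = 0)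
    (f : G → G) (hfR : ∀ T ∈ R, f T ∈ R) (hfE : ∀ T ∈ R, f T - T ∈ E0) :
    ∀ T ∈ R, f T = T := by
  intro T hT
  have hD : f T - T ∈ R ⊓ E0 := ⟨R.sub_mem (hfR T hT) hT, hfE T hT⟩
  obtain ⟨n, hn⟩ := hR _ hD.1
  have h0 : f T - T = 0 :=
    mzj_fx_eq_zero (R ⊓ E0) (fun S hS hpS => hRE S hS.1 hS.2 hpS) hD n hn
  exact sub_eq_zero.mp h0

/-- the supplier of "no element of order `p` in `R ∩ E0`": the `p`-torsion of `R` consists of
multiples of a point `Q` of order `p` outside `E0`. -/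
theorem mzj_fx_noP {p : ℕ} (hp : p.Prime) (R E0 : AddSubgroup G) {Q : G} (hQ : p • Q = 0)
    (hQE : Q ∉ E0) (hRp : ∀ T ∈ R, p • T = 0 → ∃ k : ℕ, T = k • Q) :
    ∀ T ∈ R, T ∈ E0 → p • T = 0 → T = 0 := by
  intro T hT hTE hpT
  obtain ⟨k, rfl⟩ := hRp T hT hpT
  by_cases hk : p ∣ k
  · obtain ⟨m, rfl⟩ := hk
    rw [mul_comm, mul_smul, hQ, smul_zero]
  · exfalso
    apply hQE
    have hcop : Nat.Coprime k p := ((Nat.Prime.coprime_iff_not_dvd hp).mpr hk).symm
    obtain ⟨m, -, hm⟩ := Nat.exists_mul_mod_eq_one_of_coprime hcop hp.one_lt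
    have h1 : (k * m) • Q = Q := by
      have h2 : k * m = p * (k * m / p) + 1 := by
        have := Nat.div_add_mod (k * m) p
        omega
      rw [h2, add_smul, mul_smul, smul_comm, hQ, smul_zero, zero_add, one_smul]
    rw [← h1, mul_comm, mul_smul]
    exact E0.nsmul_mem hTE m

end Abs

/-! ### the zero component as a subgroup -/

open Classical in
/-- the zero component `E⁰(A)` as a subgroup of `E(ℚ̄)`. -/
noncomputable def mzj_fx_E0 (W : WeierstrassCurve ℤ) (A : ValuationSubring s58_Qb) : AddSubgroup (s58_E W) where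
  carrier := {R | W.InZeroComponentAt A R}
  add_mem' := fun {_ _} ha hb => s58m_inZeroComponentAt_add ha hb
  zero_mem' := Or.inl rfl
  neg_mem' := fun {_} ha => s58m_inZeroComponentAt_neg ha

theorem mzj_fx_mem_E0 {W : WeierstrassCurve ℤ} {A : ValuationSubring s58_Qb} {T : s58_E W} :
    T ∈ mzj_fx_E0 W A ↔ W.InZeroComponentAt A T := Iff.rfl

/-! ### local -/

/-- **[J-FIX], local**: `σ` fixes pointwise a `σ`-stable subgroup `R` of `p`-power torsion whose
`p`-torsion consists of multiples of a point `Q ∉ E⁰(A)` of order `p`, if `σ T - T ∈ E⁰(A)` for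
every `T ∈ R`. -/
theorem mzj_fx_local (W : WeierstrassCurve ℤ) {p : ℕ} (hp : p.Prime)
    (A : ValuationSubring s58_Qb) (R : AddSubgroup (s58_E W))
    (hR : ∀ T ∈ R, ∃ n : ℕ, p ^ n • T = 0)
    {Q : s58_E W} (hQ : p • Q = 0) (hQE : ¬ W.InZeroComponentAt A Q)
    (hRp : ∀ T ∈ R, p • T = 0 → ∃ k : ℕ, T = k • Q)
    (σ : s58_G) (hσR : ∀ T ∈ R, σ • T ∈ R)
    (hσE : ∀ T ∈ R, W.InZeroComponentAt A (σ • T - T)) :
    ∀ T ∈ R, σ • T = T :=
  mzj_fx_abs R (mzj_fx_E0 W A) hR (mzj_fx_noP hp R (mzj_fx_E0 W A) hQ hQE hRp)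
    (fun T => σ • T) hσR hσE

/-- the same, with the hypothesis "no element of order `p` in `R ∩ E⁰(A)`" as such. -/
theorem mzj_fx_local' (W : WeierstrassCurve ℤ) {p : ℕ}
    (A : ValuationSubring s58_Qb) (R : AddSubgroup (s58_E W))
    (hR : ∀ T ∈ R, ∃ n : ℕ, p ^ n • T = 0)
    (hRE : ∀ T ∈ R, W.InZeroComponentAt A T → p • T = 0 → T = 0)
    (σ : s58_G) (hσR : ∀ T ∈ R, σ • T ∈ R)
    (hσE : ∀ T ∈ R, W.InZeroComponentAt A (σ • T - T)) :
    ∀ T ∈ R, σ • T = T :=
  mzj_fx_abs R (mzj_fx_E0 W A) hR hRE (fun T => σ • T) hσR hσE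

/-! ### global -/

/-- the coordinates of a point. -/
noncomputable def mzj_fx_coords (W : WeierstrassCurve ℤ) : s58_E W → Finset s58_Qb
  | .zero => ∅
  | .some x y _ => {x, y}

theorem mzj_fx_smul_of_coords (W : WeierstrassCurve ℤ) (σ : s58_G) (T : s58_E W)
    (h : ∀ z ∈ mzj_fx_coords W T, σ z = z) : σ • T = T := by
  cases T with
  | zero => exact ga_smul_zero σ
  | some x y hxy =>
    refine ga_smul_some_of_fixed σ hxy (h x ?_) (h y ?_)
    · simp [mzj_fx_coords]
    · simp [mzj_fx_coords]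

/-- **[J-FIX], global**: a finite `G_ℚ`-stable set of points which, for every prime `ℓ`, is fixed
pointwise by the inertia group of one `A ∣ ℓ`, is fixed pointwise by `G_ℚ`. -/
theorem mzj_fx_global (W : WeierstrassCurve ℤ) (X : Set (s58_E W)) (hfin : X.Finite)
    (hstab : ∀ σ : s58_G, ∀ T ∈ X, σ • T ∈ X)
    (hloc : ∀ ℓ : ℕ, ℓ.Prime → ∃ A : ValuationSubring s58_Qb, A.LiesOverPrime ℓ ∧
      ∀ σ ∈ A.inertiaSubgroupIn ℚ, ∀ T ∈ X, σ • T = T) :
    ∀ σ : s58_G, ∀ T ∈ X, σ • T = T := by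
  classical
  -- the pointwise stabiliser
  let N : Subgroup s58_G :=
    { carrier := {σ | ∀ T ∈ X, σ • T = T}
      mul_mem' := fun {a b} ha hb T hT => by rw [mul_smul, hb T hT, ha T hT]
      one_mem' := fun T _ => one_smul _ T
      inv_mem' := fun {a} ha T hT => by
        have := ha T hT
        rw [inv_smul_eq_iff]
        exact this.symm }
  have hnormal : N.Normal := ⟨fun n hn g T hT => by
    have h1 : g⁻¹ • T ∈ X := hstab g⁻¹ T hT
    have h2 : n • (g⁻¹ • T) = g⁻¹ • T := hn _ h1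
    rw [mul_smul, mul_smul, h2, smul_inv_smul]⟩
  have hopen : IsOpen (N : Set s58_G) := by
    refine g1_isOpen_of_finset (hfin.toFinset.biUnion (mzj_fx_coords W)) N fun σ hσ T hT => ?_
    refine mzj_fx_smul_of_coords W σ T fun z hz => hσ z ?_
    rw [Finset.mem_biUnion]
    exact ⟨T, hfin.mem_toFinset.mpr hT, hz⟩
  have htop : N = ⊤ := by
    refine g1_eq_top' N hopen fun ℓ hℓ => ?_
    obtain ⟨A, hA, hA'⟩ := hloc ℓ hℓ
    exact ⟨A, hA, fun σ hσ => hA' σ hσ⟩
  intro σ
  have : σ ∈ N := by rw [htop]; exact Subgroup.mem_top σ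
  exact this

end Fermat.Agent.MZ
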