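/-
MAZUR project, node [MZ-J], cell [J-CY], half (CY-W) (helper15).  Prefix `mzj_cw_`.

FROM FROBENIUS ELEMENTS TO ALL OF `G_ℚ` (weak Chebotarev + "a group is not the union of two proper
subgroups").  `W` an integral Weierstrass model, `p` an odd prime, `N ⊆ W[p]` a Galois-stable
subgroup.  If every Frobenius element `φ` at a good prime `ℓ ≠ p` EITHER acts on `N` as
multiplication by `ℓ` OR acts trivially on `W[p]`, then EITHER `G_ℚ` acts on `N` through the mod `p`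
cyclotomic character OR `G_ℚ` acts trivially on `W[p]`  (`mzj_cw_main`).

Proof: `H₁ := {σ | σ = χ_p(σ) on N}`, `H₂ := {σ | σ = 1 on W[p]}` are subgroups; `L` := a finite normal
extension of `ℚ` containing the coordinates of `W[p]` and `ζ_p`, so `Gal(ℚ̄/L) ⊆ H₁ ⊓ H₂`; by the weak
Chebotarev theorem `wcz_main` every `σ` agrees on `L` with a power `φ^k` of a Frobenius element at a
prime `ℓ ∤ pΔ`; `χ_p(φ) = ℓ`, so `φ ∈ H₁ ∪ H₂`, hence `σ ∈ φ^k Gal(ℚ̄/L) ⊆ H₁ ∪ H₂`.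
-/
import Mathlib
import Fermat.Agent.MZ.J.Seams
import Fermat.Agent.MZ.J.Fix
import Fermat.Agent.WC.Plus
import Fermat.Agent.DS.Pack.CycloMod
import Fermat.Agent.S14.Reduction.Cyclo
import Fermat.Agent.S13.Ladder.Torsion

set_option autoImplicit false
set_option linter.unusedSectionVars false
set_option linter.style.haveILetI false

namespace Fermat.Agent.MZ

open WeierstrassCurve WeierstrassCurve.Affine Fermat.Agent.S58 Fermat.Agent.S14.Reduction

/-- a group is not the union of two proper subgroups -/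
theorem mzj_cw_two_subgroups {G : Type*} [Group G] (H₁ H₂ : Subgroup G)
    (h : ∀ σ : G, σ ∈ H₁ ∨ σ ∈ H₂) : (∀ σ : G, σ ∈ H₁) ∨ (∀ σ : G, σ ∈ H₂) := by
  by_contra hcon
  push Not at hcon
  obtain ⟨⟨a, ha⟩, ⟨b, hb⟩⟩ := hcon
  have ha2 : a ∈ H₂ := (h a).resolve_left ha
  have hb1 : b ∈ H₁ := (h b).resolve_right hb
  rcases h (a * b) with hab | hab
  · apply ha
    have := H₁.mul_mem hab (H₁.inv_mem hb1)
    rwa [mul_inv_cancel_right] at this
  · apply hb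
    have := H₂.mul_mem (H₂.inv_mem ha2) hab
    rwa [inv_mul_cancel_left] at this

/-- on `p`-torsion, `n • x` only depends on `n` modulo `p` -/
theorem mzj_cw_nsmul_congr {E : Type*} [AddCommGroup E] {p : ℕ} {x : E} (hx : p • x = 0)
    {a b : ℕ} (hab : (a : ZMod p) = (b : ZMod p)) : a • x = b • x := by
  rw [ZMod.natCast_eq_natCast_iff] at hab
  have key : ∀ n : ℕ, n • x = (n % p) • x := by
    intro n
    conv_lhs => rw [← Nat.mod_add_div n p]
    rw [add_nsmul, mul_nsmul, hx, nsmul_zero, add_zero]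
  rw [key a, key b, hab]

/-- the mod `p` cyclotomic character of a Frobenius element at `ℓ ≠ p` is `ℓ` -/
theorem mzj_cw_chi_frob (p : ℕ) [Fact p.Prime] {ℓ : ℕ} (hℓ : ℓ.Prime) (hℓp : ℓ ≠ p)
    (A : ValuationSubring s58_Qb) (hA : A.LiesOverPrime ℓ) (φ : s58_G)
    (hφ : A.IsFrobeniusAt φ ℓ) :
    ((ExtCitation.cycloExp p φ : ℕ) : ZMod p) = (ℓ : ZMod p) := by
  haveI : NeZero p := ⟨(Fact.out : p.Prime).ne_zero⟩
  obtain ⟨ζ, hζ⟩ : ∃ ζ : s58_Qb, IsPrimitiveRoot ζ p :=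
    HasEnoughRootsOfUnity.exists_primitiveRoot s58_Qb p
  have hℓp' : ¬ ℓ ∣ p := fun h =>
    hℓp ((Nat.prime_dvd_prime_iff_eq hℓ (Fact.out : p.Prime)).1 h)
  have h1 : φ ζ = ζ ^ ℓ :=
    Fermat.Agent.DS.dspk_cyc_frob_root p hℓ hℓp' A hA φ hφ hζ.pow_eq_one
  have h2 : φ ζ = ζ ^ ExtCitation.cycloExp p φ := apply_of_pow_eq_one p φ hζ.pow_eq_one
  have h3 : ζ ^ ExtCitation.cycloExp p φ = ζ ^ ℓ := h2.symm.trans h1
  have hζ0 : ζ ≠ 0 := hζ.ne_zero (NeZero.ne p)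
  have h4 : (Units.mk0 ζ hζ0) ^ ExtCitation.cycloExp p φ = (Units.mk0 ζ hζ0) ^ ℓ := by
    apply Units.ext
    simpa using h3
  have h5 := pow_eq_pow_iff_modEq.1 h4
  have hord : orderOf (Units.mk0 ζ hζ0) = p := by
    have h6 : orderOf (Units.mk0 ζ hζ0) = orderOf ζ := by
      rw [← orderOf_units]
      rfl
    rw [h6, ← hζ.eq_orderOf]
  rw [hord] at h5
  exact (ZMod.natCast_eq_natCast_iff _ _ _).2 h5

section Main

variable (W : WeierstrassCurve ℤ) (p : ℕ) [Fact p.Prime]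

/-- the subgroup of `G_ℚ` acting trivially on `W[p]` -/
def mzj_cw_H2 : Subgroup s58_G where
  carrier := {σ | ∀ x : s58_E W, p • x = 0 → σ • x = x}
  mul_mem' := fun {a b} ha hb x hx => by rw [mul_smul, hb x hx, ha x hx]
  one_mem' := fun x _ => one_smul _ x
  inv_mem' := fun {a} ha x hx => by
    rw [inv_smul_eq_iff]
    exact (ha x hx).symm

theorem mzj_cw_smul_nsmul (σ : s58_G) (n : ℕ) (x : s58_E W) : σ • (n • x) = n • (σ • x) :=
  map_nsmul (DistribSMul.toAddMonoidHom (s58_E W) σ) n x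

/-- the subgroup of `G_ℚ` acting on `N` through the mod `p` cyclotomic character -/
def mzj_cw_H1 (N : AddSubgroup (s58_E W)) (hN : ∀ x ∈ N, p • x = 0) (hNst : mzj_Stable N) :
    Subgroup s58_G where
  carrier := {σ | ∀ x ∈ N, σ • x = ExtCitation.cycloExp p σ • x}
  mul_mem' := fun {a b} ha hb x hx => by
    rw [mul_smul, hb x hx, mzj_cw_smul_nsmul, ha x hx, ← mul_nsmul']
    refine mzj_cw_nsmul_congr (hN x hx) ?_
    have := chi_mul p a b
    unfold chi at this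
    rw [Nat.cast_mul, this, mul_comm]
  one_mem' := fun x hx => by
    rw [one_smul]
    have h1 : ((ExtCitation.cycloExp p (1 : s58_G) : ℕ) : ZMod p) = ((1 : ℕ) : ZMod p) := by
      have := chi_one p
      unfold chi at this
      rw [this, Nat.cast_one]
    rw [mzj_cw_nsmul_congr (hN x hx) h1, one_smul]
  inv_mem' := fun {a} ha x hx => by
    have hy : a⁻¹ • x ∈ N := hNst a⁻¹ x hx
    have h1 := ha _ hy
    rw [smul_inv_smul] at h1
    -- `x = c • (a⁻¹ • x)`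
    have h2 : ExtCitation.cycloExp p a⁻¹ • x =
        (ExtCitation.cycloExp p a⁻¹ * ExtCitation.cycloExp p a) • (a⁻¹ • x) := by
      rw [mul_nsmul', ← h1]
    rw [h2]
    have h3 : ((ExtCitation.cycloExp p a⁻¹ * ExtCitation.cycloExp p a : ℕ) : ZMod p) =
        ((1 : ℕ) : ZMod p) := by
      have := chi_mul p a⁻¹ a
      unfold chi at this
      rw [Nat.cast_mul, ← this, inv_mul_cancel]
      have := chi_one p
      unfold chi at this
      rw [this, Nat.cast_one]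
    rw [mzj_cw_nsmul_congr (hN _ hy) h3, one_smul]

/-- a finite normal extension `L / ℚ` such that `Gal(ℚ̄ / L)` acts trivially on `W[p]` and on
`μ_p` -/
theorem mzj_cw_exists_field (hΔ : W.Δ ≠ 0) (hp2 : p ≠ 2) :
    ∃ L : IntermediateField ℚ s58_Qb, FiniteDimensional ℚ L ∧ Normal ℚ L ∧
      ∀ σ : s58_G, (∀ y ∈ L, σ y = y) →
        (∀ x : s58_E W, p • x = 0 → σ • x = x) ∧
          ((ExtCitation.cycloExp p σ : ℕ) : ZMod p) = 1 := by
  classical
  haveI : NeZero p := ⟨(Fact.out : p.Prime).ne_zero⟩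
  have hΔ' : ((s58_WQ W)⁄s58_Qb).Δ ≠ 0 := by
    show ((W.map (Int.castRingHom ℚ)).map (algebraMap ℚ s58_Qb)).Δ ≠ 0
    rw [WeierstrassCurve.map_Δ, WeierstrassCurve.map_Δ]
    simpa using hΔ
  haveI hfin : Finite (Submodule.torsionBy ℤ (s58_E W) p) :=
    Fermat.Agent.S13.ld_finite_torsionBy (W' := s58_WQ W) (K := s58_Qb) hΔ'
      ((Fact.out : p.Prime).odd_of_ne_two hp2)
  haveI : Fintype (Submodule.torsionBy ℤ (s58_E W) p) := Fintype.ofFinite _
  obtain ⟨ζ, hζ⟩ : ∃ ζ : s58_Qb, IsPrimitiveRoot ζ p :=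
    HasEnoughRootsOfUnity.exists_primitiveRoot s58_Qb p
  let s : Finset s58_Qb :=
    insert ζ (Finset.univ.biUnion fun v : Submodule.torsionBy ℤ (s58_E W) p =>
      mzj_fx_coords W (v : s58_E W))
  haveI : Algebra.IsAlgebraic ℚ s58_Qb := AlgebraicClosure.isAlgebraic ℚ
  set L₀ := IntermediateField.adjoin ℚ (s : Set s58_Qb) with hL₀
  haveI : FiniteDimensional ℚ L₀ :=
    IntermediateField.finiteDimensional_adjoin (fun x _ => (Algebra.IsIntegral.isIntegral x))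
  haveI : IsAlgClosure ℚ s58_Qb := ⟨inferInstance, inferInstance⟩
  haveI : Normal ℚ s58_Qb := IsAlgClosure.normal ℚ s58_Qb
  refine ⟨IntermediateField.normalClosure ℚ ↥L₀ s58_Qb,
    normalClosure.is_finiteDimensional ℚ _ s58_Qb, normalClosure.normal ℚ _ s58_Qb, ?_⟩
  intro σ hσ
  have hs : ∀ z ∈ s, σ z = z := fun z hz =>
    hσ z (IntermediateField.le_normalClosure L₀
      (IntermediateField.subset_adjoin ℚ _ (Finset.mem_coe.mpr hz)))
  refine ⟨fun x hx => ?_, ?_⟩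
  · have hxt : x ∈ Submodule.torsionBy ℤ (s58_E W) p := by
      rw [Submodule.mem_torsionBy_iff, natCast_zsmul]
      exact hx
    refine mzj_fx_smul_of_coords W σ x fun z hz => hs z ?_
    refine Finset.mem_insert_of_mem ?_
    rw [Finset.mem_biUnion]
    exact ⟨⟨x, hxt⟩, Finset.mem_univ _, hz⟩
  · have := (chi_eq_one_iff p σ hζ).2 (hs ζ (Finset.mem_insert_self _ _))
    unfold chi at this
    exact this

end Main

/-- **(CY-W)**: from Frobenius elements to all of `G_ℚ`. -/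
theorem mzj_cw_main (W : WeierstrassCurve ℤ) (hΔ : W.Δ ≠ 0) (p : ℕ) [Fact p.Prime] (hp2 : p ≠ 2)
    (N : AddSubgroup (s58_E W)) (hN : ∀ x ∈ N, p • x = 0) (hNst : mzj_Stable N)
    (hfrob : ∀ ℓ : ℕ, ℓ.Prime → ℓ ≠ p → ¬ (ℓ : ℤ) ∣ W.Δ →
      ∀ A : ValuationSubring s58_Qb, A.LiesOverPrime ℓ →
      ∀ φ : s58_G, A.IsFrobeniusAt φ ℓ →
        (∀ x ∈ N, φ • x = ℓ • x) ∨ (∀ x : s58_E W, p • x = 0 → φ • x = x)) :
    (∀ σ : s58_G, ∀ x ∈ N, σ • x = ExtCitation.cycloExp p σ • x) ∨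
      (∀ σ : s58_G, ∀ x : s58_E W, p • x = 0 → σ • x = x) := by
  classical
  obtain ⟨L, hLfin, hLnorm, hL⟩ := mzj_cw_exists_field W p hΔ hp2
  haveI := hLfin
  haveI := hLnorm
  -- the bad primes
  let S : Finset ℕ := insert p W.Δ.natAbs.primeFactors
  have hS : ∀ ℓ : ℕ, ℓ.Prime → ℓ ∉ S → ℓ ≠ p ∧ ¬ (ℓ : ℤ) ∣ W.Δ := by
    intro ℓ hℓ hℓS
    refine ⟨fun h => hℓS (h ▸ Finset.mem_insert_self _ _), fun h => hℓS ?_⟩
    refine Finset.mem_insert_of_mem ?_
    rw [Nat.mem_primeFactors]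
    exact ⟨hℓ, Int.natCast_dvd.1 h, Int.natAbs_ne_zero.2 hΔ⟩
  -- every element lies in `H₁ ∪ H₂`
  have hunion : ∀ σ : s58_G, σ ∈ mzj_cw_H1 W p N hN hNst ∨ σ ∈ mzj_cw_H2 W p := by
    intro σ
    obtain ⟨ℓ, A, φ, k, j, hℓ, hℓS, hA, hφ, hk, -⟩ := Fermat.Agent.WC.wcz_main L S σ
    obtain ⟨hℓp, hℓΔ⟩ := hS ℓ hℓ hℓS
    -- `τ := (φ^k)⁻¹ σ` fixes `L`
    have hτ : ∀ y ∈ L, ((φ ^ k)⁻¹ * σ) y = y := by
      intro y hy
      show (φ ^ k)⁻¹ (σ y) = y
      rw [← hk y hy]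
      exact (φ ^ k).symm_apply_apply y
    obtain ⟨hτ2, hτχ⟩ := hL _ hτ
    have hτ1 : (φ ^ k)⁻¹ * σ ∈ mzj_cw_H1 W p N hN hNst := by
      intro x hx
      rw [hτ2 x (hN x hx)]
      have h1 : ((ExtCitation.cycloExp p ((φ ^ k)⁻¹ * σ) : ℕ) : ZMod p) = ((1 : ℕ) : ZMod p) := by
        rw [hτχ, Nat.cast_one]
      rw [mzj_cw_nsmul_congr (hN x hx) h1, one_smul]
    have hσ : σ = φ ^ k * ((φ ^ k)⁻¹ * σ) := by rw [mul_inv_cancel_left]
    rcases hfrob ℓ hℓ hℓp hℓΔ A hA φ hφ with h | h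
    · left
      have hφ1 : φ ∈ mzj_cw_H1 W p N hN hNst := by
        intro x hx
        rw [h x hx]
        exact mzj_cw_nsmul_congr (hN x hx) (mzj_cw_chi_frob p hℓ hℓp A hA φ hφ).symm
      rw [hσ]
      exact Subgroup.mul_mem _ (Subgroup.pow_mem _ hφ1 k) hτ1
    · right
      have hφ2 : φ ∈ mzj_cw_H2 W p := h
      rw [hσ]
      exact Subgroup.mul_mem _ (Subgroup.pow_mem _ hφ2 k) hτ2
  rcases mzj_cw_two_subgroups _ _ hunion with h | h
  · exact Or.inl fun σ x hx => h σ x hx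
  · exact Or.inr fun σ x hx => h σ x hx

end Fermat.Agent.MZ
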