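/-
MAZUR project, node **[MZ-J]** (S12 from S15), cell [J-SIZE] (helper19).  Prefix `mzj_sz_`.

A RATIONAL POINT OF PRIME ORDER `p ≠ s` IN THE ZERO COMPONENT AT `s` FORCES `p ≤ 2 s + 1`
(`mzj_sz_main`, vocabulary of the frozen statement S15; no hypothesis on `Δ`, any reduction type).

Proof: the reduction map of [RED-HOM] (S58) is a homomorphism on the zero component, injective on
the prime-to-`s` torsion, so the reduction `R̄` of `Q` has exact order `p`; the `p` multiples of
`R̄` are reductions of `G_ℚ`-fixed points, hence are `0` or have their `x`-coordinate in the prime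
field of the residue field (`mzb_pm_rational_coords`, `mzb_pm_residue_rat_pow` of [MZ-B]); there are
at most `s` such `x` (roots of `X ^ s - X`) and at most two `y` over each.

Consequences (`p ≥ 11`, `s ∈ {2, 3}`): `mzj_sz_bad` (`s ∣ Δ`) and `mzj_sz_not_zeroComp`
(`Q ∉ E⁰` at `s`).
-/
import Mathlib
import Fermat.Agent.MZ.B.PmOne
import Fermat.Agent.S13.Global.UnramifiedOne

set_option autoImplicit false

namespace Fermat.Agent.MZ

open WeierstrassCurve WeierstrassCurve.Affine IsLocalRing Polynomial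
open Fermat.Agent.S58 Fermat.Agent.S05

/-! ### counting the points with `x`-coordinate in a finite set -/

section Count

variable {k : Type*} [Field k] (W' : Affine k)

/-- the quadratic in `Y` cut out by the Weierstrass equation at `X = x` -/
noncomputable def mzj_sz_quad (x : k) : k[X] :=
  C 1 * X ^ 2 + C (W'.a₁ * x + W'.a₃) * X + C (-(x ^ 3 + W'.a₂ * x ^ 2 + W'.a₄ * x + W'.a₆))

theorem mzj_sz_quad_ne_zero (x : k) : mzj_sz_quad W' x ≠ 0 := by
  intro h
  have h2 := natDegree_quadratic (a := (1 : k)) (b := W'.a₁ * x + W'.a₃)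
    (c := -(x ^ 3 + W'.a₂ * x ^ 2 + W'.a₄ * x + W'.a₆)) one_ne_zero
  rw [show C (1 : k) * X ^ 2 + C (W'.a₁ * x + W'.a₃) * X
    + C (-(x ^ 3 + W'.a₂ * x ^ 2 + W'.a₄ * x + W'.a₆)) = mzj_sz_quad W' x from rfl, h,
    natDegree_zero] at h2
  exact absurd h2 (by norm_num)

theorem mzj_sz_quad_roots_card (x : k) : Multiset.card (mzj_sz_quad W' x).roots ≤ 2 :=
  (card_roots' _).trans natDegree_quadratic_le

theorem mzj_sz_equation_iff (x y : k) :
    W'.Equation x y ↔ y ∈ (mzj_sz_quad W' x).roots := by
  rw [mem_roots (mzj_sz_quad_ne_zero W' x), IsRoot.def, WeierstrassCurve.Affine.equation_iff]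
  simp only [mzj_sz_quad, eval_add, eval_mul, eval_C, eval_pow, eval_X]
  constructor
  · intro h; linear_combination h
  · intro h; linear_combination h

/-- a finite set of points which are `0` or have their `x`-coordinate in the finite set `S` has at
most `2 |S| + 1` elements. -/
theorem mzj_sz_card_le [DecidableEq k] (S : Finset k) (P : Finset W'.Point)
    (hP : ∀ R ∈ P, R = 0 ∨ ∃ x y h, R = Point.some x y h ∧ x ∈ S) :
    P.card ≤ 2 * S.card + 1 := by
  classical
  let c : W'.Point → Option (k × k) := fun R =>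
    match R with
    | .zero => none
    | .some x y _ => some (x, y)
  have hc : Function.Injective c := by
    rintro (_ | ⟨x₁, y₁, h₁⟩) (_ | ⟨x₂, y₂, h₂⟩) h
    · rfl
    · exact absurd h (by simp [c])
    · exact absurd h (by simp [c])
    · simp only [c, Option.some.injEq, Prod.mk.injEq] at h
      obtain ⟨rfl, rfl⟩ := h
      rfl
  let T : Finset (k × k) :=
    S.biUnion fun x => (mzj_sz_quad W' x).roots.toFinset.image fun y => (x, y)
  have hT : T.card ≤ 2 * S.card := by
    calc T.card ≤ ∑ x ∈ S, ((mzj_sz_quad W' x).roots.toFinset.image fun y => (x, y)).card :=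
          Finset.card_biUnion_le
      _ ≤ ∑ _x ∈ S, 2 := Finset.sum_le_sum fun x _ =>
          Finset.card_image_le.trans
            ((Multiset.toFinset_card_le _).trans (mzj_sz_quad_roots_card W' x))
      _ = 2 * S.card := by rw [Finset.sum_const, smul_eq_mul, mul_comm]
  have hsub : P.image c ⊆ Finset.insertNone T := by
    intro o ho
    obtain ⟨R, hR, rfl⟩ := Finset.mem_image.mp ho
    rcases hP R hR with rfl | ⟨x, y, h, rfl, hx⟩
    · exact Finset.mem_insertNone.mpr (fun a ha => absurd ha (by simp [c, Point.zero_def]))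
    · refine Finset.mem_insertNone.mpr (fun a ha => ?_)
      have ha' : a = (x, y) := by
        have : c (Point.some x y h) = some (x, y) := rfl
        rw [this] at ha
        exact (Option.some.inj (Option.mem_def.mp ha)).symm
      rw [ha']
      refine Finset.mem_biUnion.mpr ⟨x, hx, Finset.mem_image.mpr ⟨y, ?_, rfl⟩⟩
      exact Multiset.mem_toFinset.mpr ((mzj_sz_equation_iff W' x y).mp h.1)
  calc P.card = (P.image c).card := (Finset.card_image_of_injective P hc).symm
    _ ≤ (Finset.insertNone T).card := Finset.card_le_card hsub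
    _ = T.card + 1 := Finset.card_insertNone T
    _ ≤ 2 * S.card + 1 := by omega

end Count

/-! ### reduction of rational points -/

section Red

variable {W : WeierstrassCurve ℤ} {A : ValuationSubring s58_Qb} [DecidableEq (ResidueField A)]

/-- the reduction of a `G_ℚ`-fixed point of the zero component at `A ∣ s` is `0` or has its
`x`-coordinate in the prime field. -/
theorem mzj_sz_red_fixed {s : ℕ} (hA : A.LiesOverPrime s) (hs : s.Prime)
    (T : s58r_E0 (s58m_model W A)) (hfix : ∀ σ : s58_G, σ • (T : s58_E W) = T) :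
    s58r_red (s58m_model W A) T = 0 ∨
      ∃ x y h, s58r_red (s58m_model W A) T = Point.some x y h ∧ x ^ s = x := by
  have hsp := s58r_red_spec (s58m_model W A) T
  generalize s58r_red (s58m_model W A) T = R at hsp ⊢
  generalize (T : s58_E W) = Q at hsp hfix
  cases hsp with
  | zero => exact Or.inl rfl
  | inf h₁ hx₁ => exact Or.inl rfl
  | aff a b h₁ h₁' =>
    right
    refine ⟨_, _, h₁', rfl, ?_⟩
    obtain ⟨⟨qx, hqx⟩, -⟩ := mzb_pm_rational_coords h₁ hfix
    have hmem : algebraMap ℚ s58_Qb qx ∈ A := by rw [hqx]; exact a.2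
    have hpow := mzb_pm_residue_rat_pow hA hs qx hmem
    have ha : (⟨algebraMap ℚ s58_Qb qx, hmem⟩ : A) = a := Subtype.ext hqx
    rw [ha] at hpow
    exact hpow

end Red

/-! ### the main statement -/

/-- **[J-SIZE]**: a `G_ℚ`-fixed point `Q` of prime order `p ≠ s` lying in the zero component at
`A ∣ s` forces `p ≤ 2 s + 1`. -/
theorem mzj_sz_main {p s : ℕ} (hp : p.Prime) (hs : s.Prime) (hps : p ≠ s)
    (W : WeierstrassCurve ℤ) (Q : s58_E W) (hQfix : ∀ σ : s58_G, σ • Q = Q)
    (hQord : addOrderOf Q = p) (A : ValuationSubring s58_Qb) (hA : A.LiesOverPrime s)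
    (h0 : W.InZeroComponentAt A Q) : p ≤ 2 * s + 1 := by
  classical
  have : Fact p.Prime := ⟨hp⟩
  have hM := s58m_model W A
  have hQ0 : Q ∈ s58r_E0 hM := (s58m_inZeroComponentAt_iff Q).mp h0
  have hunit : A.valuation ((p : ℕ) : s58_Qb) = 1 := by
    have := (intVal_eq_one_iff A hA hs ((p : ℕ) : ℤ)).mpr
      (fun h => hps ((Nat.prime_dvd_prime_iff_eq hs hp).mp (by exact_mod_cast h)).symm)
    rwa [Int.cast_natCast] at this
  have hpQ : p • Q = 0 := by rw [← hQord]; exact addOrderOf_nsmul_eq_zero Q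
  have hQne : Q ≠ 0 := by
    intro h
    rw [h, addOrderOf_zero] at hQord
    exact hp.one_lt.ne hQord
  -- the reduction of `Q` has exact order `p`
  have hRord : addOrderOf (s58r_red hM ⟨Q, hQ0⟩) = p := by
    apply addOrderOf_eq_prime
    · rw [← map_nsmul]
      have h1 : p • (⟨Q, hQ0⟩ : s58r_E0 hM) = 0 := Subtype.ext (by simpa using hpQ)
      rw [h1, map_zero]
    · intro h
      have h1 := s58r_red_injective_on_torsion hM hunit (P := ⟨Q, hQ0⟩) (by simpa using hpQ) h
      exact hQne (congrArg Subtype.val h1)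
  -- the multiples of the reduction
  set Rb := s58r_red hM ⟨Q, hQ0⟩ with hRb
  let P : Finset (s58m_Wk W A).Point := (Finset.range p).image fun j => j • Rb
  have hPcard : P.card = p := by
    rw [Finset.card_image_of_injOn, Finset.card_range]
    have := nsmul_injOn_Iio_addOrderOf (x := Rb)
    rw [hRord] at this
    intro i hi j hj hij
    exact this (by simpa using hi) (by simpa using hj) hij
  -- the prime field
  let S : Finset (ResidueField A) := (X ^ s - X : (ResidueField A)[X]).roots.toFinset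
  have hScard : S.card ≤ s :=
    (Multiset.toFinset_card_le _).trans ((card_roots' _).trans
      (le_of_eq (FiniteField.X_pow_card_sub_X_natDegree_eq (ResidueField A) hs.one_lt)))
  have hPS : ∀ R ∈ P, R = 0 ∨ ∃ x y h, R = Point.some x y h ∧ x ∈ S := by
    intro R hR
    obtain ⟨j, -, rfl⟩ := Finset.mem_image.mp hR
    have hj : j • Rb = s58r_red hM (j • (⟨Q, hQ0⟩ : s58r_E0 hM)) := by
      rw [map_nsmul]
    have hfix : ∀ σ : s58_G, σ • ((j • (⟨Q, hQ0⟩ : s58r_E0 hM) : s58r_E0 hM) : s58_E W) =
        ((j • (⟨Q, hQ0⟩ : s58r_E0 hM) : s58r_E0 hM) : s58_E W) := by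
      intro σ
      have h1 : ((j • (⟨Q, hQ0⟩ : s58r_E0 hM) : s58r_E0 hM) : s58_E W) = j • Q := by simp
      rw [h1, ga_smul_nsmul, hQfix σ]
    rcases mzj_sz_red_fixed hA hs (j • (⟨Q, hQ0⟩ : s58r_E0 hM)) hfix with h | ⟨x, y, h, hxy, hx⟩
    · exact Or.inl (hj.trans h)
    · refine Or.inr ⟨x, y, h, hj.trans hxy, ?_⟩
      refine Multiset.mem_toFinset.mpr ?_
      rw [mem_roots (FiniteField.X_pow_card_sub_X_ne_zero (ResidueField A) hs.one_lt), IsRoot.def,
        eval_sub, eval_pow, eval_X, hx, sub_self]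
  have := mzj_sz_card_le (s58m_Wk W A) S P hPS
  rw [hPcard] at this
  calc p ≤ 2 * S.card + 1 := this
    _ ≤ 2 * s + 1 := by omega

/-- `s ∣ Δ` as soon as there is a rational point of prime order `p > 2 s + 1`. -/
theorem mzj_sz_bad {p s : ℕ} (hp : p.Prime) (hs : s.Prime) (hps : 2 * s + 1 < p)
    (W : WeierstrassCurve ℤ) (Q : s58_E W) (hQfix : ∀ σ : s58_G, σ • Q = Q)
    (hQord : addOrderOf Q = p) : (s : ℤ) ∣ W.Δ := by
  classical
  by_contra hgood
  obtain ⟨A, hA⟩ := Fermat.Agent.S13.g1_exists_liesOver s hs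
  have h0 : W.InZeroComponentAt A Q := s58m_inZeroComponentAt_of_good hA hs hgood Q
  have := mzj_sz_main hp hs (by omega) W Q hQfix hQord A hA h0
  omega

/-- `Q ∉ E⁰` at every place over `s` as soon as `p > 2 s + 1`. -/
theorem mzj_sz_not_zeroComp {p s : ℕ} (hp : p.Prime) (hs : s.Prime) (hps : 2 * s + 1 < p)
    (W : WeierstrassCurve ℤ) (Q : s58_E W) (hQfix : ∀ σ : s58_G, σ • Q = Q)
    (hQord : addOrderOf Q = p) (A : ValuationSubring s58_Qb) (hA : A.LiesOverPrime s) :
    ¬ W.InZeroComponentAt A Q := by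
  intro h0
  have := mzj_sz_main hp hs (by omega) W Q hQfix hQord A hA h0
  omega

end Fermat.Agent.MZ
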