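/-
MAZUR project, node **[MZ-J]** (S12 from S15), cell [J-END] (helper3).  Prefix `mzj_en_`.

THE ENDGAME: THE FROBENIUS COUNT.  `W : WeierstrassCurve ℤ`, `Δ ≠ 0`, `E = W(ℚ̄)`, `p` an odd prime.

* `mzj_en_fixed_card_le` : at a prime `ℓ ∤ Δ`, `A ∣ ℓ`, `σ` a Frobenius element at `A`: a finite
  set of `σ`-fixed torsion points of order prime to `ℓ` has at most `2 ℓ + 1` elements
  (the reduction map of S58 is a homomorphism, injective on prime-to-`ℓ` torsion, and intertwines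
  `σ` with the Frobenius of the reduced curve; fixed points of the latter have coordinates in the
  prime field; `mzj_sz_card_le`).
* `mzj_en_main` : there is NO family of finite subgroups `K n ≤ E` with `|K n| ≤ p ^ n` and
  `σ x - x ∈ K n` for all `σ ∈ G_ℚ`, `x ∈ E[p ^ n]`  (`|E[p ^ n]| = p ^ (2 n)`, so a Frobenius
  at a good prime `ℓ₀ ≠ p` fixes at least `p ^ n` points of `E[p ^ n]`: `p ^ n ≤ 2 ℓ₀ + 1` for
  all `n`).
* `mzj_en_main_hom` : the same in the vocabulary of the chain: equivariant homomorphisms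
  `ψ n : E →+ X n` with `|ker ψ n| ≤ p ^ n` and `ψ n (E[p ^ n])` pointwise `G_ℚ`-fixed.
-/
import Mathlib
import Fermat.Agent.MZ.J.Size
import Fermat.Agent.S58.Frob.Main
import Fermat.Agent.JT3.ES.FrobExists
import Fermat.Agent.S13.Ladder.Torsion

set_option autoImplicit false
set_option linter.unusedSectionVars false
set_option linter.style.haveILetI false

namespace Fermat.Agent.MZ

open WeierstrassCurve WeierstrassCurve.Affine IsLocalRing Polynomial
open Fermat.Agent.S58 Fermat.Agent.S05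

/-! ### fixed points of Frobenius on the reduced curve -/

section Frob

variable {ℓ : ℕ} [Fact ℓ.Prime] (W' : WeierstrassCurve (ZMod ℓ)) {L : Type*} [Field L]
  [DecidableEq L] [Algebra (ZMod ℓ) L]

/-- a point fixed by Frobenius is `0` or has its `x`-coordinate fixed by `x ↦ x ^ ℓ`. -/
theorem mzj_en_frob_fixed (R : (W'⁄L).Point) (hR : s58f_frob ℓ W' L R = R) :
    R = 0 ∨ ∃ x y h, R = Point.some x y h ∧ x ^ ℓ = x := by
  rcases R with _ | ⟨u, v, h⟩
  · exact Or.inl rfl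
  · right
    obtain ⟨h', he⟩ := s58fa_frob_some ℓ W' h
    rw [he] at hR
    exact ⟨u, v, h, rfl, (Point.some.inj hR).1⟩

end Frob

/-! ### the bound at a good prime -/

/-- **the Frobenius bound**: at most `2 ℓ + 1` torsion points of order prime to `ℓ` are fixed by a
Frobenius element at a prime `ℓ` of good reduction. -/
theorem mzj_en_fixed_card_le (W : WeierstrassCurve ℤ) {ℓ : ℕ} (hℓ : ℓ.Prime)
    (hgood : ¬ (ℓ : ℤ) ∣ W.Δ) (A : ValuationSubring s58_Qb) (hA : A.LiesOverPrime ℓ)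
    (σ : s58_G) (hσ : A.IsFrobeniusAt σ ℓ) (m : ℕ) (hm : m.Coprime ℓ)
    (T : Finset (s58_E W)) (hT : ∀ x ∈ T, m • x = 0 ∧ σ • x = x) : T.card ≤ 2 * ℓ + 1 := by
  classical
  haveI : Fact ℓ.Prime := ⟨hℓ⟩
  haveI : CharP (ResidueField A) ℓ := Fermat.Agent.JT3.jcr_charP A hA
  letI : Algebra (ZMod ℓ) (ResidueField A) := ZMod.algebra (ResidueField A) ℓ
  haveI : (W.reductionMod ℓ).IsElliptic := by
    refine ⟨isUnit_iff_ne_zero.mpr ?_⟩
    show (W.map (Int.castRingHom (ZMod ℓ))).Δ ≠ 0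
    rw [WeierstrassCurve.map_Δ]
    intro h0
    exact hgood ((ZMod.intCast_zmod_eq_zero_iff_dvd W.Δ ℓ).mp h0)
  have hval : A.valuation (m : s58_Qb) = 1 := by
    have := Fermat.Agent.S05.intVal_eq_one_of_not_dvd A hA hℓ (n := (m : ℤ)) ?_
    · simpa using this
    · intro hd
      have h1 : ℓ ∣ m := by exact_mod_cast hd
      have h2 : ℓ ∣ Nat.gcd m ℓ := Nat.dvd_gcd h1 dvd_rfl
      rw [hm] at h2
      exact hℓ.one_lt.ne' (Nat.dvd_one.mp h2)
  set red := s58fa_red W ℓ A with hred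
  -- injectivity on `T`
  have hinj : Set.InjOn red (T : Set (s58_E W)) := by
    intro x hx y hy hxy
    have h1 : m • (x - y) = 0 := by
      rw [nsmul_sub, (hT x hx).1, (hT y hy).1, sub_zero]
    have h2 : red (x - y) = 0 := by rw [map_sub, hxy, sub_self]
    exact sub_eq_zero.mp (s58fa_red_injective (ℓ := ℓ) hval h1 h2)
  -- the prime field
  let S : Finset (ResidueField A) := (X ^ ℓ - X : (ResidueField A)[X]).roots.toFinset
  have hScard : S.card ≤ ℓ :=
    (Multiset.toFinset_card_le _).trans ((card_roots' _).trans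
      (le_of_eq (FiniteField.X_pow_card_sub_X_natDegree_eq (ResidueField A) hℓ.one_lt)))
  have hPS : ∀ R ∈ T.image red, R = 0 ∨ ∃ x y h, R = Point.some x y h ∧ x ∈ S := by
    intro R hR
    obtain ⟨x, hx, rfl⟩ := Finset.mem_image.mp hR
    have hfix : s58f_frob ℓ (W.reductionMod ℓ) (ResidueField A) (red x) = red x := by
      rw [← s58fa_red_smul hσ, (hT x hx).2]
    rcases mzj_en_frob_fixed (W.reductionMod ℓ) (red x) hfix with h | ⟨u, v, h, huv, hu⟩
    · exact Or.inl h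
    · refine Or.inr ⟨u, v, h, huv, Multiset.mem_toFinset.mpr ?_⟩
      rw [mem_roots (FiniteField.X_pow_card_sub_X_ne_zero (ResidueField A) hℓ.one_lt), IsRoot.def,
        eval_sub, eval_pow, eval_X, hu, sub_self]
  have := mzj_sz_card_le ((W.reductionMod ℓ)⁄(ResidueField A)) S (T.image red) hPS
  rw [Finset.card_image_of_injOn hinj] at this
  calc T.card ≤ 2 * S.card + 1 := this
    _ ≤ 2 * ℓ + 1 := by omega

/-! ### counting in a finite abelian group -/

/-- `|G| ≤ |ker f| · |K|` when the range of `f` lies in the finite subgroup `K`. -/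
theorem mzj_en_card_le_ker_mul {G H : Type*} [AddCommGroup G] [AddCommGroup H] [Finite G]
    (f : G →+ H) (K : AddSubgroup H) [Finite K] (hK : ∀ x, f x ∈ K) :
    Nat.card G ≤ Nat.card f.ker * Nat.card K := by
  have h1 : Nat.card G = Nat.card (G ⧸ f.ker) * Nat.card f.ker :=
    AddSubgroup.card_eq_card_quotient_mul_card_addSubgroup f.ker
  have h2 : Nat.card (G ⧸ f.ker) = Nat.card f.range :=
    Nat.card_congr (QuotientAddGroup.quotientKerEquivRange f).toEquiv
  have h3 : Nat.card f.range ≤ Nat.card K := by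
    have hle : f.range ≤ K := by
      rintro _ ⟨x, rfl⟩
      exact hK x
    exact Nat.card_le_card_of_injective (AddSubgroup.inclusion hle)
      (AddSubgroup.inclusion_injective hle)
  rw [h1, h2, mul_comm]
  exact Nat.mul_le_mul_left _ h3

/-- no uniform bound on the powers of `p ≥ 2`. -/
theorem mzj_en_pow_unbounded {p : ℕ} (hp : 2 ≤ p) (B : ℕ) (h : ∀ n : ℕ, p ^ n ≤ B) : False := by
  have h1 : B < 2 ^ B := Nat.lt_two_pow_self
  have h2 : 2 ^ B ≤ p ^ B := Nat.pow_le_pow_left hp B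
  have := h B
  omega

/-! ### the main statement -/

/-- **[J-END]**: there is no family of finite subgroups `K n` of `E = W(ℚ̄)` with
`|K n| ≤ p ^ n` such that `(σ - 1) E[p ^ n] ⊆ K n` for every `σ ∈ G_ℚ`. -/
theorem mzj_en_main (W : WeierstrassCurve ℤ) (hΔ : W.Δ ≠ 0) {p : ℕ} (hp : p.Prime) (hp2 : p ≠ 2)
    (K : ℕ → AddSubgroup (s58_E W)) (hKfin : ∀ n, Finite ↥(K n))
    (hK : ∀ n, Nat.card ↥(K n) ≤ p ^ n)
    (hfix : ∀ n (σ : s58_G) (x : s58_E W), p ^ n • x = 0 → σ • x - x ∈ K n) : False := by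
  classical
  -- a good prime `ℓ ≠ p`
  obtain ⟨ℓ, hℓge, hℓ⟩ := Nat.exists_infinite_primes (W.Δ.natAbs + p + 1)
  have hℓp : ℓ ≠ p := by omega
  have hgood : ¬ (ℓ : ℤ) ∣ W.Δ := by
    intro hd
    have h1 : ℓ ∣ W.Δ.natAbs := Int.natCast_dvd.mp hd
    have h2 : 0 < W.Δ.natAbs := Int.natAbs_pos.mpr hΔ
    have := Nat.le_of_dvd h2 h1
    omega
  obtain ⟨A, hA⟩ := Fermat.Agent.S13.g1_exists_liesOver ℓ hℓ
  obtain ⟨σ, hσ⟩ := Fermat.Agent.JT3.fex_exists_isFrobeniusAt hℓ A hA
  refine mzj_en_pow_unbounded hp.two_le (2 * ℓ + 1) (fun n => ?_)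
  -- the group `E[p ^ n]`
  have hodd : Odd (p ^ n) := (hp.odd_of_ne_two hp2).pow
  have hΔ' : ((s58_WQ W)⁄s58_Qb).Δ ≠ 0 := by
    show ((W.map (Int.castRingHom ℚ)).map (algebraMap ℚ s58_Qb)).Δ ≠ 0
    rw [WeierstrassCurve.map_Δ, WeierstrassCurve.map_Δ]
    simpa using hΔ
  set G : AddSubgroup (s58_E W) :=
    (Submodule.torsionBy ℤ (s58_E W) (p ^ n : ℕ)).toAddSubgroup with hG
  have hmemG : ∀ x : s58_E W, x ∈ G ↔ p ^ n • x = 0 := by
    intro x
    rw [hG, Submodule.mem_toAddSubgroup, Submodule.mem_torsionBy_iff, natCast_zsmul]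
  have hGcard : Nat.card G = (p ^ n) ^ 2 :=
    Fermat.Agent.S13.ld_natCard_torsionBy (K := s58_Qb) (s58_WQ W) hΔ' hodd
  haveI : Finite G := Nat.finite_of_card_ne_zero
    (by rw [hGcard]; exact pow_ne_zero _ (pow_ne_zero _ hp.ne_zero))
  haveI := hKfin n
  -- the map `σ - 1` on `E[p ^ n]`
  let f : G →+ s58_E W :=
    { toFun := fun x => σ • (x : s58_E W) - x
      map_zero' := by
        show σ • ((0 : G) : s58_E W) - ((0 : G) : s58_E W) = 0
        rw [AddSubgroup.coe_zero, sub_zero]; exact ga_smul_zero σ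
      map_add' := fun x y => by
        show σ • ((x + y : G) : s58_E W) - ((x + y : G) : s58_E W) =
          (σ • (x : s58_E W) - x) + (σ • (y : s58_E W) - y)
        rw [AddSubgroup.coe_add, ga_smul_add]; abel }
  have hfK : ∀ x, f x ∈ K n := fun x => hfix n σ x ((hmemG x).mp x.2)
  have h1 := mzj_en_card_le_ker_mul f (K n) hfK
  -- the fixed points
  haveI : Fintype f.ker := Fintype.ofFinite _
  let g : f.ker → s58_E W := fun x => ((x : G) : s58_E W)
  have hg : Function.Injective g := fun x y hxy => Subtype.ext (Subtype.ext hxy)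
  let T : Finset (s58_E W) := (Finset.univ : Finset f.ker).image g
  have hTcard : T.card = Nat.card f.ker := by
    rw [Finset.card_image_of_injective _ hg, Finset.card_univ, Nat.card_eq_fintype_card]
  have hcop : (p ^ n).Coprime ℓ :=
    Nat.Coprime.pow_left n ((Nat.coprime_primes hp hℓ).mpr hℓp.symm)
  have hT : ∀ x ∈ T, p ^ n • x = 0 ∧ σ • x = x := by
    intro x hx
    obtain ⟨y, -, rfl⟩ := Finset.mem_image.mp hx
    refine ⟨(hmemG _).mp (y : G).2, ?_⟩
    have : f (y : G) = 0 := AddMonoidHom.mem_ker.mp y.2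
    exact sub_eq_zero.mp this
  have h2 := mzj_en_fixed_card_le W hℓ hgood A hA σ hσ (p ^ n) hcop T hT
  rw [hTcard] at h2
  -- arithmetic
  rw [hGcard] at h1
  have hpos : 0 < p ^ n := pow_pos hp.pos n
  have h3 : (p ^ n) ^ 2 ≤ (2 * ℓ + 1) * p ^ n :=
    h1.trans (Nat.mul_le_mul h2 (hK n))
  have h4 : p ^ n * p ^ n ≤ (2 * ℓ + 1) * p ^ n := by rwa [sq] at h3
  exact Nat.le_of_mul_le_mul_right h4 hpos

/-- **[J-END]**, chain form: equivariant homomorphisms `ψ n` out of `E = W(ℚ̄)` with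
`|ker ψ n| ≤ p ^ n` whose images `ψ n (E[p ^ n])` are pointwise `G_ℚ`-fixed cannot exist for all
`n`. -/
theorem mzj_en_main_hom (W : WeierstrassCurve ℤ) (hΔ : W.Δ ≠ 0) {p : ℕ} (hp : p.Prime)
    (hp2 : p ≠ 2) (X : ℕ → Type*) [∀ n, AddCommGroup (X n)] [∀ n, SMul s58_G (X n)]
    (ψ : ∀ n, s58_E W →+ X n) (hψ : ∀ n (σ : s58_G) (x : s58_E W), ψ n (σ • x) = σ • ψ n x)
    (hkfin : ∀ n, Finite ↥(ψ n).ker) (hker : ∀ n, Nat.card ↥(ψ n).ker ≤ p ^ n)
    (hR : ∀ n (σ : s58_G) (x : s58_E W), p ^ n • x = 0 → σ • ψ n x = ψ n x) : False := by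
  refine mzj_en_main W hΔ hp hp2 (fun n => (ψ n).ker) hkfin hker (fun n σ x hx => ?_)
  rw [AddMonoidHom.mem_ker, map_sub, hψ, hR n σ x hx, sub_self]

end Fermat.Agent.MZ
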