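/-
MAZUR project, node **[MZ-J]** (S12 from S15), cell [J-END] (second seat helper11).
Prefix `mzj_ec_`.

THE FROBENIUS COUNT ENDGAME.  `W : WeierstrassCurve ℤ` with good reduction at a prime `l ≠ p`
(`p` odd).  If `K ≤ W(ℚ̄)` is a subgroup with `|K| ≤ p ^ n` such that `σ • x - x ∈ K` for every
`x ∈ W[p ^ n]` and ONE Frobenius element `σ` at `l`, then `p ^ n ≤ 2 l + 1`
(`mzj_ec_bound`).  Hence such `K` cannot exist for all `n` (`mzj_ec_false`).

Proof: `x ↦ σ • x - x` is additive on `W[p ^ n]` (of order `p ^ (2 n)`, `ld_card_torsion`) with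
image in `K`, so its kernel (the `σ`-fixed points of `W[p ^ n]`) has at least `p ^ n` elements
(`mzj_ec_fixed_card`); the reduction at `l` is injective on prime-to-`l` torsion and intertwines `σ`
with the Frobenius of the reduced curve (`s58fa_red_smul`), whose fixed points are `0` and the points
with coordinates in the prime field: at most `2 l + 1` of them (`mzj_sz_card_le`).
-/
import Mathlib
import Fermat.Agent.MZ.J.Size
import Fermat.Agent.S58.Frob.Main
import Fermat.Agent.S58.Top.Cases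
import Fermat.Agent.S58.Tate
import Fermat.Agent.MZ.J.Seams

set_option autoImplicit false
set_option linter.style.haveILetI false

namespace Fermat.Agent.MZ

open WeierstrassCurve WeierstrassCurve.Affine IsLocalRing Polynomial
open Fermat.Agent.S58 Fermat.Agent.S05

/-! ### the abstract count -/

/-- if `g : T →+ G` has its image inside a finite subgroup `K`, then `|T| ≤ |K| * |ker g|`. -/
theorem mzj_ec_fixed_card {T G : Type*} [AddCommGroup T] [AddCommGroup G] [Finite T]
    (g : T →+ G) (K : AddSubgroup G) [Finite K] (hg : ∀ x, g x ∈ K) :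
    Nat.card T ≤ Nat.card K * Nat.card g.ker := by
  classical
  have h1 : Nat.card T = Nat.card g.ker * Nat.card g.range := by
    have e := QuotientAddGroup.quotientKerEquivRange g
    have h2 : Nat.card (T ⧸ g.ker) = Nat.card g.range := Nat.card_congr e.toEquiv
    rw [← h2, mul_comm]
    exact (AddSubgroup.card_eq_card_quotient_mul_card_addSubgroup g.ker)
  have h3 : Nat.card g.range ≤ Nat.card K := by
    have hle : g.range ≤ K := by
      rintro _ ⟨x, rfl⟩
      exact hg x
    exact Nat.card_le_card_of_injective (AddSubgroup.inclusion hle)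
      (AddSubgroup.inclusion_injective hle)
  rw [h1, mul_comm]
  exact Nat.mul_le_mul_right _ h3

/-! ### fixed points of Frobenius on the reduced curve -/

/-- a point of the reduced curve fixed by Frobenius is `0` or has its `x`-coordinate in the prime
field. -/
theorem mzj_ec_frob_fixed {ℓ : ℕ} [Fact ℓ.Prime] (W' : WeierstrassCurve (ZMod ℓ)) {L : Type*}
    [Field L] [DecidableEq L] [Algebra (ZMod ℓ) L] (R : (W'⁄L).Point)
    (hR : s58f_frob ℓ W' L R = R) : R = 0 ∨ ∃ x y h, R = Point.some x y h ∧ x ^ ℓ = x := by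
  rcases R with _ | ⟨u, v, h⟩
  · exact Or.inl rfl
  · right
    obtain ⟨h', he⟩ := s58fa_frob_some ℓ W' h
    rw [he] at hR
    have hu : u ^ ℓ = u := by
      have := hR
      simp only [Point.some.injEq] at this
      exact this.1
    exact ⟨u, v, h, rfl, hu⟩

/-- **[J-END], quantitative form.**  `W` has good reduction at `l ≠ p`, `σ` is a Frobenius element
at `A ∣ l`, and `K` is a subgroup of `W(ℚ̄)` with at most `p ^ n` elements containing
`σ • x - x` for every `x ∈ W[p ^ n]`.  Then `p ^ n ≤ 2 l + 1`. -/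
theorem mzj_ec_bound (W : WeierstrassCurve ℤ) {p l : ℕ} (hp : p.Prime) (hp2 : p ≠ 2)
    (hl : l.Prime) (hlp : l ≠ p) (hgood : ¬ (l : ℤ) ∣ W.Δ) (A : ValuationSubring s58_Qb)
    (hA : A.LiesOverPrime l) (σ : s58_G) (hσ : A.IsFrobeniusAt σ l) (n : ℕ)
    (K : AddSubgroup (s58_E W)) [Finite K] (hKcard : Nat.card K ≤ p ^ n)
    (hK : ∀ x : s58_E W, p ^ n • x = 0 → σ • x - x ∈ K) : p ^ n ≤ 2 * l + 1 := by
  classical
  haveI : Fact l.Prime := ⟨hl⟩
  haveI : Fact p.Prime := ⟨hp⟩
  haveI : CharP (ResidueField A) l := Fermat.Agent.JT3.jcr_charP A hA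
  letI : Algebra (ZMod l) (ResidueField A) := ZMod.algebra (ResidueField A) l
  haveI : (W.reductionMod l).IsElliptic := by
    refine ⟨isUnit_iff_ne_zero.mpr ?_⟩
    show (W.map (Int.castRingHom (ZMod l))).Δ ≠ 0
    rw [WeierstrassCurve.map_Δ]
    intro h0
    exact hgood ((ZMod.intCast_zmod_eq_zero_iff_dvd W.Δ l).mp h0)
  have hΔ0 : W.Δ ≠ 0 := fun h => hgood (by rw [h]; exact dvd_zero _)
  have hppos : 0 < p ^ n := pow_pos hp.pos n
  -- the `p ^ n`-torsion subgroup
  let Tn : AddSubgroup (s58_E W) :=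
    { carrier := {x | p ^ n • x = 0}
      zero_mem' := smul_zero _
      add_mem' := fun {a b} ha hb => by
        show p ^ n • (a + b) = 0
        rw [nsmul_add, show p ^ n • a = 0 from ha, show p ^ n • b = 0 from hb, add_zero]
      neg_mem' := fun {a} ha => by
        show p ^ n • (-a) = 0
        rw [neg_nsmul, show p ^ n • a = 0 from ha, neg_zero] }
  have hTcard : Nat.card Tn = p ^ (2 * n) := s58t_card W hΔ0 p hp2 n
  haveI : Finite Tn := Nat.finite_of_card_ne_zero (by
    rw [hTcard]; exact (pow_pos hp.pos _).ne')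
  -- the map `σ - 1`
  let g : Tn →+ s58_E W :=
    { toFun := fun x => σ • (x : s58_E W) - x
      map_zero' := by
        show σ • ((0 : Tn) : s58_E W) - ((0 : Tn) : s58_E W) = 0
        rw [AddSubgroup.coe_zero, ga_smul_zero, sub_zero]
      map_add' := fun x y => by
        show σ • ((x + y : Tn) : s58_E W) - ((x + y : Tn) : s58_E W) =
          (σ • (x : s58_E W) - x) + (σ • (y : s58_E W) - y)
        rw [AddSubgroup.coe_add, ga_smul_add]
        abel }
  have hgx : ∀ x : Tn, g x = σ • (x : s58_E W) - x := fun _ => rfl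
  have h1 := mzj_ec_fixed_card g K (fun x => hK x x.2)
  have h2 : p ^ n ≤ Nat.card g.ker := by
    have h3 : p ^ n * p ^ n ≤ p ^ n * Nat.card g.ker := by
      calc p ^ n * p ^ n = Nat.card Tn := by rw [hTcard, two_mul, pow_add]
        _ ≤ Nat.card K * Nat.card g.ker := h1
        _ ≤ p ^ n * Nat.card g.ker := Nat.mul_le_mul_right _ hKcard
    exact Nat.le_of_mul_le_mul_left h3 hppos
  -- the reduction is injective on `W[p ^ n]`
  have hval : A.valuation ((p ^ n : ℕ) : s58_Qb) = 1 := by
    have := (intVal_eq_one_iff A hA hl (((p ^ n : ℕ)) : ℤ)).mpr (fun h => by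
      have h' : (l : ℤ) ∣ (p : ℤ) ^ n := by exact_mod_cast h
      have h4 : (l : ℤ) ∣ (p : ℤ) := (Nat.prime_iff_prime_int.mp hl).dvd_of_dvd_pow h'
      exact hlp ((Nat.prime_dvd_prime_iff_eq hl hp).mp (by exact_mod_cast h4)))
    rwa [Int.cast_natCast] at this
  let φ : g.ker → ((W.reductionMod l)⁄(ResidueField A)).Point :=
    fun x => s58fa_red W l A ((x : Tn) : s58_E W)
  have hφ : Function.Injective φ := by
    intro x y hxy
    have hd : s58fa_red W l A (((x : Tn) : s58_E W) - ((y : Tn) : s58_E W)) = 0 := by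
      rw [map_sub]; exact sub_eq_zero.mpr hxy
    have ht : (p ^ n) • (((x : Tn) : s58_E W) - ((y : Tn) : s58_E W)) = 0 :=
      (Tn.sub_mem (x : Tn).2 (y : Tn).2)
    have := s58fa_red_injective (ℓ := l) hval ht hd
    exact Subtype.ext (Subtype.ext (sub_eq_zero.mp this))
  -- the image consists of Frobenius-fixed points
  have hfix : ∀ x : g.ker, s58f_frob l (W.reductionMod l) (ResidueField A) (φ x) = φ x := by
    intro x
    have hx : g (x : Tn) = 0 := x.2
    rw [hgx] at hx
    have hx' : σ • ((x : Tn) : s58_E W) = ((x : Tn) : s58_E W) := sub_eq_zero.mp hx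
    show s58f_frob l (W.reductionMod l) (ResidueField A) (s58fa_red W l A _) = s58fa_red W l A _
    rw [← s58fa_red_smul hσ, hx']
  haveI : Fintype g.ker := Fintype.ofFinite _
  let P : Finset ((W.reductionMod l)⁄(ResidueField A)).Point := Finset.univ.image φ
  have hPcard : P.card = Nat.card g.ker := by
    rw [Finset.card_image_of_injective _ hφ, Finset.card_univ, Nat.card_eq_fintype_card]
  let S : Finset (ResidueField A) := (X ^ l - X : (ResidueField A)[X]).roots.toFinset
  have hScard : S.card ≤ l :=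
    (Multiset.toFinset_card_le _).trans ((card_roots' _).trans
      (le_of_eq (FiniteField.X_pow_card_sub_X_natDegree_eq (ResidueField A) hl.one_lt)))
  have hPS : ∀ R ∈ P, R = 0 ∨ ∃ x y h, R = Point.some x y h ∧ x ∈ S := by
    intro R hR
    obtain ⟨x, -, rfl⟩ := Finset.mem_image.mp hR
    rcases mzj_ec_frob_fixed (W.reductionMod l) (φ x) (hfix x) with h | ⟨u, v, h, huv, hu⟩
    · exact Or.inl h
    · refine Or.inr ⟨u, v, h, huv, ?_⟩
      refine Multiset.mem_toFinset.mpr ?_
      rw [mem_roots (FiniteField.X_pow_card_sub_X_ne_zero (ResidueField A) hl.one_lt), IsRoot.def,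
        eval_sub, eval_pow, eval_X, hu, sub_self]
  have h5 := mzj_sz_card_le ((W.reductionMod l)⁄(ResidueField A)) S P hPS
  rw [hPcard] at h5
  calc p ^ n ≤ Nat.card g.ker := h2
    _ ≤ 2 * S.card + 1 := h5
    _ ≤ 2 * l + 1 := by omega

/-- **[J-END].**  `W` has good reduction at one prime `l ≠ p` (`p` odd).  There is no family of
subgroups `K n ≤ W(ℚ̄)` with `|K n| ≤ p ^ n` such that `σ • x - x ∈ K n` for all `σ ∈ G_ℚ` and
`x ∈ W[p ^ n]`. -/
theorem mzj_ec_false (W : WeierstrassCurve ℤ) {p l : ℕ} (hp : p.Prime) (hp2 : p ≠ 2)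
    (hl : l.Prime) (hlp : l ≠ p) (hgood : ¬ (l : ℤ) ∣ W.Δ)
    (K : ℕ → AddSubgroup (s58_E W)) (hKfin : ∀ n, Finite (K n))
    (hKcard : ∀ n, Nat.card (K n) ≤ p ^ n)
    (hK : ∀ n, ∀ σ : s58_G, ∀ x : s58_E W, p ^ n • x = 0 → σ • x - x ∈ K n) : False := by
  obtain ⟨A, σ, hA, hσ⟩ := s58top_exists_frob hl
  haveI := hKfin (2 * l + 1)
  have h := mzj_ec_bound W hp hp2 hl hlp hgood A hA σ hσ (2 * l + 1) (K (2 * l + 1))
    (hKcard _) (hK _ σ)
  have h1 : 2 * l + 1 < 2 ^ (2 * l + 1) := Nat.lt_two_pow_self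
  have h2 : 2 ^ (2 * l + 1) ≤ p ^ (2 * l + 1) := Nat.pow_le_pow_left hp.two_le _
  omega

/-- **[J-END]**, the seam of `MZ/J/Seams.lean`. -/
theorem mzj_ec_main : mzj_End_stmt := by
  intro W hΔ p hp hp2 hK
  -- a prime `l` not dividing `Δ`, different from `p`
  obtain ⟨l, hle, hl⟩ := Nat.exists_infinite_primes (W.Δ.natAbs + p + 1)
  have hlp : l ≠ p := by omega
  have hgood : ¬ (l : ℤ) ∣ W.Δ := by
    intro hd
    have h1 : l ∣ W.Δ.natAbs := Int.natCast_dvd.mp hd
    have h2 : 0 < W.Δ.natAbs := Int.natAbs_pos.mpr hΔ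
    have := Nat.le_of_dvd h2 h1
    omega
  choose K hKcard hKmem using hK
  exact mzj_ec_false W hp hp2 hl hlp hgood K
    (fun n => Nat.finite_of_card_ne_zero (by
      rw [hKcard n]; exact (pow_pos hp.pos n).ne'))
    (fun n => (hKcard n).le) hKmem

end Fermat.Agent.MZ
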