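/-
MAZUR project, node **[MZ-J]** (S12 from S15).  Owner helper21.  Prefix `mzj_`.

THE SEAMS OF THE SUB-CELLS OF [J-STEP]: [J-S14] (S14 in subgroup language), [J-FIX] (local and
global fixedness of a finite Galois-stable subgroup).  Consumed by `MZ/J/Step.lean`.
-/
import Mathlib
import Fermat.Agent.MZ.J.Seams

set_option autoImplicit false

namespace Fermat.Agent.MZ

open WeierstrassCurve WeierstrassCurve.Affine Fermat.Agent.S58

/-- **[J-S14]**: S14 (`ExtVanishingCts p`) applied to `V = W[p]`, in subgroup language: a pointwise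
rational line `C ⊆ W[p]` with cyclotomic quotient, `W[p]` unramified outside `p`, and a
`D_p(A)`-stable complement for every `A ∣ p`  ⟹  a Galois-stable complement `M`. -/
def mzj_S14App_stmt : Prop :=
  ∀ (W : WeierstrassCurve ℤ), W.Δ ≠ 0 → ∀ (p : ℕ) [Fact p.Prime], 3 ≤ p →
    ∀ C : AddSubgroup (s58_E W), (∀ x ∈ C, p • x = 0) → Nat.card C = p →
      (∀ (σ : s58_G), ∀ x ∈ C, σ • x = x) →
      (∀ (σ : s58_G) (x : s58_E W), p • x = 0 → σ • x - ExtCitation.cycloExp p σ • x ∈ C) →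
      (∀ ℓ : ℕ, ℓ.Prime → ℓ ≠ p → ∀ A : ValuationSubring s58_Qb, A.LiesOverPrime ℓ →
        ∀ σ ∈ A.inertiaSubgroupIn ℚ, ∀ x : s58_E W, p • x = 0 → σ • x = x) →
      (∀ A : ValuationSubring s58_Qb, A.LiesOverPrime p →
        ∃ C' : AddSubgroup (s58_E W), (∀ x ∈ C', p • x = 0) ∧ Nat.card C' = p ∧
          (∀ σ ∈ A.decompositionSubgroup ℚ, ∀ x ∈ C', σ • x ∈ C') ∧ C ⊓ C' = ⊥) →
      ∃ M : AddSubgroup (s58_E W), (∀ x ∈ M, p • x = 0) ∧ Nat.card M = p ∧ mzj_Stable M ∧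
        C ⊓ M = ⊥

/-- **[J-FIX], local**: `σ` stabilises the `p`-primary subgroup `R`, moves every point of `R` by an
element of `E⁰(A)`, and `R ∩ E⁰(A)` has no element of order `p`  ⟹  `σ` fixes `R` pointwise. -/
def mzj_FixL_stmt : Prop :=
  ∀ (W : WeierstrassCurve ℤ) {p : ℕ}, p.Prime → ∀ R : AddSubgroup (s58_E W),
    (∀ x ∈ R, ∃ k : ℕ, p ^ k • x = 0) →
    ∀ (A : ValuationSubring s58_Qb) (σ : s58_G), (∀ x ∈ R, σ • x ∈ R) →
      (∀ x ∈ R, W.InZeroComponentAt A (σ • x - x)) →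
      (∀ x ∈ R, p • x = 0 → W.InZeroComponentAt A x → x = 0) →
      ∀ x ∈ R, σ • x = x

/-- **[J-FIX], global** (Minkowski): a finite Galois-stable subgroup on which, for every prime `ℓ`,
the inertia group of ONE place over `ℓ` acts trivially, is pointwise rational. -/
def mzj_FixG_stmt : Prop :=
  ∀ (W : WeierstrassCurve ℤ) (R : AddSubgroup (s58_E W)), Finite R → mzj_Stable R →
    (∀ ℓ : ℕ, ℓ.Prime → ∃ A : ValuationSubring s58_Qb, A.LiesOverPrime ℓ ∧
      ∀ σ ∈ A.inertiaSubgroupIn ℚ, ∀ x ∈ R, σ • x = x) →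
    ∀ (σ : s58_G), ∀ x ∈ R, σ • x = x

end Fermat.Agent.MZ
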