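/-
MAZUR project, node **[MZ-J]** (S12 from S15), cell [J-S14] (helper16, second seat).
Prefix `mzj_sv_`.

S14 (`ExtVanishingCts p`) APPLIED TO `V = W[p]`, IN SUBGROUP LANGUAGE.

`W : WeierstrassCurve ℤ`, `p` prime, `V := Submodule.torsionBy ℤ (s58_E W) p` with the Prelude
instances `instModuleZModTorsionBy p`, `instDistribMulActionTorsionBy p`.

* `mzj_sv_smulComm`   : `SMulCommClass G_ℚ (ZMod p) V`;
* `mzj_sv_card`       : `Nat.card V = p ^ 2`;
* `mzj_sv_open`       : the kernel of the action on `V` is open;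
* `mzj_sv_ofSub D`    : the submodule of `V` of the points of `V` lying in `D : AddSubgroup E`;
  `mzj_sv_card_ofSub` : it has `Nat.card D` elements when `D` is killed by `p`;
* `mzj_sv_toSub Cv`   : the subgroup of `E` underlying `Cv : Submodule (ZMod p) V`;
* `mzj_sv_isCompl`    : two submodules with `p` elements and trivial intersection of a module with
                        `p ^ 2` elements are complementary;
* `mzj_sv_main : mzj_S14App_stmt` (the seam of `MZ/J/SeamsS.lean`).
-/
import Mathlib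
import Fermat.Agent.MZ.J.Fix
import Fermat.Agent.MZ.J.SeamsS
import Fermat.Agent.S13.Ladder.Torsion
import Fermat.Agent.S14

set_option autoImplicit false
set_option linter.unusedSectionVars false

noncomputable section

namespace Fermat.Agent.MZ

open WeierstrassCurve WeierstrassCurve.Affine WeierstrassCurve.Affine.Point
  Fermat.Agent.S58 Fermat.Agent.S13 Fermat.Agent.S05 ExtCitation

/-! ### generic: complements by counting -/

section Compl

variable {p : ℕ} [Fact p.Prime] {V : Type*} [AddCommGroup V] [Module (ZMod p) V]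

/-- two submodules with `p` elements and trivial intersection of a module with `p ^ 2` elements are
complementary. -/
theorem mzj_sv_isCompl (hV : Nat.card V = p ^ 2) (C C' : Submodule (ZMod p) V)
    (hC : Nat.card C = p) (hC' : Nat.card C' = p) (hdisj : C ⊓ C' = ⊥) : IsCompl C C' := by
  have hp : p.Prime := Fact.out
  have hfinV : Finite V := Nat.finite_of_card_ne_zero (by rw [hV]; exact pow_ne_zero _ hp.ne_zero)
  refine ⟨disjoint_iff.mpr hdisj, codisjoint_iff.mpr ?_⟩
  -- the sum map `C × C' → V` is injective, hence bijective by counting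
  let f : C × C' → V := fun cc => (cc.1 : V) + (cc.2 : V)
  have hinj : Function.Injective f := by
    rintro ⟨a, b⟩ ⟨a', b'⟩ h
    have h' : (a : V) + (b : V) = (a' : V) + (b' : V) := h
    have h1 : (a : V) - (a' : V) = (b' : V) - (b : V) := by
      rw [sub_eq_sub_iff_add_eq_add, add_comm (b' : V)]; exact h'
    have hmem : (a : V) - (a' : V) ∈ C ⊓ C' :=
      ⟨C.sub_mem a.2 a'.2, by rw [h1]; exact C'.sub_mem b'.2 b.2⟩
    rw [hdisj, Submodule.mem_bot] at hmem
    have ha : a = a' := Subtype.ext (sub_eq_zero.mp hmem)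
    have hb : b = b' := by
      rw [hmem] at h1
      exact Subtype.ext (sub_eq_zero.mp h1.symm).symm
    rw [ha, hb]
  have hcard : Nat.card (C × C') = Nat.card V := by
    rw [Nat.card_prod, hC, hC', hV, sq]
  have hbij : Function.Bijective f := (Nat.bijective_iff_injective_and_card f).mpr ⟨hinj, hcard⟩
  rw [eq_top_iff]
  intro v _
  obtain ⟨⟨a, b⟩, hab⟩ := hbij.2 v
  rw [← hab]
  exact Submodule.add_mem_sup a.2 b.2

/-- a complement of a submodule with `p` elements in a module with `p ^ 2` elements has `p`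
elements. -/
theorem mzj_sv_card_compl (hV : Nat.card V = p ^ 2) (C C' : Submodule (ZMod p) V)
    (hC : Nat.card C = p) (h : IsCompl C C') : Nat.card C' = p := by
  have hp : p.Prime := Fact.out
  have h1 : Nat.card (C × C') = Nat.card V :=
    Nat.card_congr (Submodule.prodEquivOfIsCompl C C' h).toEquiv
  rw [Nat.card_prod, hC, hV, sq] at h1
  exact Nat.eq_of_mul_eq_mul_left hp.pos h1

end Compl

/-! ### the module `V = W[p]` -/

section V

variable (W : WeierstrassCurve ℤ) (p : ℕ) [Fact p.Prime]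

/-- `V = W[p]`. -/
abbrev mzj_sv_V : Type := Submodule.torsionBy ℤ (s58_E W) p

instance mzj_sv_smulComm : SMulCommClass s58_G (ZMod p) (mzj_sv_V W p) where
  smul_comm σ c v :=
    ZMod.map_smul (DistribSMul.toAddMonoidHom (mzj_sv_V W p) σ) c v

theorem mzj_sv_coe_smul (σ : s58_G) (v : mzj_sv_V W p) :
    ((σ • v : mzj_sv_V W p) : s58_E W) = σ • (v : s58_E W) := rfl

theorem mzj_sv_coe_natCast_smul (n : ℕ) (v : mzj_sv_V W p) :
    ((((n : ZMod p)) • v : mzj_sv_V W p) : s58_E W) = n • (v : s58_E W) := by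
  rw [Nat.cast_smul_eq_nsmul]
  rfl

theorem mzj_sv_mem_iff (x : s58_E W) : x ∈ Submodule.torsionBy ℤ (s58_E W) p ↔ p • x = 0 := by
  rw [Submodule.mem_torsionBy_iff, natCast_zsmul]

theorem mzj_sv_card (hΔ : W.Δ ≠ 0) (hp2 : p ≠ 2) : Nat.card (mzj_sv_V W p) = p ^ 2 := by
  have hΔ' : ((s58_WQ W)⁄s58_Qb).Δ ≠ 0 := by
    show ((W.map (Int.castRingHom ℚ)).map (algebraMap ℚ s58_Qb)).Δ ≠ 0
    rw [WeierstrassCurve.map_Δ, WeierstrassCurve.map_Δ]
    simpa using hΔ
  exact ld_natCard_torsionBy (W' := s58_WQ W) (K := s58_Qb) hΔ'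
    ((Fact.out : p.Prime).odd_of_ne_two hp2)

/-- the kernel of the action on `V` is open. -/
theorem mzj_sv_open (hfin : Finite (mzj_sv_V W p)) :
    IsOpen {σ : s58_G | ∀ v : mzj_sv_V W p, σ • v = v} := by
  classical
  let H : Subgroup s58_G :=
    { carrier := {σ | ∀ v : mzj_sv_V W p, σ • v = v}
      mul_mem' := fun {a b} ha hb v => by rw [mul_smul, hb v, ha v]
      one_mem' := fun v => one_smul _ v
      inv_mem' := fun {a} ha v => by
        rw [inv_smul_eq_iff]; exact (ha v).symm }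
  have hfin' : Fintype (mzj_sv_V W p) := Fintype.ofFinite _
  refine g1_isOpen_of_finset
    (Finset.univ.biUnion fun v : mzj_sv_V W p => mzj_fx_coords W (v : s58_E W)) H
    fun σ hσ v => ?_
  apply Subtype.ext
  rw [mzj_sv_coe_smul]
  refine mzj_fx_smul_of_coords W σ _ fun z hz => hσ z ?_
  rw [Finset.mem_biUnion]
  exact ⟨v, Finset.mem_univ _, hz⟩

/-- the inclusion `V → E`. -/
def mzj_sv_incl : mzj_sv_V W p →+ s58_E W :=
  (Submodule.torsionBy ℤ (s58_E W) p).subtype.toAddMonoidHom

theorem mzj_sv_incl_injective : Function.Injective (mzj_sv_incl W p) := Subtype.val_injective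

/-- the submodule of `V` of the points lying in `D`. -/
def mzj_sv_ofSub (D : AddSubgroup (s58_E W)) : Submodule (ZMod p) (mzj_sv_V W p) :=
  AddSubgroup.toZModSubmodule p (D.comap (mzj_sv_incl W p))

theorem mzj_sv_mem_ofSub {D : AddSubgroup (s58_E W)} {v : mzj_sv_V W p} :
    v ∈ mzj_sv_ofSub W p D ↔ (v : s58_E W) ∈ D := Iff.rfl

theorem mzj_sv_card_ofSub (D : AddSubgroup (s58_E W)) (hD : ∀ x ∈ D, p • x = 0) :
    Nat.card (mzj_sv_ofSub W p D) = Nat.card D := by
  refine Nat.card_congr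
    { toFun := fun v => ⟨(v.1 : s58_E W), v.2⟩
      invFun := fun x => ⟨⟨x.1, (mzj_sv_mem_iff W p x.1).mpr (hD x.1 x.2)⟩, x.2⟩
      left_inv := fun v => rfl
      right_inv := fun x => rfl }

/-- the subgroup of `E` underlying a submodule of `V`. -/
def mzj_sv_toSub (Cv : Submodule (ZMod p) (mzj_sv_V W p)) : AddSubgroup (s58_E W) :=
  Cv.toAddSubgroup.map (mzj_sv_incl W p)

theorem mzj_sv_mem_toSub {Cv : Submodule (ZMod p) (mzj_sv_V W p)} {x : s58_E W} :
    x ∈ mzj_sv_toSub W p Cv ↔ ∃ v ∈ Cv, (v : s58_E W) = x := Iff.rfl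

theorem mzj_sv_card_toSub (Cv : Submodule (ZMod p) (mzj_sv_V W p)) :
    Nat.card (mzj_sv_toSub W p Cv) = Nat.card Cv :=
  AddSubgroup.card_map_of_injective (mzj_sv_incl_injective W p)

theorem mzj_sv_toSub_killed (Cv : Submodule (ZMod p) (mzj_sv_V W p)) :
    ∀ x ∈ mzj_sv_toSub W p Cv, p • x = 0 := by
  rintro x ⟨v, -, rfl⟩
  exact (mzj_sv_mem_iff W p _).mp v.2

end V

/-! ### the seam -/

/-- **[J-S14]**: S14 applied to `W[p]`, in subgroup language. -/
theorem mzj_sv_main : mzj_S14App_stmt := by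
  intro W hΔ p _ hp3 C hCp hCcard hCfix hcyc hunr hloc
  have hp : p.Prime := Fact.out
  have hp2 : p ≠ 2 := by omega
  have hcardV := mzj_sv_card W p hΔ hp2
  have hfinV : Finite (mzj_sv_V W p) :=
    Nat.finite_of_card_ne_zero (by rw [hcardV]; exact pow_ne_zero _ hp.ne_zero)
  set Cv := mzj_sv_ofSub W p C with hCv
  have hCvcard : Nat.card Cv = p := by rw [hCv, mzj_sv_card_ofSub W p C hCp, hCcard]
  have hadm : IsAdmissibleExtensionCts p (mzj_sv_V W p) Cv :=
    { stable := fun σ v hv => by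
        have h1 : (v : s58_E W) ∈ C := hv
        rw [mzj_sv_mem_ofSub, mzj_sv_coe_smul, hCfix σ _ h1]; exact h1
      fixed_sub := fun σ v hv => Subtype.ext (hCfix σ (v : s58_E W) hv)
      cyclo_quot := fun σ v => by
        rw [mzj_sv_mem_ofSub]
        have h := hcyc σ (v : s58_E W) ((mzj_sv_mem_iff W p _).mp v.2)
        have e : ((σ • v - (cycloExp p σ : ZMod p) • v : mzj_sv_V W p) : s58_E W) =
            σ • (v : s58_E W) - cycloExp p σ • (v : s58_E W) := by
          rw [AddSubgroupClass.coe_sub, mzj_sv_coe_smul, mzj_sv_coe_natCast_smul]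
        rw [e]; exact h
      card_sub := hCvcard
      card_total := hcardV
      unramified_outside := fun ℓ hℓ hℓp A hA σ hσ v =>
        Subtype.ext (hunr ℓ hℓ hℓp A hA σ hσ _ ((mzj_sv_mem_iff W p _).mp v.2))
      locally_split := fun A hA => by
        obtain ⟨C', hC'p, hC'card, hC'st, hdisj⟩ := hloc A hA
        refine ⟨mzj_sv_ofSub W p C', fun σ hσ v hv => ?_, ?_⟩
        · rw [mzj_sv_mem_ofSub, mzj_sv_coe_smul]
          exact hC'st σ hσ _ hv
        · refine mzj_sv_isCompl hcardV _ _ hCvcard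
            (by rw [mzj_sv_card_ofSub W p C' hC'p, hC'card]) ?_
          rw [eq_bot_iff]
          intro v hv
          have h1 : (v : s58_E W) ∈ C ⊓ C' := ⟨hv.1, hv.2⟩
          rw [hdisj, AddSubgroup.mem_bot] at h1
          rw [Submodule.mem_bot]
          exact Subtype.ext h1
      open_kernel := mzj_sv_open W p hfinV }
  obtain ⟨Mv, hMst, hcompl⟩ := Fermat.Agent.S14.result hp3 (mzj_sv_V W p) Cv hadm
  refine ⟨mzj_sv_toSub W p Mv, mzj_sv_toSub_killed W p Mv, ?_, ?_, ?_⟩
  · rw [mzj_sv_card_toSub]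
    exact mzj_sv_card_compl hcardV Cv Mv hCvcard hcompl
  · rintro σ x ⟨v, hv, rfl⟩
    exact ⟨σ • v, hMst σ v hv, rfl⟩
  · rw [eq_bot_iff]
    rintro x ⟨hxC, v, hv, rfl⟩
    have h1 : v ∈ Cv ⊓ Mv := ⟨hxC, hv⟩
    rw [hcompl.inf_eq_bot, Submodule.mem_bot] at h1
    rw [AddSubgroup.mem_bot, h1]
    rfl

end Fermat.Agent.MZ
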