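/-
MAZUR project, node [MZ-J], cell [J-SS], step (R3)(B) of ruling #3072: PURE ALGEBRA
(helper25, prefix `mzj_qp_`).

Vélu's `x`-coordinate `X = x + ∑_{ξ ∈ S} (t ξ / (x - ξ) + u ξ / (x - ξ)²)` as a quotient `R(x) / D(x)`
of two MONIC polynomials with coefficients in the ring generated by the `ξ`, `t ξ`, `u ξ`:

  `D = ∏_{ξ ∈ S} (X - ξ)²`,   `R = X · D + ∑_{ξ ∈ S} (t ξ · (X - ξ) + u ξ) · ∏_{η ∈ S ∖ ξ} (X - η)²`.

* `mzj_qp_D`, `mzj_qp_R` over any commutative ring, indexed by `S : Finset ι`, `ξ t u : ι → R`;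
* monic, `natDegree D = 2 |S|`, `natDegree R = 2 |S| + 1`, compatible with ring homs (`_map`);
* `mzj_qp_eval` : over a field, `X · D(x) = R(x)` when `x ≠ ξ i` for all `i ∈ S`;
* `mzj_qp_main` : the same with `D, R ∈ A[X]` for a subring `A` containing the `ξ, t ξ, u ξ`;
* `mzj_qp_card_le` : THE COUNT used in (R3)(B)+(C): if `π : A →+* k` is a ring hom to a field and
  `c : k`, then the `x ∈ A` whose Vélu image `X` lies in `A` with `π X = c` have at most
  `2 |S| + 1` distinct residues `π x`.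
-/
import Mathlib

set_option autoImplicit false
set_option linter.unusedSectionVars false

noncomputable section

namespace Fermat.Agent.MZ

open Polynomial

section ring

variable {R : Type*} [CommRing R] {ι : Type*} [DecidableEq ι]

/-- `D = ∏_{i ∈ S} (X - ξ i)²` -/
def mzj_qp_D (S : Finset ι) (ξ : ι → R) : R[X] := ∏ i ∈ S, (X - C (ξ i)) ^ 2

/-- `R = X · D + ∑_{i ∈ S} (t i · (X - ξ i) + u i) · ∏_{j ∈ S ∖ i} (X - ξ j)²` -/
def mzj_qp_R (S : Finset ι) (ξ t u : ι → R) : R[X] :=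
  X * mzj_qp_D S ξ
    + ∑ i ∈ S, (C (t i) * (X - C (ξ i)) + C (u i)) * mzj_qp_D (S.erase i) ξ

theorem mzj_qp_D_congr {S : Finset ι} {ξ ξ' : ι → R} (h : ∀ i ∈ S, ξ i = ξ' i) :
    mzj_qp_D S ξ = mzj_qp_D S ξ' := by
  unfold mzj_qp_D
  exact Finset.prod_congr rfl fun i hi => by rw [h i hi]

theorem mzj_qp_R_congr {S : Finset ι} {ξ ξ' t t' u u' : ι → R} (hξ : ∀ i ∈ S, ξ i = ξ' i)
    (ht : ∀ i ∈ S, t i = t' i) (hu : ∀ i ∈ S, u i = u' i) :
    mzj_qp_R S ξ t u = mzj_qp_R S ξ' t' u' := by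
  unfold mzj_qp_R
  rw [mzj_qp_D_congr hξ]
  refine congrArg (fun q : R[X] => X * mzj_qp_D S ξ' + q) ?_
  refine Finset.sum_congr rfl fun i hi => ?_
  have h1 : mzj_qp_D (S.erase i) ξ = mzj_qp_D (S.erase i) ξ' :=
    mzj_qp_D_congr fun j hj => hξ j (Finset.mem_of_mem_erase hj)
  rw [h1, hξ i hi, ht i hi, hu i hi]

theorem mzj_qp_D_map {R' : Type*} [CommRing R'] (f : R →+* R') (S : Finset ι) (ξ : ι → R) :
    (mzj_qp_D S ξ).map f = mzj_qp_D S (fun i => f (ξ i)) := by
  unfold mzj_qp_D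
  rw [Polynomial.map_prod]
  refine Finset.prod_congr rfl fun i _ => ?_
  simp

theorem mzj_qp_R_map {R' : Type*} [CommRing R'] (f : R →+* R') (S : Finset ι) (ξ t u : ι → R) :
    (mzj_qp_R S ξ t u).map f
      = mzj_qp_R S (fun i => f (ξ i)) (fun i => f (t i)) (fun i => f (u i)) := by
  unfold mzj_qp_R
  rw [Polynomial.map_add, Polynomial.map_mul, Polynomial.map_X, mzj_qp_D_map, Polynomial.map_sum]
  congr 1
  refine Finset.sum_congr rfl fun i _ => ?_
  rw [Polynomial.map_mul, mzj_qp_D_map]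
  simp

theorem mzj_qp_D_monic [Nontrivial R] (S : Finset ι) (ξ : ι → R) : (mzj_qp_D S ξ).Monic := by
  unfold mzj_qp_D
  exact monic_prod_of_monic _ _ fun i _ => (monic_X_sub_C (ξ i)).pow 2

theorem mzj_qp_D_natDegree [Nontrivial R] (S : Finset ι) (ξ : ι → R) :
    (mzj_qp_D S ξ).natDegree = 2 * S.card := by
  unfold mzj_qp_D
  rw [natDegree_prod_of_monic _ _ fun i _ => (monic_X_sub_C (ξ i)).pow 2]
  have : ∀ i ∈ S, ((X - C (ξ i)) ^ 2 : R[X]).natDegree = 2 := by
    intro i _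
    rw [(monic_X_sub_C (ξ i)).natDegree_pow, natDegree_X_sub_C]
  rw [Finset.sum_congr rfl this]
  simp [mul_comm]

/-- the correction term has degree `< 2 |S|` -/
theorem mzj_qp_corr_natDegree_lt [Nontrivial R] (S : Finset ι) (ξ t u : ι → R) (hS : S.Nonempty) :
    (∑ i ∈ S, (C (t i) * (X - C (ξ i)) + C (u i)) * mzj_qp_D (S.erase i) ξ).natDegree
      < 2 * S.card := by
  have hpos : 0 < S.card := Finset.card_pos.2 hS
  have hle : (∑ i ∈ S, (C (t i) * (X - C (ξ i)) + C (u i)) * mzj_qp_D (S.erase i) ξ).natDegree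
      ≤ 2 * S.card - 1 := by
    apply Polynomial.natDegree_sum_le_of_forall_le
    intro i hi
    have h1 : (C (t i) * (X - C (ξ i)) + C (u i) : R[X]).natDegree ≤ 1 := by
      refine (natDegree_add_le _ _).trans (max_le ?_ (by simp))
      refine (natDegree_C_mul_le _ _).trans (natDegree_X_sub_C_le _)
    have h2 : (mzj_qp_D (S.erase i) ξ).natDegree = 2 * (S.card - 1) := by
      rw [mzj_qp_D_natDegree, Finset.card_erase_of_mem hi]
    refine natDegree_mul_le.trans ?_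
    rw [h2]
    omega
  omega

theorem mzj_qp_XD_natDegree [Nontrivial R] (S : Finset ι) (ξ : ι → R) :
    (X * mzj_qp_D S ξ).natDegree = 2 * S.card + 1 := by
  rw [(monic_X (R := R)).natDegree_mul (mzj_qp_D_monic S ξ), natDegree_X, mzj_qp_D_natDegree]
  ring

theorem mzj_qp_R_monic [Nontrivial R] (S : Finset ι) (ξ t u : ι → R) :
    (mzj_qp_R S ξ t u).Monic := by
  unfold mzj_qp_R
  rcases S.eq_empty_or_nonempty with rfl | hS
  · simp [mzj_qp_D]
  · have hXD : (X * mzj_qp_D S ξ).Monic := monic_X.mul (mzj_qp_D_monic S ξ)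
    apply hXD.add_of_left
    apply Polynomial.degree_lt_degree
    rw [mzj_qp_XD_natDegree]
    have := mzj_qp_corr_natDegree_lt S ξ t u hS
    omega

theorem mzj_qp_R_natDegree [Nontrivial R] (S : Finset ι) (ξ t u : ι → R) :
    (mzj_qp_R S ξ t u).natDegree = 2 * S.card + 1 := by
  unfold mzj_qp_R
  rcases S.eq_empty_or_nonempty with rfl | hS
  · simp [mzj_qp_D]
  · rw [Polynomial.natDegree_add_eq_left_of_natDegree_lt, mzj_qp_XD_natDegree]
    rw [mzj_qp_XD_natDegree]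
    have := mzj_qp_corr_natDegree_lt S ξ t u hS
    omega

end ring

section field

variable {K : Type*} [Field K] {ι : Type*} [DecidableEq ι]

theorem mzj_qp_D_eval (S : Finset ι) (ξ : ι → K) (x : K) :
    (mzj_qp_D S ξ).eval x = ∏ i ∈ S, (x - ξ i) ^ 2 := by
  unfold mzj_qp_D
  rw [Polynomial.eval_prod]
  simp

theorem mzj_qp_D_eval_ne_zero (S : Finset ι) (ξ : ι → K) (x : K) (hx : ∀ i ∈ S, x ≠ ξ i) :
    (mzj_qp_D S ξ).eval x ≠ 0 := by
  rw [mzj_qp_D_eval]
  exact Finset.prod_ne_zero_iff.2 fun i hi => pow_ne_zero 2 (sub_ne_zero.2 (hx i hi))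

/-- Vélu's `X` is `R(x) / D(x)` -/
theorem mzj_qp_eval (S : Finset ι) (ξ t u : ι → K) (x : K) (hx : ∀ i ∈ S, x ≠ ξ i) :
    (x + ∑ i ∈ S, (t i / (x - ξ i) + u i / (x - ξ i) ^ 2)) * (mzj_qp_D S ξ).eval x
      = (mzj_qp_R S ξ t u).eval x := by
  unfold mzj_qp_R
  rw [Polynomial.eval_add, Polynomial.eval_mul, Polynomial.eval_X, Polynomial.eval_finsetSum,
    add_mul, Finset.sum_mul]
  congr 1
  refine Finset.sum_congr rfl fun i hi => ?_
  have h1 : (mzj_qp_D S ξ).eval x = (x - ξ i) ^ 2 * (mzj_qp_D (S.erase i) ξ).eval x := by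
    rw [mzj_qp_D_eval, mzj_qp_D_eval, Finset.mul_prod_erase S (fun j => (x - ξ j) ^ 2) hi]
  have h2 : x - ξ i ≠ 0 := sub_ne_zero.2 (hx i hi)
  rw [h1, Polynomial.eval_mul]
  simp only [Polynomial.eval_add, Polynomial.eval_mul, Polynomial.eval_C, Polynomial.eval_sub,
    Polynomial.eval_X]
  field_simp

end field

section subring

variable {K : Type*} [Field K] {ι : Type*} [DecidableEq ι]

/-- `D` and `R` have coefficients in any subring containing the `ξ i`, `t i`, `u i` -/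
theorem mzj_qp_main (A : Subring K) (S : Finset ι) (ξ t u : ι → K)
    (hξ : ∀ i ∈ S, ξ i ∈ A) (ht : ∀ i ∈ S, t i ∈ A) (hu : ∀ i ∈ S, u i ∈ A) :
    ∃ D R : A[X], D.Monic ∧ R.Monic ∧ D.natDegree = 2 * S.card ∧ R.natDegree = 2 * S.card + 1 ∧
      D.map A.subtype = mzj_qp_D S ξ ∧ R.map A.subtype = mzj_qp_R S ξ t u := by
  classical
  let lift : (ι → K) → ι → A := fun f i => if h : f i ∈ A then ⟨f i, h⟩ else 0
  have hlift : ∀ (f : ι → K), (∀ i ∈ S, f i ∈ A) → ∀ i ∈ S, A.subtype (lift f i) = f i := by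
    intro f hf i hi
    simp only [lift, dif_pos (hf i hi)]
    rfl
  refine ⟨mzj_qp_D S (lift ξ), mzj_qp_R S (lift ξ) (lift t) (lift u), mzj_qp_D_monic _ _,
    mzj_qp_R_monic _ _ _ _, mzj_qp_D_natDegree _ _, mzj_qp_R_natDegree _ _ _ _, ?_, ?_⟩
  · rw [mzj_qp_D_map]
    exact mzj_qp_D_congr (hlift ξ hξ)
  · rw [mzj_qp_R_map]
    exact mzj_qp_R_congr (hlift ξ hξ) (hlift t ht) (hlift u hu)

/-- THE COUNT of (R3)(B)+(C): the points `x ∈ A` off the poles whose Vélu image `X` is in `A` and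
reduces to a given `c` under `π : A →+* k` have at most `2 |S| + 1` distinct residues. -/
theorem mzj_qp_card_le {k : Type*} [Field k] (A : Subring K) (π : A →+* k)
    (S : Finset ι) (ξ t u : ι → K)
    (hξ : ∀ i ∈ S, ξ i ∈ A) (ht : ∀ i ∈ S, t i ∈ A) (hu : ∀ i ∈ S, u i ∈ A)
    (c : k) (T : Finset k)
    (hT : ∀ z ∈ T, ∃ x X : A, π x = z ∧ π X = c ∧ (∀ i ∈ S, (x : K) ≠ ξ i) ∧
      (X : K) = (x : K) + ∑ i ∈ S, (t i / ((x : K) - ξ i) + u i / ((x : K) - ξ i) ^ 2)) :
    T.card ≤ 2 * S.card + 1 := by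
  classical
  obtain ⟨D, R, hDm, hRm, hDd, hRd, hD, hR⟩ := mzj_qp_main A S ξ t u hξ ht hu
  set P : k[X] := R.map π - C c * D.map π with hP
  have hdeg : (C c * D.map π).natDegree < (R.map π).natDegree := by
    rw [hRm.natDegree_map, hRd]
    refine lt_of_le_of_lt (natDegree_C_mul_le _ _) ?_
    rw [hDm.natDegree_map, hDd]
    omega
  have hPm : P.Monic := (hRm.map π).sub_of_left (Polynomial.degree_lt_degree hdeg)
  have hPd : P.natDegree = 2 * S.card + 1 := by
    rw [hP, natDegree_sub_eq_left_of_natDegree_lt hdeg, hRm.natDegree_map, hRd]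
  have hroot : ∀ z ∈ T, z ∈ P.roots := by
    intro z hz
    obtain ⟨x, X, rfl, hXc, hx, hX⟩ := hT z hz
    rw [Polynomial.mem_roots hPm.ne_zero, Polynomial.IsRoot, hP, Polynomial.eval_sub,
      Polynomial.eval_mul, Polynomial.eval_C]
    have h1 := mzj_qp_eval S ξ t u (x : K) hx
    rw [← hX, ← hD, ← hR] at h1
    have h2 : X * D.eval x = R.eval x := by
      apply A.subtype_injective
      rw [map_mul]
      have e1 : (D.map A.subtype).eval (x : K) = A.subtype (D.eval x) := by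
        rw [Polynomial.eval_map]; exact Polynomial.eval₂_at_apply A.subtype x
      have e2 : (R.map A.subtype).eval (x : K) = A.subtype (R.eval x) := by
        rw [Polynomial.eval_map]; exact Polynomial.eval₂_at_apply A.subtype x
      rw [← e1, ← e2]
      exact h1
    have h3 := congrArg π h2
    rw [map_mul, hXc] at h3
    have e3 : (D.map π).eval (π x) = π (D.eval x) := by
      rw [Polynomial.eval_map]; exact Polynomial.eval₂_at_apply π x
    have e4 : (R.map π).eval (π x) = π (R.eval x) := by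
      rw [Polynomial.eval_map]; exact Polynomial.eval₂_at_apply π x
    rw [e3, e4, h3, sub_self]
  calc T.card ≤ P.natDegree :=
        Polynomial.card_le_degree_of_subset_roots fun z hz => hroot z (by simpa using hz)
    _ = 2 * S.card + 1 := hPd

end subring

end Fermat.Agent.MZ
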