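/-
MAZUR project, node **[MZ-J]** (S12 from S15).  Owner helper21.  Prefix `mzj_`.

THE SEAM OF [J-QUOT] (two suppliers: algebraic Vélu = helper18, analytic Vélu = helper7; ONE consumer:
[J-SS] = helper1, which rescales by a power of `p`, transports with `lrvc_mapQ` and proves
`mzj_Quot_stmt` of `MZ/J/Seams.lean`).

`mzj_Velu_stmt`: the quotient of an elliptic curve `E/ℚ` by a Galois-stable subgroup `N ⊆ E(ℚ̄)` of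
odd prime order `p`, with Vélu's explicit model.  Only `x`-coordinates enter: with
`S = {x(Q) : Q ∈ N ∖ 0}` (each value comes from the pair `±Q`, so `|S| = (p-1)/2`),
`t(ξ) = 6ξ² + b₂ξ + b₄`, `u(ξ) = 4ξ³ + b₂ξ² + 2b₄ξ + b₆`:
  `a₁' = a₁, a₂' = a₂, a₃' = a₃, a₄' = a₄ - 5 ∑ t(ξ), a₆' = a₆ - b₂ ∑ t(ξ) - 7 ∑ (u(ξ) + ξ t(ξ))`,
  `x(φ P) = x + ∑_{ξ ∈ S} ( t(ξ)/(x - ξ) + u(ξ)/(x - ξ)² )` for `P = (x, y) ∉ N`.
-/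
import Mathlib
import Fermat.Agent.S58.Seams

set_option autoImplicit false

namespace Fermat.Agent.MZ

open WeierstrassCurve WeierstrassCurve.Affine Fermat.Agent.S58

/-- Vélu's `t(ξ) = 6ξ² + b₂ξ + b₄`, over `ℚ̄`. -/
noncomputable def mzj_vt (E : WeierstrassCurve ℚ) (ξ : s58_Qb) : s58_Qb :=
  6 * ξ ^ 2 + algebraMap ℚ s58_Qb E.b₂ * ξ + algebraMap ℚ s58_Qb E.b₄

/-- Vélu's `u(ξ) = 4ξ³ + b₂ξ² + 2b₄ξ + b₆ = (2y + a₁x + a₃)²`, over `ℚ̄`. -/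
noncomputable def mzj_vu (E : WeierstrassCurve ℚ) (ξ : s58_Qb) : s58_Qb :=
  4 * ξ ^ 3 + algebraMap ℚ s58_Qb E.b₂ * ξ ^ 2 + 2 * algebraMap ℚ s58_Qb E.b₄ * ξ
    + algebraMap ℚ s58_Qb E.b₆

/-- **[J-QUOT]** Vélu's quotient with its explicit model. -/
def mzj_Velu_stmt : Prop :=
  ∀ (E : WeierstrassCurve ℚ), E.Δ ≠ 0 → ∀ {p : ℕ}, p.Prime → p ≠ 2 →
    ∀ N : AddSubgroup (E⁄s58_Qb).Point, Nat.card N = p →
      (∀ σ : s58_G, ∀ x ∈ N, σ • x ∈ N) →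
      ∃ (E' : WeierstrassCurve ℚ) (φ : (E⁄s58_Qb).Point →+ (E'⁄s58_Qb).Point)
        (S : Finset s58_Qb),
        E'.Δ ≠ 0 ∧ Function.Surjective φ ∧ φ.ker = N ∧
        (∀ (σ : s58_G) (x : (E⁄s58_Qb).Point), φ (σ • x) = σ • φ x) ∧
        (∀ ξ : s58_Qb, ξ ∈ S ↔
          ∃ (y : s58_Qb) (h : (E⁄s58_Qb).Nonsingular ξ y), Point.some ξ y h ∈ N) ∧
        E'.a₁ = E.a₁ ∧ E'.a₂ = E.a₂ ∧ E'.a₃ = E.a₃ ∧
        algebraMap ℚ s58_Qb E'.a₄ = algebraMap ℚ s58_Qb E.a₄ - 5 * ∑ ξ ∈ S, mzj_vt E ξ ∧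
        algebraMap ℚ s58_Qb E'.a₆ = algebraMap ℚ s58_Qb E.a₆
          - algebraMap ℚ s58_Qb E.b₂ * ∑ ξ ∈ S, mzj_vt E ξ
          - 7 * ∑ ξ ∈ S, (mzj_vu E ξ + ξ * mzj_vt E ξ) ∧
        ∀ (x y : s58_Qb) (h : (E⁄s58_Qb).Nonsingular x y), Point.some x y h ∉ N →
          ∃ (Y : s58_Qb) (h' : (E'⁄s58_Qb).Nonsingular
              (x + ∑ ξ ∈ S, (mzj_vt E ξ / (x - ξ) + mzj_vu E ξ / (x - ξ) ^ 2)) Y),
            φ (Point.some x y h) = Point.some _ Y h'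

end Fermat.Agent.MZ
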