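/-
MAZUR project, node [MZ-J], cell **[J-SS]** (owner helper25, prefix `mzj_ss_`): THE ASSEMBLY

  `mzj_ss_main : mzj_ss_Cusp_stmt → mzj_ss_Many_stmt → mzj_ss_Rescale_stmt → mzj_Velu_stmt → mzj_Quot_stmt`.
-/
import Mathlib
import Fermat.Agent.MZ.J.SSSeams
import Fermat.Agent.MZ.J.SeamsQ
import Fermat.Agent.MZ.J.QuotPoly
import Fermat.Agent.MZ.J.E1DivP
import Fermat.Agent.S13.Local.NoTorsionTwo
import Fermat.Agent.S13.Global.UnramifiedOne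
import Fermat.Agent.S05.IntVal

set_option autoImplicit false

noncomputable section

namespace Fermat.Agent.MZ

open WeierstrassCurve WeierstrassCurve.Affine Fermat.Agent.S58

/-! ### (SS-I) integrality -/

/-- a natural number prime to the residue characteristic is a unit -/
theorem mzj_ss_natCast_unit {ℓ : ℕ} (hℓ : ℓ.Prime) (A : ValuationSubring s58_Qb)
    (hA : A.LiesOverPrime ℓ) {n : ℕ} (hn : ¬ ℓ ∣ n) : A.valuation ((n : ℕ) : s58_Qb) = 1 := by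
  have := (Fermat.Agent.S05.intVal_eq_one_iff A hA hℓ ((n : ℕ) : ℤ)).mpr
    (fun h => hn (by exact_mod_cast h))
  rwa [Int.cast_natCast] at this

/-- torsion points of order prime to the residue characteristic have integral `x`-coordinate -/
theorem mzj_ss_x_mem (W : WeierstrassCurve ℤ) {ℓ : ℕ} (hℓ : ℓ.Prime)
    (A : ValuationSubring s58_Qb) (hA : A.LiesOverPrime ℓ) {n : ℕ} (hn : ¬ ℓ ∣ n)
    {x y : s58_Qb} (h : ((s58_WQ W)⁄s58_Qb).Nonsingular x y)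
    (hP : n • (Point.some x y h : s58_E W) = 0) : x ∈ A := by
  by_contra hx
  obtain ⟨h2, h4, h6, h8⟩ := mzj_e1_b_mem_s58 W A
  have hker : Fermat.Agent.S05.InKerRed A (Point.some x y h : s58_E W) :=
    (Fermat.Agent.S05.inKerRed_some h).mpr hx
  have := Fermat.Agent.S13.nt2_eq_zero_of_nsmul_eq_zero h2 h4 h6 h8
    (mzj_ss_natCast_unit hℓ A hA hn) hker hP
  exact Point.some_ne_zero h this

/-- a rational number integral at some place over every prime `ℓ ≠ p` has a power of `p` as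
denominator -/
theorem mzj_ss_rat_den {p : ℕ} (r : ℚ)
    (h : ∀ ℓ : ℕ, ℓ.Prime → ℓ ≠ p →
      ∃ A : ValuationSubring s58_Qb, A.LiesOverPrime ℓ ∧ algebraMap ℚ s58_Qb r ∈ A) :
    ∃ (k : ℕ) (n : ℤ), r * (p : ℚ) ^ k = n := by
  have hden : ∀ {d : ℕ}, d.Prime → d ∣ r.den → d = p := by
    intro d hd hdvd
    by_contra hne
    obtain ⟨A, hA, hr⟩ := h d hd hne
    have h1 : A.valuation ((r.den : ℤ) : s58_Qb) < 1 :=
      Fermat.Agent.S05.intVal_lt_one_of_dvd A hA (by exact_mod_cast hdvd)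
    have hcop : ¬ (d : ℤ) ∣ r.num := by
      intro hnum
      have h2 : d ∣ r.num.natAbs := Int.natCast_dvd.mp hnum
      have h3 : d ∣ Nat.gcd r.num.natAbs r.den := Nat.dvd_gcd h2 hdvd
      rw [r.reduced] at h3
      exact hd.one_lt.ne' (Nat.dvd_one.mp h3)
    have h2 : A.valuation ((r.num : ℤ) : s58_Qb) = 1 :=
      (Fermat.Agent.S05.intVal_eq_one_iff A hA hd r.num).mpr hcop
    have h3 : algebraMap ℚ s58_Qb r * ((r.den : ℤ) : s58_Qb) = ((r.num : ℤ) : s58_Qb) := by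
      have h0 : r * (r.den : ℚ) = (r.num : ℚ) := Rat.mul_den_eq_num r
      have h0' := congrArg (algebraMap ℚ s58_Qb) h0
      rw [map_mul, map_natCast, map_intCast] at h0'
      rw [Int.cast_natCast]
      exact h0'
    have h4 := congrArg A.valuation h3
    rw [map_mul, h2] at h4
    have h5 : A.valuation (algebraMap ℚ s58_Qb r) ≤ 1 := (A.valuation_le_one_iff _).mpr hr
    have h6 : A.valuation (algebraMap ℚ s58_Qb r) * A.valuation ((r.den : ℤ) : s58_Qb) < 1 := by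
      calc A.valuation (algebraMap ℚ s58_Qb r) * A.valuation ((r.den : ℤ) : s58_Qb)
          ≤ 1 * A.valuation ((r.den : ℤ) : s58_Qb) := mul_le_mul_left h5 _
        _ = A.valuation ((r.den : ℤ) : s58_Qb) := one_mul _
        _ < 1 := h1
    rw [h4] at h6
    exact lt_irrefl _ h6
  have hpow := Nat.eq_prime_pow_of_unique_prime_dvd r.den_nz hden
  refine ⟨r.den.primeFactorsList.length, r.num, ?_⟩
  have : r * (r.den : ℚ) = (r.num : ℚ) := Rat.mul_den_eq_num r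
  rw [← this]
  congr 1
  have := congrArg (fun n : ℕ => (n : ℚ)) hpow
  simpa using this.symm

/-! ### `ℤ[1/p] ⊆ ℚ` -/

/-- `r ∈ ℤ[1/p]` -/
def mzj_ss_Loc (p : ℕ) (r : ℚ) : Prop := ∃ (k : ℕ) (n : ℤ), r * (p : ℚ) ^ k = n

theorem mzj_ss_Loc_int (p : ℕ) (z : ℤ) : mzj_ss_Loc p (z : ℚ) := ⟨0, z, by simp⟩

theorem mzj_ss_Loc_add {p : ℕ} {r s : ℚ} (hr : mzj_ss_Loc p r) (hs : mzj_ss_Loc p s) :
    mzj_ss_Loc p (r + s) := by
  obtain ⟨k, n, hn⟩ := hr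
  obtain ⟨l, m, hm⟩ := hs
  refine ⟨k + l, n * (p : ℤ) ^ l + m * (p : ℤ) ^ k, ?_⟩
  push_cast
  rw [← hn, ← hm]
  ring

theorem mzj_ss_Loc_mul {p : ℕ} {r s : ℚ} (hr : mzj_ss_Loc p r) (hs : mzj_ss_Loc p s) :
    mzj_ss_Loc p (r * s) := by
  obtain ⟨k, n, hn⟩ := hr
  obtain ⟨l, m, hm⟩ := hs
  refine ⟨k + l, n * m, ?_⟩
  push_cast
  rw [← hn, ← hm]
  ring

theorem mzj_ss_Loc_neg {p : ℕ} {r : ℚ} (hr : mzj_ss_Loc p r) : mzj_ss_Loc p (-r) := by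
  obtain ⟨k, n, hn⟩ := hr
  exact ⟨k, -n, by push_cast; rw [← hn]; ring⟩

theorem mzj_ss_Loc_sub {p : ℕ} {r s : ℚ} (hr : mzj_ss_Loc p r) (hs : mzj_ss_Loc p s) :
    mzj_ss_Loc p (r - s) := by
  rw [sub_eq_add_neg]
  exact mzj_ss_Loc_add hr (mzj_ss_Loc_neg hs)

theorem mzj_ss_Loc_le {p : ℕ} {r : ℚ} {k K : ℕ} (h : ∃ n : ℤ, r * (p : ℚ) ^ k = n) (hk : k ≤ K) :
    ∃ n : ℤ, r * (p : ℚ) ^ K = n := by
  obtain ⟨n, hn⟩ := h
  refine ⟨n * (p : ℤ) ^ (K - k), ?_⟩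
  push_cast
  rw [← hn, mul_assoc, ← pow_add]
  congr 2
  omega

/-- five elements of `ℤ[1/p]` have a common denominator -/
theorem mzj_ss_Loc_common {p : ℕ} {r₁ r₂ r₃ r₄ r₅ : ℚ} (h₁ : mzj_ss_Loc p r₁)
    (h₂ : mzj_ss_Loc p r₂) (h₃ : mzj_ss_Loc p r₃) (h₄ : mzj_ss_Loc p r₄) (h₅ : mzj_ss_Loc p r₅) :
    ∃ K : ℕ, (∃ n : ℤ, r₁ * (p : ℚ) ^ K = n) ∧ (∃ n : ℤ, r₂ * (p : ℚ) ^ K = n) ∧
      (∃ n : ℤ, r₃ * (p : ℚ) ^ K = n) ∧ (∃ n : ℤ, r₄ * (p : ℚ) ^ K = n) ∧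
      (∃ n : ℤ, r₅ * (p : ℚ) ^ K = n) := by
  obtain ⟨k₁, g₁⟩ := h₁
  obtain ⟨k₂, g₂⟩ := h₂
  obtain ⟨k₃, g₃⟩ := h₃
  obtain ⟨k₄, g₄⟩ := h₄
  obtain ⟨k₅, g₅⟩ := h₅
  exact ⟨k₁ + k₂ + k₃ + k₄ + k₅, mzj_ss_Loc_le g₁ (by omega), mzj_ss_Loc_le g₂ (by omega),
    mzj_ss_Loc_le g₃ (by omega), mzj_ss_Loc_le g₄ (by omega), mzj_ss_Loc_le g₅ (by omega)⟩

/-! ### integers in `ℚ̄` -/

theorem mzj_ss_int_mem (A : ValuationSubring s58_Qb) (z : ℤ) :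
    algebraMap ℚ s58_Qb ((Int.castRingHom ℚ) z) ∈ A := by
  have : algebraMap ℚ s58_Qb ((Int.castRingHom ℚ) z) = ((z : ℤ) : s58_Qb) := by simp
  rw [this]
  exact Fermat.Agent.S05.intVal_intCast_mem A z

theorem mzj_ss_vt_mem (W : WeierstrassCurve ℤ) (A : ValuationSubring s58_Qb) {ξ : s58_Qb}
    (hξ : ξ ∈ A) : mzj_vt (s58_WQ W) ξ ∈ A := by
  unfold mzj_vt
  have h2 : algebraMap ℚ s58_Qb (s58_WQ W).b₂ ∈ A := by
    show algebraMap ℚ s58_Qb (W.map (Int.castRingHom ℚ)).b₂ ∈ A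
    rw [WeierstrassCurve.map_b₂]; exact mzj_ss_int_mem A _
  have h4 : algebraMap ℚ s58_Qb (s58_WQ W).b₄ ∈ A := by
    show algebraMap ℚ s58_Qb (W.map (Int.castRingHom ℚ)).b₄ ∈ A
    rw [WeierstrassCurve.map_b₄]; exact mzj_ss_int_mem A _
  have h6 : (6 : s58_Qb) ∈ A := by
    have := Fermat.Agent.S05.intVal_natCast_mem A 6
    exact_mod_cast this
  exact A.add_mem _ _ (A.add_mem _ _ (A.mul_mem _ _ h6 (pow_mem hξ 2)) (A.mul_mem _ _ h2 hξ)) h4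

theorem mzj_ss_vu_mem (W : WeierstrassCurve ℤ) (A : ValuationSubring s58_Qb) {ξ : s58_Qb}
    (hξ : ξ ∈ A) : mzj_vu (s58_WQ W) ξ ∈ A := by
  unfold mzj_vu
  have h2 : algebraMap ℚ s58_Qb (s58_WQ W).b₂ ∈ A := by
    show algebraMap ℚ s58_Qb (W.map (Int.castRingHom ℚ)).b₂ ∈ A
    rw [WeierstrassCurve.map_b₂]; exact mzj_ss_int_mem A _
  have h4 : algebraMap ℚ s58_Qb (s58_WQ W).b₄ ∈ A := by
    show algebraMap ℚ s58_Qb (W.map (Int.castRingHom ℚ)).b₄ ∈ A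
    rw [WeierstrassCurve.map_b₄]; exact mzj_ss_int_mem A _
  have h6 : algebraMap ℚ s58_Qb (s58_WQ W).b₆ ∈ A := by
    show algebraMap ℚ s58_Qb (W.map (Int.castRingHom ℚ)).b₆ ∈ A
    rw [WeierstrassCurve.map_b₆]; exact mzj_ss_int_mem A _
  have hn4 : (4 : s58_Qb) ∈ A := by
    have := Fermat.Agent.S05.intVal_natCast_mem A 4
    exact_mod_cast this
  have hn2 : (2 : s58_Qb) ∈ A := by
    have := Fermat.Agent.S05.intVal_natCast_mem A 2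
    exact_mod_cast this
  exact A.add_mem _ _ (A.add_mem _ _ (A.add_mem _ _ (A.mul_mem _ _ hn4 (pow_mem hξ 3))
    (A.mul_mem _ _ h2 (pow_mem hξ 2))) (A.mul_mem _ _ (A.mul_mem _ _ hn2 h4) hξ)) h6

/-! ### (SS-3) the odd primes: cusp + many + count -/

/-- the residue map on the underlying subring of a valuation subring -/
def mzj_ss_res (A : ValuationSubring s58_Qb) : A.toSubring →+* IsLocalRing.ResidueField A :=
  IsLocalRing.residue A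

theorem mzj_ss_res_eq_iff (A : ValuationSubring s58_Qb) (a b : A.toSubring) :
    mzj_ss_res A a = mzj_ss_res A b ↔ A.valuation ((a : s58_Qb) - (b : s58_Qb)) < 1 := by
  have h : mzj_ss_res A a = mzj_ss_res A b ↔
      IsLocalRing.residue A ((⟨a.1, a.2⟩ : A) - ⟨b.1, b.2⟩) = 0 := by
    rw [map_sub, sub_eq_zero]; rfl
  rw [h, IsLocalRing.residue_eq_zero_iff, A.valuation_lt_one_iff]
  rfl

/-- a point killed by `2^k` and by an odd prime `p` is zero -/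
theorem mzj_ss_coprime_zero {G : Type*} [AddGroup G] {p : ℕ} (hp : p.Prime) (hp2 : p ≠ 2) {k : ℕ}
    {P : G} (h2 : 2 ^ k • P = 0) (hpP : p • P = 0) : P = 0 := by
  have h1 : addOrderOf P ∣ 2 ^ k := addOrderOf_dvd_of_nsmul_eq_zero h2
  have h3 : addOrderOf P ∣ p := addOrderOf_dvd_of_nsmul_eq_zero hpP
  have hcop : Nat.Coprime (2 ^ k) p := by
    apply Nat.Coprime.pow_left
    rw [Nat.coprime_primes Nat.prime_two hp]
    exact fun h => hp2 h.symm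
  have h4 : addOrderOf P ∣ 1 := by
    have := Nat.dvd_gcd h1 h3
    rwa [hcop] at this
  exact AddMonoid.addOrderOf_eq_one_iff.mp (Nat.dvd_one.mp h4)

/-- **(SS-3) core**: the contradiction at an odd prime `ℓ ≠ p` from the cusp of `W'`, the many
`2`-power torsion points of `W` and the count of `MZ/J/QuotPoly.lean`. -/
theorem mzj_ss_odd (W W' : WeierstrassCurve ℤ) {p ℓ : ℕ} (hp : p.Prime) (hp2 : p ≠ 2)
    (hℓ : ℓ.Prime) (hℓp : ℓ ≠ p)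
    (A : ValuationSubring s58_Qb) (hA : A.LiesOverPrime ℓ)
    (N : AddSubgroup (s58_E W)) (hNp : ∀ x ∈ N, p • x = 0)
    (E' : WeierstrassCurve ℚ) (φ : s58_E W →+ (E'⁄s58_Qb).Point) (S : Finset s58_Qb)
    (hS : ∀ ξ : s58_Qb, ξ ∈ S ↔
      ∃ (y : s58_Qb) (h : ((s58_WQ W)⁄s58_Qb).Nonsingular ξ y), Point.some ξ y h ∈ N)
    (hX : ∀ (x y : s58_Qb) (h : ((s58_WQ W)⁄s58_Qb).Nonsingular x y), Point.some x y h ∉ N →
      ∃ (Y : s58_Qb) (h' : (E'⁄s58_Qb).Nonsingular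
          (x + ∑ ξ ∈ S, (mzj_vt (s58_WQ W) ξ / (x - ξ) + mzj_vu (s58_WQ W) ξ / (x - ξ) ^ 2)) Y),
        φ (Point.some x y h) = Point.some _ Y h')
    (j : ℕ) (ψ : (E'⁄s58_Qb).Point ≃+ s58_E W')
    (hψX : ∀ (x y : s58_Qb) (h : (E'⁄s58_Qb).Nonsingular x y),
      ∃ (Y : s58_Qb) (h' : ((s58_WQ W')⁄s58_Qb).Nonsingular ((p : s58_Qb) ^ (2 * j) * x) Y),
        ψ (Point.some x y h) = Point.some _ Y h')
    (x₀ : s58_Qb) (hx₀ : x₀ ∈ A)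
    (hcusp : ∀ (k : ℕ) (x y : s58_Qb) (h : ((s58_WQ W')⁄s58_Qb).Nonsingular x y),
      2 ^ k • (Point.some x y h : s58_E W') = 0 → A.valuation (x - x₀) < 1)
    (T : Finset s58_Qb) (hTcard : 2 * S.card + 2 ≤ T.card) (hTA : ∀ x ∈ T, x ∈ A)
    (hTtors : ∀ x ∈ T, ∃ (k : ℕ) (y : s58_Qb) (h : ((s58_WQ W)⁄s58_Qb).Nonsingular x y),
      2 ^ k • (Point.some x y h : s58_E W) = 0)
    (hTinc : ∀ x ∈ T, ∀ x' ∈ T, x ≠ x' → A.valuation (x - x') = 1) : False := by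
  classical
  -- `p` is a unit of `A`
  have hℓp' : ¬ ℓ ∣ p := fun h => hℓp ((Nat.prime_dvd_prime_iff_eq hℓ hp).mp h)
  have hpu : A.valuation ((p : ℕ) : s58_Qb) = 1 := mzj_ss_natCast_unit hℓ A hA hℓp'
  have hpj : A.valuation (((p : ℕ) : s58_Qb) ^ (2 * j)) = 1 := by rw [map_pow, hpu, one_pow]
  have hpj0 : ((p : ℕ) : s58_Qb) ^ (2 * j) ≠ 0 := by
    intro h0
    rw [h0, map_zero] at hpj
    exact zero_ne_one hpj
  -- integrality of `S`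
  have hSA : ∀ ξ ∈ S, ξ ∈ A := by
    intro ξ hξ
    obtain ⟨y, h, hN⟩ := (hS ξ).mp hξ
    exact mzj_ss_x_mem W hℓ A hA hℓp' h (hNp _ hN)
  -- the constant
  set c : s58_Qb := x₀ / ((p : ℕ) : s58_Qb) ^ (2 * j) with hc
  have hcA : c ∈ A := by
    rw [← A.valuation_le_one_iff, hc, map_div₀, hpj, div_one]
    exact (A.valuation_le_one_iff _).mpr hx₀
  -- the residues
  let f : s58_Qb → IsLocalRing.ResidueField A :=
    fun x => if h : x ∈ A then mzj_ss_res A ⟨x, h⟩ else 0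
  have hf : ∀ x (h : x ∈ A), f x = mzj_ss_res A ⟨x, h⟩ := fun x h => dif_pos h
  have hinj : Set.InjOn f (T : Set s58_Qb) := by
    intro x hx x' hx' hxx'
    by_contra hne
    have h1 := hTinc x hx x' hx' hne
    rw [hf x (hTA x hx), hf x' (hTA x' hx'), mzj_ss_res_eq_iff] at hxx'
    simp only at hxx'
    rw [h1] at hxx'
    exact lt_irrefl _ hxx'
  have hcard : (T.image f).card = T.card := Finset.card_image_of_injOn hinj
  have hle := mzj_qp_card_le (K := s58_Qb) A.toSubring (mzj_ss_res A) S (fun ξ => ξ)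
    (mzj_vt (s58_WQ W)) (mzj_vu (s58_WQ W)) hSA
    (fun ξ hξ => mzj_ss_vt_mem W A (hSA ξ hξ)) (fun ξ hξ => mzj_ss_vu_mem W A (hSA ξ hξ))
    (mzj_ss_res A ⟨c, hcA⟩) (T.image f) ?_
  · omega
  · intro z hz
    obtain ⟨x, hxT, rfl⟩ := Finset.mem_image.mp hz
    obtain ⟨k, y, h, htors⟩ := hTtors x hxT
    have hPN : (Point.some x y h : s58_E W) ∉ N := fun hN =>
      Point.some_ne_zero h (mzj_ss_coprime_zero hp hp2 htors (hNp _ hN))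
    obtain ⟨Y, h', hφ⟩ := hX x y h hPN
    obtain ⟨Y', h'', hψ⟩ := hψX _ Y h'
    -- the image is `2^k`-torsion on `W'`
    have htors' : 2 ^ k • (Point.some _ Y' h'' : s58_E W') = 0 := by
      rw [← hψ, ← hφ, ← map_nsmul, ← map_nsmul, htors, map_zero, map_zero]
    have hv := hcusp k _ Y' h'' htors'
    set Xv : s58_Qb :=
      x + ∑ ξ ∈ S, (mzj_vt (s58_WQ W) ξ / (x - ξ) + mzj_vu (s58_WQ W) ξ / (x - ξ) ^ 2) with hXv
    have hsub : A.valuation (Xv - c) < 1 := by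
      have : Xv - c = (((p : ℕ) : s58_Qb) ^ (2 * j) * Xv - x₀) / ((p : ℕ) : s58_Qb) ^ (2 * j) := by
        rw [hc]; field_simp
      rw [this, map_div₀, hpj, div_one]
      exact hv
    have hXA : Xv ∈ A := by
      have : Xv = c + (Xv - c) := by ring
      rw [this]
      exact A.add_mem _ _ hcA ((A.valuation_le_one_iff _).mp hsub.le)
    refine ⟨⟨x, hTA x hxT⟩, ⟨Xv, hXA⟩, (hf x (hTA x hxT)).symm, ?_, ?_, rfl⟩
    · rw [mzj_ss_res_eq_iff]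
      exact hsub
    · intro ξ hξ hxξ
      obtain ⟨y', hq, hN⟩ := (hS ξ).mp hξ
      apply hPN
      rcases (Point.X_eq_iff (h₁ := h) (h₂ := hq)).mp hxξ with e | e
      · rw [e]; exact hN
      · rw [e]; exact N.neg_mem hN

/-! ### the assembly -/

/-- **[J-SS]**: Vélu's quotient + the three sub-seams give the integral quotient model with
inherited semistability. -/
theorem mzj_ss_main (hC : mzj_ss_Cusp_stmt) (hM : mzj_ss_Many_stmt) (hR : mzj_ss_Rescale_stmt)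
    (hV : mzj_Velu_stmt) : mzj_Quot_stmt := by
  intro W hΔ p hp hp5 N hN hst
  have hp2 : p ≠ 2 := by omega
  have hEΔ : (s58_WQ W).Δ ≠ 0 := by
    show (W.map (Int.castRingHom ℚ)).Δ ≠ 0
    rw [WeierstrassCurve.map_Δ]
    simpa using hΔ
  obtain ⟨E', φ, S, hΔ', hsurj, hker, heq, hS, ha1, ha2, ha3, ha4, ha6, hX⟩ :=
    hV (s58_WQ W) hEΔ hp hp2 N hN hst
  -- `N` is killed by `p`
  have hNp : ∀ x ∈ N, p • x = 0 := by
    intro x hx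
    have h1 : Nat.card N • (⟨x, hx⟩ : N) = 0 := card_nsmul_eq_zero'
    rw [hN] at h1
    have := congrArg (fun z : N => (z : s58_E W)) h1
    simpa using this
  -- (SS-I) integrality of `S` away from `p`
  have hSA : ∀ ℓ : ℕ, ℓ.Prime → ℓ ≠ p → ∀ A : ValuationSubring s58_Qb, A.LiesOverPrime ℓ →
      ∀ ξ ∈ S, ξ ∈ A := by
    intro ℓ hℓ hℓp A hA ξ hξ
    obtain ⟨y, h, hNξ⟩ := (hS ξ).mp hξ
    have hℓp' : ¬ ℓ ∣ p := fun h => hℓp ((Nat.prime_dvd_prime_iff_eq hℓ hp).mp h)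
    exact mzj_ss_x_mem W hℓ A hA hℓp' h (hNp _ hNξ)
  -- the two rational numbers `τ = ∑ t`, `υ = ∑ (u + ξ t)`
  set τ : ℚ := ((s58_WQ W).a₄ - E'.a₄) / 5 with hτ
  set υ : ℚ := ((s58_WQ W).a₆ - E'.a₆ - (s58_WQ W).b₂ * τ) / 7 with hυ
  have hτS : algebraMap ℚ s58_Qb τ = ∑ ξ ∈ S, mzj_vt (s58_WQ W) ξ := by
    rw [hτ, map_div₀, map_sub, ha4]
    have : (algebraMap ℚ s58_Qb) 5 = 5 := map_ofNat _ 5
    rw [this]
    ring
  have hυS : algebraMap ℚ s58_Qb υ =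
      ∑ ξ ∈ S, (mzj_vu (s58_WQ W) ξ + ξ * mzj_vt (s58_WQ W) ξ) := by
    rw [hυ, map_div₀, map_sub, map_sub, map_mul, ha6, hτS]
    have : (algebraMap ℚ s58_Qb) 7 = 7 := map_ofNat _ 7
    rw [this]
    ring
  have hτloc : mzj_ss_Loc p τ := by
    apply mzj_ss_rat_den
    intro ℓ hℓ hℓp
    obtain ⟨A, hA⟩ := Fermat.Agent.S13.g1_exists_liesOver ℓ hℓ
    refine ⟨A, hA, ?_⟩
    rw [hτS]
    exact A.toSubring.sum_mem fun ξ hξ => mzj_ss_vt_mem W A (hSA ℓ hℓ hℓp A hA ξ hξ)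
  have hυloc : mzj_ss_Loc p υ := by
    apply mzj_ss_rat_den
    intro ℓ hℓ hℓp
    obtain ⟨A, hA⟩ := Fermat.Agent.S13.g1_exists_liesOver ℓ hℓ
    refine ⟨A, hA, ?_⟩
    rw [hυS]
    exact A.toSubring.sum_mem fun ξ hξ =>
      A.add_mem _ _ (mzj_ss_vu_mem W A (hSA ℓ hℓ hℓp A hA ξ hξ))
        (A.mul_mem _ _ (hSA ℓ hℓ hℓp A hA ξ hξ) (mzj_ss_vt_mem W A (hSA ℓ hℓ hℓp A hA ξ hξ)))
  -- the coefficients of `E'` are in `ℤ[1/p]`
  have hWa1 : (s58_WQ W).a₁ = ((W.a₁ : ℤ) : ℚ) := rfl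
  have hWa2 : (s58_WQ W).a₂ = ((W.a₂ : ℤ) : ℚ) := rfl
  have hWa3 : (s58_WQ W).a₃ = ((W.a₃ : ℤ) : ℚ) := rfl
  have hWa4 : (s58_WQ W).a₄ = ((W.a₄ : ℤ) : ℚ) := rfl
  have hWa6 : (s58_WQ W).a₆ = ((W.a₆ : ℤ) : ℚ) := rfl
  have hWb2 : (s58_WQ W).b₂ = ((W.b₂ : ℤ) : ℚ) := by
    show (W.map (Int.castRingHom ℚ)).b₂ = _
    rw [WeierstrassCurve.map_b₂]; rfl
  have hWc4 : (s58_WQ W).c₄ = ((W.c₄ : ℤ) : ℚ) := by
    show (W.map (Int.castRingHom ℚ)).c₄ = _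
    rw [WeierstrassCurve.map_c₄]; rfl
  have hE'a4 : E'.a₄ = (s58_WQ W).a₄ - 5 * τ := by rw [hτ]; ring
  have hE'a6 : E'.a₆ = (s58_WQ W).a₆ - (s58_WQ W).b₂ * τ - 7 * υ := by rw [hυ]; ring
  have hl1 : mzj_ss_Loc p E'.a₁ := by rw [ha1, hWa1]; exact mzj_ss_Loc_int p _
  have hl2 : mzj_ss_Loc p E'.a₂ := by rw [ha2, hWa2]; exact mzj_ss_Loc_int p _
  have hl3 : mzj_ss_Loc p E'.a₃ := by rw [ha3, hWa3]; exact mzj_ss_Loc_int p _
  have hl4 : mzj_ss_Loc p E'.a₄ := by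
    rw [hE'a4, hWa4]
    exact mzj_ss_Loc_sub (mzj_ss_Loc_int p _)
      (mzj_ss_Loc_mul (by exact_mod_cast mzj_ss_Loc_int p 5) hτloc)
  have hl6 : mzj_ss_Loc p E'.a₆ := by
    rw [hE'a6, hWa6, hWb2]
    exact mzj_ss_Loc_sub (mzj_ss_Loc_sub (mzj_ss_Loc_int p _)
      (mzj_ss_Loc_mul (mzj_ss_Loc_int p _) hτloc))
      (mzj_ss_Loc_mul (by exact_mod_cast mzj_ss_Loc_int p 7) hυloc)
  obtain ⟨K, g1, g2, g3, g4, g6⟩ := mzj_ss_Loc_common hl1 hl2 hl3 hl4 hl6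
  -- (SS-R) the integral model
  obtain ⟨W', j, ψ, hW'Δ, hc4', -, hψeq, hψX⟩ := hR E' hΔ' hp K g1 g2 g3 g4 g6
  refine ⟨W', ψ.toAddMonoidHom.comp φ, hW'Δ, ?_, ?_, ?_, ?_, ?_⟩
  · exact ψ.surjective.comp hsurj
  · ext x
    rw [AddMonoidHom.mem_ker, ← hker, AddMonoidHom.mem_ker]
    show ψ (φ x) = 0 ↔ φ x = 0
    exact ψ.map_eq_zero_iff
  · intro σ x
    show ψ (φ (σ • x)) = σ • ψ (φ x)
    rw [heq, hψeq]
  · -- (SS-2) `c₄` stays odd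
    intro h2 h2'
    apply h2
    obtain ⟨k, n, hn⟩ := hτloc
    have hE'c4 : E'.c₄ = (s58_WQ W).c₄ + 240 * τ := by
      simp only [WeierstrassCurve.c₄, WeierstrassCurve.b₂, WeierstrassCurve.b₄, ha1, ha2, ha3,
        hE'a4]
      ring
    have hint : (W'.c₄ : ℤ) * (p : ℤ) ^ k
        = (p : ℤ) ^ (4 * j) * (W.c₄ * (p : ℤ) ^ k + 240 * n) := by
      have : (((W'.c₄ : ℤ) * (p : ℤ) ^ k : ℤ) : ℚ)
          = (((p : ℤ) ^ (4 * j) * (W.c₄ * (p : ℤ) ^ k + 240 * n) : ℤ) : ℚ) := by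
        push_cast
        rw [hc4', hE'c4, hWc4, ← hn]
        ring
      exact_mod_cast this
    have hpodd : ¬ (2 : ℤ) ∣ (p : ℤ) := by
      intro h
      have h' : (2 : ℕ) ∣ p := by exact_mod_cast h
      exact hp2 ((Nat.prime_dvd_prime_iff_eq Nat.prime_two hp).mp h').symm
    have hpow : ∀ m : ℕ, ¬ (2 : ℤ) ∣ (p : ℤ) ^ m := fun m h =>
      hpodd (Int.prime_two.dvd_of_dvd_pow h)
    have h3 : (2 : ℤ) ∣ (p : ℤ) ^ (4 * j) * (W.c₄ * (p : ℤ) ^ k + 240 * n) := by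
      rw [← hint]; exact Dvd.dvd.mul_right h2' _
    have h4 : (2 : ℤ) ∣ W.c₄ * (p : ℤ) ^ k + 240 * n :=
      (Int.prime_two.dvd_or_dvd h3).resolve_left (hpow _)
    have h5 : (2 : ℤ) ∣ W.c₄ * (p : ℤ) ^ k := by
      have : (2 : ℤ) ∣ 240 * n := Dvd.dvd.mul_right (by norm_num) n
      exact (Int.dvd_add_left this).mp h4
    exact (Int.prime_two.dvd_or_dvd h5).resolve_right (hpow _)
  · -- (SS-3) odd primes
    intro ℓ hℓ hℓ2 hℓp hss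
    unfold mzj_SS
    by_contra hcon
    rw [not_or, not_not, not_not] at hcon
    obtain ⟨hΔdvd, hc4dvd⟩ := hcon
    obtain ⟨A, hA⟩ := Fermat.Agent.S13.g1_exists_liesOver ℓ hℓ
    obtain ⟨x₀, hx₀, hcusp⟩ := hC W' hW'Δ hℓ hℓ2 hΔdvd hc4dvd A hA
    obtain ⟨T, hTcard, hTA, hTtors, hTinc⟩ := hM W hΔ hℓ hℓ2 hss A hA (2 * S.card + 2)
    exact mzj_ss_odd W W' hp hp2 hℓ hℓp A hA N hNp E' φ S hS hX j ψ hψX x₀ hx₀ hcusp T hTcard hTA
      hTtors hTinc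

end Fermat.Agent.MZ
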