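/-
MAZUR project, node **[MZ-J]** (S12 from S15), cell [J-TW], first half **[TW-NODE]** (helper27).
Prefix `mzj_twn_`, namespace `Fermat.Agent.MZ`.

At a multiplicative prime `ℓ` (ANY `ℓ`, including `2`, `3`, `p`) of an integral Weierstrass model
`W` with full rational `2`-torsion, and a place `A ∣ ℓ` of `ℚ̄`, there is a RATIONAL `2`-torsion
point `(e, yT)` of `W`, with `A`-integral coordinates, REDUCING TO THE NODE of the reduced curve:

  `mzj_twn_main : ∃ e yT, mzj_twn_Node W A e yT`,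
  `mzj_twn_Node W A e yT := e ∈ A ∧ yT ∈ A ∧ (∀ σ, σ e = e) ∧ (∀ σ, σ yT = yT) ∧ Equation e yT ∧
      2 yT + a₁ e + a₃ = 0 ∧ v (twB e yT) < 1`     (`twB = 3e² + 2a₂e + a₄ - a₁yT = -F_x(e, yT)`).

These are the geometric inputs of S13's `TwHyp` (component homomorphism `twC`).

Proof (uniform in `ℓ`, no Newton polygon, no integrality of the roots): `(x̄₀, ȳ₀)` the singular point
of the reduced curve (`s58m_singular_point`), `x₀ ∈ A` a lift; `f = 4x³ + b₂x² + 2b₄x + b₆ =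
4(x - e₁)(x - e₂)(x - e₃)` over `ℚ̄`, `f(x₀) ∈ 𝔪`.  Some `eᵢ` has `v(x₀ - eᵢ) < 1`: otherwise all
`v(x₀ - eᵢ) ≥ 1`; if `v 4 = 1` then `v(f(x₀)) ≥ 1`; if `v 4 < 1` then `b₂` is a unit,
`4e₁ + 4e₂ + 4e₃ = -b₂` forces some `v(4eᵢ) ≥ 1`, whence `v(x₀ - eᵢ) = v(eᵢ)` and again
`v(f(x₀)) ≥ 1`.  `yT := -(a₁e + a₃)/2` is on the curve, integral, and `≡ ȳ₀` because
`F̄(x̄₀, y) = (y - ȳ₀)²`; hence `twB(e, yT) ≡ -F̄_x(x̄₀, ȳ₀) = 0`.
-/
import Mathlib
import Fermat.Agent.MZ.J.Seams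
import Fermat.Agent.S58.Mult.Fix
import Fermat.Agent.S58.Mult.NodeExists
import Fermat.Agent.S58.Red.Val
import Fermat.Agent.S05.Congruent
import Fermat.Agent.S05.Unfold
import Fermat.Agent.S13.Comp.XW

set_option autoImplicit false

namespace Fermat.Agent.MZ

open Polynomial Fermat.Agent.S58 Fermat.Agent.S05 Fermat.Agent.S13
open WeierstrassCurve WeierstrassCurve.Affine IsLocalRing



section abs

variable {K : Type*} [Field K] (A : ValuationSubring K)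

/-- a cubic over an algebraically closed field is `c (x - e₁)(x - e₂)(x - e₃)` -/
theorem mzj_twn_cubic_split [IsAlgClosed K] (c b₂ d b₆ : K) (hc : c ≠ 0) :
    ∃ e1 e2 e3 : K, ∀ x : K,
      c * x ^ 3 + b₂ * x ^ 2 + d * x + b₆ = c * ((x - e1) * (x - e2) * (x - e3)) := by
  set p : K[X] := C c * X ^ 3 + C b₂ * X ^ 2 + C d * X + C b₆ with hp
  have hdeg : p.natDegree = 3 := by
    rw [hp]
    compute_degree!
  have hlead : p.leadingCoeff = c := by
    rw [leadingCoeff, hdeg, hp]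
    simp [coeff_X_pow, coeff_X, coeff_C]
  have hcard : p.roots.card = 3 := by rw [IsAlgClosed.card_roots_eq_natDegree, hdeg]
  obtain ⟨e1, e2, e3, hroots⟩ := Multiset.card_eq_three.mp hcard
  refine ⟨e1, e2, e3, fun x => ?_⟩
  have h := (IsAlgClosed.splits p).eval_eq_prod_roots x
  rw [hlead, hroots] at h
  have h2 : p.eval x = c * x ^ 3 + b₂ * x ^ 2 + d * x + b₆ := by
    rw [hp]; simp
  rw [← h2, h]
  simp only [Multiset.insert_eq_cons, Multiset.map_cons, Multiset.map_singleton,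
    Multiset.prod_cons, Multiset.prod_singleton]
  ring

end abs




section abs

variable {K : Type*} [Field K] (A : ValuationSubring K)

theorem mzj_twn_one_le_mul {Γ : Type*} [LinearOrderedCommGroupWithZero Γ] {a b : Γ}
    (ha : 1 ≤ a) (hb : 1 ≤ b) : 1 ≤ a * b := by
  calc (1 : Γ) = 1 * 1 := (one_mul 1).symm
    _ ≤ a * b := mul_le_mul' ha hb

/-- if `4a` is not in the maximal ideal then `x0 - a` absorbs the factor `4` -/
theorem mzj_twn_key {x0 a : K} (hx0 : x0 ∈ A) (h4 : A.valuation (4 : K) < 1)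
    (ha : 1 ≤ A.valuation (4 * a)) :
    1 ≤ A.valuation (4 : K) * A.valuation (x0 - a) := by
  have h40 : (0 : A.ValueGroup) < A.valuation (4 : K) := by
    rw [map_mul] at ha
    by_contra h
    have h0 : A.valuation (4 : K) = 0 := le_antisymm (not_lt.mp h) zero_le
    rw [h0, zero_mul] at ha
    exact absurd ha (not_le.mpr zero_lt_one)
  have ha1 : 1 < A.valuation a := by
    by_contra h
    have h' : A.valuation a ≤ 1 := not_lt.mp h
    have : A.valuation (4 * a) < 1 := by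
      rw [map_mul]
      calc A.valuation (4 : K) * A.valuation a ≤ A.valuation (4 : K) * 1 :=
            mul_le_mul' le_rfl h'
        _ = A.valuation (4 : K) := mul_one _
        _ < 1 := h4
    exact absurd ha (not_le.mpr this)
  have hx : A.valuation x0 < A.valuation a := lt_of_le_of_lt (s58r_le_one_of_mem A hx0) ha1
  have hsub : A.valuation (x0 - a) = A.valuation a := by
    rw [sub_eq_add_neg, Valuation.map_add_eq_of_lt_right _ (by rw [Valuation.map_neg]; exact hx),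
      Valuation.map_neg]
  rw [hsub, ← map_mul]
  exact ha

theorem mzj_twn_exists_root [IsAlgClosed K] (b₂ b₄ b₆ x0 : K) (h4 : (4 : K) ≠ 0) (hx0 : x0 ∈ A)
    (hb : A.valuation (4 : K) < 1 → A.valuation b₂ = 1)
    (hf : A.valuation (4 * x0 ^ 3 + b₂ * x0 ^ 2 + 2 * b₄ * x0 + b₆) < 1) :
    ∃ e : K, 4 * e ^ 3 + b₂ * e ^ 2 + 2 * b₄ * e + b₆ = 0 ∧ A.valuation (x0 - e) < 1 := by
  obtain ⟨e1, e2, e3, hs⟩ := mzj_twn_cubic_split 4 b₂ (2 * b₄) b₆ h4
  have hr1 : 4 * e1 ^ 3 + b₂ * e1 ^ 2 + 2 * b₄ * e1 + b₆ = 0 := by rw [hs e1]; ring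
  have hr2 : 4 * e2 ^ 3 + b₂ * e2 ^ 2 + 2 * b₄ * e2 + b₆ = 0 := by rw [hs e2]; ring
  have hr3 : 4 * e3 ^ 3 + b₂ * e3 ^ 2 + 2 * b₄ * e3 + b₆ = 0 := by rw [hs e3]; ring
  by_contra hno
  push Not at hno
  have h1 := hno e1 hr1
  have h2 := hno e2 hr2
  have h3 := hno e3 hr3
  have hv : A.valuation (4 * x0 ^ 3 + b₂ * x0 ^ 2 + 2 * b₄ * x0 + b₆) =
      A.valuation (4 : K) * (A.valuation (x0 - e1) * A.valuation (x0 - e2) *
        A.valuation (x0 - e3)) := by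
    rw [hs x0, map_mul, map_mul, map_mul]
  rw [hv] at hf
  have h4le : A.valuation (4 : K) ≤ 1 := by
    have : (4 : K) ∈ A := by
      have h := natCast_mem A 4
      rwa [Nat.cast_ofNat] at h
    exact s58r_le_one_of_mem A this
  by_cases hc : A.valuation (4 : K) < 1
  · -- residue characteristic 2
    have hb2 := hb hc
    have h2ne : (2 : K) ≠ 0 := by
      intro h
      apply h4
      have : (4 : K) = 2 * 2 := by norm_num
      rw [this, h, mul_zero]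
    have hsum : b₂ + (4 * e1 + 4 * e2 + 4 * e3) = 0 := by
      have h0 := hs 0
      have hp1 := hs 1
      have hm1 := hs (-1)
      have : 2 * (b₂ + (4 * e1 + 4 * e2 + 4 * e3)) = 0 := by
        linear_combination hp1 + hm1 - 2 * h0
      exact (mul_eq_zero.mp this).resolve_left h2ne
    have hex : 1 ≤ A.valuation (4 * e1) ∨ 1 ≤ A.valuation (4 * e2) ∨ 1 ≤ A.valuation (4 * e3) := by
      by_contra hcon
      push Not at hcon
      obtain ⟨c1, c2, c3⟩ := hcon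
      have hlt : A.valuation (4 * e1 + 4 * e2 + 4 * e3) < 1 :=
        Valuation.map_add_lt _ (Valuation.map_add_lt _ c1 c2) c3
      have : b₂ = -(4 * e1 + 4 * e2 + 4 * e3) := by linear_combination hsum
      rw [this, Valuation.map_neg] at hb2
      exact absurd hb2 hlt.ne
    rcases hex with ha | ha | ha
    · have k := mzj_twn_key A hx0 hc ha
      have : 1 ≤ A.valuation (4 : K) * (A.valuation (x0 - e1) * A.valuation (x0 - e2) *
          A.valuation (x0 - e3)) := by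
        rw [mul_assoc, ← mul_assoc]
        exact mzj_twn_one_le_mul k (mzj_twn_one_le_mul h2 h3)
      exact absurd this (not_le.mpr hf)
    · have k := mzj_twn_key A hx0 hc ha
      have : 1 ≤ A.valuation (4 : K) * (A.valuation (x0 - e1) * A.valuation (x0 - e2) *
          A.valuation (x0 - e3)) := by
        rw [mul_comm (A.valuation (x0 - e1)), mul_assoc, ← mul_assoc]
        exact mzj_twn_one_le_mul k (mzj_twn_one_le_mul h1 h3)
      exact absurd this (not_le.mpr hf)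
    · have k := mzj_twn_key A hx0 hc ha
      have : 1 ≤ A.valuation (4 : K) * (A.valuation (x0 - e1) * A.valuation (x0 - e2) *
          A.valuation (x0 - e3)) := by
        rw [mul_comm (A.valuation (x0 - e1) * A.valuation (x0 - e2)), ← mul_assoc]
        exact mzj_twn_one_le_mul k (mzj_twn_one_le_mul h1 h2)
      exact absurd this (not_le.mpr hf)
  · have h41 : A.valuation (4 : K) = 1 := le_antisymm h4le (not_lt.mp hc)
    rw [h41, one_mul] at hf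
    exact absurd (mzj_twn_one_le_mul (mzj_twn_one_le_mul h1 h2) h3) (not_le.mpr hf)

end abs




section abs

variable {K : Type*} [Field K] (A : ValuationSubring K)

theorem mzj_twn_lt_mul_left {a b : K} (ha : a ∈ A) (hb : A.valuation b < 1) :
    A.valuation (a * b) < 1 := by
  rw [map_mul]
  calc A.valuation a * A.valuation b ≤ 1 * A.valuation b :=
        mul_le_mul' (s58r_le_one_of_mem A ha) le_rfl
    _ = A.valuation b := one_mul _
    _ < 1 := hb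

theorem mzj_twn_lt_mul_right {a b : K} (ha : A.valuation a < 1) (hb : b ∈ A) :
    A.valuation (a * b) < 1 := by
  rw [mul_comm]; exact mzj_twn_lt_mul_left A hb ha

theorem mzj_twn_abs [IsAlgClosed K] (h2 : (2 : K) ≠ 0) (W : WeierstrassCurve K)
    (ha₁ : W.a₁ ∈ A) (ha₂ : W.a₂ ∈ A) (ha₃ : W.a₃ ∈ A) (ha₄ : W.a₄ ∈ A) (ha₆ : W.a₆ ∈ A)
    (hc₄ : A.valuation W.c₄ = 1)
    (x0 y0 : K) (hx0 : x0 ∈ A)
    (hFx : A.valuation (W.a₁ * y0 - 3 * x0 ^ 2 - 2 * W.a₂ * x0 - W.a₄) < 1)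
    (hFy : A.valuation (2 * y0 + W.a₁ * x0 + W.a₃) < 1)
    (hF : A.valuation (y0 ^ 2 + W.a₁ * x0 * y0 + W.a₃ * y0 - x0 ^ 3 - W.a₂ * x0 ^ 2 -
      W.a₄ * x0 - W.a₆) < 1) :
    ∃ e yT : K, e ∈ A ∧ yT ∈ A ∧ W.toAffine.Equation e yT ∧ 2 * yT + W.a₁ * e + W.a₃ = 0 ∧
      A.valuation (twB W.toAffine e yT) < 1 := by
  have h4 : (4 : K) ≠ 0 := by
    have : (4 : K) = 2 * 2 := by norm_num
    rw [this]; exact mul_ne_zero h2 h2
  have hnat : ∀ n : ℕ, (n : K) ∈ A := fun n => natCast_mem A n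
  have h2A : (2 : K) ∈ A := by have h := hnat 2; rwa [Nat.cast_ofNat] at h
  have h3A : (3 : K) ∈ A := by have h := hnat 3; rwa [Nat.cast_ofNat] at h
  have h4A : (4 : K) ∈ A := by have h := hnat 4; rwa [Nat.cast_ofNat] at h
  have h6A : (6 : K) ∈ A := by have h := hnat 6; rwa [Nat.cast_ofNat] at h
  have hb₂A : W.b₂ ∈ A := by
    rw [WeierstrassCurve.b₂]
    exact add_mem (pow_mem ha₁ 2) (mul_mem h4A ha₂)
  have hb₄A : W.b₄ ∈ A := by
    rw [WeierstrassCurve.b₄]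
    exact add_mem (mul_mem h2A ha₄) (mul_mem ha₁ ha₃)
  -- `f(x0) ∈ 𝔪`
  have hfx0 : A.valuation (4 * x0 ^ 3 + W.b₂ * x0 ^ 2 + 2 * W.b₄ * x0 + W.b₆) < 1 := by
    have e : 4 * x0 ^ 3 + W.b₂ * x0 ^ 2 + 2 * W.b₄ * x0 + W.b₆ =
        (2 * y0 + W.a₁ * x0 + W.a₃) * (2 * y0 + W.a₁ * x0 + W.a₃) +
          (-4) * (y0 ^ 2 + W.a₁ * x0 * y0 + W.a₃ * y0 - x0 ^ 3 - W.a₂ * x0 ^ 2 -
            W.a₄ * x0 - W.a₆) := by
      simp only [WeierstrassCurve.b₂, WeierstrassCurve.b₄, WeierstrassCurve.b₆]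
      ring
    rw [e]
    exact Valuation.map_add_lt _
      (mzj_twn_lt_mul_left A (s58r_mem_of_lt_one A hFy) hFy)
      (mzj_twn_lt_mul_left A (neg_mem h4A) hF)
  -- in residue characteristic 2, `b₂` is a unit
  have hb : A.valuation (4 : K) < 1 → A.valuation W.b₂ = 1 := by
    intro h4lt
    refine le_antisymm (s58r_le_one_of_mem A hb₂A) ?_
    by_contra hlt
    rw [not_le] at hlt
    have e : W.c₄ = W.b₂ * W.b₂ + (-(6 * W.b₄)) * 4 := by
      rw [WeierstrassCurve.c₄]; ring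
    have : A.valuation W.c₄ < 1 := by
      rw [e]
      exact Valuation.map_add_lt _ (mzj_twn_lt_mul_left A hb₂A hlt)
        (mzj_twn_lt_mul_left A (neg_mem (mul_mem h6A hb₄A)) h4lt)
    exact absurd hc₄ this.ne
  obtain ⟨e, hfe, hex⟩ := mzj_twn_exists_root A W.b₂ W.b₄ W.b₆ x0 h4 hx0 hb hfx0
  have hxe : A.valuation (e - x0) < 1 := by
    rw [← Valuation.map_neg, neg_sub]; exact hex
  have heA : e ∈ A := by
    have : e = x0 + (e - x0) := by ring
    rw [this]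
    exact add_mem hx0 (s58r_mem_of_lt_one A hxe)
  set yT : K := -(W.a₁ * e + W.a₃) / 2 with hyT
  have htt : 2 * yT + W.a₁ * e + W.a₃ = 0 := by
    rw [hyT]; field_simp; ring
  have heq : W.toAffine.Equation e yT := by
    rw [Affine.equation_iff]
    have h : 4 * (yT ^ 2 + W.a₁ * e * yT + W.a₃ * yT -
        (e ^ 3 + W.a₂ * e ^ 2 + W.a₄ * e + W.a₆)) = 0 := by
      have e1 : 4 * (yT ^ 2 + W.a₁ * e * yT + W.a₃ * yT -
          (e ^ 3 + W.a₂ * e ^ 2 + W.a₄ * e + W.a₆)) =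
          (2 * yT + W.a₁ * e + W.a₃) ^ 2 -
            (4 * e ^ 3 + W.b₂ * e ^ 2 + 2 * W.b₄ * e + W.b₆) := by
        simp only [WeierstrassCurve.b₂, WeierstrassCurve.b₄, WeierstrassCurve.b₆]
        ring
      rw [e1, htt, hfe]; ring
    have := (mul_eq_zero.mp h).resolve_left h4
    exact sub_eq_zero.mp this
  have hyTA : yT ∈ A := cg_y_mem A W ha₁ ha₂ ha₃ ha₄ ha₆ heA heq
  -- `yT ≡ y0`
  have hyy : A.valuation (yT - y0) < 1 := by
    have heq' := (Affine.equation_iff _ _).mp heq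
    have hG : W.a₁ * yT - (e ^ 2 + e * x0 + x0 ^ 2) - W.a₂ * (e + x0) - W.a₄ ∈ A := by
      refine sub_mem (sub_mem (sub_mem (mul_mem ha₁ hyTA) ?_) ?_) ha₄
      · exact add_mem (add_mem (pow_mem heA 2) (mul_mem heA hx0))
          (pow_mem hx0 2)
      · exact mul_mem ha₂ (add_mem heA hx0)
    refine s58r_root_lt_one A (s := -(2 * y0 + W.a₁ * x0 + W.a₃))
      (p := (y0 ^ 2 + W.a₁ * x0 * y0 + W.a₃ * y0 - x0 ^ 3 - W.a₂ * x0 ^ 2 - W.a₄ * x0 - W.a₆) +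
        (e - x0) * (W.a₁ * yT - (e ^ 2 + e * x0 + x0 ^ 2) - W.a₂ * (e + x0) - W.a₄)) ?_ ?_ ?_
    · rw [Valuation.map_neg]; exact hFy
    · exact Valuation.map_add_lt _ hF (mzj_twn_lt_mul_right A hxe hG)
    · linear_combination heq'
  -- `twB ≡ -F_x(x0, y0)`
  have hB : twB W.toAffine e yT = (-1) * (W.a₁ * y0 - 3 * x0 ^ 2 - 2 * W.a₂ * x0 - W.a₄) +
      ((e - x0) * (3 * (e + x0) + 2 * W.a₂) + (-W.a₁) * (yT - y0)) := by
    simp only [twB]; ring
  refine ⟨e, yT, heA, hyTA, heq, htt, ?_⟩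
  rw [hB]
  refine Valuation.map_add_lt _ (mzj_twn_lt_mul_left A (neg_mem (one_mem A)) hFx)
    (Valuation.map_add_lt _ (mzj_twn_lt_mul_right A hxe ?_)
      (mzj_twn_lt_mul_left A (neg_mem ha₁) hyy))
  exact add_mem (mul_mem h3A (add_mem heA hx0)) (mul_mem h2A ha₂)

end abs




/-- a rational `2`-torsion point `(e, yT)` of `W` reducing to the singular point at `A` -/
def mzj_twn_Node (W : WeierstrassCurve ℤ) (A : ValuationSubring s58_Qb) (e yT : s58_Qb) : Prop :=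
  e ∈ A ∧ yT ∈ A ∧ (∀ σ : s58_G, σ e = e) ∧ (∀ σ : s58_G, σ yT = yT) ∧
    ((s58_WQ W)⁄s58_Qb).toAffine.Equation e yT ∧
    2 * yT + ((s58_WQ W)⁄s58_Qb).a₁ * e + ((s58_WQ W)⁄s58_Qb).a₃ = 0 ∧
    A.valuation (twB ((s58_WQ W)⁄s58_Qb).toAffine e yT) < 1

theorem mzj_twn_a₁ (W : WeierstrassCurve ℤ) :
    ((s58_WQ W)⁄s58_Qb).a₁ = ((W.a₁ : ℤ) : s58_Qb) := by simp
theorem mzj_twn_a₂ (W : WeierstrassCurve ℤ) :
    ((s58_WQ W)⁄s58_Qb).a₂ = ((W.a₂ : ℤ) : s58_Qb) := by simp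
theorem mzj_twn_a₃ (W : WeierstrassCurve ℤ) :
    ((s58_WQ W)⁄s58_Qb).a₃ = ((W.a₃ : ℤ) : s58_Qb) := by simp
theorem mzj_twn_a₄ (W : WeierstrassCurve ℤ) :
    ((s58_WQ W)⁄s58_Qb).a₄ = ((W.a₄ : ℤ) : s58_Qb) := by simp
theorem mzj_twn_a₆ (W : WeierstrassCurve ℤ) :
    ((s58_WQ W)⁄s58_Qb).a₆ = ((W.a₆ : ℤ) : s58_Qb) := by simp

theorem mzj_twn_c₄ (W : WeierstrassCurve ℤ) :
    ((s58_WQ W)⁄s58_Qb).c₄ = ((W.c₄ : ℤ) : s58_Qb) := by
  show ((W.map (Int.castRingHom ℚ)).map (algebraMap ℚ s58_Qb)).c₄ = _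
  rw [WeierstrassCurve.map_c₄, WeierstrassCurve.map_c₄]
  simp

theorem mzj_twn_Wk_a₁ (W : WeierstrassCurve ℤ) (A : ValuationSubring s58_Qb) :
    (s58m_Wk W A).a₁ = residue A ((W.a₁ : ℤ) : A) := by simp [s58m_Wk, s58m_WA]
theorem mzj_twn_Wk_a₂ (W : WeierstrassCurve ℤ) (A : ValuationSubring s58_Qb) :
    (s58m_Wk W A).a₂ = residue A ((W.a₂ : ℤ) : A) := by simp [s58m_Wk, s58m_WA]
theorem mzj_twn_Wk_a₃ (W : WeierstrassCurve ℤ) (A : ValuationSubring s58_Qb) :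
    (s58m_Wk W A).a₃ = residue A ((W.a₃ : ℤ) : A) := by simp [s58m_Wk, s58m_WA]
theorem mzj_twn_Wk_a₄ (W : WeierstrassCurve ℤ) (A : ValuationSubring s58_Qb) :
    (s58m_Wk W A).a₄ = residue A ((W.a₄ : ℤ) : A) := by simp [s58m_Wk, s58m_WA]
theorem mzj_twn_Wk_a₆ (W : WeierstrassCurve ℤ) (A : ValuationSubring s58_Qb) :
    (s58m_Wk W A).a₆ = residue A ((W.a₆ : ℤ) : A) := by simp [s58m_Wk, s58m_WA]

/-- an element of `A` with zero residue has valuation `< 1` -/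
theorem mzj_twn_val_lt_of_residue {A : ValuationSubring s58_Qb} {z : A} (h : residue A z = 0) :
    A.valuation (z : s58_Qb) < 1 := by
  rw [residue_eq_zero_iff] at h
  exact (A.valuation_lt_one_iff z).mp h

/-- **[TW-NODE]**: at a multiplicative prime of a model with full rational `2`-torsion there is a
rational `2`-torsion point reducing to the node. -/
theorem mzj_twn_main (W : WeierstrassCurve ℤ) (hΔ0 : W.Δ ≠ 0) (h2 : mzj_TwoRat W) {ℓ : ℕ}
    (hℓ : ℓ.Prime) (hbad : (ℓ : ℤ) ∣ W.Δ) (hc4 : ¬ (ℓ : ℤ) ∣ W.c₄)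
    (A : ValuationSubring s58_Qb) (hA : A.LiesOverPrime ℓ) :
    ∃ e yT, mzj_twn_Node W A e yT := by
  classical
  have hΔk : (s58m_Wk W A).Δ = 0 := by
    rw [s58m_Wk_Δ]
    exact (s58m_residue_intCast_eq_zero_iff hA hℓ _).mpr hbad
  have hc4k : (s58m_Wk W A).c₄ ≠ 0 := by
    rw [s58m_Wk_c₄]
    exact fun h => hc4 ((s58m_residue_intCast_eq_zero_iff hA hℓ _).mp h)
  obtain ⟨xb, yb, hFx, hFy, hF, -⟩ := s58m_singular_point (s58m_Wk W A) hΔk hc4k
  obtain ⟨x0, rfl⟩ := residue_surjective xb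
  obtain ⟨y0, rfl⟩ := residue_surjective yb
  rw [mzj_twn_Wk_a₁, mzj_twn_Wk_a₂, mzj_twn_Wk_a₄] at hFx
  rw [mzj_twn_Wk_a₁, mzj_twn_Wk_a₃] at hFy
  rw [mzj_twn_Wk_a₁, mzj_twn_Wk_a₂, mzj_twn_Wk_a₃, mzj_twn_Wk_a₄, mzj_twn_Wk_a₆] at hF
  have hFx' : residue A (((W.a₁ : ℤ) : A) * y0 - 3 * x0 ^ 2 - 2 * ((W.a₂ : ℤ) : A) * x0 -
      ((W.a₄ : ℤ) : A)) = 0 := by
    rw [← hFx]; simp only [map_sub, map_mul, map_pow, map_ofNat]
  have hFy' : residue A (2 * y0 + ((W.a₁ : ℤ) : A) * x0 + ((W.a₃ : ℤ) : A)) = 0 := by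
    rw [← hFy]; simp only [map_add, map_mul, map_ofNat]
  have hF' : residue A (y0 ^ 2 + ((W.a₁ : ℤ) : A) * x0 * y0 + ((W.a₃ : ℤ) : A) * y0 - x0 ^ 3 -
      ((W.a₂ : ℤ) : A) * x0 ^ 2 - ((W.a₄ : ℤ) : A) * x0 - ((W.a₆ : ℤ) : A)) = 0 := by
    rw [← hF]; simp only [map_sub, map_add, map_mul, map_pow]
  have vFx := mzj_twn_val_lt_of_residue hFx'
  have vFy := mzj_twn_val_lt_of_residue hFy'
  have vF := mzj_twn_val_lt_of_residue hF'
  have hchar2 : (2 : s58_Qb) ≠ 0 := two_ne_zero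
  have hc₄ : A.valuation ((s58_WQ W)⁄s58_Qb).c₄ = 1 := by
    rw [mzj_twn_c₄]
    exact (intVal_eq_one_iff A hA hℓ _).mpr hc4
  obtain ⟨e, yT, heA, hyTA, heq, htt, hB⟩ := mzj_twn_abs A hchar2 ((s58_WQ W)⁄s58_Qb)
    (by rw [mzj_twn_a₁]; exact intCast_mem A _) (by rw [mzj_twn_a₂]; exact intCast_mem A _)
    (by rw [mzj_twn_a₃]; exact intCast_mem A _) (by rw [mzj_twn_a₄]; exact intCast_mem A _)
    (by rw [mzj_twn_a₆]; exact intCast_mem A _) hc₄ (x0 : s58_Qb) (y0 : s58_Qb) x0.2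
    (by rw [mzj_twn_a₁, mzj_twn_a₂, mzj_twn_a₄]; push_cast at vFx; exact vFx)
    (by rw [mzj_twn_a₁, mzj_twn_a₃]; push_cast at vFy; exact vFy)
    (by rw [mzj_twn_a₁, mzj_twn_a₂, mzj_twn_a₃, mzj_twn_a₄, mzj_twn_a₆]; push_cast at vF; exact vF)
  -- rationality from `mzj_TwoRat`
  have hΔ : ((s58_WQ W)⁄s58_Qb).Δ ≠ 0 := by
    rw [s58m_curve_Δ]
    exact_mod_cast hΔ0
  have hns : ((s58_WQ W)⁄s58_Qb).toAffine.Nonsingular e yT :=
    (Affine.equation_iff_nonsingular_of_Δ_ne_zero hΔ).mp heq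
  have hneg : yT = ((s58_WQ W)⁄s58_Qb).toAffine.negY e yT := by
    rw [negY]; linear_combination htt
  have h2T : 2 • (Point.some e yT hns : s58_E W) = 0 := by
    rw [two_nsmul]
    exact Point.add_self_of_Y_eq hneg
  have hfix : ∀ σ : s58_G, σ e = e ∧ σ yT = yT := by
    intro σ
    have h := h2 _ h2T σ
    rw [Fermat.Agent.S05.smul_some] at h
    have h' := Point.some.inj h
    exact ⟨h'.1, h'.2⟩
  exact ⟨e, yT, heA, hyTA, fun σ => (hfix σ).1, fun σ => (hfix σ).2, heq, htt, hB⟩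


end Fermat.Agent.MZ
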