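/-
MAZUR project, node **[MZ-J]** (S12 from S15), cell [J-TW], second half **[TW-INST]** (helper27).
Prefix `mzj_twi_`, namespace `Fermat.Agent.MZ`.

`mzj_twi_main : mzj_Tw_stmt` — at a multiplicative prime `ℓ` (ANY `ℓ`) of an integral Weierstrass
model `W` with full rational `2`-torsion, for every place `A ∣ ℓ` of `ℚ̄`, every `σ` in the inertia
group of `A` and every point `P ∈ W(ℚ̄)`:  `σ P - P ∈ E⁰(A)`  (`W.InZeroComponentAt A (σ • P - P)`).

Proof: S13's signed component homomorphism `twC` (`TwHyp`, `tw_sigma_sub_mem_E0`) instantiated with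
`v = A.valuation`, `(e, yT)` the rational `2`-torsion point reducing to the node
(`mzj_twn_main`, MZ/J/TwNode.lean), `τ ∈ ℚ̄` an exact root of `τ² + a₁τ - (3e + a₂)`;
`(2τ + a₁)² = b₂ + 12e` and `(b₂ + 12e)² = c₄ + 48·twB`, so `2τ + a₁` is a unit; `σ` fixes `e`, `yT`,
preserves `v` and moves `τ` by an element of `𝔪`.  The conclusion `1 ≤ v (X - e)` is translated into
the prelude's `InZeroComponentAt`: an integral point whose reduction is singular has `X ≡ e`
(`ξ³ = A₄ξ - ηG_η - ξG_ξ` in the translated coordinates).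
-/
import Mathlib
import Fermat.Agent.MZ.J.TwNode
import Fermat.Agent.S13.Comp.Kernel
import Fermat.Agent.S58.Mult.ZeroComp
import Fermat.Agent.S05.Inertia

set_option autoImplicit false

namespace Fermat.Agent.MZ

open Fermat.Agent.S58 Fermat.Agent.S05 Fermat.Agent.S13
open WeierstrassCurve WeierstrassCurve.Affine IsLocalRing

section abs

variable {K : Type*} [Field K] (A : ValuationSubring K)

/-- `v (z ^ n) < 1 → v z < 1` for `z ∈ A` -/
theorem mzj_twi_lt_of_pow_lt {z : K} (hz : z ∈ A) {n : ℕ} (h : A.valuation (z ^ n) < 1) :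
    A.valuation z < 1 := by
  by_contra hlt
  have h1 : A.valuation z = 1 := le_antisymm (s58r_le_one_of_mem A hz) (not_lt.mp hlt)
  rw [map_pow, h1, one_pow] at h
  exact lt_irrefl _ h

/-- the standing hypotheses of the component homomorphism from a `2`-torsion point reducing to
the node (generic valuation ring of an algebraically closed field, `2 ≠ 0`) -/
theorem mzj_twi_twHyp [IsAlgClosed K] (h2 : (2 : K) ≠ 0) (W : WeierstrassCurve K)
    (ha₁ : W.a₁ ∈ A) (ha₂ : W.a₂ ∈ A) (hc₄ : A.valuation W.c₄ = 1)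
    {e yT : K} (heA : e ∈ A) (heq : W.toAffine.Equation e yT)
    (htt : 2 * yT + W.a₁ * e + W.a₃ = 0) (hns : W.toAffine.Nonsingular e yT)
    (hB : A.valuation (twB W.toAffine e yT) < 1) :
    ∃ τ : K, τ ∈ A ∧ TwHyp A.valuation W.toAffine e yT τ := by
  have hnat : ∀ n : ℕ, (n : K) ∈ A := fun n => natCast_mem A n
  have h2A : (2 : K) ∈ A := by have h := hnat 2; rwa [Nat.cast_ofNat] at h
  have h3A : (3 : K) ∈ A := by have h := hnat 3; rwa [Nat.cast_ofNat] at h
  have h48A : (48 : K) ∈ A := by have h := hnat 48; rwa [Nat.cast_ofNat] at h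
  have hAA : twA W.toAffine e ∈ A := by
    simp only [twA]
    exact add_mem (mul_mem h3A heA) ha₂
  -- the root `τ`
  haveI : NeZero (2 : K) := ⟨h2⟩
  obtain ⟨s, hs⟩ := IsAlgClosed.exists_eq_mul_self (discrim (1 : K) W.a₁ (-(twA W.toAffine e)))
  obtain ⟨τ, hτ⟩ := exists_quadratic_eq_zero (a := (1 : K)) (b := W.a₁)
    (c := -(twA W.toAffine e)) one_ne_zero ⟨s, hs⟩
  have hτ0 : τ ^ 2 + W.a₁ * τ - twA W.toAffine e = 0 := by linear_combination hτ
  have hτA : τ ∈ A := by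
    refine s58r_root_mem A (s := -W.a₁) (p := -(twA W.toAffine e)) (neg_mem ha₁) (neg_mem hAA) ?_
    linear_combination hτ0
  refine ⟨τ, hτA, ⟨heq, htt, s58r_le_one_of_mem A ha₁, s58r_le_one_of_mem A hAA, ?_, hB, ?_, ?_⟩⟩
  · -- `twB ≠ 0`
    intro hb0
    rw [Affine.nonsingular_iff] at hns
    rcases hns.2 with h | h
    · apply h
      simp only [twB] at hb0
      linear_combination -hb0
    · apply h
      linear_combination htt
  · rw [hτ0, map_zero]
    exact zero_lt_one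
  · -- `2τ + a₁` is a unit
    have hmem : 2 * τ + W.a₁ ∈ A := add_mem (mul_mem h2A hτA) ha₁
    refine le_antisymm (s58r_le_one_of_mem A hmem) ?_
    by_contra hlt
    rw [not_le] at hlt
    have e4 : W.c₄ = (2 * τ + W.a₁) * ((2 * τ + W.a₁) ^ 3) + (-48) * twB W.toAffine e yT := by
      have e1 : (2 * τ + W.a₁) ^ 2 = W.b₂ + 12 * e := by
        simp only [WeierstrassCurve.b₂]
        simp only [twA] at hτ0
        linear_combination 4 * hτ0
      have e2 : (W.b₂ + 12 * e) ^ 2 = W.c₄ + 48 * twB W.toAffine e yT := by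
        simp only [WeierstrassCurve.c₄, WeierstrassCurve.b₂, WeierstrassCurve.b₄, twB]
        linear_combination (24 * W.a₁) * htt
      have e3 : (2 * τ + W.a₁) * ((2 * τ + W.a₁) ^ 3) = ((2 * τ + W.a₁) ^ 2) ^ 2 := by ring
      rw [e3, e1, e2]; ring
    have : A.valuation W.c₄ < 1 := by
      rw [e4]
      exact Valuation.map_add_lt _ (mzj_twn_lt_mul_right A hlt (pow_mem hmem 3))
        (mzj_twn_lt_mul_left A (neg_mem h48A) hB)
    exact absurd hc₄ this.ne

/-- an integral point of an integral Weierstrass equation at which both partial derivatives are in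
`𝔪` has `x ≡ e`, where `(e, yT)` is a `2`-torsion point with `twB ∈ 𝔪` -/
theorem mzj_twi_sing_x (W : WeierstrassCurve K) (ha₁ : W.a₁ ∈ A) (ha₂ : W.a₂ ∈ A)
    {e yT : K} (heA : e ∈ A) (hyTA : yT ∈ A) (heq : W.toAffine.Equation e yT)
    (htt : 2 * yT + W.a₁ * e + W.a₃ = 0) (hB : A.valuation (twB W.toAffine e yT) < 1)
    {X Y : K} (hX : X ∈ A) (hY : Y ∈ A) (hXY : W.toAffine.Equation X Y)
    (hFx : A.valuation (W.a₁ * Y - (3 * X ^ 2 + 2 * W.a₂ * X + W.a₄)) < 1)
    (hFy : A.valuation (2 * Y + W.a₁ * X + W.a₃) < 1) :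
    A.valuation (X - e) < 1 := by
  have hξ : X - e ∈ A := sub_mem hX heA
  have hη : Y - yT ∈ A := sub_mem hY hyTA
  have C := tw_eqn heq htt hXY
  refine mzj_twi_lt_of_pow_lt A hξ (n := 3) ?_
  have key : (X - e) ^ 3 = twB W.toAffine e yT * (X - e) +
      ((-(Y - yT)) * (2 * Y + W.a₁ * X + W.a₃) +
        (-(X - e)) * (W.a₁ * Y - (3 * X ^ 2 + 2 * W.a₂ * X + W.a₄))) := by
    simp only [twA, twB] at C ⊢
    linear_combination 2 * C + (Y - yT) * htt
  rw [key]
  exact Valuation.map_add_lt _ (mzj_twn_lt_mul_right A hB hξ)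
    (Valuation.map_add_lt _ (mzj_twn_lt_mul_left A (neg_mem hη) hFy)
      (mzj_twn_lt_mul_left A (neg_mem hξ) hFx))

end abs

/-- a residue which is not zero: valuation one -/
theorem mzj_twi_residue_eq_zero_of_lt {A : ValuationSubring s58_Qb} {z : A}
    (h : A.valuation (z : s58_Qb) < 1) : residue A z = 0 := by
  rw [residue_eq_zero_iff]
  exact (A.valuation_lt_one_iff z).mpr h

/-- **bridge**: `1 ≤ v (X - e)` (the language of `twC`) implies the prelude's
`InZeroComponentAt`. -/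
theorem mzj_twi_bridge (W : WeierstrassCurve ℤ) (A : ValuationSubring s58_Qb) {e yT : s58_Qb}
    (hN : mzj_twn_Node W A e yT) {X Y : s58_Qb}
    (HH : ((s58_WQ W)⁄s58_Qb).toAffine.Nonsingular X Y) (hXe : 1 ≤ A.valuation (X - e))
    {Q : s58_E W} (hQ : Q = Point.some X Y HH) :
    W.InZeroComponentAt A Q := by
  obtain ⟨heA, hyTA, -, -, heq, htt, hB⟩ := hN
  refine Or.inr ⟨X, Y, HH, hQ, ?_⟩
  by_cases hX : X ∈ A
  · right
    have ha₁ : ((s58_WQ W)⁄s58_Qb).a₁ ∈ A := by rw [mzj_twn_a₁]; exact intCast_mem A _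
    have ha₂ : ((s58_WQ W)⁄s58_Qb).a₂ ∈ A := by rw [mzj_twn_a₂]; exact intCast_mem A _
    have ha₃ : ((s58_WQ W)⁄s58_Qb).a₃ ∈ A := by rw [mzj_twn_a₃]; exact intCast_mem A _
    have ha₄ : ((s58_WQ W)⁄s58_Qb).a₄ ∈ A := by rw [mzj_twn_a₄]; exact intCast_mem A _
    have ha₆ : ((s58_WQ W)⁄s58_Qb).a₆ ∈ A := by rw [mzj_twn_a₆]; exact intCast_mem A _
    have hY : Y ∈ A := cg_y_mem A ((s58_WQ W)⁄s58_Qb) ha₁ ha₂ ha₃ ha₄ ha₆ hX HH.1
    refine ⟨hX, hY, ?_⟩
    -- the reduced equation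
    obtain ⟨WA, hWA1, hWA2⟩ := s58m_model W A
    have hEq : (s58m_Wk W A).Equation (residue A ⟨X, hX⟩) (residue A ⟨Y, hY⟩) := by
      rw [← hWA2]
      refine s58r_equation_residue A WA (a := ⟨X, hX⟩) (b := ⟨Y, hY⟩) ?_
      rw [hWA1]
      exact HH.1
    rw [← s58m_Wk_eq]
    rw [Affine.nonsingular_iff]
    refine ⟨hEq, ?_⟩
    by_contra hcon
    push Not at hcon
    obtain ⟨hc1, hc2⟩ := hcon
    -- translate the two vanishing partial derivatives into valuations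
    rw [mzj_twn_Wk_a₁, mzj_twn_Wk_a₂, mzj_twn_Wk_a₄] at hc1
    have hc2' : residue A ⟨Y, hY⟩ = -residue A ⟨Y, hY⟩ -
        residue A ((W.a₁ : ℤ) : A) * residue A ⟨X, hX⟩ - residue A ((W.a₃ : ℤ) : A) := by
      rw [← mzj_twn_Wk_a₁, ← mzj_twn_Wk_a₃]
      exact hc2
    have r1 : residue A (((W.a₁ : ℤ) : A) * ⟨Y, hY⟩ -
        (3 * (⟨X, hX⟩ : A) ^ 2 + 2 * ((W.a₂ : ℤ) : A) * ⟨X, hX⟩ + ((W.a₄ : ℤ) : A))) = 0 := by
      simp only [map_sub, map_add, map_mul, map_pow, map_ofNat]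
      rw [hc1]; ring
    have r2 : residue A (2 * (⟨Y, hY⟩ : A) + ((W.a₁ : ℤ) : A) * ⟨X, hX⟩ +
        ((W.a₃ : ℤ) : A)) = 0 := by
      simp only [map_add, map_mul, map_ofNat]
      linear_combination hc2'
    have v1 := mzj_twn_val_lt_of_residue r1
    have v2 := mzj_twn_val_lt_of_residue r2
    push_cast at v1 v2
    have hlt : A.valuation (X - e) < 1 :=
      mzj_twi_sing_x A ((s58_WQ W)⁄s58_Qb) ha₁ ha₂ heA hyTA heq htt hB hX hY HH.1
        (by rw [mzj_twn_a₁, mzj_twn_a₂, mzj_twn_a₄]; exact v1)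
        (by rw [mzj_twn_a₁, mzj_twn_a₃]; exact v2)
    exact absurd hXe (not_le.mpr hlt)
  · exact Or.inl hX

/-- **[J-TW]**: at a multiplicative prime of a model with full rational `2`-torsion,
`σ P - P ∈ E⁰` for `σ` in the inertia group. -/
theorem mzj_twi_main : mzj_Tw_stmt := by
  intro W hΔ0 h2 ℓ hℓ hbad hc4 A hA σ hσ P
  classical
  haveI : Algebra.IsAlgebraic ℚ s58_Qb := AlgebraicClosure.isAlgebraic ℚ
  obtain ⟨e, yT, hN⟩ := mzj_twn_main W hΔ0 h2 hℓ hbad hc4 A hA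
  have hN' := hN
  obtain ⟨heA, hyTA, hσe, hσy, heq, htt, hB⟩ := hN'
  have hΔ : ((s58_WQ W)⁄s58_Qb).Δ ≠ 0 := by
    rw [s58m_curve_Δ]
    exact_mod_cast hΔ0
  have hns : ((s58_WQ W)⁄s58_Qb).toAffine.Nonsingular e yT :=
    (Affine.equation_iff_nonsingular_of_Δ_ne_zero hΔ).mp heq
  have hc₄ : A.valuation ((s58_WQ W)⁄s58_Qb).c₄ = 1 := by
    rw [mzj_twn_c₄]
    exact (intVal_eq_one_iff A hA hℓ _).mpr hc4
  obtain ⟨τ, hτA, H⟩ := mzj_twi_twHyp A (two_ne_zero) ((s58_WQ W)⁄s58_Qb)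
    (by rw [mzj_twn_a₁]; exact intCast_mem A _) (by rw [mzj_twn_a₂]; exact intCast_mem A _)
    hc₄ heA heq htt hns hB
  rcases P with _ | ⟨x, y, h⟩
  · left
    show σ • (0 : s58_E W) - 0 = 0
    rw [ga_smul_zero, sub_zero]
  · rw [Fermat.Agent.S05.smul_some]
    have hv : ∀ z, A.valuation ((σ : s58_Qb ≃+* s58_Qb) z) = A.valuation z :=
      fun z => inertia_valuation_apply A hσ z
    rcases tw_sigma_sub_mem_E0 H (σ : s58_Qb ≃+* s58_Qb) hv (hσe σ) (hσy σ)
      (inertia_sub_lt_one A hσ hτA) h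
      ((((s58_WQ W)).baseChange_nonsingular (f := σ.toAlgHom) σ.injective x y).mpr h) with h0 | h1
    · left
      exact h0
    · obtain ⟨X, Y, HH, hXY, hXe⟩ := h1
      exact mzj_twi_bridge W A hN HH hXe hXY

end Fermat.Agent.MZ
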