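/-
MAZUR project, node **[MZ-J]** (S12 from S15), FINAL ASSEMBLY modulo [J-CY] (helper21).
Prefix `mzj_fin_`.

All the seams of `MZ/J/Seams.lean` / `SeamsS.lean` / `SeamsQ.lean` except `mzj_Cyclo_stmt` are closed
here from the cell files:

* `mzj_End_stmt`     : `mzj_ec_main`   (helper11, `MZ/J/EndCount.lean`)
* `mzj_Tw_stmt`      : `mzj_twi_main`  (helper27, `MZ/J/TwInst.lean`)
* `mzj_ChiRam_stmt`  : `mzj_ch_main`   (helper24, `MZ/J/ChiRam.lean`)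
* `mzj_AtP_stmt`     : `mzj_aa_main`   (helper28, `MZ/J/AtPAsm.lean`)
* `mzj_S14App_stmt`  : `mzj_sv_main`   (helper16, `MZ/J/S14V.lean`)
* `mzj_Velu_stmt`    : `mzj_ds_velu`   (helper29 / helper7 / helper2, `MZ/J/Ds/Main.lean`)
* `mzj_Quot_stmt`    : `mzj_ss_main`   (helper25, `MZ/J/SS.lean`) applied to
  `mzj_ss_a_stmt` (helper28), `mzj_ss_c_main` (helper28), `mzj_ss_i_rescale_main` (helper5).
-/
import Mathlib
import Fermat.Agent.MZ.J.Top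
import Fermat.Agent.MZ.J.EndCount
import Fermat.Agent.MZ.J.TwInst
import Fermat.Agent.MZ.J.ChiRam
import Fermat.Agent.MZ.J.AtPAsm
import Fermat.Agent.MZ.J.S14V
import Fermat.Agent.MZ.J.Ds.Main
import Fermat.Agent.MZ.J.SS
import Fermat.Agent.MZ.J.SS.CuspS
import Fermat.Agent.MZ.J.SS.Many
import Fermat.Agent.MZ.J.SS.RescaleS

set_option autoImplicit false

namespace Fermat.Agent.MZ

open WeierstrassCurve WeierstrassCurve.Affine WeierstrassCurve.Affine.Point Fermat.Agent.S58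

/-- **[J-QUOT] + [J-SS]**, closed. -/
theorem mzj_fin_quot : mzj_Quot_stmt :=
  mzj_ss_main mzj_ss_a_stmt mzj_ss_c_main mzj_ss_i_rescale_main mzj_ds_velu

/-- **[J-ATP]**, closed. -/
theorem mzj_fin_atp : mzj_AtP_stmt := mzj_aa_main mzj_twi_main

/-- the generic **[MZ-J]** from S15 and [J-CY] alone. -/
theorem mzj_fin_generic (hS15 : mzj_S15_stmt) (hCy : mzj_Cyclo_stmt)
    {p : ℕ} [Fact p.Prime] (hp17 : 17 ≤ p) {W : WeierstrassCurve ℤ} (hΔW : W.Δ ≠ 0)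
    (h2Δ : (2 : ℤ) ∣ W.Δ) (hc4 : ¬ (2 : ℤ) ∣ W.c₄)
    (hss : ∀ ℓ : ℕ, ℓ.Prime → mzj_SS W ℓ) (htwo : mzj_TwoRat W)
    (N : AddSubgroup (s58_E W)) (hNcard : Nat.card N = p) (hNst : mzj_Stable N)
    (hNcof : ∀ (σ : s58_G) (x : s58_E W), p • x = 0 → σ • x - x ∈ N) : False :=
  mzj_st_main hS15 mzj_fin_quot mzj_twi_main mzj_ch_main mzj_sv_main mzj_fin_atp hCy mzj_ec_main
    hp17 hΔW h2Δ hc4 hss htwo N hNcard hNst hNcof

/-- **S12 from S15 and [J-CY] alone.** -/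
theorem mzj_fin_S12_of_cy (hS15 : mzj_S15_stmt) (hCy : mzj_Cyclo_stmt)
    (P : FreyPackage) (hp : 17 ≤ P.p) :
    ¬ HasGaloisStableCofixedLine (K := AlgebraicClosure ℚ) ℚ P.freyCurve P.p :=
  mzj_top_S12 hS15 mzj_fin_quot mzj_twi_main mzj_ch_main mzj_sv_main mzj_fin_atp hCy mzj_ec_main
    P hp

end Fermat.Agent.MZ
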