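/-
MAZUR project, node **[MZ-J]** CLOSED (helper21).  **S12 from S15, no other hypothesis.**

`mzj_S12 (hS15 : mzj_S15_stmt) : ∀ P : FreyPackage, 17 ≤ P.p → ¬ HasGaloisStableCofixedLine …`,
where `mzj_S15_stmt` (`MZ/J/Seams.lean`) is the frozen statement S15 verbatim, as a proposition.
-/
import Mathlib
import Fermat.Agent.MZ.J.FinalA
import Fermat.Agent.MZ.J.CycloFinal

set_option autoImplicit false

namespace Fermat.Agent.MZ

open WeierstrassCurve WeierstrassCurve.Affine WeierstrassCurve.Affine.Point Fermat.Agent.S58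

/-- **S12 from S15.** -/
theorem mzj_S12 (hS15 : mzj_S15_stmt) (P : FreyPackage) (hp : 17 ≤ P.p) :
    ¬ HasGaloisStableCofixedLine (K := AlgebraicClosure ℚ) ℚ P.freyCurve P.p :=
  mzj_fin_S12_of_cy hS15 mzj_cyf_main P hp

/-- the generic **[MZ-J]** from S15: no cofixed line of prime order `p ≥ 17` on a semistable integral
model with `2 ∣ Δ`, `c₄` odd and rational `2`-torsion. -/
theorem mzj_generic (hS15 : mzj_S15_stmt)
    {p : ℕ} [Fact p.Prime] (hp17 : 17 ≤ p) {W : WeierstrassCurve ℤ} (hΔW : W.Δ ≠ 0)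
    (h2Δ : (2 : ℤ) ∣ W.Δ) (hc4 : ¬ (2 : ℤ) ∣ W.c₄)
    (hss : ∀ ℓ : ℕ, ℓ.Prime → mzj_SS W ℓ) (htwo : mzj_TwoRat W)
    (N : AddSubgroup (s58_E W)) (hNcard : Nat.card N = p) (hNst : mzj_Stable N)
    (hNcof : ∀ (σ : s58_G) (x : s58_E W), p • x = 0 → σ • x - x ∈ N) : False :=
  mzj_fin_generic hS15 mzj_cyf_main hp17 hΔW h2Δ hc4 hss htwo N hNcard hNst hNcof

end Fermat.Agent.MZ
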