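/-
MAZUR project, node **[MZ-J]** (S12 from S15), cell [J-FIX] (helper16).  Prefix `mzj_fx_`.

THE TWO SEAMS OF [J-FIX] (`MZ/J/SeamsS.lean`), closed from `MZ/J/Fix.lean`:

* `mzj_fx_localS  : mzj_FixL_stmt`;
* `mzj_fx_globalS : mzj_FixG_stmt`.
-/
import Mathlib
import Fermat.Agent.MZ.J.Fix
import Fermat.Agent.MZ.J.SeamsS

set_option autoImplicit false

namespace Fermat.Agent.MZ

open WeierstrassCurve WeierstrassCurve.Affine Fermat.Agent.S58

/-- **[J-FIX], local.** -/
theorem mzj_fx_localS : mzj_FixL_stmt := by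
  intro W p _ R hR A σ hσR hσE hRE
  exact mzj_fx_local' W A R hR (fun T hT hE hpT => hRE T hT hpT hE) σ hσR hσE

/-- **[J-FIX], global.** -/
theorem mzj_fx_globalS : mzj_FixG_stmt := by
  intro W R hfin hstab hloc
  exact mzj_fx_global W (R : Set (s58_E W)) (Set.toFinite _) hstab hloc

end Fermat.Agent.MZ
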