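/-
MAZUR project, node **[MZ-J]** (S12 from S15), the FREY FRONT END (helper16).  Prefix `mzj_fr_`.

For `P : FreyPackage`, `W := P.freyCurveInt : WeierstrassCurve ℤ`:

* `mzj_fr_map`        : `W.map (Int.castRingHom ℚ) = P.freyCurve`;
* `mzj_fr_a₂`, `mzj_fr_a₄` : `4 * W.a₂ = b^p - 1 - a^p`, `16 * W.a₄ = -(a^p b^p)`;
* `mzj_fr_Δ_ne_zero`  : `W.Δ ≠ 0`;
* `mzj_fr_c₄_odd`     : `¬ 2 ∣ W.c₄`;
* `mzj_fr_two_dvd_Δ`  : `2 ∣ W.Δ`;
* `mzj_fr_SS`         : `mzj_SS W ℓ` for every prime `ℓ` (semistability);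
* `mzj_fr_c₄`, `mzj_fr_Δ` : `c₄ = a^{2p} + a^p b^p + b^{2p}`, `256 Δ = (a^p b^p c^p)^2`;
* `mzj_fr_unpack`     : (any `W / ℤ`, `Δ ≠ 0`, `p` odd) a `HasGaloisStableCofixedLine` of
                        `W.map (Int.castRingHom ℚ)` gives `N : AddSubgroup (s58_E W)` with
                        `Nat.card N = p`, `mzj_Stable N`, `N ⊆ W[p]`, `σ x - x ∈ N` on `W[p]`;
* `mzj_fr_cofixed`    : the same for `P.freyCurve`, `N ⊆ s58_E P.freyCurveInt`;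
* `mzj_fr_twoRat`     : `mzj_TwoRat P.freyCurveInt` (`mzj_fr_twoRat_of_roots`: any curve over `ℚ`
                        whose `2`-division polynomial has three rational roots).
-/
import Mathlib
import Fermat.Agent.MZ.J.Seams
import Fermat.Agent.S13.Local.FreyTwo
import Fermat.Agent.S13.Ladder.Torsion
import Fermat.Agent.S05.Identities
import Fermat.Agent.S05.GaloisAction
import Fermat.Prelude.Def_FLTPrelim_CofixedLine

set_option autoImplicit false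

namespace Fermat.Agent.MZ

open WeierstrassCurve WeierstrassCurve.Affine Fermat.Agent.S58 Fermat.Agent.S13 Fermat.Agent.S05

variable (P : FreyPackage)

/-! ### the integral model -/

theorem mzj_fr_a₁ : P.freyCurveInt.a₁ = 1 := rfl
theorem mzj_fr_a₃ : P.freyCurveInt.a₃ = 0 := rfl
theorem mzj_fr_a₆ : P.freyCurveInt.a₆ = 0 := rfl

theorem mzj_fr_a₂ : 4 * P.freyCurveInt.a₂ = P.b ^ P.p - 1 - P.a ^ P.p := by
  show 4 * ((P.b ^ P.p - 1 - P.a ^ P.p) / 4) = _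
  exact Int.mul_ediv_cancel' (f2_four_dvd P)

theorem mzj_fr_sixteen_dvd : (16 : ℤ) ∣ -(P.a ^ P.p) * (P.b ^ P.p) := by
  have h1 : (16 : ℤ) ∣ P.b ^ P.p := by
    refine dvd_trans ?_ (f2_pow_dvd_b_pow P)
    have : (16 : ℤ) = 2 ^ 4 := by norm_num
    rw [this]
    exact pow_dvd_pow 2 (by have := P.hp5; omega)
  exact Dvd.dvd.mul_left h1 _

theorem mzj_fr_a₄ : 16 * P.freyCurveInt.a₄ = -(P.a ^ P.p) * (P.b ^ P.p) := by
  show 16 * (-(P.a ^ P.p) * (P.b ^ P.p) / 16) = _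
  exact Int.mul_ediv_cancel' (mzj_fr_sixteen_dvd P)

/-- **the integral Frey curve is a model of the Frey curve.** -/
theorem mzj_fr_map : P.freyCurveInt.map (Int.castRingHom ℚ) = P.freyCurve := by
  have h2 : ((P.freyCurveInt.a₂ : ℤ) : ℚ) = ((P.b : ℚ) ^ P.p - 1 - (P.a : ℚ) ^ P.p) / 4 := by
    have := mzj_fr_a₂ P
    have h : (4 : ℚ) * (P.freyCurveInt.a₂ : ℚ) = (P.b : ℚ) ^ P.p - 1 - (P.a : ℚ) ^ P.p := by
      exact_mod_cast this
    rw [← h]; ring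
  have h4 : ((P.freyCurveInt.a₄ : ℤ) : ℚ) = -((P.a : ℚ) ^ P.p) * ((P.b : ℚ) ^ P.p) / 16 := by
    have := mzj_fr_a₄ P
    have h : (16 : ℚ) * (P.freyCurveInt.a₄ : ℚ) = -((P.a : ℚ) ^ P.p) * ((P.b : ℚ) ^ P.p) := by
      exact_mod_cast this
    rw [← h]; ring
  ext
  · show ((P.freyCurveInt.a₁ : ℤ) : ℚ) = P.freyCurve.a₁
    rw [mzj_fr_a₁]; simp [FreyPackage.freyCurve]
  · show ((P.freyCurveInt.a₂ : ℤ) : ℚ) = P.freyCurve.a₂
    rw [h2]; rfl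
  · show ((P.freyCurveInt.a₃ : ℤ) : ℚ) = P.freyCurve.a₃
    rw [mzj_fr_a₃]; simp [FreyPackage.freyCurve]
  · show ((P.freyCurveInt.a₄ : ℤ) : ℚ) = P.freyCurve.a₄
    rw [h4]; rfl
  · show ((P.freyCurveInt.a₆ : ℤ) : ℚ) = P.freyCurve.a₆
    rw [mzj_fr_a₆]; simp [FreyPackage.freyCurve]

theorem mzj_fr_Δ_ne_zero : P.freyCurveInt.Δ ≠ 0 := by
  intro h
  have h1 : (P.freyCurveInt.map (Int.castRingHom ℚ)).Δ = 0 := by
    rw [WeierstrassCurve.map_Δ, h, map_zero]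
  rw [mzj_fr_map] at h1
  exact freyCurve_Δ_ne_zero P h1

theorem mzj_fr_b₂ : P.freyCurveInt.b₂ = P.b ^ P.p - P.a ^ P.p := by
  rw [WeierstrassCurve.b₂, mzj_fr_a₁, mzj_fr_a₂]; ring

theorem mzj_fr_b₄ : 8 * P.freyCurveInt.b₄ = -(P.a ^ P.p) * (P.b ^ P.p) := by
  rw [WeierstrassCurve.b₄, mzj_fr_a₁, mzj_fr_a₃, ← mzj_fr_a₄]; ring

/-- `c₄ = a^{2p} + a^p b^p + b^{2p}`. -/
theorem mzj_fr_c₄ : P.freyCurveInt.c₄ =
    (P.a ^ P.p) ^ 2 + (P.a ^ P.p) * (P.b ^ P.p) + (P.b ^ P.p) ^ 2 := by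
  have h := mzj_fr_b₄ P
  rw [WeierstrassCurve.c₄, mzj_fr_b₂]
  linear_combination (-3 : ℤ) * h

/-- `256 Δ = (a^p b^p c^p)^2`. -/
theorem mzj_fr_Δ : 256 * P.freyCurveInt.Δ = (P.a ^ P.p * P.b ^ P.p * P.c ^ P.p) ^ 2 := by
  have hQ := freyCurve_Δ P
  rw [← mzj_fr_map, WeierstrassCurve.map_Δ] at hQ
  have h1 : (256 : ℚ) * ((P.freyCurveInt.Δ : ℤ) : ℚ) = (fA P * fB P * fC P) ^ 2 := by
    have : (Int.castRingHom ℚ) P.freyCurveInt.Δ = ((P.freyCurveInt.Δ : ℤ) : ℚ) := rfl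
    rw [← this, hQ]; ring
  unfold fA fB fC at h1
  exact_mod_cast h1

theorem mzj_fr_c₄_odd : ¬ (2 : ℤ) ∣ P.freyCurveInt.c₄ := by
  rw [mzj_fr_c₄]
  intro h
  have hb : (2 : ℤ) ∣ P.b ^ P.p := dvd_pow (f2_two_dvd_b P) P.hp0
  have h1 : (2 : ℤ) ∣ (P.a ^ P.p) ^ 2 := by
    have h2 : (2 : ℤ) ∣ (P.a ^ P.p) * (P.b ^ P.p) + (P.b ^ P.p) ^ 2 :=
      dvd_add (Dvd.dvd.mul_left hb _) (dvd_pow hb two_ne_zero)
    have := dvd_sub h h2
    rwa [show (P.a ^ P.p) ^ 2 + (P.a ^ P.p) * (P.b ^ P.p) + (P.b ^ P.p) ^ 2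
      - ((P.a ^ P.p) * (P.b ^ P.p) + (P.b ^ P.p) ^ 2) = (P.a ^ P.p) ^ 2 by ring] at this
  have h2 : (2 : ℤ) ∣ P.a :=
    Int.prime_two.dvd_of_dvd_pow (Int.prime_two.dvd_of_dvd_pow h1)
  exact f2_a_odd P h2

theorem mzj_fr_two_dvd_Δ : (2 : ℤ) ∣ P.freyCurveInt.Δ := by
  -- `2^10 ∣ (a^p b^p c^p)^2 = 2^8 Δ`
  have h32 : (32 : ℤ) ∣ P.b ^ P.p := by
    refine dvd_trans ?_ (f2_pow_dvd_b_pow P)
    have : (32 : ℤ) = 2 ^ 5 := by norm_num
    rw [this]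
    exact pow_dvd_pow 2 P.hp5
  have h1 : (32 : ℤ) ∣ P.a ^ P.p * P.b ^ P.p * P.c ^ P.p :=
    Dvd.dvd.mul_right (Dvd.dvd.mul_left h32 _) _
  have h2 : (32 : ℤ) ^ 2 ∣ (P.a ^ P.p * P.b ^ P.p * P.c ^ P.p) ^ 2 := pow_dvd_pow_of_dvd h1 2
  rw [← mzj_fr_Δ] at h2
  obtain ⟨k, hk⟩ := h2
  refine ⟨2 * k, ?_⟩
  have : (256 : ℤ) * P.freyCurveInt.Δ = 256 * (2 * (2 * k)) := by rw [hk]; ring
  have := mul_left_cancel₀ (by norm_num : (256 : ℤ) ≠ 0) this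
  rw [this]

/-- **semistability** of the integral Frey curve at every prime. -/
theorem mzj_fr_SS (ℓ : ℕ) (hℓ : ℓ.Prime) : mzj_SS P.freyCurveInt ℓ := by
  unfold mzj_SS
  by_contra hcon
  push Not at hcon
  obtain ⟨hΔ, hc⟩ := hcon
  have hℓ' : Prime (ℓ : ℤ) := Nat.prime_iff_prime_int.mp hℓ
  -- `ℓ ∣ a b c`
  have h1 : (ℓ : ℤ) ∣ (P.a ^ P.p * P.b ^ P.p * P.c ^ P.p) ^ 2 := by
    rw [← mzj_fr_Δ]; exact Dvd.dvd.mul_left hΔ _
  have h2 : (ℓ : ℤ) ∣ P.a ^ P.p * P.b ^ P.p * P.c ^ P.p := hℓ'.dvd_of_dvd_pow h1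
  rw [mzj_fr_c₄] at hc
  -- in each case `ℓ ∣ a^p` and `ℓ ∣ b^p`
  have key : (ℓ : ℤ) ∣ P.a ^ P.p ∧ (ℓ : ℤ) ∣ P.b ^ P.p := by
    rcases hℓ'.dvd_or_dvd h2 with h3 | h3
    · rcases hℓ'.dvd_or_dvd h3 with ha | hb
      · refine ⟨ha, ?_⟩
        have h4 : (ℓ : ℤ) ∣ (P.a ^ P.p) ^ 2 + (P.a ^ P.p) * (P.b ^ P.p) :=
          dvd_add (dvd_pow ha two_ne_zero) (Dvd.dvd.mul_right ha _)
        have := dvd_sub hc h4
        rw [show (P.a ^ P.p) ^ 2 + (P.a ^ P.p) * (P.b ^ P.p) + (P.b ^ P.p) ^ 2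
          - ((P.a ^ P.p) ^ 2 + (P.a ^ P.p) * (P.b ^ P.p)) = (P.b ^ P.p) ^ 2 by ring] at this
        exact hℓ'.dvd_of_dvd_pow this
      · refine ⟨?_, hb⟩
        have h4 : (ℓ : ℤ) ∣ (P.a ^ P.p) * (P.b ^ P.p) + (P.b ^ P.p) ^ 2 :=
          dvd_add (Dvd.dvd.mul_left hb _) (dvd_pow hb two_ne_zero)
        have := dvd_sub hc h4
        rw [show (P.a ^ P.p) ^ 2 + (P.a ^ P.p) * (P.b ^ P.p) + (P.b ^ P.p) ^ 2
          - ((P.a ^ P.p) * (P.b ^ P.p) + (P.b ^ P.p) ^ 2) = (P.a ^ P.p) ^ 2 by ring] at this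
        exact hℓ'.dvd_of_dvd_pow this
    · -- `ℓ ∣ c^p = a^p + b^p`
      rw [← P.hFLT] at h3
      -- `c₄ = (a^p + b^p)^2 - a^p b^p`
      have h4 : (ℓ : ℤ) ∣ (P.a ^ P.p) * (P.b ^ P.p) := by
        have := dvd_sub (Dvd.dvd.mul_left h3 (P.a ^ P.p + P.b ^ P.p)) hc
        rwa [show (P.a ^ P.p + P.b ^ P.p) * (P.a ^ P.p + P.b ^ P.p)
          - ((P.a ^ P.p) ^ 2 + (P.a ^ P.p) * (P.b ^ P.p) + (P.b ^ P.p) ^ 2)
          = (P.a ^ P.p) * (P.b ^ P.p) by ring] at this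
      rcases hℓ'.dvd_or_dvd h4 with ha | hb
      · exact ⟨ha, (dvd_add_right ha).mp h3⟩
      · exact ⟨(dvd_add_left hb).mp h3, hb⟩
  have ha : (ℓ : ℤ) ∣ P.a := hℓ'.dvd_of_dvd_pow key.1
  have hb : (ℓ : ℤ) ∣ P.b := hℓ'.dvd_of_dvd_pow key.2
  have hg : (ℓ : ℤ) ∣ gcd P.a P.b := dvd_gcd ha hb
  rw [P.hgcdab] at hg
  exact hℓ'.not_dvd_one hg

end Fermat.Agent.MZ

namespace Fermat.Agent.MZ

open WeierstrassCurve WeierstrassCurve.Affine WeierstrassCurve.Affine.Point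
  Fermat.Agent.S58 Fermat.Agent.S13 Fermat.Agent.S05

/-! ### unpacking a cofixed line -/

/-- **a Galois-stable cofixed line of `W[p]`, in subgroup language**: a Galois-stable subgroup `N`
of `W(ℚ̄)` with `p` elements, killed by `p`, such that `G_ℚ` acts trivially on `W[p] / N`. -/
theorem mzj_fr_unpack (W : WeierstrassCurve ℤ) (hΔ : W.Δ ≠ 0) {p : ℕ} (hp : p.Prime)
    (hp2 : p ≠ 2)
    (h : HasGaloisStableCofixedLine (K := AlgebraicClosure ℚ) ℚ (W.map (Int.castRingHom ℚ)) p) :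
    ∃ N : AddSubgroup (s58_E W), Nat.card N = p ∧ mzj_Stable N ∧ (∀ x ∈ N, p • x = 0) ∧
      ∀ (σ : s58_G) (x : s58_E W), p • x = 0 → σ • x - x ∈ N := by
  classical
  obtain ⟨N, hst, hbot, htop, hcof⟩ := h
  have hΔ' : ((s58_WQ W)⁄s58_Qb).Δ ≠ 0 := by
    show ((W.map (Int.castRingHom ℚ)).map (algebraMap ℚ s58_Qb)).Δ ≠ 0
    rw [WeierstrassCurve.map_Δ, WeierstrassCurve.map_Δ]
    simpa using hΔ
  have hcardT : Nat.card (Submodule.torsionBy ℤ (s58_E W) p) = p ^ 2 :=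
    ld_natCard_torsionBy (W' := s58_WQ W) (K := s58_Qb) hΔ' (hp.odd_of_ne_two hp2)
  have hfinT : Finite (Submodule.torsionBy ℤ (s58_E W) p) := by
    apply Nat.finite_of_card_ne_zero
    rw [hcardT]
    exact pow_ne_zero _ hp.ne_zero
  -- `N` has `p` elements
  have hcardN : Nat.card N.toAddSubgroup = p := by
    have hdvd : Nat.card N.toAddSubgroup ∣ p ^ 2 := by
      rw [← hcardT]
      exact AddSubgroup.card_addSubgroup_dvd_card N.toAddSubgroup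
    obtain ⟨m, hm, hNm⟩ := (Nat.dvd_prime_pow hp).mp hdvd
    interval_cases m
    · exfalso
      apply hbot
      have h1 : N.toAddSubgroup = ⊥ := AddSubgroup.eq_bot_of_card_eq _ (by rw [hNm, pow_zero])
      apply Submodule.toAddSubgroup_injective
      rw [h1, Submodule.bot_toAddSubgroup]
    · rw [hNm, pow_one]
    · exfalso
      apply htop
      have h1 : N.toAddSubgroup = ⊤ := AddSubgroup.eq_top_of_card_eq _ (by rw [hNm, hcardT])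
      apply Submodule.toAddSubgroup_injective
      rw [h1, Submodule.top_toAddSubgroup]
  let ι : Submodule.torsionBy ℤ (s58_E W) p →+ s58_E W :=
    (Submodule.torsionBy ℤ (s58_E W) p).subtype.toAddMonoidHom
  have hι : Function.Injective ι := Subtype.val_injective
  refine ⟨N.toAddSubgroup.map ι, ?_, ?_, ?_, ?_⟩
  · rw [AddSubgroup.card_map_of_injective hι, hcardN]
  · rintro σ x ⟨y, hy, rfl⟩
    exact ⟨σ • y, hst σ y hy, rfl⟩
  · rintro x ⟨y, -, rfl⟩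
    have := y.2
    rw [Submodule.mem_torsionBy_iff, natCast_zsmul] at this
    exact this
  · intro σ x hx
    have hxT : x ∈ Submodule.torsionBy ℤ (s58_E W) p := by
      rw [Submodule.mem_torsionBy_iff, natCast_zsmul]; exact hx
    exact ⟨σ • (⟨x, hxT⟩ : Submodule.torsionBy ℤ (s58_E W) p) - ⟨x, hxT⟩, hcof σ ⟨x, hxT⟩, rfl⟩

/-- the same for the Frey curve. -/
theorem mzj_fr_cofixed (P : FreyPackage)
    (h : HasGaloisStableCofixedLine (K := AlgebraicClosure ℚ) ℚ P.freyCurve P.p) :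
    ∃ N : AddSubgroup (s58_E P.freyCurveInt), Nat.card N = P.p ∧ mzj_Stable N ∧
      (∀ x ∈ N, P.p • x = 0) ∧
      ∀ (σ : s58_G) (x : s58_E P.freyCurveInt), P.p • x = 0 → σ • x - x ∈ N := by
  rw [← mzj_fr_map P] at h
  exact mzj_fr_unpack P.freyCurveInt (mzj_fr_Δ_ne_zero P) P.pp
    (by have := P.hp5; omega) h

end Fermat.Agent.MZ

namespace Fermat.Agent.MZ

open WeierstrassCurve WeierstrassCurve.Affine WeierstrassCurve.Affine.Point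
  Fermat.Agent.S58 Fermat.Agent.S13 Fermat.Agent.S05

/-! ### rational `2`-torsion -/

/-- a curve over `ℚ` whose `2`-division polynomial has three rational roots has all its
`2`-torsion rational. -/
theorem mzj_fr_twoRat_of_roots (E : WeierstrassCurve ℚ) (r₁ r₂ r₃ : ℚ)
    (h2 : E.b₂ = -4 * (r₁ + r₂ + r₃)) (h4 : 2 * E.b₄ = 4 * (r₁ * r₂ + r₁ * r₃ + r₂ * r₃))
    (h6 : E.b₆ = -4 * (r₁ * r₂ * r₃))
    (T : (E⁄(AlgebraicClosure ℚ)).Point) (hT : 2 • T = 0) (σ : s58_G) : σ • T = T := by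
  cases T with
  | zero => exact ga_smul_zero σ
  | some x y h =>
    have hη : eta (E⁄(AlgebraicClosure ℚ)) x y = 0 :=
      (two_nsmul_eq_zero_iff_eta (E⁄(AlgebraicClosure ℚ)) h).mp hT
    have hsq := eta_sq (E⁄(AlgebraicClosure ℚ)) h.1
    rw [hη] at hsq
    -- the invariants of the base change
    have e2 : (E⁄(AlgebraicClosure ℚ)).b₂ = algebraMap ℚ (AlgebraicClosure ℚ) E.b₂ :=
      WeierstrassCurve.map_b₂ E _
    have e4 : (E⁄(AlgebraicClosure ℚ)).b₄ = algebraMap ℚ (AlgebraicClosure ℚ) E.b₄ :=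
      WeierstrassCurve.map_b₄ E _
    have e6 : (E⁄(AlgebraicClosure ℚ)).b₆ = algebraMap ℚ (AlgebraicClosure ℚ) E.b₆ :=
      WeierstrassCurve.map_b₆ E _
    have h4' : algebraMap ℚ (AlgebraicClosure ℚ) (2 * E.b₄) =
        algebraMap ℚ (AlgebraicClosure ℚ) (4 * (r₁ * r₂ + r₁ * r₃ + r₂ * r₃)) := by rw [h4]
    have hfac : 4 * (x - algebraMap ℚ (AlgebraicClosure ℚ) r₁) *
        (x - algebraMap ℚ (AlgebraicClosure ℚ) r₂) *
        (x - algebraMap ℚ (AlgebraicClosure ℚ) r₃) = 0 := by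
      have h0 : Fermat.Agent.S51.dblDen (E⁄(AlgebraicClosure ℚ)) x = 0 := by
        rw [← hsq]; ring
      unfold Fermat.Agent.S51.dblDen at h0
      rw [e2, e4, e6, h2, h6] at h0
      simp only [map_mul, map_add, map_neg, map_ofNat] at h0 h4'
      linear_combination h0 - x * h4'
    have hx : x ∈ Set.range (algebraMap ℚ (AlgebraicClosure ℚ)) := by
      have h4ne : (4 : AlgebraicClosure ℚ) ≠ 0 := by norm_num
      rcases mul_eq_zero.mp hfac with h | h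
      · rcases mul_eq_zero.mp h with h | h
        · rcases mul_eq_zero.mp h with h | h
          · exact absurd h h4ne
          · exact ⟨r₁, (sub_eq_zero.mp h).symm⟩
        · exact ⟨r₂, (sub_eq_zero.mp h).symm⟩
      · exact ⟨r₃, (sub_eq_zero.mp h).symm⟩
    obtain ⟨r, rfl⟩ := hx
    have hy : y ∈ Set.range (algebraMap ℚ (AlgebraicClosure ℚ)) := by
      refine ⟨-(E.a₁ * r + E.a₃) / 2, ?_⟩
      have e1 : (E⁄(AlgebraicClosure ℚ)).a₁ = algebraMap ℚ (AlgebraicClosure ℚ) E.a₁ := rfl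
      have e3 : (E⁄(AlgebraicClosure ℚ)).a₃ = algebraMap ℚ (AlgebraicClosure ℚ) E.a₃ := rfl
      unfold eta at hη
      rw [e1, e3] at hη
      rw [map_div₀, map_neg, map_add, map_mul, map_ofNat]
      have h2ne : (2 : AlgebraicClosure ℚ) ≠ 0 := two_ne_zero
      field_simp
      linear_combination -hη
    exact ga_smul_some_of_mem_range σ h ⟨r, rfl⟩ hy

/-- **all the `2`-torsion of the integral Frey curve is rational.** -/
theorem mzj_fr_twoRat (P : FreyPackage) : mzj_TwoRat P.freyCurveInt := by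
  intro T hT σ
  have key : ∀ (E : WeierstrassCurve ℚ), E = P.freyCurve →
      ∀ T : (E⁄(AlgebraicClosure ℚ)).Point, 2 • T = 0 → σ • T = T := by
    rintro E rfl T hT
    refine mzj_fr_twoRat_of_roots P.freyCurve 0 (fA P / 4) (-(fB P) / 4) ?_ ?_ ?_ T hT σ
    · rw [freyCurve_b₂]; ring
    · rw [freyCurve_b₄]; ring
    · rw [freyCurve_b₆]; ring
  exact key _ (mzj_fr_map P) T hT

end Fermat.Agent.MZ
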