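/-
Project MAZUR, node [MZ-J] (S12 from S15), cell [J-LN] (helper17): the ABSTRACT plane/line lemmas of
the chain step (#3072 (R1), (R4); signatures fixed in #3121), AMBIENT form, Mathlib only.

`E` an `AddCommGroup` with a `DistribMulAction` of a group `G`, `p` a prime,
`hcard : Nat.card {x : E // p • x = 0} = p ^ 2`, `C M : AddSubgroup E` inside the `p`-torsion,
of card `p` each, `C ⊓ M = ⊥`.

* `mzj_ln_eq_of_mem`  : two subgroups of prime order `p` sharing a nonzero element are equal;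
* `mzj_ln_decomp`     : (a) every `x` with `p • x = 0` is `c + m`;
* `mzj_ln_line`       : (b) `s0 = 1` on `C`, `s0 = k` on `M`, `k ≢ 1 (p)`: every `s0`-stable subgroup
                        `L` of order `p` of the `p`-torsion is `C` or `M`;
* `mzj_ln_char`       : (c) `M` stable and `s x - chi s • x ∈ C` on the `p`-torsion ⟹ `s = chi s` on `M`;
* `mzj_ln_cofixed`    : (d) `s = 1` on `C`, `s = chi s` on `M` ⟹ `s x - x ∈ M` on the `p`-torsion;
* `mzj_ln_quot`       : (d') same hypotheses ⟹ `s x - chi s • x ∈ C` on the `p`-torsion.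
Prefix `mzj_ln_`.
-/
import Mathlib

set_option autoImplicit false
set_option linter.style.haveILetI false

namespace Fermat.Agent.MZ

section Lines

variable {E : Type*} [AddCommGroup E]

/-- Two subgroups of prime order `p` sharing a nonzero element are equal. -/
theorem mzj_ln_eq_of_mem {p : ℕ} (hp : p.Prime) (L L' : AddSubgroup E) (hL : Nat.card L = p)
    (hL' : Nat.card L' = p) {w : E} (hw : w ∈ L) (hw' : w ∈ L') (hw0 : w ≠ 0) : L = L' := by
  haveI : Finite L := Nat.finite_of_card_ne_zero (by rw [hL]; exact hp.ne_zero)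
  haveI : Finite L' := Nat.finite_of_card_ne_zero (by rw [hL']; exact hp.ne_zero)
  have hcard : Nat.card ↥(L ⊓ L') = p := by
    have hdvd : Nat.card ↥(L ⊓ L') ∣ p := by
      rw [← hL]
      exact AddSubgroup.card_dvd_of_le inf_le_left
    rcases (Nat.dvd_prime hp).1 hdvd with h1 | h1
    · exfalso
      have hbot : L ⊓ L' = ⊥ := AddSubgroup.eq_bot_of_card_eq _ h1
      have : w ∈ L ⊓ L' := ⟨hw, hw'⟩
      rw [hbot, AddSubgroup.mem_bot] at this
      exact hw0 this
    · exact h1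
  have e1 : L ⊓ L' = L :=
    AddSubgroup.eq_of_le_of_card_ge inf_le_left (by rw [hcard, hL])
  have e2 : L ⊓ L' = L' :=
    AddSubgroup.eq_of_le_of_card_ge inf_le_right (by rw [hcard, hL'])
  rw [← e1, e2]

variable {p : ℕ} (hp : p.Prime) (hcard : Nat.card {x : E // p • x = 0} = p ^ 2)
  (C M : AddSubgroup E) (hC : ∀ x ∈ C, p • x = 0) (hM : ∀ x ∈ M, p • x = 0)
  (hcC : Nat.card C = p) (hcM : Nat.card M = p) (hCM : C ⊓ M = ⊥)

include hp hcard hC hM hcC hcM hCM in
/-- **(a)** every `p`-torsion point is `c + m`. -/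
theorem mzj_ln_decomp (x : E) (hx : p • x = 0) : ∃ c ∈ C, ∃ m ∈ M, x = c + m := by
  haveI : Finite C := Nat.finite_of_card_ne_zero (by rw [hcC]; exact hp.ne_zero)
  haveI : Finite M := Nat.finite_of_card_ne_zero (by rw [hcM]; exact hp.ne_zero)
  haveI : Finite {x : E // p • x = 0} :=
    Nat.finite_of_card_ne_zero (by rw [hcard]; exact pow_ne_zero 2 hp.ne_zero)
  let f : C × M → {x : E // p • x = 0} := fun cm =>
    ⟨(cm.1 : E) + (cm.2 : E), by rw [nsmul_add, hC _ cm.1.2, hM _ cm.2.2, add_zero]⟩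
  have hinj : Function.Injective f := by
    rintro ⟨c, m⟩ ⟨c', m'⟩ h
    have h1 : (c : E) + (m : E) = (c' : E) + (m' : E) := congrArg Subtype.val h
    have h2 : (c : E) - (c' : E) = (m' : E) - (m : E) := by
      rw [sub_eq_sub_iff_add_eq_add, h1, add_comm]
    have h3 : (c : E) - (c' : E) ∈ C ⊓ M :=
      ⟨C.sub_mem c.2 c'.2, h2 ▸ M.sub_mem m'.2 m.2⟩
    rw [hCM, AddSubgroup.mem_bot] at h3
    have h4 : (m' : E) - (m : E) = 0 := by rw [← h2, h3]
    have e1 : c = c' := Subtype.ext (sub_eq_zero.mp h3)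
    have e2 : m = m' := Subtype.ext (sub_eq_zero.mp h4).symm
    rw [e1, e2]
  have hc : Nat.card (C × M) = Nat.card {x : E // p • x = 0} := by
    rw [Nat.card_prod, hcC, hcM, hcard, sq]
  have hsurj : Function.Surjective f :=
    ((Nat.bijective_iff_injective_and_card f).mpr ⟨hinj, hc⟩).2
  obtain ⟨⟨c, m⟩, hcm⟩ := hsurj ⟨x, hx⟩
  exact ⟨c, c.2, m, m.2, (congrArg Subtype.val hcm).symm⟩

variable {G : Type*} [Group G] [DistribMulAction G E]

include hp hcard hC hM hcC hcM hCM in
/-- **(b)** the only `s0`-stable lines are `C` and `M`. -/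
theorem mzj_ln_line (s0 : G) (k : ℕ) (hk : (k : ZMod p) ≠ 1) (h1 : ∀ c ∈ C, s0 • c = c)
    (h2 : ∀ m ∈ M, s0 • m = k • m) (L : AddSubgroup E) (hL : ∀ x ∈ L, p • x = 0)
    (hcL : Nat.card L = p) (hs : ∀ x ∈ L, s0 • x ∈ L) : L = C ∨ L = M := by
  haveI : Finite C := Nat.finite_of_card_ne_zero (by rw [hcC]; exact hp.ne_zero)
  by_cases hLM : L ⊓ M = ⊥
  · -- then `L ≤ C`
    left
    have hle : L ≤ C := by
      intro v hv
      obtain ⟨c, hc, m, hm, rfl⟩ := mzj_ln_decomp hp hcard C M hC hM hcC hcM hCM v (hL v hv)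
      have h3 : s0 • (c + m) - (c + m) = k • m - m := by
        rw [smul_add, h1 c hc, h2 m hm]
        abel
      have h4 : k • m - m ∈ L ⊓ M :=
        ⟨h3 ▸ L.sub_mem (hs _ hv) hv, M.sub_mem (M.nsmul_mem hm k) hm⟩
      rw [hLM, AddSubgroup.mem_bot, sub_eq_zero] at h4
      -- `k • m = 1 • m` with `k ≢ 1`, so `m = 0`
      have h5 : m = 0 := by
        by_contra hm0
        have hord : addOrderOf m = p := by
          have hdvd : addOrderOf m ∣ p := addOrderOf_dvd_of_nsmul_eq_zero (hM m hm)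
          rcases (Nat.dvd_prime hp).1 hdvd with h | h
          · exact absurd (AddMonoid.addOrderOf_eq_one_iff.mp h) hm0
          · exact h
        have h6 : k • m = 1 • m := by rw [h4, one_nsmul]
        have h7 := nsmul_eq_nsmul_iff_modEq.mp h6
        rw [hord] at h7
        apply hk
        have := (ZMod.natCast_eq_natCast_iff k 1 p).mpr h7
        rwa [Nat.cast_one] at this
      rw [h5, add_zero]
      exact hc
    exact AddSubgroup.eq_of_le_of_card_ge hle (by rw [hcC, hcL])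
  · -- then `L = M`
    right
    obtain ⟨w, hw, hw0⟩ : ∃ w ∈ L ⊓ M, w ≠ 0 := by
      by_contra hcon
      apply hLM
      rw [AddSubgroup.eq_bot_iff_forall]
      intro w hw
      by_contra hw0
      exact hcon ⟨w, hw, hw0⟩
    exact mzj_ln_eq_of_mem hp L M hcL hcM hw.1 hw.2 hw0

include hM hCM in
/-- **(c)** a stable complement carries the character. -/
theorem mzj_ln_char (chi : G → ℕ) (hMst : ∀ s : G, ∀ m ∈ M, s • m ∈ M)
    (hq : ∀ (s : G) (x : E), p • x = 0 → s • x - chi s • x ∈ C) :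
    ∀ s : G, ∀ m ∈ M, s • m = chi s • m := by
  intro s m hm
  have h1 : s • m - chi s • m ∈ C ⊓ M :=
    ⟨hq s m (hM m hm), M.sub_mem (hMst s m hm) (M.nsmul_mem hm _)⟩
  rw [hCM, AddSubgroup.mem_bot] at h1
  exact sub_eq_zero.mp h1

include hp hcard hC hM hcC hcM hCM in
/-- **(d)** `C` is cofixed: `s x - x ∈ M` on the `p`-torsion. -/
theorem mzj_ln_cofixed (chi : G → ℕ) (h1 : ∀ s : G, ∀ c ∈ C, s • c = c)
    (h2 : ∀ s : G, ∀ m ∈ M, s • m = chi s • m) :
    ∀ (s : G) (x : E), p • x = 0 → s • x - x ∈ M := by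
  intro s x hx
  obtain ⟨c, hc, m, hm, rfl⟩ := mzj_ln_decomp hp hcard C M hC hM hcC hcM hCM x hx
  have h3 : s • (c + m) - (c + m) = chi s • m - m := by
    rw [smul_add, h1 s c hc, h2 s m hm]
    abel
  rw [h3]
  exact M.sub_mem (M.nsmul_mem hm _) hm

include hp hcard hC hM hcC hcM hCM in
/-- **(d')** the quotient by `C` is the character: `s x - chi s • x ∈ C` on the `p`-torsion. -/
theorem mzj_ln_quot (chi : G → ℕ) (h1 : ∀ s : G, ∀ c ∈ C, s • c = c)
    (h2 : ∀ s : G, ∀ m ∈ M, s • m = chi s • m) :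
    ∀ (s : G) (x : E), p • x = 0 → s • x - chi s • x ∈ C := by
  intro s x hx
  obtain ⟨c, hc, m, hm, rfl⟩ := mzj_ln_decomp hp hcard C M hC hM hcC hcM hCM x hx
  have h3 : s • (c + m) - chi s • (c + m) = c - chi s • c := by
    rw [smul_add, h1 s c hc, h2 s m hm, nsmul_add]
    abel
  rw [h3]
  exact C.sub_mem hc (C.nsmul_mem hc _)

end Lines

end Fermat.Agent.MZ
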