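/-
MAZUR project, node **[MZ-J]**, TRACK B (helper1).  Prefix `mzj_mr_`.

**The mirrored S15** (`mzj_mr_S15star`): for an integral Weierstrass curve `W` and a point `Q` of
exact order `p ∉ {2,3,5,7,13}` generating a `G_ℚ`-STABLE subgroup (`Q` itself need not be rational):
if `W` is multiplicative at `2` and `3` and `Q` LIES IN the identity component at `2` and at `3`,
then `Q` lies in the identity component at every multiplicative prime `ℓ ≠ p` with `ℓ ∤ p - 1`.

It is proved from the SAME seams as S15 (`mzt_C_stmt`, `mza_stmt`, `mzb_CD_stmt`, `mzt_RHw_stmt`,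
`mzt_F_stmt`), with the two cusps exchanged:
* the modular point `x` of `(W, ⟨Q⟩)` (`mza_stmt`) exists for any `Q` of order `p`;
* `U0(W, p, Q)` is `G_ℚ`-invariant as soon as `⟨Q⟩` is stable (`mzj_mr_U0_stable`);
* dictionary (`mzb_dc_dir1`, `mzb_dc_dir2`): `x ≡ ∞` where `Q ∈ E⁰`, `x ≡ 0` where `Q ∉ E⁰`;
* `x` is `G_ℚ`-fixed: uniqueness (`mzb_dc_unique`) at `s ∈ {2, 3}`, `s ≠ r`, where
  `r_s(0) ≠ r_s(∞)` because `(ord c / r) • c ≠ 0` has order `r ≠ s` (S18);
* TOP (`mzt_abs`) with `c* = -c`, `P* = cl((x) - (∞))`.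
-/
import Mathlib
import Fermat.Agent.MZ.B.Final

set_option autoImplicit false
set_option linter.unusedSectionVars false

noncomputable section

open WeierstrassCurve WeierstrassCurve.Affine
open ModularCurve AlgebraicCurve
open Fermat.Agent.S24 Fermat.Agent.JT3

namespace Fermat.Agent.MZ

local notation "GQ" => (AlgebraicClosure ℚ ≃ₐ[ℚ] AlgebraicClosure ℚ)
local notation "Qbar" => AlgebraicClosure ℚ

/-! ### reindexing a product over the nonzero multiples of a point of prime order -/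

section Reindex

variable {G : Type*} [AddGroup G] {M : Type*} [CommMonoid M]

/-- `k ↦ (k * m) % p` permutes `{1, …, p - 1}` when `p ∤ m`. -/
theorem mzj_mr_image_mul_mod {p m : ℕ} (hp : p.Prime) (hm : ¬ p ∣ m) :
    (Finset.Ico 1 p).image (fun k => (k * m) % p) = Finset.Ico 1 p := by
  have hinj : Set.InjOn (fun k => (k * m) % p) (Finset.Ico 1 p : Set ℕ) := by
    intro a ha b hb hab
    simp only [Finset.coe_Ico, Set.mem_Ico] at ha hb
    have h1 : a * m ≡ b * m [MOD p] := hab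
    have hcop : Nat.Coprime p m := (Nat.Prime.coprime_iff_not_dvd hp).mpr hm
    have h2 : a ≡ b [MOD p] := Nat.ModEq.cancel_right_of_coprime hcop h1
    have h3 := Nat.ModEq.eq_of_lt_of_lt h2 ha.2 hb.2
    exact h3
  apply Finset.eq_of_subset_of_card_le
  · intro x hx
    rw [Finset.mem_image] at hx
    obtain ⟨k, hk, rfl⟩ := hx
    rw [Finset.mem_Ico] at hk ⊢
    refine ⟨?_, Nat.mod_lt _ hp.pos⟩
    rw [Nat.one_le_iff_ne_zero]
    intro h0
    have hd : p ∣ k * m := Nat.dvd_of_mod_eq_zero h0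
    rcases (Nat.Prime.dvd_mul hp).mp hd with h | h
    · exact absurd (Nat.le_of_dvd (by omega) h) (by omega)
    · exact hm h
  · rw [Finset.card_image_of_injOn hinj]

/-- reindexing: `∏_{k=1}^{p-1} F ((k m) • Q) = ∏_{k=1}^{p-1} F (k • Q)` for `Q` of order `p ∤ m`. -/
theorem mzj_mr_prod_reindex {p m : ℕ} (hp : p.Prime) (hm : ¬ p ∣ m) (Q : G)
    (hQ : addOrderOf Q = p) (F : G → M) :
    ∏ k ∈ Finset.Ico 1 p, F ((k * m) • Q) = ∏ k ∈ Finset.Ico 1 p, F (k • Q) := by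
  have hinj : Set.InjOn (fun k => (k * m) % p) (Finset.Ico 1 p : Set ℕ) := by
    intro a ha b hb hab
    simp only [Finset.coe_Ico, Set.mem_Ico] at ha hb
    have h1 : a * m ≡ b * m [MOD p] := hab
    have hcop : Nat.Coprime p m := (Nat.Prime.coprime_iff_not_dvd hp).mpr hm
    have h2 : a ≡ b [MOD p] := Nat.ModEq.cancel_right_of_coprime hcop h1
    exact Nat.ModEq.eq_of_lt_of_lt h2 ha.2 hb.2
  have h1 : ∀ k : ℕ, (k * m) • Q = ((k * m) % p) • Q := by
    intro k
    rw [← hQ, mod_addOrderOf_nsmul]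
  calc ∏ k ∈ Finset.Ico 1 p, F ((k * m) • Q)
      = ∏ k ∈ Finset.Ico 1 p, F (((k * m) % p) • Q) :=
        Finset.prod_congr rfl fun k _ => by rw [h1 k]
    _ = ∏ k ∈ (Finset.Ico 1 p).image (fun k => (k * m) % p), F (k • Q) :=
        (Finset.prod_image (f := fun k => F (k • Q)) hinj).symm
    _ = ∏ k ∈ Finset.Ico 1 p, F (k • Q) := by rw [mzj_mr_image_mul_mod hp hm]

end Reindex

/-! ### `U0` of a stable subgroup is rational -/

section Stable

variable (W : WeierstrassCurve ℤ)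

/-- `U0(W, p, Q)` is `G_ℚ`-invariant when the subgroup generated by `Q` is `G_ℚ`-stable. -/
theorem mzj_mr_U0_stable {p : ℕ} (hp : p.Prime) (Q : mzb_el_E W) (hQord : addOrderOf Q = p)
    (hQstab : ∀ σ : GQ, ∃ k : ℕ, σ • Q = k • Q) (σ : GQ) :
    σ (mzb_el_U0 W p Q) = mzb_el_U0 W p Q := by
  obtain ⟨m, hm⟩ := hQstab σ
  -- `p ∤ m`
  have hQ0 : Q ≠ 0 := by
    intro h0
    rw [h0, addOrderOf_zero] at hQord
    exact hp.one_lt.ne hQord
  have hpm : ¬ p ∣ m := by
    intro hd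
    have h1 : m • Q = 0 := by
      rw [← hQord] at hd
      exact addOrderOf_dvd_iff_nsmul_eq_zero.mp hd
    rw [h1] at hm
    have h2 : σ⁻¹ • σ • Q = σ⁻¹ • (0 : mzb_el_E W) := by rw [hm]
    rw [inv_smul_smul] at h2
    apply hQ0
    rw [h2]
    exact map_zero (Point.map (W' := W.map (Int.castRingHom ℚ)) (σ⁻¹ : GQ).toAlgHom)
  unfold mzb_el_U0
  rw [map_div₀, map_mul, map_pow, map_pow, map_pow, map_natCast, map_intCast, map_prod]
  congr 3
  have h3 : ∀ k ∈ Finset.Ico 1 p, σ (mzb_el_psi2 W (k • Q)) = mzb_el_psi2 W ((k * m) • Q) := by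
    intro k _
    rw [← mzb_el_psi2_smul, mzb_el_smul_nsmul, hm, mul_smul]
  rw [Finset.prod_congr rfl h3]
  exact mzj_mr_prod_reindex hp hpm Q hQord (mzb_el_psi2 W)

end Stable

/-! ### the mirrored dictionary -/

section MirrorAB

set_option synthInstance.maxHeartbeats 400000
set_option maxHeartbeats 2000000

/-- **the mirrored [MZ-A] + [MZ-B] seam**: the modular point of `(W, ⟨Q⟩)` for a stable subgroup
`⟨Q⟩` with `Q ∈ E⁰` at a multiplicative place `B ∣ s ≠ p`, `s ≠ r ∣ ord c`: it is `G_ℚ`-fixed, reduces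
to the cusp `∞` at `B`, and to the cusp `0` at every multiplicative place where `Q ∉ E⁰`. -/
theorem mzj_mr_AB (C : ∀ p : ℕ, mzt_Cusps p) (hA : mza_stmt) (hCD : mzb_CD_stmt C)
    (hC : mzt_C_stmt C)
    (p : ℕ) [NeZero p] (hp : p.Prime) (hp' : p ∉ ({2, 3, 5, 7, 13} : Finset ℕ))
    (W : WeierstrassCurve ℤ) (hΔ : W.Δ ≠ 0) (Q : mzb_el_E W)
    (hQstab : ∀ σ : GQ, ∃ k : ℕ, σ • Q = k • Q) (hQord : addOrderOf Q = p)
    (r : ℕ) (hr : r.Prime) (hrc : r ∣ addOrderOf (mzt_c p (C p)))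
    (s : ℕ) (hs : s.Prime) (hsp : s ≠ p) (hsr : s ≠ r)
    (hsΔ : (s : ℤ) ∣ W.Δ) (hsc₄ : ¬ (s : ℤ) ∣ W.c₄)
    (B : ValuationSubring Qbar) (hB : B.LiesOverPrime s) (hin : W.InZeroComponentAt B Q) :
    ∃ x : Place Qbar (modularFunctionFieldBar p),
      (∀ σ : GQ, arithmeticGalois (modularFunctionFieldFull p) σ • x = x) ∧
      (∀ h : ReductionInputsModL B p,
        placeReductionModL h x = placeReductionModL h (C p).inf) ∧
      ∀ (ℓ : ℕ), ℓ.Prime → ℓ ≠ p → (ℓ : ℤ) ∣ W.Δ → ¬ (ℓ : ℤ) ∣ W.c₄ →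
        ∀ (A : ValuationSubring Qbar), A.LiesOverPrime ℓ → ¬ W.InZeroComponentAt A Q →
          ∀ h : ReductionInputsModL A p,
            placeReductionModL h x = placeReductionModL h (C p).zero := by
  -- `p ≥ 11`
  have hp11 : 11 ≤ p := by
    have h2 := hp.two_le
    have hp'' := hp'
    simp only [Finset.mem_insert, Finset.mem_singleton, not_or] at hp''
    obtain ⟨n2, n3, n5, n7, n13⟩ := hp''
    by_contra hlt
    push Not at hlt
    interval_cases p <;> first | omega | (exact absurd hp (by decide))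
  have hp2 : p ≠ 2 := by omega
  have hp1 : p - 1 ≠ 0 := by omega
  obtain ⟨hU, hpolesU, hzerosU, hpolesj, hinfj, hinfU, hzeroj, hzeroU⟩ := hCD p hp hp'
  obtain ⟨-, -, -, hpc, hc0⟩ := hC p hp hp'
  obtain ⟨x, hxj, hxU⟩ := hA p hp hp2 hU W hΔ Q hQord
  -- the valuations at `B`
  obtain ⟨hj0B, hΔB⟩ := mzb_el_j0_val hs hB hΔ hsΔ hsc₄
  have hU0B := mzb_el_val_in hp hQord hs hsp hB hΔ hp2 hin
  have hvj0 : 1 < B.valuation (mzb_el_j0 W) := mzb_fin_one_lt_of_mul_eq_one hj0B hΔB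
  have hvU0 : 1 < B.valuation (mzb_el_U0 W p Q) :=
    mzb_fin_one_lt_of_mul_eq_one hU0B (pow_lt_one' hΔB hp1)
  refine ⟨x, ?_, fun h => mzb_dc_dir1 hU h hpolesU hvU0 hxU, ?_⟩
  · -- Galois-fixedness
    intro σ
    have hsNp : ¬ s ∣ p := fun h => hsp ((Nat.prime_dvd_prime_iff_eq hs hp).mp h)
    have hE : ReductionInputsModL B p := rpw_nodeE p s hs hsNp B hB
    have hne : placeReductionModL hE (C p).zero ≠ placeReductionModL hE (C p).inf := by
      intro heq
      have h0 : reductionModL B p (mzt_c p (C p)) = 0 :=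
        mzt_red_cls_eq_zero p hE (C p).zero (C p).inf heq
      have : Fact s.Prime := ⟨hs⟩
      set c := mzt_c p (C p) with hcdef
      set n := addOrderOf c with hndef
      -- `n > 0`
      have hn0 : 0 < n := by
        have hdvd : n ∣ p - 1 := addOrderOf_dvd_of_nsmul_eq_zero hpc
        exact Nat.pos_of_dvd_of_pos hdvd (by omega)
      -- `c' = (n / r) • c` has order `r`
      obtain ⟨d, hd⟩ := hrc
      have hd0 : 0 < d := by
        rcases Nat.eq_zero_or_pos d with h | h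
        · rw [h, mul_zero] at hd; omega
        · exact h
      have hc'ne : d • c ≠ 0 := by
        intro h
        have h1 : n ∣ d := addOrderOf_dvd_of_nsmul_eq_zero h
        have h2 : n ≤ d := Nat.le_of_dvd hd0 h1
        have h3 : d < r * d := by
          have := hr.two_le
          nlinarith
        omega
      have hc'r : r • (d • c) = 0 := by
        rw [← mul_smul, ← hd]
        exact addOrderOf_nsmul_eq_zero c
      have hc'red : reductionModL B p (d • c) = 0 := by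
        rw [map_nsmul, h0, smul_zero]
      have hsr' : ¬ s ∣ r := fun h => hsr ((Nat.prime_dvd_prime_iff_eq hs hr).mp h)
      exact hc'ne (Fermat.Agent.S18.result p hsNp B hB hE r hsr' _ hc'r hc'red)
    have hσj0 : σ (mzb_el_j0 W) = mzb_el_j0 W := by
      rw [← mzb_el_j0_rational, σ.commutes]
    have hσU0 : σ (mzb_el_U0 W p Q) = mzb_el_U0 W p Q :=
      mzj_mr_U0_stable W hp Q hQord hQstab σ
    have hgj : 0 < (arithmeticGalois (modularFunctionFieldFull p) σ • x).ord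
        (mzb_jB p - algebraMap Qbar (modularFunctionFieldBar p) (mzb_el_j0 W)) := by
      rw [mzb_fin_ord_smul_sub σ x _ _ (mzb_fin_smul_jB σ) hσj0]; exact hxj
    have hgU : 0 < (arithmeticGalois (modularFunctionFieldFull p) σ • x).ord
        (mzb_UB p hU - algebraMap Qbar (modularFunctionFieldBar p) (mzb_el_U0 W p Q)) := by
      rw [mzb_fin_ord_smul_sub σ x _ _ (mzb_fin_smul_UB hU σ) hσU0]; exact hxU
    exact mzb_dc_unique hE hpolesj hinfj hne hvj0 hgj hxj
      (mzb_dc_dir1 hU hE hpolesU hvU0 hgU) (mzb_dc_dir1 hU hE hpolesU hvU0 hxU)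
  · -- the dictionary at `A ∣ ℓ`, `Q ∉ E⁰(A)`
    intro ℓ hℓ hℓp hℓΔ hℓc₄ A hAℓ hout h
    obtain ⟨hj0A, hΔA⟩ := mzb_el_j0_val hℓ hAℓ hΔ hℓΔ hℓc₄
    have hU0A := mzb_el_val_out hp hQord hℓ hℓp hAℓ hΔ hout
    by_cases hU0 : mzb_el_U0 W p Q = 0
    · have hx0 : x = (C p).zero := hzerosU x (by rwa [hU0, map_zero, sub_zero] at hxU)
      rw [hx0]
    · have hj0ne : mzb_el_j0 W ≠ 0 := by
        intro h0
        rw [h0, map_zero, zero_mul] at hj0A
        exact zero_ne_one hj0A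
      have hvΔ : A.valuation ((W.Δ : ℤ) : Qbar) = (A.valuation (mzb_el_j0 W))⁻¹ :=
        eq_inv_of_mul_eq_one_right hj0A
      set c0 : Qbar := mzb_el_U0 W p Q * ((mzb_el_j0 W)⁻¹) ^ (p - 1) with hc0def
      have hc0ne : c0 ≠ 0 := mul_ne_zero hU0 (pow_ne_zero _ (inv_ne_zero hj0ne))
      have hvc0 : A.valuation c0 < 1 := by
        rw [hc0def, map_mul, map_pow, map_inv₀, ← hvΔ]
        exact hU0A
      -- the value of `g` at `x`
      have hval : rp_HasValue x (mzb_gB hU) c0 :=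
        (mzb_dc_hasValue_of_ord_pos x hxU).mul
          (mzb_dc_hasValue_pow x ((mzb_dc_hasValue_of_ord_pos x hxj).inv hj0ne) (p - 1))
      -- orders of `g`
      have hordg : ∀ P : Place Qbar (modularFunctionFieldBar p),
          P.ord (mzb_gB hU) = P.ord (mzb_UB p hU) - ((p - 1 : ℕ) : ℤ) * P.ord (mzb_jB p) := by
        intro P
        unfold mzb_gB
        rw [P.ord_mul (mzb_dc_UB_ne_zero hU) (pow_ne_zero _ (inv_ne_zero mzb_dc_jB_ne_zero)),
          mzb_fin_ord_pow, P.ord_inv]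
        ring
      have hp1' : (0 : ℤ) < ((p - 1 : ℕ) : ℤ) := by omega
      have hcast : ((p - 1 : ℕ) : ℤ) = (p : ℤ) - 1 := by omega
      have hzero_g : 0 < (C p).zero.ord (mzb_gB hU) := by
        rw [hordg]
        have := mul_neg_of_pos_of_neg hp1' hzeroj
        omega
      have hgne : mzb_gB hU - algebraMap Qbar (modularFunctionFieldBar p) c0 ≠ 0 := by
        intro h0
        rw [sub_eq_zero.mp h0, hw_ord_algebraMap] at hzero_g
        exact lt_irrefl _ hzero_g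
      have hxg := mzb_dc_ord_pos_of_hasValue x hval hgne
      have hzeros_g : ∀ P : Place Qbar (modularFunctionFieldBar p),
          0 < P.ord (mzb_gB hU) → P = (C p).zero := by
        intro P hP
        by_contra hPz
        have h1 : ¬ 0 < P.ord (mzb_UB p hU) := fun h => hPz (hzerosU P h)
        rw [hordg] at hP
        have h2 : P.ord (mzb_jB p) < 0 := by
          by_contra hge
          rw [not_lt] at hge
          have := mul_nonneg hp1'.le hge
          omega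
        rcases hpolesj P h2 with rfl | rfl
        · rw [hinfj, hinfU, hcast] at hP
          omega
        · exact hPz rfl
      exact mzb_dc_dir2 hU h hzeros_g hc0ne hvc0 hxg

end MirrorAB

/-! ### the mirrored S15 -/

section MirrorTop

set_option maxHeartbeats 800000

/-- **The mirrored S15, from the seams.**  A point `Q` of order `p` generating a `G_ℚ`-stable
subgroup, lying in the identity component at the multiplicative primes `2` and `3`, lies in the
identity component at every multiplicative prime `ℓ ≠ p` with `ℓ ∤ p - 1`. -/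
theorem mzj_mr_S15star (C : ∀ p : ℕ, mzt_Cusps p)
    (hC : mzt_C_stmt C) (hA : mza_stmt) (hCD : mzb_CD_stmt C) (hRH : mzt_RHw_stmt)
    (hF : mzt_F_stmt C)
    {p : ℕ} (hp : p.Prime) (hp' : p ∉ ({2, 3, 5, 7, 13} : Finset ℕ))
    (W : WeierstrassCurve ℤ) (hΔ : W.Δ ≠ 0)
    (Q : mzb_el_E W)
    (hQstab : ∀ σ : GQ, ∃ k : ℕ, σ • Q = k • Q)
    (hQord : addOrderOf Q = p)
    (h2Δ : (2 : ℤ) ∣ W.Δ) (h2c₄ : ¬ (2 : ℤ) ∣ W.c₄)
    (h2 : ∀ A : ValuationSubring Qbar, A.LiesOverPrime 2 → W.InZeroComponentAt A Q)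
    (h3Δ : (3 : ℤ) ∣ W.Δ) (h3c₄ : ¬ (3 : ℤ) ∣ W.c₄)
    (h3 : ∀ A : ValuationSubring Qbar, A.LiesOverPrime 3 → W.InZeroComponentAt A Q)
    {ℓ : ℕ} (hℓ : ℓ.Prime) (hℓp : ℓ ≠ p) (hℓΔ : (ℓ : ℤ) ∣ W.Δ) (hℓc₄ : ¬ (ℓ : ℤ) ∣ W.c₄)
    (hℓp1 : ¬ ℓ ∣ p - 1)
    (A : ValuationSubring Qbar) (hAℓ : A.LiesOverPrime ℓ) :
    W.InZeroComponentAt A Q := by
  by_contra hout
  have : NeZero p := ⟨hp.ne_zero⟩
  -- `p ≥ 11`
  have hp11 : 11 ≤ p := by
    have h2 := hp.two_le
    have hp'' := hp'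
    simp only [Finset.mem_insert, Finset.mem_singleton, not_or] at hp''
    obtain ⟨n2, n3, n5, n7, n13⟩ := hp''
    by_contra hlt
    push Not at hlt
    interval_cases p <;> first | omega | (exact absurd hp (by decide))
  -- the cuspidal class
  obtain ⟨hz, hi, hEis, hpc, hc0⟩ := hC p hp hp'
  set c := mzt_c p (C p) with hcdef
  -- the prime `r`
  have hord1 : addOrderOf c ≠ 1 := fun h => hc0 (AddMonoid.addOrderOf_eq_one_iff.mp h)
  set r := (addOrderOf c).minFac with hrdef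
  have hr : r.Prime := Nat.minFac_prime hord1
  have hrc : r ∣ addOrderOf c := Nat.minFac_dvd _
  -- the auxiliary prime `s ∈ {2, 3}`, `s ≠ r`, with `Q ∈ E⁰` at `s`
  obtain ⟨s, hs, hsr, hsp, hsΔ, hsc₄, hsQ⟩ : ∃ s : ℕ, s.Prime ∧ s ≠ r ∧ s ≠ p ∧ (s : ℤ) ∣ W.Δ ∧
      ¬ (s : ℤ) ∣ W.c₄ ∧ ∀ B : ValuationSubring Qbar, B.LiesOverPrime s →
        W.InZeroComponentAt B Q := by
    by_cases hr2 : r = 2
    · exact ⟨3, Nat.prime_three, by omega, by omega, by exact_mod_cast h3Δ,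
        by exact_mod_cast h3c₄, h3⟩
    · exact ⟨2, Nat.prime_two, fun h => hr2 h.symm, by omega, by exact_mod_cast h2Δ,
        by exact_mod_cast h2c₄, h2⟩
  obtain ⟨B, hB⟩ := mzt_exists_place s hs
  have hsNp : ¬ s ∣ p := fun h => hsp ((Nat.prime_dvd_prime_iff_eq hs hp).mp h)
  have hℓNp : ¬ ℓ ∣ p := fun h => hℓp ((Nat.prime_dvd_prime_iff_eq hℓ hp).mp h)
  have hEs : ReductionInputsModL B p := Fermat.Agent.JT3.rpw_nodeE p s hs hsNp B hB
  have hEℓ : ReductionInputsModL A p := Fermat.Agent.JT3.rpw_nodeE p ℓ hℓ hℓNp A hAℓ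
  -- the modular point
  obtain ⟨x, hxfix, hxs, hx⟩ := mzj_mr_AB C hA hCD hC p hp hp' W hΔ Q hQstab hQord r hr hrc
    s hs hsp hsr hsΔ hsc₄ B hB (hsQ B hB)
  -- the point `P = cl((x) - (∞))` and the class `c* = -c = cl((∞) - (0))`
  set P := mzt_cls p x (C p).inf with hPdef
  set c' := mzt_cls p (C p).inf (C p).zero with hc'def
  have hcc' : c + c' = 0 := by
    rw [hcdef, hc'def, mzt_c, mzt_cls_add]
    unfold mzt_cls
    have : mzt_diff p (C p).zero (C p).zero = 0 := by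
      apply Subtype.ext
      show Finsupp.single (C p).zero (1 : ℤ) - Finsupp.single (C p).zero 1 = 0
      rw [sub_self]
    rw [this]
    exact QuotientAddGroup.mk_zero _
  have hc'eq : c' = -c := by
    rw [eq_neg_iff_add_eq_zero, add_comm]; exact hcc'
  have hPfix : ∀ σ : GQ, σ • P = P := mzt_cls_fixed p x (C p).inf hxfix hi
  have hPs : reductionModL B p P = 0 :=
    mzt_red_cls_eq_zero p hEs x (C p).inf (hxs hEs)
  have hPℓ : reductionModL A p (P + c') = 0 := by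
    rw [hPdef, hc'def, mzt_cls_add]
    exact mzt_red_cls_eq_zero p hEℓ x (C p).zero (hx ℓ hℓ hℓp hℓΔ hℓc₄ A hAℓ hout hEℓ)
  have : Fact s.Prime := ⟨hs⟩
  have : Fact ℓ.Prime := ⟨hℓ⟩
  -- the operator `t`, avoiding `T_s` and `T_ℓ`
  obtain ⟨t, j, b, ht, htc, htM⟩ := hF p hp hp' r hr hrc {s, ℓ}
  have htc' : t c' = ((1 : ℤ) + (r : ℤ) * b) • c' := by
    rw [hc'eq, map_neg, zsmul_neg, neg_inj]
    exact htc
  have hpc' : (p - 1) • c' = 0 := by
    rw [hc'eq, neg_nsmul, hpc, neg_zero]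
  have hrc' : r ∣ addOrderOf c' := by
    rw [hc'eq, addOrderOf_neg]; exact hrc
  set Ks := mzt_primaryKer (reductionModL B p) s with hKs
  set Kl := mzt_primaryKer (reductionModL A p) ℓ with hKl
  refine mzt_abs (mzt_T p {s, ℓ}) (QuotientAddGroup.mk' Ks) (QuotientAddGroup.mk' Kl) ?_ ?_ r hr ?_
    ℓ ?_ c' (p - 1) hpc' hℓp1 hrc' t ht j b htc' P (htM P hPfix) ?_ ?_
  · intro i y hy
    rw [QuotientAddGroup.mk'_apply, QuotientAddGroup.eq_zero_iff] at hy ⊢
    have hi1 : ¬ ((i.1 : Nat.Primes) : ℕ) ∣ p :=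
      fun h => i.2.1 ((Nat.prime_dvd_prime_iff_eq i.1.2 hp).mp h)
    have hi2 : ((i.1 : Nat.Primes) : ℕ) ≠ s := fun h => i.2.2 (by rw [h]; simp)
    exact mzt_primaryKer_stable _ s _ (fun z hz => hRH p s hs hsNp i.1 hi1 hi2 B hB z hz) y hy
  · intro i y hy
    rw [QuotientAddGroup.mk'_apply, QuotientAddGroup.eq_zero_iff] at hy ⊢
    have hi1 : ¬ ((i.1 : Nat.Primes) : ℕ) ∣ p :=
      fun h => i.2.1 ((Nat.prime_dvd_prime_iff_eq i.1.2 hp).mp h)
    have hi2 : ((i.1 : Nat.Primes) : ℕ) ≠ ℓ := fun h => i.2.2 (by rw [h]; simp)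
    exact mzt_primaryKer_stable _ ℓ _ (fun z hz => hRH p ℓ hℓ hℓNp i.1 hi1 hi2 A hAℓ z hz) y hy
  · rintro z ⟨n, hn⟩ hz0
    rw [QuotientAddGroup.mk'_apply, QuotientAddGroup.eq_zero_iff] at hz0
    have hsr' : ¬ s ∣ r ^ n :=
      fun h => hsr ((Nat.prime_dvd_prime_iff_eq hs hr).mp (hs.dvd_of_dvd_pow h))
    exact Fermat.Agent.S18.result p hsNp B hB hEs (r ^ n) hsr' z hn
      (mzt_primaryKer_tors _ hs hsr' hn hz0)
  · intro m hm z hmz hz0
    rw [QuotientAddGroup.mk'_apply, QuotientAddGroup.eq_zero_iff] at hz0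
    exact Fermat.Agent.S18.result p hℓNp A hAℓ hEℓ m hm z hmz
      (mzt_primaryKer_tors _ hℓ hm hmz hz0)
  · rw [QuotientAddGroup.mk'_apply, QuotientAddGroup.eq_zero_iff]
    exact mzt_primaryKer_of_ker hPs
  · rw [QuotientAddGroup.mk'_apply, QuotientAddGroup.eq_zero_iff]
    exact mzt_primaryKer_of_ker hPℓ

end MirrorTop

end Fermat.Agent.MZ
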