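/-
MAZUR project, node [MZ-J], cell [J-QUOT]: GENERATOR FORM OF THE VELU SEAM
(referee helper25, prefix `mzj_qs_`).

THE seam of [J-QUOT] is helper21's `mzj_Velu_stmt` in `MZ/J/SeamsQ.lean` (kernel form: `N` a
Galois-stable subgroup of order `p`).  This file adds, for the suppliers,

* `mzj_qs_Data E N` : the conclusion of `mzj_Velu_stmt`, verbatim, as a `Prop` of its own;
* `mzj_qs_Velu_iff` : `mzj_Velu_stmt` is `∀ E N p …, mzj_qs_Data E N` (by `Iff.rfl`);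
* `mzj_qs_gen_stmt` : the GENERATOR FORM (`N = zmultiples Q`, `addOrderOf Q = p`,
  `σ • Q ∈ zmultiples Q`), which is what the analytic route produces;
* `mzj_qs_of_gen : mzj_qs_gen_stmt → mzj_Velu_stmt` (proved: a supplier may close either one).

Referee check of the normalisation of `mzj_Velu_stmt` against Vélu (1971): with
`t_Q = 6x_Q² + b₂x_Q + b₄`, `u_Q = 4x_Q³ + b₂x_Q² + 2b₄x_Q + b₆`, sums over a half-system of
`N ∖ 0` (= over the set `S` of `x`-coordinates), `a₄' = a₄ - 5 ∑ t`, `a₆' = a₆ - b₂ ∑ t - 7 ∑ (u + x t)`,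
`X = x + ∑ (t/(x - x_Q) + u/(x - x_Q)²)`.  Numerically: `11a3 / ⟨(0,0)⟩`: `S = {0, 1}`, `∑ t = 2`,
`∑ (u + ξ t) = 4`, `(a₄', a₆') = (-10, -20)` = `11a1`, and Vélu's `(X, Y)` satisfies the equation
of `E'` to `1e-15` at a random complex point.  Short form (`b₂ = 0`): `∑_S t = ∑_{N∖0} (3x² + a₄)`,
`∑_S (u + ξ t) = ∑_{N∖0} (5x³ + 3a₄x + 2a₆)`, matching `mzj_av_g₂`, `mzj_av_g₃` of `MZ/J/An/Coeff.lean`.
-/
import Mathlib
import Fermat.Agent.MZ.J.SeamsQ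

set_option autoImplicit false

noncomputable section

namespace Fermat.Agent.MZ

open WeierstrassCurve WeierstrassCurve.Affine Fermat.Agent.S58

/-- the conclusion of `mzj_Velu_stmt` (`MZ/J/SeamsQ.lean`), verbatim -/
def mzj_qs_Data (E : WeierstrassCurve ℚ) (N : AddSubgroup (E⁄s58_Qb).Point) : Prop :=
  ∃ (E' : WeierstrassCurve ℚ) (φ : (E⁄s58_Qb).Point →+ (E'⁄s58_Qb).Point)
    (S : Finset s58_Qb),
    E'.Δ ≠ 0 ∧ Function.Surjective φ ∧ φ.ker = N ∧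
    (∀ (σ : s58_G) (x : (E⁄s58_Qb).Point), φ (σ • x) = σ • φ x) ∧
    (∀ ξ : s58_Qb, ξ ∈ S ↔
      ∃ (y : s58_Qb) (h : (E⁄s58_Qb).Nonsingular ξ y), Point.some ξ y h ∈ N) ∧
    E'.a₁ = E.a₁ ∧ E'.a₂ = E.a₂ ∧ E'.a₃ = E.a₃ ∧
    algebraMap ℚ s58_Qb E'.a₄ = algebraMap ℚ s58_Qb E.a₄ - 5 * ∑ ξ ∈ S, mzj_vt E ξ ∧
    algebraMap ℚ s58_Qb E'.a₆ = algebraMap ℚ s58_Qb E.a₆
      - algebraMap ℚ s58_Qb E.b₂ * ∑ ξ ∈ S, mzj_vt E ξ
      - 7 * ∑ ξ ∈ S, (mzj_vu E ξ + ξ * mzj_vt E ξ) ∧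
    ∀ (x y : s58_Qb) (h : (E⁄s58_Qb).Nonsingular x y), Point.some x y h ∉ N →
      ∃ (Y : s58_Qb) (h' : (E'⁄s58_Qb).Nonsingular
          (x + ∑ ξ ∈ S, (mzj_vt E ξ / (x - ξ) + mzj_vu E ξ / (x - ξ) ^ 2)) Y),
        φ (Point.some x y h) = Point.some _ Y h'

/-- `mzj_Velu_stmt`, with its conclusion named -/
theorem mzj_qs_Velu_iff : mzj_Velu_stmt ↔
    ∀ (E : WeierstrassCurve ℚ), E.Δ ≠ 0 → ∀ {p : ℕ}, p.Prime → p ≠ 2 →
      ∀ N : AddSubgroup (E⁄s58_Qb).Point, Nat.card N = p →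
        (∀ σ : s58_G, ∀ x ∈ N, σ • x ∈ N) → mzj_qs_Data E N :=
  Iff.rfl

/-- [J-QUOT], generator form -/
def mzj_qs_gen_stmt : Prop :=
  ∀ (E : WeierstrassCurve ℚ), E.Δ ≠ 0 → ∀ {p : ℕ}, p.Prime → p ≠ 2 →
    ∀ Q : (E⁄s58_Qb).Point, addOrderOf Q = p →
      (∀ σ : s58_G, σ • Q ∈ AddSubgroup.zmultiples Q) →
      mzj_qs_Data E (AddSubgroup.zmultiples Q)

theorem mzj_qs_of_gen (h : mzj_qs_gen_stmt) : mzj_Velu_stmt := by
  rw [mzj_qs_Velu_iff]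
  intro E hΔ p hp hp2 N hN hst
  have : Finite N := Nat.finite_of_card_ne_zero (by rw [hN]; exact hp.ne_zero)
  -- a generator
  obtain ⟨g, hg⟩ : ∃ g : N, g ≠ 0 := by
    have : Nontrivial N := by
      rw [← Finite.one_lt_card_iff_nontrivial, hN]; exact hp.one_lt
    exact exists_ne 0
  have hord : addOrderOf g = p := by
    have h1 : addOrderOf g ∣ p := hN ▸ addOrderOf_dvd_natCard g
    rcases (Nat.dvd_prime hp).1 h1 with h0 | h0
    · exact absurd (AddMonoid.addOrderOf_eq_one_iff.1 h0) hg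
    · exact h0
  have hord' : addOrderOf (g : (E⁄s58_Qb).Point) = p := by
    rw [← hord]; exact (AddSubgroup.addOrderOf_coe g)
  have hNz : AddSubgroup.zmultiples (g : (E⁄s58_Qb).Point) = N := by
    apply AddSubgroup.eq_of_le_of_card_ge
    · exact AddSubgroup.zmultiples_le_of_mem g.2
    · rw [hN, Nat.card_zmultiples, hord']
  have := h E hΔ hp hp2 (g : (E⁄s58_Qb).Point) hord'
    (fun σ => by rw [hNz]; exact hst σ _ g.2)
  rwa [hNz] at this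

end Fermat.Agent.MZ
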