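/-
Project MAZUR, node [MZ-J] (S12 from S15), cell [J-S14] (helper17): S14 (`ExtVanishingCts p`) applied
to `V = W[p]` in SUBGROUP language: `theorem mzj_sa_main : mzj_S14App_stmt`.

`V := Submodule.torsionBy ℤ (s58_E W) p` with the Prelude instances (`instModuleZModTorsionBy`,
`instDistribMulActionTorsionBy`, `instSMulCommClassAlgEquivZModTorsionBy`); `#V = p²` from
`ld_natCard_torsionBy` (S13); subgroups of `W(ℚ̄)` inside the `p`-torsion ⟷ submodules of `V`
(`mzj_sa_up`, `mzj_sa_down`); local complements from `mzj_ln_decomp` (MZ/J/Lines); the kernel of the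
action is open by `g1_isOpen_of_finset` on the coordinates (`mzj_fx_coords`, MZ/J/Fix); then
`Fermat.Agent.S14.result`.
Prefix `mzj_sa_`.
-/
import Mathlib
import Fermat.Agent.MZ.J.SeamsS
import Fermat.Agent.MZ.J.Lines
import Fermat.Agent.MZ.J.Fix
import Fermat.Agent.S13.Ladder.Torsion
import Fermat.Agent.S14
import Fermat.Prelude.Def_EllipticCurve_FrobeniusTrace

set_option autoImplicit false
set_option linter.style.haveILetI false
set_option linter.unusedSectionVars false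

noncomputable section

namespace Fermat.Agent.MZ

open WeierstrassCurve WeierstrassCurve.Affine WeierstrassCurve.Affine.Point
  Fermat.Agent.S58 Fermat.Agent.S13

variable (W : WeierstrassCurve ℤ) (p : ℕ) [Fact p.Prime]

/-- `V = W[p]` as a `ZMod p`-module with Galois action (Prelude instances). -/
abbrev mzj_sa_V : Type := ↥(Submodule.torsionBy ℤ (s58_E W) p)

variable {W p}

theorem mzj_sa_mem_V {x : s58_E W} :
    x ∈ Submodule.torsionBy ℤ (s58_E W) p ↔ p • x = 0 := by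
  rw [Submodule.mem_torsionBy_iff, natCast_zsmul]

theorem mzj_sa_V_tors (v : mzj_sa_V W p) : p • (v : s58_E W) = 0 :=
  mzj_sa_mem_V.mp v.2

/-- the scalar action of `ZMod p` on `V` through representatives -/
theorem mzj_sa_natCast_smul (n : ℕ) (v : mzj_sa_V W p) :
    (((n : ZMod p) • v : mzj_sa_V W p) : s58_E W) = n • (v : s58_E W) := by
  rw [Nat.cast_smul_eq_nsmul]
  rfl

theorem mzj_sa_zmod_smul (a : ZMod p) (v : mzj_sa_V W p) :
    ((a • v : mzj_sa_V W p) : s58_E W) = a.val • (v : s58_E W) := by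
  conv_lhs => rw [← ZMod.natCast_zmod_val a]
  exact mzj_sa_natCast_smul a.val v

theorem mzj_sa_smul_coe (σ : s58_G) (v : mzj_sa_V W p) :
    ((σ • v : mzj_sa_V W p) : s58_E W) = σ • (v : s58_E W) := rfl

/-- a subgroup of `W(ℚ̄)`, read as a submodule of `V` -/
def mzj_sa_up (C : AddSubgroup (s58_E W)) : Submodule (ZMod p) (mzj_sa_V W p) where
  carrier := {v | (v : s58_E W) ∈ C}
  zero_mem' := C.zero_mem
  add_mem' := fun {a b} ha hb => C.add_mem ha hb
  smul_mem' := fun a v hv => by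
    show ((a • v : mzj_sa_V W p) : s58_E W) ∈ C
    rw [mzj_sa_zmod_smul]
    exact C.nsmul_mem hv _

theorem mzj_sa_mem_up {C : AddSubgroup (s58_E W)} {v : mzj_sa_V W p} :
    v ∈ mzj_sa_up (p := p) C ↔ (v : s58_E W) ∈ C := Iff.rfl

/-- a submodule of `V`, read as a subgroup of `W(ℚ̄)` -/
def mzj_sa_down (M : Submodule (ZMod p) (mzj_sa_V W p)) : AddSubgroup (s58_E W) where
  carrier := {x | ∃ h : x ∈ Submodule.torsionBy ℤ (s58_E W) p, (⟨x, h⟩ : mzj_sa_V W p) ∈ M}
  zero_mem' := ⟨Submodule.zero_mem _, M.zero_mem⟩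
  add_mem' := by
    rintro a b ⟨ha, ha'⟩ ⟨hb, hb'⟩
    exact ⟨Submodule.add_mem _ ha hb, M.add_mem ha' hb'⟩
  neg_mem' := by
    rintro a ⟨ha, ha'⟩
    exact ⟨Submodule.neg_mem _ ha, M.neg_mem ha'⟩

theorem mzj_sa_mem_down {M : Submodule (ZMod p) (mzj_sa_V W p)} {x : s58_E W} :
    x ∈ mzj_sa_down M ↔ ∃ h : x ∈ Submodule.torsionBy ℤ (s58_E W) p,
      (⟨x, h⟩ : mzj_sa_V W p) ∈ M := Iff.rfl

theorem mzj_sa_card_up (C : AddSubgroup (s58_E W)) (hC : ∀ x ∈ C, p • x = 0) :
    Nat.card ↥(mzj_sa_up (p := p) C) = Nat.card C := by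
  refine Nat.card_congr
    { toFun := fun v => ⟨(v.1 : s58_E W), v.2⟩
      invFun := fun c => ⟨⟨c.1, mzj_sa_mem_V.mpr (hC c.1 c.2)⟩, c.2⟩
      left_inv := fun v => rfl
      right_inv := fun c => rfl }

theorem mzj_sa_card_down (M : Submodule (ZMod p) (mzj_sa_V W p)) :
    Nat.card ↥(mzj_sa_down M) = Nat.card M := by
  refine Nat.card_congr
    { toFun := fun x => ⟨⟨x.1, x.2.1⟩, x.2.2⟩
      invFun := fun v => ⟨(v.1 : s58_E W), v.1.2, v.2⟩
      left_inv := fun x => rfl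
      right_inv := fun v => rfl }

/-- `#W[p] = p²` in the elementary subtype form -/
theorem mzj_sa_card_tors (hΔ : W.Δ ≠ 0) (hp2 : p ≠ 2) :
    Nat.card {x : s58_E W // p • x = 0} = p ^ 2 := by
  have hp : p.Prime := Fact.out
  have hΔ' : ((s58_WQ W)⁄s58_Qb).Δ ≠ 0 := by
    show ((W.map (Int.castRingHom ℚ)).map (algebraMap ℚ s58_Qb)).Δ ≠ 0
    rw [WeierstrassCurve.map_Δ, WeierstrassCurve.map_Δ]
    simpa using hΔ
  rw [← ld_natCard_torsionBy (s58_WQ W) hΔ' (hp.odd_of_ne_two hp2)]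
  exact Nat.card_congr (Equiv.subtypeEquivRight fun x => mzj_sa_mem_V.symm)

/-- the kernel of the Galois action on `V` is open -/
theorem mzj_sa_open (hΔ : W.Δ ≠ 0) (hp2 : p ≠ 2) :
    IsOpen {σ : s58_G | ∀ v : mzj_sa_V W p, σ • v = v} := by
  classical
  have hp : p.Prime := Fact.out
  haveI : Finite {x : s58_E W // p • x = 0} :=
    Nat.finite_of_card_ne_zero (by
      rw [mzj_sa_card_tors hΔ hp2]; exact pow_ne_zero 2 hp.ne_zero)
  have hfin : {x : s58_E W | p • x = 0}.Finite := Set.finite_coe_iff.mp ‹_›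
  let N : Subgroup s58_G :=
    { carrier := {σ | ∀ v : mzj_sa_V W p, σ • v = v}
      mul_mem' := fun {a b} ha hb v => by rw [mul_smul, hb v, ha v]
      one_mem' := fun v => one_smul _ v
      inv_mem' := fun {a} ha v => by
        rw [inv_smul_eq_iff]
        exact (ha v).symm }
  show IsOpen (N : Set s58_G)
  refine g1_isOpen_of_finset (hfin.toFinset.biUnion (mzj_fx_coords W)) N fun σ hσ v => ?_
  apply Subtype.ext
  rw [mzj_sa_smul_coe]
  refine mzj_fx_smul_of_coords W σ _ fun z hz => hσ z ?_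
  rw [Finset.mem_biUnion]
  exact ⟨(v : s58_E W), hfin.mem_toFinset.mpr (mzj_sa_V_tors v), hz⟩

/-- **[J-S14]**: S14 in subgroup language. -/
theorem mzj_sa_main : mzj_S14App_stmt := by
  intro W hΔ p _ h3 C hCt hCc hCfix hquot hunr hloc
  have hp : p.Prime := Fact.out
  have hp2 : p ≠ 2 := by omega
  have hcard := mzj_sa_card_tors (W := W) (p := p) hΔ hp2
  -- the admissible extension
  have hadm : ExtCitation.IsAdmissibleExtensionCts p (mzj_sa_V W p) (mzj_sa_up C) := by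
    refine { stable := ?_, fixed_sub := ?_, cyclo_quot := ?_, card_sub := ?_, card_total := ?_,
             unramified_outside := ?_, locally_split := ?_, open_kernel := mzj_sa_open hΔ hp2 }
    · intro σ x hx
      rw [mzj_sa_mem_up, mzj_sa_smul_coe, hCfix σ _ hx]
      exact hx
    · intro σ x hx
      exact Subtype.ext (hCfix σ _ hx)
    · intro σ x
      rw [mzj_sa_mem_up]
      show (σ • x : mzj_sa_V W p).1 - ((ExtCitation.cycloExp p σ : ZMod p) • x : mzj_sa_V W p).1 ∈ C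
      rw [mzj_sa_natCast_smul, mzj_sa_smul_coe]
      exact hquot σ _ (mzj_sa_V_tors x)
    · rw [mzj_sa_card_up C hCt, hCc]
    · rw [← hcard]
      exact Nat.card_congr (Equiv.subtypeEquivRight fun x => mzj_sa_mem_V)
    · intro ℓ hℓ hℓp A hA σ hσ x
      exact Subtype.ext (hunr ℓ hℓ hℓp A hA σ hσ _ (mzj_sa_V_tors x))
    · intro A hA
      obtain ⟨C', hC't, hC'c, hC'st, hCC'⟩ := hloc A hA
      refine ⟨mzj_sa_up C', fun σ hσ x hx => hC'st σ hσ _ hx, ?_, ?_⟩
      · rw [disjoint_iff, eq_bot_iff]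
        intro v hv
        have h1 : (v : s58_E W) ∈ C ⊓ C' := ⟨hv.1, hv.2⟩
        rw [hCC', AddSubgroup.mem_bot] at h1
        rw [Submodule.mem_bot]
        exact Subtype.ext h1
      · rw [codisjoint_iff, eq_top_iff]
        intro v _
        obtain ⟨c, hc, c', hc', hv⟩ := mzj_ln_decomp hp hcard C C' hCt hC't hCc hC'c hCC'
          (v : s58_E W) (mzj_sa_V_tors v)
        have e : v = (⟨c, mzj_sa_mem_V.mpr (hCt c hc)⟩ : mzj_sa_V W p) +
            (⟨c', mzj_sa_mem_V.mpr (hC't c' hc')⟩ : mzj_sa_V W p) := Subtype.ext hv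
        rw [e]
        exact Submodule.add_mem_sup (show (⟨c, _⟩ : mzj_sa_V W p) ∈ mzj_sa_up C from hc)
          (show (⟨c', _⟩ : mzj_sa_V W p) ∈ mzj_sa_up C' from hc')
  obtain ⟨M', hM'st, hM'c⟩ := Fermat.Agent.S14.result h3 (mzj_sa_V W p) (mzj_sa_up C) hadm
  refine ⟨mzj_sa_down M', ?_, ?_, ?_, ?_⟩
  · rintro x ⟨hx, _⟩
    exact mzj_sa_mem_V.mp hx
  · -- `#M' = p`: `#V = #C · #M'`
    rw [mzj_sa_card_down]
    have hV : Nat.card (mzj_sa_V W p) = p ^ 2 := by
      rw [← hcard]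
      exact Nat.card_congr (Equiv.subtypeEquivRight fun x => mzj_sa_mem_V)
    have hCu : Nat.card ↥(mzj_sa_up (p := p) C) = p := by rw [mzj_sa_card_up C hCt, hCc]
    have hprod : Nat.card ↥(mzj_sa_up (p := p) C) * Nat.card M' = Nat.card (mzj_sa_V W p) := by
      rw [← Nat.card_prod]
      exact Nat.card_congr (Submodule.prodEquivOfIsCompl _ _ hM'c).toEquiv
    rw [hCu, hV, sq] at hprod
    exact Nat.eq_of_mul_eq_mul_left hp.pos hprod
  · intro σ x hx
    obtain ⟨hx1, hx2⟩ := hx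
    exact ⟨smul_mem_torsionBy σ hx1, hM'st σ _ hx2⟩
  · rw [eq_bot_iff]
    rintro x ⟨hxC, hx1, hx2⟩
    have : (⟨x, hx1⟩ : mzj_sa_V W p) ∈ mzj_sa_up (p := p) C ⊓ M' := ⟨hxC, hx2⟩
    rw [hM'c.inf_eq_bot, Submodule.mem_bot] at this
    rw [AddSubgroup.mem_bot]
    exact congrArg Subtype.val this

end Fermat.Agent.MZ
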