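/-
MAZUR project, node [MZ-J]: **[J-QUOT] + [J-SS] CLOSED** (helper25, prefix `mzj_ss_`).

`mzj_ss_final : mzj_Quot_stmt` (the consumer seam of `MZ/J/Seams.lean`, hypothesis `hQuot` of
`mzj_top_S12`): the quotient of an integral Weierstrass model by a Galois-stable subgroup of prime
order `p ≥ 5` exists as an INTEGRAL model, with semistability inherited at every prime `ℓ ≠ p`.

* `mzj_ss_main` (`MZ/J/SS.lean`, helper25): the assembly;
* `mzj_ss_a_stmt` (`MZ/J/SS/CuspS.lean`, helper28): (SS-A) cusp;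
* `mzj_ss_c_main` (`MZ/J/SS/Many.lean`, helper28): (SS-C) many;
* `mzj_ss_i_rescale_main` (`MZ/J/SS/RescaleS.lean`, helper5): (SS-R) rescaling;
* `mzj_ds_velu` (`MZ/J/Ds/Main.lean`, helper29 + helper7 + helper2): [J-QUOT], analytic Vélu.
-/
import Fermat.Agent.MZ.J.SS
import Fermat.Agent.MZ.J.SS.CuspS
import Fermat.Agent.MZ.J.SS.Many
import Fermat.Agent.MZ.J.SS.RescaleS
import Fermat.Agent.MZ.J.Ds.Main

set_option autoImplicit false

namespace Fermat.Agent.MZ

/-- [J-SS] with all its sub-seams closed: Vélu ⟹ the consumer seam -/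
theorem mzj_ss_of_velu : mzj_Velu_stmt → mzj_Quot_stmt :=
  mzj_ss_main mzj_ss_a_stmt mzj_ss_c_main mzj_ss_i_rescale_main

/-- **[J-QUOT] + [J-SS]** -/
theorem mzj_ss_final : mzj_Quot_stmt := mzj_ss_of_velu mzj_ds_velu

end Fermat.Agent.MZ
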