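/-
MAZUR project, node [MZ-J], cell [J-SS], sub-seam (SS-R) [RESCALE] (helper25, prefix `mzj_ss_r_`):
the ADAPTER from helper5's `mzj_ss_i_rescale` (`MZ/J/SS/Int.lean`) to the Prop
`mzj_ss_Rescale_stmt` of `MZ/J/SSSeams.lean`.
-/
import Mathlib
import Fermat.Agent.MZ.J.SSSeams
import Fermat.Agent.MZ.J.SS.Int

set_option autoImplicit false

namespace Fermat.Agent.MZ

open WeierstrassCurve WeierstrassCurve.Affine Fermat.Agent.S58

/-- an element of `ℤ[1/p]` is `l`-integral for every prime `l ≠ p` -/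
theorem mzj_ss_r_padic {p : ℕ} (hp : p.Prime) {a : ℚ} {k : ℕ} (h : ∃ n : ℤ, a * (p : ℚ) ^ k = n)
    (l : ℕ) (hl : l.Prime) (hlp : l ≠ p) : 0 ≤ padicValRat l a := by
  obtain ⟨n, hn⟩ := h
  have : Fact l.Prime := ⟨hl⟩
  have : Fact p.Prime := ⟨hp⟩
  have hp0 : (p : ℚ) ≠ 0 := by exact_mod_cast hp.ne_zero
  have hpk : (p : ℚ) ^ k ≠ 0 := pow_ne_zero _ hp0
  rcases eq_or_ne a 0 with rfl | ha
  · simp
  have hn0 : (n : ℚ) ≠ 0 := by rw [← hn]; exact mul_ne_zero ha hpk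
  have h1 : padicValRat l ((n : ℤ) : ℚ) = padicValRat l a + padicValRat l ((p : ℚ) ^ k) := by
    rw [← hn]; exact padicValRat.mul ha hpk
  have h2 : padicValRat l ((p : ℚ) ^ k) = 0 := by
    rw [padicValRat.pow]
    have : padicValRat l (p : ℚ) = 0 := by
      rw [padicValRat.of_nat]
      exact_mod_cast padicValNat_primes hlp
    rw [this, mul_zero]
  rw [h2, add_zero] at h1
  rw [← h1, padicValRat.of_int]
  exact_mod_cast Nat.zero_le _

/-- **(SS-R)** -/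
theorem mzj_ss_r_main : mzj_ss_Rescale_stmt := by
  intro E' hΔ p hp k h1 h2 h3 h4 h6
  obtain ⟨j, W', e, hW'Δ, -, -, -, -, -, hΔ', hc4, heq, hX⟩ :=
    mzj_ss_i_rescale hp.ne_zero E' hΔ (mzj_ss_r_padic hp h1) (mzj_ss_r_padic hp h2)
      (mzj_ss_r_padic hp h3) (mzj_ss_r_padic hp h4) (mzj_ss_r_padic hp h6)
  refine ⟨W', j, e, hW'Δ, hc4, hΔ', heq, ?_⟩
  intro x y h
  obtain ⟨h', he⟩ := hX x y h
  exact ⟨_, h', he⟩

end Fermat.Agent.MZ
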