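/-
MAZUR project, node **[MZ-J]**, cell [J-STEP] (helper21).  Prefix `mzj_st_`.
Abstract group-theoretic helpers (Mathlib only).
-/
import Mathlib

set_option autoImplicit false

namespace Fermat.Agent.MZ

/-- counting the image of a subgroup containing the kernel -/
theorem mzj_st_card_map {G H : Type*} [AddCommGroup G] [AddCommGroup H] (f : G →+ H)
    (K : AddSubgroup G) (hK : f.ker ≤ K) :
    Nat.card (K.map f) * Nat.card f.ker = Nat.card K := by
  classical
  let g : K →+ H := f.comp K.subtype
  have h1 : Nat.card g.ker * g.ker.index = Nat.card K := AddSubgroup.card_mul_index g.ker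
  have h2 : g.ker.index = Nat.card g.range := AddSubgroup.index_ker g
  have h3 : g.range = K.map f := by
    ext y
    simp only [g, AddMonoidHom.mem_range, AddMonoidHom.coe_comp, Function.comp_apply,
      AddSubgroup.coe_subtype, AddSubgroup.mem_map, Subtype.exists, exists_prop]
  have h4 : Nat.card g.ker = Nat.card f.ker := by
    refine Nat.card_congr
      { toFun := fun x => ⟨(x : K), by
          have := x.2
          rw [AddMonoidHom.mem_ker] at this ⊢
          exact this⟩
        invFun := fun y => ⟨⟨(y : G), hK y.2⟩, by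
          rw [AddMonoidHom.mem_ker]
          exact (AddMonoidHom.mem_ker).mp y.2⟩
        left_inv := fun x => by ext; rfl
        right_inv := fun y => by ext; rfl }
  rw [← h1, h2, h3, h4, mul_comm]

/-- in a subgroup of prime order every element is a multiple of any nonzero element -/
theorem mzj_st_mem_multiple {G : Type*} [AddCommGroup G] {p : ℕ} (hp : p.Prime)
    (C : AddSubgroup G) (hC : Nat.card C = p) {Q : G} (hQ : Q ∈ C) (hQ0 : Q ≠ 0) {x : G}
    (hx : x ∈ C) : ∃ k : ℕ, x = k • Q := by
  classical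
  have : Fact p.Prime := ⟨hp⟩
  have hfin : Finite C := Nat.finite_of_card_ne_zero (by rw [hC]; exact hp.ne_zero)
  have hQ0' : (⟨Q, hQ⟩ : C) ≠ 0 := fun h => hQ0 (congrArg Subtype.val h)
  have htop : AddSubgroup.zmultiples (⟨Q, hQ⟩ : C) = ⊤ :=
    zmultiples_eq_top_of_prime_card (p := p) hC hQ0'
  have hmem : (⟨x, hx⟩ : C) ∈ AddSubgroup.zmultiples (⟨Q, hQ⟩ : C) := by
    rw [htop]; exact AddSubgroup.mem_top _
  obtain ⟨k, hk⟩ := AddSubgroup.mem_zmultiples_iff.mp hmem
  have hk' : k • Q = x := by
    have := congrArg Subtype.val hk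
    simpa using this
  -- make `k` a natural number modulo `p`
  have hpQ : p • Q = 0 := by
    have h1 : (Nat.card C) • (⟨Q, hQ⟩ : C) = 0 := card_nsmul_eq_zero'
    rw [hC] at h1
    simpa using congrArg Subtype.val h1
  refine ⟨(k % p).toNat, ?_⟩
  have hnn : 0 ≤ k % (p : ℤ) := Int.emod_nonneg _ (by exact_mod_cast hp.ne_zero)
  have h2 : ((k % (p : ℤ)).toNat : ℤ) = k % p := Int.toNat_of_nonneg hnn
  rw [← hk', ← natCast_zsmul, h2]
  conv_lhs => rw [← Int.emod_add_mul_ediv k p]
  rw [add_zsmul, mul_comm, mul_zsmul, natCast_zsmul, hpQ, smul_zero, add_zero]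

/-- two subgroups of the same prime order with nontrivial intersection coincide -/
theorem mzj_st_eq_of_inf_ne_bot {G : Type*} [AddCommGroup G] {p : ℕ} (hp : p.Prime)
    (C D : AddSubgroup G) (hC : Nat.card C = p) (hD : Nat.card D = p) (h : C ⊓ D ≠ ⊥) : C = D := by
  classical
  obtain ⟨⟨x, hx⟩, hx0'⟩ := (AddSubgroup.ne_bot_iff_exists_ne_zero).mp h
  have hx0 : x ≠ 0 := fun h0 => hx0' (Subtype.ext h0)
  have hxC : x ∈ C := hx.1
  have hxD : x ∈ D := hx.2
  apply le_antisymm
  · intro y hy
    obtain ⟨k, rfl⟩ := mzj_st_mem_multiple hp C hC hxC hx0 hy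
    exact D.nsmul_mem hxD k
  · intro y hy
    obtain ⟨k, rfl⟩ := mzj_st_mem_multiple hp D hD hxD hx0 hy
    exact C.nsmul_mem hxC k

/-- a nonzero element killed by a power of `p` has a nonzero multiple killed by `p` -/
theorem mzj_st_exists_order_p {G : Type*} [AddCommGroup G] {p : ℕ} {x : G} (hx : x ≠ 0)
    {n : ℕ} (hn : p ^ n • x = 0) : ∃ j : ℕ, p ^ j • x ≠ 0 ∧ p • (p ^ j • x) = 0 := by
  induction n with
  | zero => exact absurd (by simpa using hn) hx
  | succ n ih =>
    by_cases h : p ^ n • x = 0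
    · exact ih h
    · refine ⟨n, h, ?_⟩
      rw [← mul_nsmul', ← pow_succ', hn]

end Fermat.Agent.MZ
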