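/-
MAZUR project, node **[MZ-J]** (S12 from S15), cell [J-STEP] (helper21).  Prefix `mzj_st_`.

THE CHAIN.  `mzj_Lvl W p n` = level `n` of the chain over the base model `W`: a model `W'`, an
equivariant surjection `ψ : W(ℚ̄) → W'(ℚ̄)` whose kernel is `Z_n(A) = W[p^n] ∩ E₁(A)` for every
`A ∣ p`, `ψ(W[p^n])` pointwise rational, and a `μ_p`-type line `M ⊆ W'[p]` (Galois-stable, character
`χ`, cofixed) with `ψ⁻¹(M) = Z_(n+1)(A)`.

* `mzj_st_base` : level `0` from a cofixed line `N` with character `χ`;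
* `mzj_st_step` : level `n` ⟹ level `n + 1` ([J-QUOT]+[J-SS], S15, [J-UN], [J-SZ], [J-TW], [J-FIX],
  [J-S14], [J-LN], [J-CHI], the `p`-adic data `mzj_st_ZData`);
* `mzj_st_main` : the hypothesis of [J-END] from the chain.
-/
import Mathlib
import Fermat.Agent.MZ.J.Seams
import Fermat.Agent.MZ.J.SeamsS
import Fermat.Agent.MZ.J.StepA
import Fermat.Agent.MZ.J.Unram
import Fermat.Agent.MZ.J.Size
import Fermat.Agent.MZ.J.Fix
import Fermat.Agent.S58.Tate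

set_option autoImplicit false

namespace Fermat.Agent.MZ

open WeierstrassCurve WeierstrassCurve.Affine Fermat.Agent.S58 Fermat.Agent.S05 Fermat.Agent.S13

/-- the `m`-torsion subgroup of `W(ℚ̄)` -/
noncomputable def mzj_st_T (W : WeierstrassCurve ℤ) (m : ℕ) : AddSubgroup (s58_E W) :=
  (nsmulAddMonoidHom (α := s58_E W) m).ker

theorem mzj_st_mem_T {W : WeierstrassCurve ℤ} {m : ℕ} {x : s58_E W} :
    x ∈ mzj_st_T W m ↔ m • x = 0 := by
  simp [mzj_st_T, AddMonoidHom.mem_ker]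

/-- the Galois action commutes with `ℕ`-multiples -/
theorem mzj_st_smul_nsmul {W : WeierstrassCurve ℤ} (σ : s58_G) (m : ℕ) (x : s58_E W) :
    σ • (m • x) = m • (σ • x) :=
  map_nsmul (DistribMulAction.toAddMonoidHom (s58_E W) σ) m x

/-- **the `p`-adic data of the base model** (output of [J-ATP]): for every `A ∣ p` and `n`, the
kernel of reduction `Z_n(A)` inside `W[p^n]`. -/
def mzj_st_ZData (W : WeierstrassCurve ℤ) (p : ℕ) : Prop :=
  ∀ A : ValuationSubring s58_Qb, A.LiesOverPrime p → ∀ n : ℕ,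
    ∃ Z : AddSubgroup (s58_E W),
      (∀ x, x ∈ Z ↔ p ^ n • x = 0 ∧ InKerRed A x) ∧
      Nat.card Z = p ^ n ∧
      (∀ σ ∈ A.decompositionSubgroup ℚ, ∀ x ∈ Z, σ • x ∈ Z) ∧
      (∀ σ ∈ A.inertiaSubgroupIn ℚ, ∀ x : s58_E W, p ^ n • x = 0 → σ • x - x ∈ Z)

/-- level `n` of the chain -/
structure mzj_Lvl (W : WeierstrassCurve ℤ) (p : ℕ) [Fact p.Prime] (n : ℕ) where
  W' : WeierstrassCurve ℤ
  ψ : s58_E W →+ s58_E W'
  M : AddSubgroup (s58_E W')
  hΔ : W'.Δ ≠ 0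
  surj : Function.Surjective ψ
  equiv : ∀ (σ : s58_G) (x : s58_E W), ψ (σ • x) = σ • ψ x
  two : mzj_TwoRat W'
  c4 : ¬ (2 : ℤ) ∣ W'.c₄
  ss : ∀ ℓ : ℕ, ℓ.Prime → ℓ ≠ 2 → ℓ ≠ p → mzj_SS W' ℓ
  kerZ : ∀ A : ValuationSubring s58_Qb, A.LiesOverPrime p →
    ∀ x, ψ x = 0 ↔ (p ^ n • x = 0 ∧ InKerRed A x)
  R_fixed : ∀ x, p ^ n • x = 0 → ∀ σ : s58_G, σ • ψ x = ψ x
  M_tors : ∀ x ∈ M, p • x = 0
  M_card : Nat.card M = p
  M_stable : mzj_Stable M
  M_chi : ∀ (σ : s58_G), ∀ x ∈ M, σ • x = ExtCitation.cycloExp p σ • x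
  M_cof : ∀ (σ : s58_G) (x : s58_E W'), p • x = 0 → σ • x - x ∈ M
  M_R : ∀ x, p ^ n • x = 0 → ψ x ∈ M → ψ x = 0
  MZ : ∀ A : ValuationSubring s58_Qb, A.LiesOverPrime p →
    ∀ x, ψ x ∈ M ↔ (p ^ (n + 1) • x = 0 ∧ InKerRed A x)

section base

variable {W : WeierstrassCurve ℤ} {p : ℕ} [Fact p.Prime]

/-- **level `0`** -/
theorem mzj_st_base (hΔ : W.Δ ≠ 0) (htwo : mzj_TwoRat W) (hc4 : ¬ (2 : ℤ) ∣ W.c₄)
    (hss : ∀ ℓ : ℕ, ℓ.Prime → ℓ ≠ 2 → ℓ ≠ p → mzj_SS W ℓ)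
    (N : AddSubgroup (s58_E W)) (hNcard : Nat.card N = p) (hNst : mzj_Stable N)
    (hNcof : ∀ (σ : s58_G) (x : s58_E W), p • x = 0 → σ • x - x ∈ N)
    (hNchi : ∀ (σ : s58_G), ∀ x ∈ N, σ • x = ExtCitation.cycloExp p σ • x)
    (hZ1 : ∀ A : ValuationSubring s58_Qb, A.LiesOverPrime p →
      ∀ x, x ∈ N ↔ (p • x = 0 ∧ InKerRed A x)) :
    Nonempty (mzj_Lvl W p 0) := by
  have hNtors : ∀ x ∈ N, p • x = 0 := by
    intro x hx
    have h1 : (Nat.card N) • (⟨x, hx⟩ : N) = 0 := card_nsmul_eq_zero'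
    rw [hNcard] at h1
    simpa using congrArg Subtype.val h1
  exact ⟨{
    W' := W
    ψ := AddMonoidHom.id _
    M := N
    hΔ := hΔ
    surj := Function.surjective_id
    equiv := fun _ _ => rfl
    two := htwo
    c4 := hc4
    ss := hss
    kerZ := fun A _ x => by
      simp only [AddMonoidHom.id_apply, pow_zero, one_smul]
      exact ⟨fun h => ⟨h, h ▸ inKerRed_zero⟩, fun h => h.1⟩
    R_fixed := fun x hx σ => by
      simp only [pow_zero, one_smul] at hx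
      subst hx
      simp only [map_zero]
      exact smul_zero (A := s58_E W) σ
    M_tors := hNtors
    M_card := hNcard
    M_stable := hNst
    M_chi := hNchi
    M_cof := hNcof
    M_R := fun x hx _ => by
      simp only [pow_zero, one_smul] at hx
      subst hx
      simp
    MZ := fun A hA x => by
      simp only [AddMonoidHom.id_apply, zero_add, pow_one]
      exact hZ1 A hA x }⟩

end base

/-! ### small lemmas for the step -/

section lemmas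

variable {W' : WeierstrassCurve ℤ} {p : ℕ}

/-- the `p`-torsion of `W'(ℚ̄)` has `p²` elements (`p` odd) -/
theorem mzj_st_card_T (hΔ : W'.Δ ≠ 0) (hp : p.Prime) (hp2 : p ≠ 2) :
    Nat.card (mzj_st_T W' p) = p ^ 2 := by
  have hΔ' : ((s58_WQ W')⁄s58_Qb).Δ ≠ 0 := by
    rw [s58m_curve_Δ]
    exact_mod_cast hΔ
  rw [← ld_card_torsion ((s58_WQ W')⁄s58_Qb) hΔ' (hp.odd_of_ne_two hp2)]
  exact Nat.card_congr (Equiv.subtypeEquivRight fun x => mzj_st_mem_T)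

/-- a subgroup of prime order is killed by `p` -/
theorem mzj_st_tors_of_card {G : Type*} [AddCommGroup G] (N : AddSubgroup G)
    (hN : Nat.card N = p) : ∀ x ∈ N, p • x = 0 := by
  intro x hx
  have h1 : (Nat.card N) • (⟨x, hx⟩ : N) = 0 := card_nsmul_eq_zero'
  rw [hN] at h1
  simpa using congrArg Subtype.val h1

/-- `W'[p] = C ⊕ M` for two lines with trivial intersection -/
theorem mzj_st_decomp (hΔ : W'.Δ ≠ 0) (hp : p.Prime) (hp2 : p ≠ 2)
    (C M : AddSubgroup (s58_E W')) (hC : ∀ x ∈ C, p • x = 0) (hM : ∀ x ∈ M, p • x = 0)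
    (hcC : Nat.card C = p) (hcM : Nat.card M = p) (hCM : C ⊓ M = ⊥)
    (x : s58_E W') (hx : p • x = 0) : ∃ c ∈ C, ∃ m ∈ M, x = c + m := by
  classical
  have hfC : Finite C := Nat.finite_of_card_ne_zero (by rw [hcC]; exact hp.ne_zero)
  have hfM : Finite M := Nat.finite_of_card_ne_zero (by rw [hcM]; exact hp.ne_zero)
  have hcT := mzj_st_card_T (W' := W') hΔ hp hp2
  have hfT : Finite (mzj_st_T W' p) :=
    Nat.finite_of_card_ne_zero (by rw [hcT]; exact pow_ne_zero _ hp.ne_zero)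
  let f : C × M → mzj_st_T W' p := fun cm =>
    ⟨(cm.1 : s58_E W') + (cm.2 : s58_E W'), by
      rw [mzj_st_mem_T, nsmul_add, hC _ cm.1.2, hM _ cm.2.2, add_zero]⟩
  have hinj : Function.Injective f := by
    rintro ⟨c, m⟩ ⟨c', m'⟩ h
    have h1 : (c : s58_E W') + m = c' + m' := congrArg Subtype.val h
    have h2 : (c : s58_E W') - c' = m' - m := by
      rw [sub_eq_sub_iff_add_eq_add, h1, add_comm]
    have h3 : (c : s58_E W') - c' ∈ C ⊓ M :=
      ⟨C.sub_mem c.2 c'.2, h2 ▸ M.sub_mem m'.2 m.2⟩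
    rw [hCM, AddSubgroup.mem_bot, sub_eq_zero] at h3
    have h4 : (m' : s58_E W') - m = 0 := by rw [← h2, h3, sub_self]
    rw [sub_eq_zero] at h4
    exact Prod.ext (Subtype.ext h3) (Subtype.ext h4.symm)
  have hcard : Nat.card (C × M) = Nat.card (mzj_st_T W' p) := by
    rw [Nat.card_prod, hcC, hcM, hcT, sq]
  have hbij : Function.Bijective f := (Nat.bijective_iff_injective_and_card f).mpr ⟨hinj, hcard⟩
  obtain ⟨⟨c, m⟩, hcm⟩ := hbij.2 ⟨x, mzj_st_mem_T.mpr hx⟩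
  exact ⟨c, c.2, m, m.2, (congrArg Subtype.val hcm).symm⟩

/-- a multiple `k • m = m` of a nonzero point of order `p` forces `k = 1` in `ZMod p` -/
theorem mzj_st_zmod_eq_one {G : Type*} [AddCommGroup G] (hp : p.Prime) {m : G} (hm0 : m ≠ 0)
    (hm : p • m = 0) {k : ℕ} (hk : k • m = m) : ((k : ℕ) : ZMod p) = 1 := by
  have hord : addOrderOf m = p := by
    have h1 : addOrderOf m ∣ p := addOrderOf_dvd_of_nsmul_eq_zero hm
    rcases (Nat.dvd_prime hp).1 h1 with h0 | h0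
    · exact absurd (AddMonoid.addOrderOf_eq_one_iff.1 h0) hm0
    · exact h0
  have h2 : k • m = 1 • m := by rw [hk, one_smul]
  have h3 := (nsmul_eq_nsmul_iff_modEq).mp h2
  rw [hord] at h3
  have := (ZMod.natCast_eq_natCast_iff k 1 p).mpr h3
  simpa using this

/-- the only `σ₀`-stable lines of `C ⊕ M` are `C` and `M` when `σ₀` is `1` on `C` and a scalar
`≠ 1` on `M` -/
theorem mzj_st_line (hΔ : W'.Δ ≠ 0) (hp : p.Prime) (hp2 : p ≠ 2)
    (C M : AddSubgroup (s58_E W')) (hC : ∀ x ∈ C, p • x = 0) (hM : ∀ x ∈ M, p • x = 0)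
    (hcC : Nat.card C = p) (hcM : Nat.card M = p) (hCM : C ⊓ M = ⊥)
    (σ₀ : s58_G) (k : ℕ) (hk : ((k : ℕ) : ZMod p) ≠ 1) (h1 : ∀ c ∈ C, σ₀ • c = c)
    (h2 : ∀ m ∈ M, σ₀ • m = k • m)
    (L : AddSubgroup (s58_E W')) (hL : ∀ x ∈ L, p • x = 0) (hcL : Nat.card L = p)
    (hs : ∀ x ∈ L, σ₀ • x ∈ L) : L = C ∨ L = M := by
  classical
  have hLne : L ≠ ⊥ := by
    intro h
    rw [h, AddSubgroup.card_bot] at hcL
    exact hp.one_lt.ne hcL
  obtain ⟨⟨x, hxL⟩, hx0'⟩ := (AddSubgroup.ne_bot_iff_exists_ne_zero).mp hLne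
  have hx0 : x ≠ 0 := fun h0 => hx0' (Subtype.ext h0)
  obtain ⟨c, hc, m, hm, rfl⟩ := mzj_st_decomp hΔ hp hp2 C M hC hM hcC hcM hCM x (hL x hxL)
  by_cases hm0 : m = 0
  · left
    subst hm0
    rw [add_zero] at hxL hx0
    refine (mzj_st_eq_of_inf_ne_bot hp L C hcL hcC ?_)
    intro h
    have : c ∈ L ⊓ C := ⟨hxL, hc⟩
    rw [h, AddSubgroup.mem_bot] at this
    exact hx0 this
  · right
    have h3 : σ₀ • (c + m) - (c + m) = k • m - m := by
      rw [ga_smul_add, h1 c hc, h2 m hm]; abel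
    have h4 : k • m - m ∈ L := h3 ▸ L.sub_mem (hs _ hxL) hxL
    have h5 : k • m - m ∈ M := M.sub_mem (M.nsmul_mem hm k) hm
    have h6 : k • m - m ≠ 0 := by
      intro h
      exact hk (mzj_st_zmod_eq_one hp hm0 (hM m hm) (sub_eq_zero.mp h))
    refine (mzj_st_eq_of_inf_ne_bot hp L M hcL hcM ?_)
    intro h
    have : k • m - m ∈ L ⊓ M := ⟨h4, h5⟩
    rw [h, AddSubgroup.mem_bot] at this
    exact h6 this

/-- transfer of "all `2`-torsion is rational" along an equivariant surjection whose kernel is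
killed by an odd number -/
theorem mzj_st_two {W'' : WeierstrassCurve ℤ} (φ : s58_E W' →+ s58_E W'')
    (hsurj : Function.Surjective φ) (hequiv : ∀ (σ : s58_G) x, φ (σ • x) = σ • φ x)
    (hodd : Odd p) (hker : ∀ x, φ x = 0 → p • x = 0) (htwo : mzj_TwoRat W') : mzj_TwoRat W'' := by
  intro T'' hT'' σ
  obtain ⟨y, rfl⟩ := hsurj T''
  obtain ⟨k, hk⟩ := hodd
  have hm : φ (2 • y) = 0 := by rw [map_nsmul, hT'']
  have hpm : p • (2 • y) = 0 := hker _ hm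
  set T : s58_E W' := y + k • (2 • y) with hT
  have h2T : 2 • T = 0 := by
    have : 2 • T = p • (2 • y) := by
      rw [hT, hk, nsmul_add, add_nsmul, one_smul, mul_nsmul, add_comm]
      congr 1
      rw [← mul_nsmul, ← mul_nsmul, ← mul_nsmul, ← mul_nsmul]
      congr 1
      ring
    rw [this, hpm]
  have hφT : φ T = φ y := by
    rw [hT, map_add, map_nsmul, hm, nsmul_zero, add_zero]
  rw [← hφT, ← hequiv, htwo T h2T σ]

end lemmas

/-! ### S15 and its consequences for a model with a rational point of order `p` -/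

section s15

variable {W'' : WeierstrassCurve ℤ} {p : ℕ}

theorem mzj_st_c4 (hp : p.Prime) (hp17 : 17 ≤ p) (hc4 : ¬ (2 : ℤ) ∣ W''.c₄)
    (hss : ∀ ℓ : ℕ, ℓ.Prime → ℓ ≠ 2 → ℓ ≠ p → mzj_SS W'' ℓ)
    {ℓ : ℕ} (hℓ : ℓ.Prime) (hℓp : ℓ ≠ p) (hℓΔ : (ℓ : ℤ) ∣ W''.Δ) : ¬ (ℓ : ℤ) ∣ W''.c₄ := by
  by_cases h2 : ℓ = 2
  · subst h2; exact_mod_cast hc4
  · rcases hss ℓ hℓ h2 hℓp with h | h
    · exact absurd hℓΔ h
    · exact h

/-- S15: the rational point of order `p` misses the zero component at every bad prime `ℓ ≠ p` -/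
theorem mzj_st_notE0 (hS15 : mzj_S15_stmt) (hp : p.Prime) (hp17 : 17 ≤ p) (hΔ : W''.Δ ≠ 0)
    (hc4 : ¬ (2 : ℤ) ∣ W''.c₄) (hss : ∀ ℓ : ℕ, ℓ.Prime → ℓ ≠ 2 → ℓ ≠ p → mzj_SS W'' ℓ)
    (Q : s58_E W'') (hQfix : ∀ σ : s58_G, σ • Q = Q) (hQord : addOrderOf Q = p)
    {ℓ : ℕ} (hℓ : ℓ.Prime) (hℓp : ℓ ≠ p) (hℓΔ : (ℓ : ℤ) ∣ W''.Δ)
    (A : ValuationSubring s58_Qb) (hA : A.LiesOverPrime ℓ) : ¬ W''.InZeroComponentAt A Q := by
  have hp' : p ∉ ({2, 3, 5, 7, 13} : Finset ℕ) := by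
    simp only [Finset.mem_insert, Finset.mem_singleton, not_or]
    omega
  have h2Δ : (2 : ℤ) ∣ W''.Δ := by
    have := mzj_sz_bad hp Nat.prime_two (by omega) W'' Q hQfix hQord
    exact_mod_cast this
  have h2 : ∀ A : ValuationSubring (AlgebraicClosure ℚ), A.LiesOverPrime 2 →
      ¬ W''.InZeroComponentAt A Q := fun A hA =>
    mzj_sz_not_zeroComp hp Nat.prime_two (by omega) W'' Q hQfix hQord A hA
  have h3Δ : (3 : ℤ) ∣ W''.Δ := by
    have := mzj_sz_bad hp Nat.prime_three (by omega) W'' Q hQfix hQord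
    exact_mod_cast this
  have h3 : ∀ A : ValuationSubring (AlgebraicClosure ℚ), A.LiesOverPrime 3 →
      ¬ W''.InZeroComponentAt A Q := fun A hA =>
    mzj_sz_not_zeroComp hp Nat.prime_three (by omega) W'' Q hQfix hQord A hA
  have h3c4 : ¬ (3 : ℤ) ∣ W''.c₄ := by
    have := mzj_st_c4 hp hp17 hc4 hss Nat.prime_three (by omega) (by exact_mod_cast h3Δ)
    exact_mod_cast this
  exact hS15 hp hp' W'' hΔ Q hQfix hQord h2Δ hc4 h2 h3Δ h3c4 h3 hℓ hℓp hℓΔ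
    (mzj_st_c4 hp hp17 hc4 hss hℓ hℓp hℓΔ) A hA

/-- `W''[p]` is unramified outside `p` -/
theorem mzj_st_unram (hS15 : mzj_S15_stmt) (hp : p.Prime) (hp17 : 17 ≤ p) (hΔ : W''.Δ ≠ 0)
    (hc4 : ¬ (2 : ℤ) ∣ W''.c₄) (hss : ∀ ℓ : ℕ, ℓ.Prime → ℓ ≠ 2 → ℓ ≠ p → mzj_SS W'' ℓ)
    (Q : s58_E W'') (hQfix : ∀ σ : s58_G, σ • Q = Q) (hQord : addOrderOf Q = p)
    (ℓ : ℕ) (hℓ : ℓ.Prime) (hℓp : ℓ ≠ p)
    (A : ValuationSubring s58_Qb) (hA : A.LiesOverPrime ℓ) :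
    ∀ σ ∈ A.inertiaSubgroupIn ℚ, ∀ x : s58_E W'', p • x = 0 → σ • x = x := by
  have hpQ : p • Q = 0 := by rw [← hQord]; exact addOrderOf_nsmul_eq_zero Q
  by_cases hbad : (ℓ : ℤ) ∣ W''.Δ
  · exact mzj_un_mult W'' hΔ hp (by omega) hℓ hℓp hbad
      (mzj_st_c4 hp hp17 hc4 hss hℓ hℓp hbad) A hA Q hpQ (fun σ _ => hQfix σ)
      (mzj_st_notE0 hS15 hp hp17 hΔ hc4 hss Q hQfix hQord hℓ hℓp hbad A hA)
  · exact mzj_un_good W'' hp hℓ hℓp hbad A hA

end s15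

/-! ### the step -/

section step

variable {W : WeierstrassCurve ℤ} {p : ℕ} [Fact p.Prime] {n : ℕ}

set_option maxHeartbeats 1000000 in
/-- **level `n` ⟹ level `n + 1`** -/
theorem mzj_st_step (hS15 : mzj_S15_stmt) (hQuot : mzj_Quot_stmt) (hTw : mzj_Tw_stmt)
    (hChi : mzj_ChiRam_stmt) (hS14 : mzj_S14App_stmt) (hp17 : 17 ≤ p) (hΔW : W.Δ ≠ 0)
    (hZ : mzj_st_ZData W p) (L : mzj_Lvl W p n) : Nonempty (mzj_Lvl W p (n + 1)) := by
  classical
  have hp : p.Prime := Fact.out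
  have hp2 : p ≠ 2 := by omega
  obtain ⟨W'', φ, hΔ'', hφs, hφk, hφe, hc4'', hss''⟩ :=
    hQuot L.W' L.hΔ hp (by omega) L.M L.M_card L.M_stable
  have c4'' : ¬ (2 : ℤ) ∣ W''.c₄ := hc4'' L.c4
  have ss'' : ∀ ℓ : ℕ, ℓ.Prime → ℓ ≠ 2 → ℓ ≠ p → mzj_SS W'' ℓ :=
    fun ℓ hℓ h2 hℓp => hss'' ℓ hℓ h2 hℓp (L.ss ℓ hℓ h2 hℓp)
  have hφker : ∀ y, φ y = 0 ↔ y ∈ L.M := by
    intro y; rw [← hφk]; exact AddMonoidHom.mem_ker.symm
  have two'' : mzj_TwoRat W'' :=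
    mzj_st_two φ hφs hφe (hp.odd_of_ne_two hp2) (fun x hx => L.M_tors x ((hφker x).mp hx)) L.two
  -- the composite
  set ψ' : s58_E W →+ s58_E W'' := φ.comp L.ψ with hψ'
  have hψ'a : ∀ x, ψ' x = φ (L.ψ x) := fun _ => rfl
  have hψ'e : ∀ (σ : s58_G) x, ψ' (σ • x) = σ • ψ' x := fun σ x => by
    rw [hψ'a, hψ'a, L.equiv, hφe]
  have kerZ' : ∀ A : ValuationSubring s58_Qb, A.LiesOverPrime p →
      ∀ x, ψ' x = 0 ↔ (p ^ (n + 1) • x = 0 ∧ InKerRed A x) := fun A hA x => by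
    rw [hψ'a, hφker]; exact L.MZ A hA x
  -- the line `C`
  have hMT : φ.ker ≤ mzj_st_T L.W' p := by
    intro y hy; rw [hφk] at hy; exact mzj_st_mem_T.mpr (L.M_tors y hy)
  set C : AddSubgroup (s58_E W'') := (mzj_st_T L.W' p).map φ with hCdef
  have hcC : Nat.card C = p := by
    have h1 := mzj_st_card_map φ (mzj_st_T L.W' p) hMT
    rw [hφk, L.M_card, mzj_st_card_T L.hΔ hp hp2, sq] at h1
    exact Nat.eq_of_mul_eq_mul_right hp.pos h1
  have hCt : ∀ x ∈ C, p • x = 0 := by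
    rintro _ ⟨y, hy, rfl⟩
    rw [← map_nsmul, mzj_st_mem_T.mp hy, map_zero]
  have hCfix : ∀ σ : s58_G, ∀ x ∈ C, σ • x = x := by
    rintro σ _ ⟨y, hy, rfl⟩
    have h1 := L.M_cof σ y (mzj_st_mem_T.mp hy)
    have h2 : φ (σ • y - y) = 0 := (hφker _).mpr h1
    rw [map_sub, hφe, sub_eq_zero] at h2
    exact h2
  -- the cyclotomic quotient
  have hcq : ∀ (σ : s58_G) (x : s58_E W''), p • x = 0 →
      σ • x - ExtCitation.cycloExp p σ • x ∈ C := by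
    intro σ x hx
    obtain ⟨y, rfl⟩ := hφs x
    have hpy : p • y ∈ L.M := (hφker _).mp (by rw [map_nsmul, hx])
    have hz : p • (σ • y - ExtCitation.cycloExp p σ • y) = 0 := by
      rw [nsmul_sub, ← ga_smul_nsmul, L.M_chi σ _ hpy, nsmul_left_comm, sub_self]
    refine ⟨σ • y - ExtCitation.cycloExp p σ • y, mzj_st_mem_T.mpr hz, ?_⟩
    rw [map_sub, hφe, map_nsmul]
  -- the rational point `Q`
  have hCne : C ≠ ⊥ := by
    intro h
    rw [h, AddSubgroup.card_bot] at hcC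
    exact hp.one_lt.ne hcC
  obtain ⟨⟨Q, hQC⟩, hQ0'⟩ := (AddSubgroup.ne_bot_iff_exists_ne_zero).mp hCne
  have hQ0 : Q ≠ 0 := fun h0 => hQ0' (Subtype.ext h0)
  have hpQ : p • Q = 0 := hCt Q hQC
  have hQord : addOrderOf Q = p := by
    have h1 : addOrderOf Q ∣ p := addOrderOf_dvd_of_nsmul_eq_zero hpQ
    rcases (Nat.dvd_prime hp).1 h1 with h0 | h0
    · exact absurd (AddMonoid.addOrderOf_eq_one_iff.1 h0) hQ0
    · exact h0
  have hQfix : ∀ σ : s58_G, σ • Q = Q := fun σ => hCfix σ Q hQC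
  have notE0 := fun {ℓ : ℕ} (hℓ : ℓ.Prime) (hℓp : ℓ ≠ p) (hℓΔ : (ℓ : ℤ) ∣ W''.Δ)
      (A : ValuationSubring s58_Qb) (hA : A.LiesOverPrime ℓ) =>
    mzj_st_notE0 hS15 hp hp17 hΔ'' c4'' ss'' Q hQfix hQord hℓ hℓp hℓΔ A hA
  have unram := mzj_st_unram hS15 hp hp17 hΔ'' c4'' ss'' Q hQfix hQord
  -- `R' = ψ'(W[p^(n+1)])`
  set R' : AddSubgroup (s58_E W'') := (mzj_st_T W (p ^ (n + 1))).map ψ' with hR'def
  have hR'p : ∀ T ∈ R', p • T = 0 → T ∈ C := by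
    rintro _ ⟨x, hx, rfl⟩ hpT
    have hx' : p ^ (n + 1) • x = 0 := mzj_st_mem_T.mp hx
    have h1 : p ^ n • (p • x) = 0 := by rw [← mul_nsmul, ← pow_succ', hx']
    have h2 : L.ψ (p • x) ∈ L.M := by
      rw [map_nsmul, ← hφker, map_nsmul, ← hψ'a, hpT]
    have h3 : L.ψ (p • x) = 0 := L.M_R _ h1 h2
    refine ⟨L.ψ x, mzj_st_mem_T.mpr (by rw [← map_nsmul, h3]), rfl⟩
  have hR'tors : ∀ T ∈ R', ∃ k : ℕ, p ^ k • T = 0 := by
    rintro _ ⟨x, hx, rfl⟩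
    exact ⟨n + 1, by rw [← map_nsmul, mzj_st_mem_T.mp hx, map_zero]⟩
  have hR'stab : ∀ σ : s58_G, ∀ T ∈ R', σ • T ∈ R' := by
    rintro σ _ ⟨x, hx, rfl⟩
    refine ⟨σ • x, mzj_st_mem_T.mpr ?_, hψ'e σ x⟩
    rw [← ga_smul_nsmul, mzj_st_mem_T.mp hx, ga_smul_zero]
  have hR'fin : (R' : Set (s58_E W'')).Finite := by
    have hfin : Finite {x : s58_E W // p ^ (n + 1) • x = 0} :=
      Nat.finite_of_card_ne_zero (by
        rw [s58t_card W hΔW p hp2 (n + 1)]; exact pow_ne_zero _ hp.ne_zero)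
    have : (R' : Set (s58_E W'')) =
        Set.range (fun x : {x : s58_E W // p ^ (n + 1) • x = 0} => ψ' x.1) := by
      ext T
      simp only [hR'def, AddSubgroup.coe_map, Set.mem_image, SetLike.mem_coe, mzj_st_mem_T,
        Set.mem_range, Subtype.exists, exists_prop]
    rw [this]
    exact Set.finite_range _
  have hR'fixed : ∀ σ : s58_G, ∀ T ∈ R', σ • T = T := by
    refine mzj_fx_global W'' (R' : Set (s58_E W'')) hR'fin hR'stab fun ℓ hℓ => ?_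
    obtain ⟨A, hA⟩ := g1_exists_liesOver ℓ hℓ
    refine ⟨A, hA, ?_⟩
    by_cases hℓp : ℓ = p
    · -- the prime `p`: the tower of the base model
      intro σ hσ T hT
      obtain ⟨x, hx, rfl⟩ := hT
      have hA' : A.LiesOverPrime p := hℓp ▸ hA
      obtain ⟨Z, hZmem, -, -, hZmove⟩ := hZ A hA' (n + 1)
      have h1 : σ • x - x ∈ Z := hZmove σ hσ x (mzj_st_mem_T.mp hx)
      have h2 : ψ' (σ • x - x) = 0 := (kerZ' A hA' _).mpr ((hZmem _).mp h1)
      rw [map_sub, hψ'e, sub_eq_zero] at h2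
      exact h2
    · by_cases hbad : (ℓ : ℤ) ∣ W''.Δ
      · -- multiplicative
        intro σ hσ
        refine mzj_fx_local' W'' A R' hR'tors ?_ σ (hR'stab σ) ?_
        · intro T hT hT0 hpT
          by_contra hTne
          obtain ⟨k, hk⟩ := mzj_st_mem_multiple hp C hcC (hR'p T hT hpT) hTne hQC
          exact notE0 hℓ hℓp hbad A hA (hk ▸ s58m_inZeroComponentAt_nsmul hT0 k)
        · intro T _
          exact hTw W'' hΔ'' two'' hℓ hbad (mzj_st_c4 hp hp17 c4'' ss'' hℓ hℓp hbad) A hA σ hσ T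
      · -- good
        rintro σ hσ _ ⟨x, hx, rfl⟩
        refine s58m_inZeroComponentAt_inertia_fixed hA hℓ hσ (n := p ^ (n + 1)) ?_
          (s58m_inZeroComponentAt_of_good hA hℓ hbad _) ?_
        · intro h
          exact hℓp ((Nat.prime_dvd_prime_iff_eq hℓ hp).mp (hℓ.dvd_of_dvd_pow h))
        · rw [← map_nsmul, mzj_st_mem_T.mp hx, map_zero]
  -- locally split at `p`
  have hsplit : ∀ A : ValuationSubring s58_Qb, A.LiesOverPrime p →
      ∃ C' : AddSubgroup (s58_E W''), (∀ x ∈ C', p • x = 0) ∧ Nat.card C' = p ∧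
        (∀ σ ∈ A.decompositionSubgroup ℚ, ∀ x ∈ C', σ • x ∈ C') ∧ C ⊓ C' = ⊥ ∧
        (∀ x, x ∈ C' ↔ ∃ z, (p ^ (n + 2) • z = 0 ∧ InKerRed A z) ∧ ψ' z = x) := by
    intro A hA
    obtain ⟨Z2, hZ2mem, hZ2card, hZ2stab, -⟩ := hZ A hA (n + 2)
    obtain ⟨Z1, hZ1mem, hZ1card, -, -⟩ := hZ A hA (n + 1)
    have hker_le : ψ'.ker ≤ Z2 := by
      intro x hx
      have := (kerZ' A hA x).mp (AddMonoidHom.mem_ker.mp hx)
      refine (hZ2mem x).mpr ⟨?_, this.2⟩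
      rw [pow_succ, mul_nsmul, this.1, nsmul_zero]
    have hkercard : Nat.card ψ'.ker = p ^ (n + 1) := by
      rw [← hZ1card]
      refine Nat.card_congr (Equiv.subtypeEquivRight fun x => ?_)
      rw [AddMonoidHom.mem_ker, kerZ' A hA x, hZ1mem]
    set C' : AddSubgroup (s58_E W'') := Z2.map ψ' with hC'def
    have hcC' : Nat.card C' = p := by
      have h1 := mzj_st_card_map ψ' Z2 hker_le
      rw [hkercard, hZ2card, pow_succ p (n + 1)] at h1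
      exact Nat.eq_of_mul_eq_mul_left (pow_pos hp.pos _) (by rw [mul_comm, h1])
    have hC't : ∀ x ∈ C', p • x = 0 := by
      rintro _ ⟨z, hz, rfl⟩
      have hz' := (hZ2mem z).mp hz
      rw [← map_nsmul]
      refine (kerZ' A hA _).mpr ⟨?_, ?_⟩
      · rw [← mul_nsmul, ← pow_succ', hz'.1]
      · exact ((hZ2mem _).mp (Z2.nsmul_mem hz p)).2
    refine ⟨C', hC't, hcC', ?_, ?_, ?_⟩
    · rintro σ hσ _ ⟨z, hz, rfl⟩
      exact ⟨σ • z, hZ2stab σ hσ z hz, hψ'e σ z⟩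
    · by_contra hne
      have heq : C = C' := mzj_st_eq_of_inf_ne_bot hp C C' hcC hcC' hne
      -- then `Z2 ⊆ W[p^(n+1)]`, impossible by cardinality
      have hsub : ∀ z ∈ Z2, z ∈ Z1 := by
        intro z hz
        have hz' := (hZ2mem z).mp hz
        have h1 : ψ' z ∈ C := heq ▸ (⟨z, hz, rfl⟩ : ψ' z ∈ C')
        obtain ⟨y, hy, hy'⟩ := h1
        have h2 : L.ψ z - y ∈ L.M := by
          rw [← hφker, map_sub, hy', hψ'a, sub_self]
        have h3 : p • L.ψ z = 0 := by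
          have := L.M_tors _ h2
          rw [nsmul_sub, mzj_st_mem_T.mp hy, sub_zero] at this
          exact this
        have h4 : L.ψ (p • z) = 0 := by rw [map_nsmul, h3]
        obtain ⟨A0, hA0⟩ := g1_exists_liesOver p hp
        have h5 := ((L.kerZ A0 hA0 _).mp h4).1
        refine (hZ1mem z).mpr ⟨?_, hz'.2⟩
        rw [pow_succ', mul_nsmul]
        exact h5
      have hle : Nat.card Z2 ≤ Nat.card Z1 := by
        have hfin1 : Finite Z1 :=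
          Nat.finite_of_card_ne_zero (by rw [hZ1card]; exact pow_ne_zero _ hp.ne_zero)
        exact Nat.card_le_card_of_injective (fun z : Z2 => (⟨z.1, hsub z.1 z.2⟩ : Z1))
          (fun a b h => Subtype.ext (congrArg (fun t : Z1 => t.1) h))
      rw [hZ2card, hZ1card] at hle
      exact absurd hle (not_le.mpr (Nat.pow_lt_pow_right hp.one_lt (by omega)))
    · intro x
      constructor
      · rintro ⟨z, hz, rfl⟩
        exact ⟨z, (hZ2mem z).mp hz, rfl⟩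
      · rintro ⟨z, hz, rfl⟩
        exact ⟨z, (hZ2mem z).mpr hz, rfl⟩
  -- S14
  obtain ⟨M', hM't, hcM', hM'st, hCM'⟩ := hS14 W'' hΔ'' p (by omega) C hCt hcC hCfix hcq
    (fun ℓ hℓ hℓp A hA => unram ℓ hℓ hℓp A hA)
    (fun A hA => by
      obtain ⟨C', h1, h2, h3, h4, -⟩ := hsplit A hA
      exact ⟨C', h1, h2, h3, h4⟩)
  -- the character of `M'`
  have hM'chi : ∀ (σ : s58_G), ∀ x ∈ M', σ • x = ExtCitation.cycloExp p σ • x := by
    intro σ x hx
    have h1 : σ • x - ExtCitation.cycloExp p σ • x ∈ C ⊓ M' :=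
      ⟨hcq σ x (hM't x hx), M'.sub_mem (hM'st σ x hx) (M'.nsmul_mem hx _)⟩
    rw [hCM', AddSubgroup.mem_bot, sub_eq_zero] at h1
    exact h1
  have hM'cof : ∀ (σ : s58_G) (x : s58_E W''), p • x = 0 → σ • x - x ∈ M' := by
    intro σ x hx
    obtain ⟨c, hc, m, hm, rfl⟩ := mzj_st_decomp hΔ'' hp hp2 C M' hCt hM't hcC hcM' hCM' x hx
    have : σ • (c + m) - (c + m) = σ • m - m := by
      rw [ga_smul_add, hCfix σ c hc]; abel
    rw [this]
    exact M'.sub_mem (hM'st σ m hm) hm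
  have hM'R : ∀ x, p ^ (n + 1) • x = 0 → ψ' x ∈ M' → ψ' x = 0 := by
    intro x hx hxM
    by_contra hne
    have hT : ψ' x ∈ R' := ⟨x, mzj_st_mem_T.mpr hx, rfl⟩
    obtain ⟨j, hj0, hjp⟩ := mzj_st_exists_order_p hne (n := n + 1)
      (by rw [← map_nsmul, hx, map_zero])
    have h1 : p ^ j • ψ' x ∈ C ⊓ M' :=
      ⟨hR'p _ (R'.nsmul_mem hT _) hjp, M'.nsmul_mem hxM _⟩
    rw [hCM', AddSubgroup.mem_bot] at h1
    exact hj0 h1
  -- `ψ'⁻¹(M') = Z_(n+2)(A)`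
  have hMZ' : ∀ A : ValuationSubring s58_Qb, A.LiesOverPrime p →
      ∀ x, ψ' x ∈ M' ↔ (p ^ (n + 1 + 1) • x = 0 ∧ InKerRed A x) := by
    intro A hA
    obtain ⟨C', hC't, hcC', hC'st, hCC', hC'mem⟩ := hsplit A hA
    obtain ⟨σ₀, hσ₀, hχ⟩ := hChi p (by omega) A hA
    have hσ₀D : σ₀ ∈ A.decompositionSubgroup ℚ := by
      obtain ⟨τ, -, hτ⟩ := hσ₀
      rw [← hτ]
      exact τ.2
    have hline := mzj_st_line hΔ'' hp hp2 C M' hCt hM't hcC hcM' hCM' σ₀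
      (ExtCitation.cycloExp p σ₀) hχ (hCfix σ₀) (hM'chi σ₀) C' hC't hcC' (hC'st σ₀ hσ₀D)
    have hC'M' : C' = M' := by
      rcases hline with h | h
      · exfalso
        have : C ⊓ C' = C := by rw [h, inf_idem]
        rw [hCC'] at this
        exact hCne this.symm
      · exact h
    obtain ⟨Z1, hZ1mem, -, -, -⟩ := hZ A hA (n + 1)
    intro x
    constructor
    · intro hx
      rw [← hC'M', hC'mem] at hx
      obtain ⟨z, hz, hzx⟩ := hx
      have h1 : ψ' (x - z) = 0 := by rw [map_sub, hzx, sub_self]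
      have h2 := (kerZ' A hA _).mp h1
      have hxz : x = (x - z) + z := by abel
      have hZ2 : ∃ Z2 : AddSubgroup (s58_E W), ∀ y, y ∈ Z2 ↔ p ^ (n + 2) • y = 0 ∧ InKerRed A y := by
        obtain ⟨Z2, hZ2mem, -⟩ := hZ A hA (n + 2)
        exact ⟨Z2, hZ2mem⟩
      obtain ⟨Z2, hZ2mem⟩ := hZ2
      have h3 : x - z ∈ Z2 := (hZ2mem _).mpr ⟨by rw [pow_succ, mul_nsmul, h2.1, nsmul_zero], h2.2⟩
      have h4 : z ∈ Z2 := (hZ2mem _).mpr hz
      have h5 : x ∈ Z2 := by rw [hxz]; exact Z2.add_mem h3 h4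
      exact (hZ2mem x).mp h5
    · intro hx
      rw [← hC'M', hC'mem]
      exact ⟨x, hx, rfl⟩
  exact ⟨{
    W' := W''
    ψ := ψ'
    M := M'
    hΔ := hΔ''
    surj := hφs.comp L.surj
    equiv := hψ'e
    two := two''
    c4 := c4''
    ss := ss''
    kerZ := kerZ'
    R_fixed := fun x hx σ => hR'fixed σ _ ⟨x, mzj_st_mem_T.mpr hx, rfl⟩
    M_tors := hM't
    M_card := hcM'
    M_stable := hM'st
    M_chi := hM'chi
    M_cof := hM'cof
    M_R := hM'R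
    MZ := hMZ' }⟩

end step

/-! ### the chain and the generic theorem -/

section main

variable {W : WeierstrassCurve ℤ} {p : ℕ} [Fact p.Prime]

/-- all levels exist -/
theorem mzj_st_chain (hS15 : mzj_S15_stmt) (hQuot : mzj_Quot_stmt) (hTw : mzj_Tw_stmt)
    (hChi : mzj_ChiRam_stmt) (hS14 : mzj_S14App_stmt) (hp17 : 17 ≤ p) (hΔW : W.Δ ≠ 0)
    (hZ : mzj_st_ZData W p) (L0 : Nonempty (mzj_Lvl W p 0)) :
    ∀ n : ℕ, Nonempty (mzj_Lvl W p n) := by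
  intro n
  induction n with
  | zero => exact L0
  | succ n ih =>
    obtain ⟨L⟩ := ih
    exact mzj_st_step hS15 hQuot hTw hChi hS14 hp17 hΔW hZ L

/-- **[MZ-J], generic form**: a model over `ℤ`, semistable at every prime, multiplicative at `2`,
with full rational `2`-torsion, has no cofixed line of order `p ≥ 17` (given S15 and the seams). -/
theorem mzj_st_main (hS15 : mzj_S15_stmt) (hQuot : mzj_Quot_stmt) (hTw : mzj_Tw_stmt)
    (hChi : mzj_ChiRam_stmt) (hS14 : mzj_S14App_stmt) (hAtP : mzj_AtP_stmt)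
    (hCy : mzj_Cyclo_stmt) (hEnd : mzj_End_stmt)
    (hp17 : 17 ≤ p) (hΔW : W.Δ ≠ 0) (h2Δ : (2 : ℤ) ∣ W.Δ) (hc4 : ¬ (2 : ℤ) ∣ W.c₄)
    (hss : ∀ ℓ : ℕ, ℓ.Prime → mzj_SS W ℓ) (htwo : mzj_TwoRat W)
    (N : AddSubgroup (s58_E W)) (hNcard : Nat.card N = p) (hNst : mzj_Stable N)
    (hNcof : ∀ (σ : s58_G) (x : s58_E W), p • x = 0 → σ • x - x ∈ N) : False := by
  classical
  have hp : p.Prime := Fact.out
  have hp2 : p ≠ 2 := by omega
  have hNchi := hCy W hΔW h2Δ hc4 p (by omega) N hNcard hNst hNcof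
  have hA := fun (A : ValuationSubring s58_Qb) (hA : A.LiesOverPrime p) (n : ℕ) =>
    hAtP W hΔW htwo p (by omega) (hss p hp) N hNcard hNst hNcof hNchi A hA n
  have hZ : mzj_st_ZData W p := by
    intro A hA' n
    obtain ⟨Z, h1, h2, h3, -, h5⟩ := hA A hA' n
    exact ⟨Z, h1, h2, h3, h5⟩
  have hZ1 : ∀ A : ValuationSubring s58_Qb, A.LiesOverPrime p →
      ∀ x, x ∈ N ↔ (p • x = 0 ∧ InKerRed A x) := by
    intro A hA' x
    obtain ⟨Z, h1, h2, -, h4, -⟩ := hA A hA' 1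
    have hZN : Z ≤ N := by
      intro z hz
      have := (h1 z).mp hz
      rw [pow_one] at this
      exact h4 z hz this.1
    have hfin : Finite N := Nat.finite_of_card_ne_zero (by rw [hNcard]; exact hp.ne_zero)
    have hZeq : Z = N := by
      refine AddSubgroup.eq_of_le_of_card_ge hZN ?_
      rw [h2, hNcard, pow_one]
    rw [← hZeq, h1, pow_one]
  have L0 := mzj_st_base hΔW htwo hc4 (fun ℓ hℓ _ _ => hss ℓ hℓ) N hNcard hNst hNcof hNchi hZ1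
  have hL := mzj_st_chain hS15 hQuot hTw hChi hS14 hp17 hΔW hZ L0
  refine hEnd W hΔW hp hp2 fun n => ?_
  obtain ⟨L⟩ := hL n
  obtain ⟨A, hA'⟩ := g1_exists_liesOver p hp
  obtain ⟨Z, h1, h2, -, -⟩ := hZ A hA' n
  refine ⟨L.ψ.ker, ?_, ?_⟩
  · rw [← h2]
    refine Nat.card_congr (Equiv.subtypeEquivRight fun x => ?_)
    rw [AddMonoidHom.mem_ker, L.kerZ A hA' x, h1]
  · intro σ x hx
    rw [AddMonoidHom.mem_ker, map_sub, L.equiv, L.R_fixed x hx σ, sub_self]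

end main

end Fermat.Agent.MZ
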