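/-
MAZUR project, node **[MZ-J]** (S12 from S15), cell [J-TOP] (helper21).  Prefix `mzj_top_`.

The Frey curve as an integral model: `P.freyCurveInt.map = P.freyCurve`, `Δ ≠ 0`, `2 ∣ Δ`, `c₄` odd,
semistable at every prime, all `2`-torsion rational; unpacking of `HasGaloisStableCofixedLine`;
`mzj_top_S12`: the frozen statement S12 from S15 and the seams of [MZ-J].
-/
import Mathlib
import Fermat.Agent.MZ.J.Step
import Fermat.Prelude.Def_FLTPrelim_CofixedLine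
import Fermat.Agent.S05.FreyLocal
import Fermat.Agent.S13.Ladder.Torsion

set_option autoImplicit false

namespace Fermat.Agent.MZ

open WeierstrassCurve WeierstrassCurve.Affine WeierstrassCurve.Affine.Point
open Fermat.Agent.S58 Fermat.Agent.S05 Fermat.Agent.S13

/-! ### arithmetic of a Frey package -/

section arith

variable (P : FreyPackage)

theorem mzj_top_b_even : (2 : ℤ) ∣ P.b := (ZMod.intCast_zmod_eq_zero_iff_dvd P.b 2).1 P.hb2

theorem mzj_top_32_dvd : (32 : ℤ) ∣ P.b ^ P.p := by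
  obtain ⟨k, hk⟩ := mzj_top_b_even P
  have h5 := P.hp5
  obtain ⟨m, hm⟩ : ∃ m, P.p = 5 + m := ⟨P.p - 5, by omega⟩
  rw [hk, hm, mul_pow, pow_add]
  exact ⟨2 ^ m * k ^ (5 + m), by ring⟩

theorem mzj_top_a_pow : (4 : ℤ) ∣ P.a ^ P.p + 1 := by
  have h1 : ((P.a ^ P.p + 1 : ℤ) : ZMod 4) = 0 := by
    push_cast
    rw [P.ha4]
    obtain ⟨k, hk⟩ := P.hp_odd
    rw [hk, pow_succ, pow_mul]
    have : (3 : ZMod 4) ^ 2 = 1 := by decide
    rw [this, one_pow]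
    decide
  exact (ZMod.intCast_zmod_eq_zero_iff_dvd _ 4).1 h1

theorem mzj_top_four_dvd : (4 : ℤ) ∣ P.b ^ P.p - 1 - P.a ^ P.p := by
  have h1 : (4 : ℤ) ∣ P.b ^ P.p := Dvd.dvd.trans (by norm_num) (mzj_top_32_dvd P)
  have h2 := mzj_top_a_pow P
  have : P.b ^ P.p - 1 - P.a ^ P.p = P.b ^ P.p - (P.a ^ P.p + 1) := by ring
  rw [this]
  exact dvd_sub h1 h2

theorem mzj_top_sixteen_dvd : (16 : ℤ) ∣ -(P.a ^ P.p) * (P.b ^ P.p) := by
  have h1 : (16 : ℤ) ∣ P.b ^ P.p := Dvd.dvd.trans (by norm_num) (mzj_top_32_dvd P)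
  exact Dvd.dvd.mul_left h1 _

theorem mzj_top_a_odd : ¬ (2 : ℤ) ∣ P.a := by
  intro h
  have h1 : (2 : ℤ) ∣ P.a ^ P.p := Dvd.dvd.trans h (dvd_pow_self _ P.hp0)
  have h2 : (2 : ℤ) ∣ P.a ^ P.p + 1 := Dvd.dvd.trans (by norm_num) (mzj_top_a_pow P)
  have h3 : (2 : ℤ) ∣ 1 := (Int.dvd_add_right h1).mp h2
  norm_num at h3

/-- `4 a₂ = b^p - 1 - a^p` -/
theorem mzj_top_a₂ : 4 * P.freyCurveInt.a₂ = P.b ^ P.p - 1 - P.a ^ P.p :=
  Int.mul_ediv_cancel' (mzj_top_four_dvd P)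

/-- `16 a₄ = -a^p b^p` -/
theorem mzj_top_a₄ : 16 * P.freyCurveInt.a₄ = -(P.a ^ P.p) * (P.b ^ P.p) :=
  Int.mul_ediv_cancel' (mzj_top_sixteen_dvd P)

theorem mzj_top_map : P.freyCurveInt.map (Int.castRingHom ℚ) = P.freyCurve := by
  have h2 := mzj_top_a₂ P
  have h4 := mzj_top_a₄ P
  ext
  · simp [FreyPackage.freyCurveInt, FreyPackage.freyCurve]
  · show ((P.freyCurveInt.a₂ : ℤ) : ℚ) = (P.b ^ P.p - 1 - P.a ^ P.p) / 4
    rw [eq_div_iff (by norm_num : (4 : ℚ) ≠ 0), mul_comm]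
    exact_mod_cast h2
  · simp [FreyPackage.freyCurveInt, FreyPackage.freyCurve]
  · show ((P.freyCurveInt.a₄ : ℤ) : ℚ) = -(P.a ^ P.p) * (P.b ^ P.p) / 16
    rw [eq_div_iff (by norm_num : (16 : ℚ) ≠ 0), mul_comm]
    exact_mod_cast h4
  · simp [FreyPackage.freyCurveInt, FreyPackage.freyCurve]

theorem mzj_top_b₂ : P.freyCurveInt.b₂ = P.b ^ P.p - P.a ^ P.p := by
  have h2 := mzj_top_a₂ P
  have h1 : P.freyCurveInt.a₁ = 1 := rfl
  rw [WeierstrassCurve.b₂, h1]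
  linear_combination h2

/-- `Δ = a₄² (c^p)²` -/
theorem mzj_top_Δ : P.freyCurveInt.Δ = P.freyCurveInt.a₄ ^ 2 * (P.c ^ P.p) ^ 2 := by
  have h2 := mzj_top_a₂ P
  have h4 := mzj_top_a₄ P
  have h1 : P.freyCurveInt.a₁ = 1 := rfl
  have h3 : P.freyCurveInt.a₃ = 0 := rfl
  have h6 : P.freyCurveInt.a₆ = 0 := rfl
  rw [← P.hFLT]
  simp only [WeierstrassCurve.Δ, WeierstrassCurve.b₂, WeierstrassCurve.b₄, WeierstrassCurve.b₆,
    WeierstrassCurve.b₈, h1, h3, h6]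
  linear_combination (P.freyCurveInt.a₄ ^ 2 * (1 + 4 * P.freyCurveInt.a₂ + P.b ^ P.p
    - P.a ^ P.p)) * h2 - 4 * P.freyCurveInt.a₄ ^ 2 * h4

/-- `c₄ = (b^p - a^p)² - 48 a₄` -/
theorem mzj_top_c₄ : P.freyCurveInt.c₄ = (P.b ^ P.p - P.a ^ P.p) ^ 2 - 48 * P.freyCurveInt.a₄ := by
  have h1 : P.freyCurveInt.a₁ = 1 := rfl
  have h3 : P.freyCurveInt.a₃ = 0 := rfl
  rw [WeierstrassCurve.c₄, mzj_top_b₂, WeierstrassCurve.b₄, h1, h3]
  ring

theorem mzj_top_Δ_ne : P.freyCurveInt.Δ ≠ 0 := by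
  rw [mzj_top_Δ]
  have h4 := mzj_top_a₄ P
  have ha4 : P.freyCurveInt.a₄ ≠ 0 := by
    intro h
    rw [h, mul_zero] at h4
    have : P.a ^ P.p * P.b ^ P.p = 0 := by linarith
    rcases mul_eq_zero.mp this with h | h
    · exact P.ha0 (pow_eq_zero_iff P.hp0 |>.mp h)
    · exact P.hb0 (pow_eq_zero_iff P.hp0 |>.mp h)
  exact mul_ne_zero (pow_ne_zero _ ha4) (pow_ne_zero _ (pow_ne_zero _ P.hc0))

theorem mzj_top_a₄_even : (2 : ℤ) ∣ P.freyCurveInt.a₄ := by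
  have h4 := mzj_top_a₄ P
  obtain ⟨k, hk⟩ := mzj_top_32_dvd P
  refine ⟨-(P.a ^ P.p) * k, ?_⟩
  have : 16 * P.freyCurveInt.a₄ = 16 * (2 * (-(P.a ^ P.p) * k)) := by rw [h4, hk]; ring
  exact mul_left_cancel₀ (by norm_num) this

theorem mzj_top_two_dvd_Δ : (2 : ℤ) ∣ P.freyCurveInt.Δ := by
  rw [mzj_top_Δ]
  exact Dvd.dvd.mul_right (Dvd.dvd.trans (mzj_top_a₄_even P) (dvd_pow_self _ two_ne_zero)) _

theorem mzj_top_c₄_odd : ¬ (2 : ℤ) ∣ P.freyCurveInt.c₄ := by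
  rw [mzj_top_c₄]
  intro h
  have h1 : (2 : ℤ) ∣ 48 * P.freyCurveInt.a₄ := Dvd.dvd.mul_right (by norm_num) _
  have h2 : (2 : ℤ) ∣ (P.b ^ P.p - P.a ^ P.p) ^ 2 := by
    have := dvd_add h h1
    simpa using this
  have h3 : (2 : ℤ) ∣ P.b ^ P.p - P.a ^ P.p := Int.prime_two.dvd_of_dvd_pow h2
  have h4 : (2 : ℤ) ∣ P.b ^ P.p := Dvd.dvd.trans (by norm_num) (mzj_top_32_dvd P)
  have h5 : (2 : ℤ) ∣ P.a ^ P.p := by
    have := dvd_sub h4 h3
    simpa using this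
  exact mzj_top_a_odd P (Int.prime_two.dvd_of_dvd_pow h5)

/-- a prime dividing `a^p` and `b^p` does not exist -/
theorem mzj_top_coprime {ℓ : ℕ} (hℓ : ℓ.Prime) (h1 : (ℓ : ℤ) ∣ P.a ^ P.p)
    (h2 : (ℓ : ℤ) ∣ P.b ^ P.p) : False := by
  have hℓ' : Prime (ℓ : ℤ) := Nat.prime_iff_prime_int.mp hℓ
  have ha : (ℓ : ℤ) ∣ P.a := hℓ'.dvd_of_dvd_pow h1
  have hb : (ℓ : ℤ) ∣ P.b := hℓ'.dvd_of_dvd_pow h2
  have h3 : (ℓ : ℤ) ∣ gcd P.a P.b := dvd_gcd ha hb
  rw [P.hgcdab] at h3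
  exact hℓ'.not_dvd_one h3

theorem mzj_top_ss {ℓ : ℕ} (hℓ : ℓ.Prime) : mzj_SS P.freyCurveInt ℓ := by
  have hℓ' : Prime (ℓ : ℤ) := Nat.prime_iff_prime_int.mp hℓ
  by_cases hΔ : (ℓ : ℤ) ∣ P.freyCurveInt.Δ
  · right
    intro hc
    rw [mzj_top_c₄] at hc
    rw [mzj_top_Δ] at hΔ
    have h4 := mzj_top_a₄ P
    rcases hℓ'.dvd_or_dvd hΔ with h | h
    · -- `ℓ ∣ a₄`, hence `ℓ ∣ a^p b^p`
      have ha4 : (ℓ : ℤ) ∣ P.freyCurveInt.a₄ := hℓ'.dvd_of_dvd_pow h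
      have hab : (ℓ : ℤ) ∣ P.a ^ P.p * P.b ^ P.p := by
        have : P.a ^ P.p * P.b ^ P.p = -(16 * P.freyCurveInt.a₄) := by rw [h4]; ring
        rw [this]
        exact (Dvd.dvd.mul_left ha4 16).neg_right
      have hsq : (ℓ : ℤ) ∣ (P.b ^ P.p - P.a ^ P.p) ^ 2 := by
        have h48 : (ℓ : ℤ) ∣ 48 * P.freyCurveInt.a₄ := Dvd.dvd.mul_left ha4 48
        have := dvd_add hc h48
        simpa using this
      have hd : (ℓ : ℤ) ∣ P.b ^ P.p - P.a ^ P.p := hℓ'.dvd_of_dvd_pow hsq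
      rcases hℓ'.dvd_or_dvd hab with ha | hb
      · have hb : (ℓ : ℤ) ∣ P.b ^ P.p := by
          have := dvd_add hd ha
          simpa using this
        exact mzj_top_coprime P hℓ ha hb
      · have ha : (ℓ : ℤ) ∣ P.a ^ P.p := by
          have := dvd_sub hb hd
          simpa using this
        exact mzj_top_coprime P hℓ ha hb
    · -- `ℓ ∣ c^p = a^p + b^p`
      have hc' : (ℓ : ℤ) ∣ P.c ^ P.p := hℓ'.dvd_of_dvd_pow h
      rw [← P.hFLT] at hc'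
      -- `16 c₄ = 16 (a^p + b^p)² - 16 a^p b^p·...`
      have h16 : 16 * ((P.b ^ P.p - P.a ^ P.p) ^ 2 - 48 * P.freyCurveInt.a₄)
          = 16 * (P.a ^ P.p + P.b ^ P.p) ^ 2 - 16 * (P.a ^ P.p * P.b ^ P.p) := by
        linear_combination (-48 : ℤ) * h4
      have h5 : (ℓ : ℤ) ∣ 16 * (P.a ^ P.p * P.b ^ P.p) := by
        have h6 : (ℓ : ℤ) ∣ 16 * (P.a ^ P.p + P.b ^ P.p) ^ 2 :=
          Dvd.dvd.mul_left (Dvd.dvd.trans hc' (dvd_pow_self _ two_ne_zero)) 16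
        have h7 : (ℓ : ℤ) ∣ 16 * ((P.b ^ P.p - P.a ^ P.p) ^ 2 - 48 * P.freyCurveInt.a₄) :=
          Dvd.dvd.mul_left hc 16
        rw [h16] at h7
        have := dvd_sub h6 h7
        simpa using this
      by_cases hℓ2 : ℓ = 2
      · subst hℓ2
        -- `2 ∣ a^p + b^p` with `b` even forces `a` even
        have hb : (2 : ℤ) ∣ P.b ^ P.p := Dvd.dvd.trans (by norm_num) (mzj_top_32_dvd P)
        have ha : (2 : ℤ) ∣ P.a ^ P.p := by
          have := dvd_sub (by exact_mod_cast hc' : (2 : ℤ) ∣ P.a ^ P.p + P.b ^ P.p) hb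
          simpa using this
        exact mzj_top_a_odd P (Int.prime_two.dvd_of_dvd_pow ha)
      · have h16' : ¬ (ℓ : ℤ) ∣ 16 := by
          intro h
          have h1 : (ℓ : ℤ) ∣ 2 ^ 4 := by norm_num; exact h
          have h2 : (ℓ : ℤ) ∣ 2 := hℓ'.dvd_of_dvd_pow h1
          have h3 : ℓ ∣ 2 := by exact_mod_cast h2
          exact hℓ2 ((Nat.prime_dvd_prime_iff_eq hℓ Nat.prime_two).mp h3)
        have hab : (ℓ : ℤ) ∣ P.a ^ P.p * P.b ^ P.p :=
          (hℓ'.dvd_or_dvd h5).resolve_left h16'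
        rcases hℓ'.dvd_or_dvd hab with ha | hb
        · have hb : (ℓ : ℤ) ∣ P.b ^ P.p := by
            have := dvd_sub hc' ha
            simpa using this
          exact mzj_top_coprime P hℓ ha hb
        · have ha : (ℓ : ℤ) ∣ P.a ^ P.p := by
            have := dvd_sub hc' hb
            simpa using this
          exact mzj_top_coprime P hℓ ha hb
  · left; exact hΔ

end arith

/-! ### the `2`-torsion of the Frey curve is rational -/

section tworat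

local notation "Qb" => AlgebraicClosure ℚ

theorem mzj_top_tworat (P : FreyPackage) (T : (P.freyCurve⁄Qb).Point) (hT : 2 • T = 0)
    (σ : Qb ≃ₐ[ℚ] Qb) : σ • T = T := by
  rcases T with _ | ⟨x, y, h⟩
  · exact ga_smul_zero σ
  · -- `T = -T`
    have h1 : (Point.some x y h : (P.freyCurve⁄Qb).Point) = -Point.some x y h := by
      rw [two_nsmul] at hT
      exact eq_neg_of_add_eq_zero_left hT
    rw [Point.neg_some] at h1
    have h2 : y = (P.freyCurve⁄Qb).toAffine.negY x y := (Point.some.inj h1).2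
    rw [Affine.negY, freyL_a₁, freyL_a₃] at h2
    have h3 : 2 * y + x = 0 := by linear_combination h2
    have h4 := (freyL_equation_iff P x y).mp h.1
    rw [h3] at h4
    have h5 : psi2Sq (P.freyCurve⁄Qb) x = 4 * x * (x - algebraMap ℚ Qb (fA P / 4))
        * (x - algebraMap ℚ Qb (-(fB P) / 4)) := by
      rw [psi2Sq, freyL_b₂, freyL_b₄, freyL_b₆, freyCurve_b₂, freyCurve_b₄]
      simp only [map_sub, map_div₀, map_neg, map_mul, map_ofNat]
      ring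
    rw [h5] at h4
    have h6 : x = 0 ∨ x = algebraMap ℚ Qb (fA P / 4) ∨ x = algebraMap ℚ Qb (-(fB P) / 4) := by
      have h7 : 4 * x * (x - algebraMap ℚ Qb (fA P / 4))
          * (x - algebraMap ℚ Qb (-(fB P) / 4)) = 0 := by
        rw [← h4]; ring
      rcases mul_eq_zero.mp h7 with h8 | h8
      · rcases mul_eq_zero.mp h8 with h9 | h9
        · rcases mul_eq_zero.mp h9 with h10 | h10
          · norm_num at h10
          · exact Or.inl h10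
        · exact Or.inr (Or.inl (sub_eq_zero.mp h9))
      · exact Or.inr (Or.inr (sub_eq_zero.mp h8))
    have hx : x ∈ Set.range (algebraMap ℚ Qb) := by
      rcases h6 with h | h | h
      · exact ⟨0, by rw [h, _root_.map_zero]⟩
      · exact ⟨_, h.symm⟩
      · exact ⟨_, h.symm⟩
    have hy : y ∈ Set.range (algebraMap ℚ Qb) := by
      obtain ⟨r, hr⟩ := hx
      refine ⟨-r / 2, ?_⟩
      rw [map_div₀, map_neg, map_ofNat, hr]
      have : (2 : Qb) ≠ 0 := two_ne_zero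
      field_simp
      linear_combination -h3
    exact ga_smul_some_of_mem_range σ h hx hy

end tworat

/-! ### S12 from S15 -/

section final

local notation "Qb" => AlgebraicClosure ℚ

/-- the generic statement with a cofixed line in the Prelude's vocabulary -/
theorem mzj_top_core (hS15 : mzj_S15_stmt) (hQuot : mzj_Quot_stmt) (hTw : mzj_Tw_stmt)
    (hChi : mzj_ChiRam_stmt) (hS14 : mzj_S14App_stmt) (hAtP : mzj_AtP_stmt)
    (hCy : mzj_Cyclo_stmt) (hEnd : mzj_End_stmt)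
    (W : WeierstrassCurve ℤ) (E : WeierstrassCurve ℚ) (hE : W.map (Int.castRingHom ℚ) = E)
    {p : ℕ} [Fact p.Prime] (hp17 : 17 ≤ p) (hΔW : W.Δ ≠ 0) (h2Δ : (2 : ℤ) ∣ W.Δ)
    (hc4 : ¬ (2 : ℤ) ∣ W.c₄) (hss : ∀ ℓ : ℕ, ℓ.Prime → mzj_SS W ℓ)
    (htwo : ∀ T : (E⁄Qb).Point, 2 • T = 0 → ∀ σ : Qb ≃ₐ[ℚ] Qb, σ • T = T)
    (h : HasGaloisStableCofixedLine (K := Qb) ℚ E p) : False := by
  classical
  subst hE
  have hp : p.Prime := Fact.out
  have hp2 : p ≠ 2 := by omega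
  obtain ⟨N, hNst, hN0, hN1, hNcof⟩ := h
  -- the subgroup of `W(ℚ̄)`
  let V := Submodule.torsionBy ℤ (s58_E W) p
  let N' : AddSubgroup (s58_E W) := N.toAddSubgroup.map V.subtype.toAddMonoidHom
  have hmemN' : ∀ x : s58_E W, x ∈ N' ↔ ∃ hx : x ∈ V, (⟨x, hx⟩ : V) ∈ N := by
    intro x
    constructor
    · rintro ⟨v, hv, rfl⟩
      exact ⟨v.2, hv⟩
    · rintro ⟨hx, hv⟩
      exact ⟨⟨x, hx⟩, hv, rfl⟩
  have hmemV : ∀ x : s58_E W, x ∈ V ↔ p • x = 0 := by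
    intro x
    rw [Submodule.mem_torsionBy_iff, natCast_zsmul]
  -- cardinalities
  have hΔ' : ((s58_WQ W)⁄s58_Qb).Δ ≠ 0 := by
    rw [s58m_curve_Δ]
    exact_mod_cast hΔW
  have hcV : Nat.card V = p ^ 2 := ld_natCard_torsionBy (s58_WQ W) hΔ' (hp.odd_of_ne_two hp2)
  have hfV : Finite V := Nat.finite_of_card_ne_zero (by rw [hcV]; exact pow_ne_zero _ hp.ne_zero)
  have hcN : Nat.card N.toAddSubgroup = p := by
    have hdvd : Nat.card N.toAddSubgroup ∣ p ^ 2 := hcV ▸ AddSubgroup.card_addSubgroup_dvd_card _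
    obtain ⟨k, hk, hkeq⟩ := (Nat.dvd_prime_pow hp).mp hdvd
    interval_cases k
    · exfalso
      apply hN0
      have : N.toAddSubgroup = ⊥ := AddSubgroup.card_eq_one.mp (by rw [hkeq, pow_zero])
      rw [eq_bot_iff]
      intro x hx
      have : x ∈ N.toAddSubgroup := hx
      rw [‹N.toAddSubgroup = ⊥›, AddSubgroup.mem_bot] at this
      exact (Submodule.mem_bot _).mpr this
    · rw [hkeq, pow_one]
    · exfalso
      apply hN1
      have : N.toAddSubgroup = ⊤ :=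
        AddSubgroup.card_eq_iff_eq_top _ |>.mp (by rw [hkeq, hcV])
      rw [eq_top_iff]
      intro x _
      have : x ∈ N.toAddSubgroup := by rw [this]; exact AddSubgroup.mem_top x
      exact this
  have hcN' : Nat.card N' = p := by
    rw [← hcN]
    exact Nat.card_congr (Equiv.symm (AddSubgroup.equivMapOfInjective _ _
      (Subtype.val_injective)).toEquiv)
  refine mzj_st_main hS15 hQuot hTw hChi hS14 hAtP hCy hEnd hp17 hΔW h2Δ hc4 hss htwo N' hcN'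
    ?_ ?_
  · intro σ x hx
    obtain ⟨hxV, hxN⟩ := (hmemN' x).mp hx
    exact (hmemN' _).mpr ⟨smul_mem_torsionBy σ hxV, hNst σ ⟨x, hxV⟩ hxN⟩
  · intro σ x hx
    have hxV : x ∈ V := (hmemV x).mpr hx
    have := hNcof σ ⟨x, hxV⟩
    exact (hmemN' _).mpr ⟨V.sub_mem (smul_mem_torsionBy σ hxV) hxV, this⟩

/-- **S12 from S15** (and the seams of [MZ-J]). -/
theorem mzj_top_S12 (hS15 : mzj_S15_stmt) (hQuot : mzj_Quot_stmt) (hTw : mzj_Tw_stmt)
    (hChi : mzj_ChiRam_stmt) (hS14 : mzj_S14App_stmt) (hAtP : mzj_AtP_stmt)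
    (hCy : mzj_Cyclo_stmt) (hEnd : mzj_End_stmt)
    (P : FreyPackage) (hp : 17 ≤ P.p) :
    ¬ HasGaloisStableCofixedLine (K := AlgebraicClosure ℚ) ℚ P.freyCurve P.p := by
  intro h
  have : Fact P.p.Prime := ⟨P.pp⟩
  exact mzj_top_core hS15 hQuot hTw hChi hS14 hAtP hCy hEnd P.freyCurveInt P.freyCurve
    (mzj_top_map P) hp (mzj_top_Δ_ne P) (mzj_top_two_dvd_Δ P) (mzj_top_c₄_odd P)
    (fun ℓ hℓ => mzj_top_ss P hℓ) (mzj_top_tworat P) h

end final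

end Fermat.Agent.MZ
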